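/-
Function-field generalities for S24 (WP W3): basic facts about `AlgebraicCurve.Place`.
All names prefixed `ff_`, namespace `Fermat.Agent.Lib.FF`.
-/
import Mathlib
import Fermat.Prelude.Def_AlgebraicCurve_DivisorClassGroup

set_option autoImplicit false

noncomputable section

open IsDedekindDomain WithZero IsLocalRing AlgebraicCurve

namespace Fermat.Agent.Lib.FF

variable {K F : Type*} [Field K] [Field F] [Algebra K F]

/-- membership in the valuation ring in terms of the adic valuation -/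
theorem ff_mem_iff_adicValuation_le_one (v : Place K F) (f : F) :
    f ∈ v.toValuationSubring ↔ v.adicValuation f ≤ 1 := by
  constructor
  · intro hf
    have := v.heightOneSpectrum.valuation_le_one (K := F) (⟨f, hf⟩ : v.toValuationSubring)
    simpa [Place.adicValuation] using this
  · intro h
    obtain ⟨a, ha⟩ := IsDiscreteValuationRing.exists_lift_of_le_one
      (A := v.toValuationSubring) (K := F) h
    rw [← ha]
    exact a.2

theorem ff_mem_iff_ord_nonneg (v : Place K F) {f : F} (hf : f ≠ 0) :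
    f ∈ v.toValuationSubring ↔ 0 ≤ v.ord f := by
  rw [ff_mem_iff_adicValuation_le_one, Place.ord]
  have h0 := v.adicValuation_ne_zero hf
  rw [neg_nonneg, ← WithZero.log_one, WithZero.log_le_log h0 one_ne_zero]


theorem ff_ord_eq_neg_log (v : Place K F) (f : F) : v.ord f = -(WithZero.log (v.adicValuation f)) := rfl

theorem ff_adicValuation_eq_exp (v : Place K F) {f : F} (hf : f ≠ 0) :
    v.adicValuation f = WithZero.exp (-(v.ord f)) := by
  rw [Place.ord, neg_neg, WithZero.exp_log (v.adicValuation_ne_zero hf)]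

theorem ff_ord_le_iff (v : Place K F) {f g : F} (hf : f ≠ 0) (hg : g ≠ 0) :
    v.ord f ≤ v.ord g ↔ v.adicValuation g ≤ v.adicValuation f := by
  rw [ff_adicValuation_eq_exp v hf, ff_adicValuation_eq_exp v hg, WithZero.exp_le_exp]
  omega

theorem ff_ord_add_ge (v : Place K F) {f g : F} (hf : f ≠ 0) (hg : g ≠ 0) (hfg : f + g ≠ 0) :
    min (v.ord f) (v.ord g) ≤ v.ord (f + g) := by
  have h := v.adicValuation.map_add f g
  rcases le_max_iff.mp h with h | h
  · exact (min_le_left _ _).trans ((ff_ord_le_iff v hf hfg).mpr h)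
  · exact (min_le_right _ _).trans ((ff_ord_le_iff v hg hfg).mpr h)

theorem ff_ord_algebraMap (v : Place K F) (a : K) : v.ord (algebraMap K F a) = 0 := by
  rcases eq_or_ne a 0 with rfl | ha
  · simp
  have h1 : algebraMap K F a ≠ 0 := by simpa using ha
  have h2 := (ff_mem_iff_ord_nonneg v h1).mp (v.algebraMap_mem' a)
  have h3 := (ff_mem_iff_ord_nonneg v (inv_ne_zero h1)).mp (by
    rw [← map_inv₀]; exact v.algebraMap_mem' a⁻¹)
  rw [v.ord_inv] at h3
  omega


/-- a uniformizer exists -/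
theorem ff_exists_ord_eq_one (v : Place K F) : ∃ π : F, π ≠ 0 ∧ v.ord π = 1 := by
  obtain ⟨π, hπ⟩ := IsDiscreteValuationRing.exists_irreducible v.toValuationSubring
  refine ⟨(π : F), ?_, v.ord_coe_irreducible hπ⟩
  simpa [ne_eq, ZeroMemClass.coe_eq_zero] using hπ.ne_zero

/-- every nonzero element is (ord-zero element) * π ^ ord -/
theorem ff_exists_eq_mul_zpow (v : Place K F) {π : F} (hπ0 : π ≠ 0) (hπ : v.ord π = 1)
    {f : F} (hf : f ≠ 0) : ∃ u : F, u ≠ 0 ∧ v.ord u = 0 ∧ f = u * π ^ (v.ord f) := by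
  refine ⟨f * (π ^ (v.ord f))⁻¹, mul_ne_zero hf (inv_ne_zero (zpow_ne_zero _ hπ0)), ?_, ?_⟩
  · rw [v.ord_mul hf (inv_ne_zero (zpow_ne_zero _ hπ0)), v.ord_inv, v.ord_zpow, hπ]; ring
  · rw [mul_assoc, inv_mul_cancel₀ (zpow_ne_zero _ hπ0), mul_one]

/-- Uniqueness of the normalised valuation (D6): an additive "order function" with the same
valuation ring is a positive multiple of `v.ord`. -/
theorem ff_ord_unique (v : Place K F) (w : F → ℤ)
    (hmul : ∀ f g : F, f ≠ 0 → g ≠ 0 → w (f * g) = w f + w g)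
    (hO : ∀ f : F, f ≠ 0 → (f ∈ v.toValuationSubring ↔ 0 ≤ w f)) :
    ∃ m : ℤ, 0 < m ∧ ∀ f : F, f ≠ 0 → w f = m * v.ord f := by
  obtain ⟨π, hπ0, hπ⟩ := ff_exists_ord_eq_one v
  have hw1 : w 1 = 0 := by
    have := hmul 1 1 one_ne_zero one_ne_zero
    rw [mul_one] at this; omega
  have hwinv : ∀ f : F, f ≠ 0 → w f⁻¹ = - w f := by
    intro f hf
    have := hmul f f⁻¹ hf (inv_ne_zero hf)
    rw [mul_inv_cancel₀ hf, hw1] at this; omega
  have hwz : ∀ n : ℤ, w (π ^ n) = n * w π := by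
    have hnat : ∀ n : ℕ, w (π ^ n) = n * w π := by
      intro n
      induction n with
      | zero => simp [hw1]
      | succ n ih =>
        rw [pow_succ, hmul _ _ (pow_ne_zero _ hπ0) hπ0, ih]; push_cast; ring
    intro n
    obtain ⟨k, rfl | rfl⟩ := n.eq_nat_or_neg
    · simpa using hnat k
    · rw [zpow_neg, hwinv _ (zpow_ne_zero _ hπ0)]; simp [hnat k]
  have hunit : ∀ u : F, u ≠ 0 → v.ord u = 0 → w u = 0 := by
    intro u hu hu0
    have h1 : 0 ≤ w u := (hO u hu).mp ((ff_mem_iff_ord_nonneg v hu).mpr hu0.ge)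
    have h2 : 0 ≤ w u⁻¹ := (hO u⁻¹ (inv_ne_zero hu)).mp
      ((ff_mem_iff_ord_nonneg v (inv_ne_zero hu)).mpr (by rw [v.ord_inv, hu0]; simp))
    rw [hwinv u hu] at h2; omega
  refine ⟨w π, ?_, ?_⟩
  · have h1 : 0 ≤ w π := (hO π hπ0).mp ((ff_mem_iff_ord_nonneg v hπ0).mpr (by omega))
    have h2 : ¬ 0 ≤ w π⁻¹ := fun h => by
      have := (ff_mem_iff_ord_nonneg v (inv_ne_zero hπ0)).mp ((hO _ (inv_ne_zero hπ0)).mpr h)
      rw [v.ord_inv, hπ] at this; omega
    rw [hwinv π hπ0] at h2; omega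
  · intro f hf
    obtain ⟨u, hu, hu0, hfu⟩ := ff_exists_eq_mul_zpow v hπ0 hπ hf
    conv_lhs => rw [hfu]
    rw [hmul _ _ hu (zpow_ne_zero _ hπ0), hunit u hu hu0, hwz]; ring

/-- DVRs are maximal: a place is determined by an inclusion of valuation rings. -/
theorem ff_place_eq_of_le {v w : Place K F}
    (h : v.toValuationSubring ≤ w.toValuationSubring) : v = w := by
  apply Place.ext
  refine le_antisymm h ?_
  intro f hf
  by_contra hfv
  have hf0 : f ≠ 0 := fun h0 => hfv (h0 ▸ v.toValuationSubring.zero_mem)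
  apply w.ne_top'
  obtain ⟨π, hπ0, hπ⟩ := ff_exists_ord_eq_one v
  have hn : v.ord f < 0 := by
    by_contra hcon
    exact hfv ((ff_mem_iff_ord_nonneg v hf0).mpr (not_lt.mp hcon))
  -- π⁻¹ ∈ O_w
  have hπw : π ∈ w.toValuationSubring := h ((ff_mem_iff_ord_nonneg v hπ0).mpr (by omega))
  have hpinv : π⁻¹ ∈ w.toValuationSubring := by
    obtain ⟨u, hu, hu0, hfu⟩ := ff_exists_eq_mul_zpow v hπ0 hπ hf0
    have huinv : u⁻¹ ∈ w.toValuationSubring :=
      h ((ff_mem_iff_ord_nonneg v (inv_ne_zero hu)).mpr (by rw [v.ord_inv, hu0]; simp))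
    obtain ⟨k, hk⟩ : ∃ k : ℕ, v.ord f = -((k : ℤ) + 1) := ⟨(-(v.ord f) - 1).toNat, by omega⟩
    have h1 : π⁻¹ ^ (k + 1) = u⁻¹ * f := by
      rw [hfu, hk, ← mul_assoc, inv_mul_cancel₀ hu, one_mul, zpow_neg, inv_pow]
      norm_cast
    have h2 : π⁻¹ = π ^ k * (u⁻¹ * f) := by
      rw [← h1, pow_succ, ← mul_assoc, ← mul_pow, mul_inv_cancel₀ hπ0, one_pow, one_mul]
    rw [h2]
    exact mul_mem (pow_mem hπw k) (mul_mem huinv hf)
  refine SetLike.ext fun g => ⟨fun _ => ValuationSubring.mem_top g, fun _ => ?_⟩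
  rcases eq_or_ne g 0 with rfl | hg
  · exact zero_mem _
  obtain ⟨u, hu, hu0, hgu⟩ := ff_exists_eq_mul_zpow v hπ0 hπ hg
  have huw : u ∈ w.toValuationSubring := h ((ff_mem_iff_ord_nonneg v hu).mpr hu0.ge)
  rw [hgu]
  refine mul_mem huw ?_
  obtain ⟨k, hk | hk⟩ := (v.ord g).eq_nat_or_neg
  · rw [hk, zpow_natCast]; exact pow_mem hπw k
  · rw [hk, zpow_neg, zpow_natCast, ← inv_pow]; exact pow_mem hpinv k

end Fermat.Agent.Lib.FF
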