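/-
Function-field generalities for S24 (WP W3): the Dedekind domain `B = integral closure of K[x]`
in `F`, and the dictionary `HeightOneSpectrum B ↔ {places of F with x integral}`.
-/
import Fermat.Agent.Lib.FF.FFBasicPlace

set_option autoImplicit false
set_option linter.style.haveILetI false
set_option linter.unusedSectionVars false

noncomputable section

open IsDedekindDomain WithZero IsLocalRing AlgebraicCurve IntermediateField Polynomial
open scoped IntermediateField.algebraAdjoinAdjoin

namespace Fermat.Agent.Lib.FF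

variable {K F : Type*} [Field K] [Field F] [Algebra K F]

section
variable (K) (x : F)

/-- `A = K[x] ⊂ F` -/
abbrev ffA : Subalgebra K F := Algebra.adjoin K {x}

/-- the generator `x` as an element of `A` -/
def ffX : ffA K x := ⟨x, Algebra.self_mem_adjoin_singleton K x⟩

/-- `B` = integral closure of `K[x]` in `F` -/
abbrev ffB : Subalgebra (ffA K x) F := integralClosure (ffA K x) F

/-- `x` is a transcendental generator: `F` is a finite extension of `K(x)`. -/
class FFGen : Prop where
  transc : Transcendental K x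
  finite : FiniteDimensional K⟮x⟯ F

variable {K x}

/-- `K[X] ≃ K[x]` for transcendental `x` -/
def ffA_equiv (hx : Transcendental K x) : K[X] ≃ₐ[K] ffA K x :=
  (AlgEquiv.ofInjective (aeval x) (transcendental_iff_injective.mp hx)).trans
    (Subalgebra.equivOfEq _ _ (Algebra.adjoin_singleton_eq_range_aeval K x).symm)

theorem ffA_equiv_apply (hx : Transcendental K x) (p : K[X]) :
    ((ffA_equiv hx p : ffA K x) : F) = aeval x p := rfl

theorem ffA_equiv_X (hx : Transcendental K x) : ffA_equiv hx X = ffX K x := by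
  apply Subtype.ext
  rw [ffA_equiv_apply, aeval_X]; rfl

instance ffA_isPrincipalIdealRing [h : FFGen K x] : IsPrincipalIdealRing (ffA K x) :=
  IsPrincipalIdealRing.of_surjective (ffA_equiv h.transc : K[X] →+* ffA K x)
    (ffA_equiv h.transc).surjective

instance ffA_isDedekindDomain [FFGen K x] : IsDedekindDomain (ffA K x) := inferInstance

instance ff_finiteDimensional [h : FFGen K x] : FiniteDimensional K⟮x⟯ F := h.finite

instance ff_isSeparable [FFGen K x] [CharZero K] : Algebra.IsSeparable K⟮x⟯ F := by
  haveI : CharZero K⟮x⟯ := charZero_of_injective_algebraMap (algebraMap K K⟮x⟯).injective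
  exact Algebra.IsAlgebraic.isSeparable_of_perfectField

instance ffB_isDedekindDomain [FFGen K x] [CharZero K] : IsDedekindDomain (ffB K x) :=
  integralClosure.isDedekindDomain (ffA K x) K⟮x⟯ F

instance ffB_isFractionRing [FFGen K x] : IsFractionRing (ffB K x) F :=
  integralClosure.isFractionRing_of_finite_extension K⟮x⟯ F

instance ffB_finite [FFGen K x] [CharZero K] : Module.Finite (ffA K x) (ffB K x) :=
  IsIntegralClosure.finite (ffA K x) K⟮x⟯ F (ffB K x)

end

section Dictionary

variable (K) (x : F) [FFGen K x] [CharZero K]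

/-- the place attached to a nonzero prime of `B` -/
def ff_placeOf (w : HeightOneSpectrum (ffB K x)) : Place K F :=
  Place.ofHeightOneSpectrum (K := K) w

variable {K x}

theorem ff_placeOf_toValuationSubring (w : HeightOneSpectrum (ffB K x)) :
    (ff_placeOf K x w).toValuationSubring = (w.valuation F).valuationSubring := rfl

theorem ff_mem_placeOf_iff (w : HeightOneSpectrum (ffB K x)) (f : F) :
    f ∈ (ff_placeOf K x w).toValuationSubring ↔ w.valuation F f ≤ 1 := Iff.rfl

theorem ff_coe_mem_placeOf (w : HeightOneSpectrum (ffB K x)) (b : ffB K x) :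
    (b : F) ∈ (ff_placeOf K x w).toValuationSubring :=
  w.valuation_le_one b

theorem ff_x_mem_placeOf (w : HeightOneSpectrum (ffB K x)) :
    x ∈ (ff_placeOf K x w).toValuationSubring := by
  have hx : x ∈ ffB K x := by
    have : IsIntegral (ffA K x) (algebraMap (ffA K x) F (ffX K x)) := isIntegral_algebraMap
    exact this
  exact ff_coe_mem_placeOf w ⟨x, hx⟩

/-- the normalised order of `ff_placeOf w` is the `w`-adic valuation -/
theorem ff_placeOf_ord (w : HeightOneSpectrum (ffB K x)) (f : F) :
    (ff_placeOf K x w).ord f = -(WithZero.log (w.valuation F f)) := by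
  rcases eq_or_ne f 0 with rfl | hf
  · simp
  set v := ff_placeOf K x w
  obtain ⟨m, hm, hmf⟩ := ff_ord_unique v (fun f => -(WithZero.log (w.valuation F f)))
    (fun f g hf hg => by
      simp only [map_mul]
      rw [WithZero.log_mul ((Valuation.ne_zero_iff _).mpr hf) ((Valuation.ne_zero_iff _).mpr hg)]
      ring)
    (fun f hf => by
      rw [ff_mem_placeOf_iff, neg_nonneg, ← WithZero.log_one,
        WithZero.log_le_log ((Valuation.ne_zero_iff _).mpr hf) one_ne_zero])
  obtain ⟨ϖ, hϖ⟩ := w.valuation_exists_uniformizer F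
  have hϖ0 : ϖ ≠ 0 := by
    rintro rfl
    rw [map_zero] at hϖ
    exact WithZero.exp_ne_zero hϖ.symm
  have h1 := hmf ϖ hϖ0
  simp only [hϖ, WithZero.log_exp, neg_neg] at h1
  have hm1 : m = 1 := by
    have hd : m ∣ 1 := ⟨v.ord ϖ, h1⟩
    exact Int.eq_one_of_dvd_one hm.le hd
  have := hmf f hf
  simp only [hm1, one_mul] at this
  exact this.symm

end Dictionary

section Dictionary2

/-- the valuation ring of a place as a `K`-subalgebra -/
def ff_placeSubalgebra (v : Place K F) : Subalgebra K F :=
  { v.toValuationSubring.toSubring with algebraMap_mem' := v.algebraMap_mem' }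

theorem ff_mem_placeSubalgebra (v : Place K F) (f : F) :
    f ∈ ff_placeSubalgebra v ↔ f ∈ v.toValuationSubring := Iff.rfl

variable {x : F}

/-- `K[x] ⊆ O_v` as soon as `x ∈ O_v` -/
theorem ff_A_mem_of_mem (v : Place K F) (hx : x ∈ v.toValuationSubring) (a : ffA K x) :
    (a : F) ∈ v.toValuationSubring := by
  have h : ffA K x ≤ ff_placeSubalgebra v :=
    Algebra.adjoin_le (Set.singleton_subset_iff.mpr hx)
  exact h a.2

/-- `B ⊆ O_v` as soon as `x ∈ O_v` (valuation rings are integrally closed) -/
theorem ff_B_mem_of_mem (v : Place K F) (hx : x ∈ v.toValuationSubring) (b : ffB K x) :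
    (b : F) ∈ v.toValuationSubring := by
  have hb : IsIntegral (ffA K x) (b : F) := b.2
  -- integral over O_v
  have hb' : IsIntegral v.toValuationSubring (b : F) := by
    obtain ⟨p, hp, hpb⟩ := hb
    let φ : ffA K x →+* v.toValuationSubring :=
      { toFun := fun a => ⟨a, ff_A_mem_of_mem v hx a⟩
        map_one' := rfl
        map_mul' := fun _ _ => rfl
        map_zero' := rfl
        map_add' := fun _ _ => rfl }
    refine ⟨p.map φ, hp.map φ, ?_⟩
    rw [Polynomial.eval₂_map]
    have : (algebraMap v.toValuationSubring F).comp φ = algebraMap (ffA K x) F := rfl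
    rw [this]; exact hpb
  obtain ⟨y, hy⟩ := (IsIntegrallyClosed.isIntegral_iff (R := v.toValuationSubring) (K := F)).mp hb'
  rw [← hy]; exact y.2

/-- the inclusion `B → O_v` -/
def ff_BtoO (v : Place K F) (hx : x ∈ v.toValuationSubring) : ffB K x →+* v.toValuationSubring where
  toFun b := ⟨b, ff_B_mem_of_mem v hx b⟩
  map_one' := rfl
  map_mul' _ _ := rfl
  map_zero' := rfl
  map_add' _ _ := rfl

@[simp] theorem ff_BtoO_coe (v : Place K F) (hx : x ∈ v.toValuationSubring) (b : ffB K x) :
    ((ff_BtoO v hx b : v.toValuationSubring) : F) = b := rfl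

variable [FFGen K x] [CharZero K]

theorem ff_placeOf_injective : Function.Injective (ff_placeOf K x) := by
  intro w w' h
  apply HeightOneSpectrum.eq_of_valuation_isEquiv_valuation (K := F)
  rw [Valuation.isEquiv_iff_val_le_one]
  intro f
  have := congrArg Place.toValuationSubring h
  rw [← ff_mem_placeOf_iff, ← ff_mem_placeOf_iff, this]

/-- the prime of `B` cut out by a place at which `x` is integral -/
def ff_primeOf (v : Place K F) (hx : x ∈ v.toValuationSubring) : HeightOneSpectrum (ffB K x) where
  asIdeal := (IsLocalRing.maximalIdeal v.toValuationSubring).comap (ff_BtoO v hx)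
  isPrime := Ideal.comap_isPrime _ _
  ne_bot := by
    intro hbot
    apply v.ne_top'
    refine SetLike.ext fun f => ⟨fun _ => ValuationSubring.mem_top f, fun _ => ?_⟩
    obtain ⟨b, s, hs, rfl⟩ := IsFractionRing.div_surjective (A := ffB K x) f
    have hs0 : s ≠ 0 := nonZeroDivisors.ne_zero hs
    have hsu : IsUnit (ff_BtoO v hx s) := by
      by_contra hnu
      have : s ∈ (IsLocalRing.maximalIdeal v.toValuationSubring).comap (ff_BtoO v hx) := by
        rw [Ideal.mem_comap, IsLocalRing.mem_maximalIdeal]; exact hnu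
      rw [hbot, Ideal.mem_bot] at this
      exact hs0 this
    obtain ⟨u, hu⟩ := hsu
    have h1 : (algebraMap (ffB K x) F s)⁻¹ = ((u⁻¹ : (v.toValuationSubring)ˣ) : v.toValuationSubring) := by
      have h2 : ((u : v.toValuationSubring) : F) = algebraMap (ffB K x) F s := by
        rw [hu]; rfl
      rw [← h2]
      have h3 : ((u : v.toValuationSubring) : F) * ((u⁻¹ : (v.toValuationSubring)ˣ) : v.toValuationSubring) = 1 := by
        have h4 : (u : v.toValuationSubring) * ((u⁻¹ : (v.toValuationSubring)ˣ) : v.toValuationSubring) = 1 := u.mul_inv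
        have := congrArg (Subtype.val) h4
        exact this
      exact inv_eq_of_mul_eq_one_right h3
    rw [div_eq_mul_inv, h1]
    exact mul_mem (ff_B_mem_of_mem v hx b) (Subtype.mem _)


omit [FFGen K x] [CharZero K] in
/-- inverse of a unit of `O_v` lies in `O_v` -/
theorem ff_inv_mem_of_isUnit (v : Place K F) {a : v.toValuationSubring} (ha : IsUnit a) :
    ((a : F))⁻¹ ∈ v.toValuationSubring := by
  obtain ⟨u, rfl⟩ := ha
  have h4 : (u : v.toValuationSubring) * ((u⁻¹ : (v.toValuationSubring)ˣ) : v.toValuationSubring) = 1 :=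
    u.mul_inv
  have h3 : ((u : v.toValuationSubring) : F) * ((u⁻¹ : (v.toValuationSubring)ˣ) : v.toValuationSubring) = 1 :=
    congrArg (Subtype.val) h4
  rw [inv_eq_of_mul_eq_one_right h3]
  exact Subtype.mem _

theorem ff_placeOf_primeOf (v : Place K F) (hx : x ∈ v.toValuationSubring) :
    ff_placeOf K x (ff_primeOf v hx) = v := by
  apply ff_place_eq_of_le
  intro f hf
  rw [ff_mem_placeOf_iff] at hf
  obtain ⟨n, d, hnd⟩ := (ff_primeOf v hx).exists_primeCompl_mul_eq_of_integer f hf
  have hd : IsUnit (ff_BtoO v hx d) := by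
    by_contra hnu
    apply d.2
    show (d : ffB K x) ∈ (IsLocalRing.maximalIdeal v.toValuationSubring).comap (ff_BtoO v hx)
    rw [Ideal.mem_comap, IsLocalRing.mem_maximalIdeal]; exact hnu
  have hd0 : algebraMap (ffB K x) F d ≠ 0 := by
    intro h0
    have : (ff_BtoO v hx d) = 0 := Subtype.ext h0
    rw [this] at hd
    exact not_isUnit_zero hd
  have : f = algebraMap (ffB K x) F n * (algebraMap (ffB K x) F d)⁻¹ := by
    rw [← hnd, mul_assoc, mul_inv_cancel₀ hd0, mul_one]
  rw [this]
  exact mul_mem (ff_B_mem_of_mem v hx n) (ff_inv_mem_of_isUnit v hd)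

theorem ff_range_placeOf :
    Set.range (ff_placeOf K x) = {v | x ∈ v.toValuationSubring} := by
  ext v
  constructor
  · rintro ⟨w, rfl⟩
    exact ff_x_mem_placeOf w
  · intro hx
    exact ⟨ff_primeOf v hx, ff_placeOf_primeOf v hx⟩


end Dictionary2

section Generators

variable {x : F}

theorem ff_isAlgebraic_adjoin [FFGen K x] : Algebra.IsAlgebraic (Algebra.adjoin K {x}) F := by
  haveI : Algebra.IsAlgebraic K⟮x⟯ F := Algebra.IsAlgebraic.of_finite _ _
  exact Algebra.IsAlgebraic.trans (Algebra.adjoin K {x}) K⟮x⟯ F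

theorem ff_essFiniteType [FFGen K x] : Algebra.EssFiniteType K F := by
  haveI : Algebra.EssFiniteType K K⟮x⟯ := by
    rw [IntermediateField.essFiniteType_iff]
    exact ⟨{x}, by simp⟩
  exact Algebra.EssFiniteType.comp K K⟮x⟯ F

/-- every transcendental element is a generator -/
theorem ff_gen_of_transcendental [FFGen K x] {f : F} (hf : Transcendental K f) : FFGen K f := by
  refine ⟨hf, ?_⟩
  haveI := ff_isAlgebraic_adjoin (K := K) (x := x)
  have htr : Algebra.trdeg K F ≤ 1 := by
    have := Algebra.IsAlgebraic.trdeg_le_cardinalMk K ({x} : Set F)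
    simpa using this
  have hind : AlgebraicIndependent K (fun _ : PUnit => f) :=
    algebraicIndependent_unique_type_iff.mpr hf
  have hb : IsTranscendenceBasis K (fun _ : PUnit => f) :=
    hind.isTranscendenceBasis_of_trdeg_le_of_finite (by simpa using htr)
  have halg := hb.isAlgebraic_field
  have hr : Set.range (fun _ : PUnit => f) = {f} := by
    ext y; simp [eq_comm]
  rw [hr] at halg
  haveI := ff_essFiniteType (K := K) (x := x)
  haveI : Algebra.EssFiniteType K⟮f⟯ F := Algebra.EssFiniteType.of_comp K K⟮f⟯ F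
  exact Algebra.finite_of_essFiniteType_of_isAlgebraic


end Generators

section Zeros

theorem ff_ord_multiset_prod (v : Place K F) (s : Multiset F) (h : ∀ f ∈ s, f ≠ 0) :
    v.ord s.prod = (s.map v.ord).sum := by
  induction s using Multiset.induction_on with
  | empty => simp
  | cons a s ih =>
    have ha : a ≠ 0 := h a (Multiset.mem_cons_self a s)
    have hs : ∀ f ∈ s, f ≠ 0 := fun f hf => h f (Multiset.mem_cons_of_mem hf)
    have hp : s.prod ≠ 0 := Multiset.prod_ne_zero (fun h0 => hs 0 h0 rfl)
    rw [Multiset.prod_cons, v.ord_mul ha hp, ih hs, Multiset.map_cons, Multiset.sum_cons]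

theorem ff_ord_pos_iff (v : Place K F) {f : F} (hf : f ≠ 0) :
    0 < v.ord f ↔ f ∈ v.toValuationSubring ∧ f⁻¹ ∉ v.toValuationSubring := by
  rw [ff_mem_iff_ord_nonneg v hf, ff_mem_iff_ord_nonneg v (inv_ne_zero hf), v.ord_inv]
  omega

variable {x : F} [FFGen K x] [CharZero K]

omit [CharZero K] in
theorem ff_sub_ne_zero (a : K) : x - algebraMap K F a ≠ 0 := by
  intro h
  have hx : Transcendental K x := FFGen.transc
  apply hx
  rw [sub_eq_zero.mp h]
  exact isAlgebraic_algebraMap a

/-- a nonzero element of `K[x]` lying in the maximal ideal of `v` -/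
theorem ff_exists_A_ord_pos (v : Place K F) (hx : x ∈ v.toValuationSubring) :
    ∃ a : ffA K x, a ≠ 0 ∧ 0 < v.ord (a : F) := by
  have hne : ((ff_primeOf v hx).asIdeal).comap (algebraMap (ffA K x) (ffB K x)) ≠ ⊥ := by
    intro h
    exact (ff_primeOf v hx).ne_bot (Ideal.eq_bot_of_comap_eq_bot h)
  obtain ⟨a, ha, ha0⟩ := Submodule.exists_mem_ne_zero_of_ne_bot hne
  refine ⟨a, ha0, ?_⟩
  have haF : (a : F) ≠ 0 := by
    simpa [ne_eq, ZeroMemClass.coe_eq_zero] using ha0
  rw [ff_ord_pos_iff v haF]
  refine ⟨ff_A_mem_of_mem v hx a, fun hinv => ?_⟩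
  rw [Ideal.mem_comap] at ha
  have hmem : ff_BtoO v hx (algebraMap (ffA K x) (ffB K x) a) ∈
      IsLocalRing.maximalIdeal v.toValuationSubring := ha
  rw [IsLocalRing.mem_maximalIdeal, mem_nonunits_iff] at hmem
  apply hmem
  refine isUnit_iff_exists_inv.mpr ⟨⟨(a : F)⁻¹, hinv⟩, ?_⟩
  apply Subtype.ext
  show (a : F) * (a : F)⁻¹ = 1
  exact mul_inv_cancel₀ haF

/-- (D3, existence) a place at which `x` is integral is a zero of `x - a` for some `a : K` -/
theorem ff_exists_ord_sub_pos [IsAlgClosed K] (v : Place K F) (hx : x ∈ v.toValuationSubring) :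
    ∃ a : K, 0 < v.ord (x - algebraMap K F a) := by
  obtain ⟨a, ha0, hapos⟩ := ff_exists_A_ord_pos v hx
  have htr : Transcendental K x := FFGen.transc
  set g : K[X] := (ffA_equiv htr).symm a with hg
  have hga : (a : F) = aeval x g := by
    rw [← ffA_equiv_apply htr g, hg, AlgEquiv.apply_symm_apply]
  have hg0 : g ≠ 0 := by
    intro h
    apply ha0
    have : a = ffA_equiv htr g := by rw [hg, AlgEquiv.apply_symm_apply]
    rw [this, h, map_zero]
  have hsplit := (IsAlgClosed.splits g).eq_prod_roots
  have hc : g.leadingCoeff ≠ 0 := leadingCoeff_ne_zero.mpr hg0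
  have hval : (a : F) = algebraMap K F g.leadingCoeff *
      (g.roots.map (fun r => x - algebraMap K F r)).prod := by
    rw [hga]
    conv_lhs => rw [hsplit]
    rw [map_mul, aeval_C, map_multiset_prod, Multiset.map_map]
    congr 2
    apply Multiset.map_congr rfl
    intro r _
    simp
  have hne : ∀ f ∈ g.roots.map (fun r => x - algebraMap K F r), f ≠ 0 := by
    intro f hf
    obtain ⟨r, _, rfl⟩ := Multiset.mem_map.mp hf
    exact ff_sub_ne_zero r
  have hp0 : (g.roots.map (fun r => x - algebraMap K F r)).prod ≠ 0 :=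
    Multiset.prod_ne_zero (fun h0 => hne 0 h0 rfl)
  rw [hval, v.ord_mul (by simpa using hc) hp0, ff_ord_algebraMap, zero_add,
    ff_ord_multiset_prod v _ hne, Multiset.map_map] at hapos
  by_contra hcon
  push Not at hcon
  have h1 := Multiset.sum_le_card_nsmul
    (Multiset.map (v.ord ∘ fun r => x - algebraMap K F r) g.roots) 0 (by
      intro y hy
      obtain ⟨r, _, rfl⟩ := Multiset.mem_map.mp hy
      exact hcon r)
  rw [smul_zero] at h1
  omega


end Zeros

end Fermat.Agent.Lib.FF
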