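/-
Function-field generalities for S24 (WP W3): residue fields of places are `K` (deg = 1),
uniqueness of the value `x(v)`, valuation rings are localisations of `B` and essentially of
finite type over `K`.
-/
import Fermat.Agent.Lib.FF.FFBasicDedekind

set_option autoImplicit false
set_option linter.style.haveILetI false
set_option linter.unusedSectionVars false

noncomputable section

open IsDedekindDomain WithZero IsLocalRing AlgebraicCurve IntermediateField Polynomial
open scoped IntermediateField.algebraAdjoinAdjoin

namespace Fermat.Agent.Lib.FF

section Unique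
variable {K F : Type*} [Field K] [Field F] [Algebra K F]

/-- (D3, uniqueness) -/
theorem ff_ord_sub_pos_unique (v : Place K F) {f : F} {a b : K}
    (ha : 0 < v.ord (f - algebraMap K F a)) (hb : 0 < v.ord (f - algebraMap K F b)) : a = b := by
  by_contra hab
  have h1 : f - algebraMap K F a ≠ 0 := fun h => by rw [h] at ha; simp at ha
  have h2 : f - algebraMap K F b ≠ 0 := fun h => by rw [h] at hb; simp at hb
  have h3 : (f - algebraMap K F a) + -(f - algebraMap K F b) = algebraMap K F (b - a) := by
    rw [map_sub]; ring
  have h4 : algebraMap K F (b - a) ≠ 0 := by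
    simpa [sub_eq_zero] using (Ne.symm hab)
  have h5 := ff_ord_add_ge v h1 (neg_ne_zero.mpr h2) (by rw [h3]; exact h4)
  rw [h3, ff_ord_algebraMap] at h5
  have h6 : v.ord (-(f - algebraMap K F b)) = v.ord (f - algebraMap K F b) := by
    rw [neg_eq_neg_one_mul, v.ord_mul (by simp) h2]
    have : v.ord (-1 : F) = 0 := by
      have := ff_ord_algebraMap v (-1 : K)
      simpa using this
    rw [this, zero_add]
  rw [h6] at h5
  have := le_min ha.le hb.le
  omega


end Unique

section Residue
variable {K F : Type*} [Field K] [Field F] [Algebra K F]

/-- algebraic elements over an algebraically closed field are constants -/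
theorem ff_mem_range_of_isAlgebraic [IsAlgClosed K] {f : F} (hf : IsAlgebraic K f) :
    ∃ a : K, algebraMap K F a = f := by
  have hint : IsIntegral K f := hf.isIntegral
  have hdeg := IsAlgClosed.degree_eq_one_of_irreducible K (minpoly.irreducible hint)
  have := minpoly.mem_range_of_degree_eq_one K f hdeg
  exact this

variable (K) (x : F) [FFGen K x] [CharZero K] [IsAlgClosed K]
include x

/-- every element of `O_v` is congruent to a constant modulo the maximal ideal -/
theorem ff_exists_const_sub_mem (v : Place K F) {f : F} (hf : f ∈ v.toValuationSubring) :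
    ∃ a : K, f = algebraMap K F a ∨ 0 < v.ord (f - algebraMap K F a) := by
  by_cases halg : IsAlgebraic K f
  · obtain ⟨a, ha⟩ := ff_mem_range_of_isAlgebraic halg
    exact ⟨a, Or.inl ha.symm⟩
  · haveI : FFGen K f := ff_gen_of_transcendental (x := x) halg
    obtain ⟨a, ha⟩ := ff_exists_ord_sub_pos v hf
    exact ⟨a, Or.inr ha⟩

/-- (D2') the residue field of every place is `K` -/
theorem ff_residue_surjective (v : Place K F) :
    Function.Surjective (algebraMap K v.ResidueField) := by
  intro y
  obtain ⟨f, rfl⟩ := IsLocalRing.residue_surjective y
  obtain ⟨a, ha | ha⟩ := ff_exists_const_sub_mem K x v f.2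
  · refine ⟨a, ?_⟩
    rw [IsScalarTower.algebraMap_apply K v.toValuationSubring v.ResidueField]
    congr 1
    apply Subtype.ext
    rw [Place.coe_algebraMap]; exact ha.symm
  · refine ⟨a, ?_⟩
    rw [IsScalarTower.algebraMap_apply K v.toValuationSubring v.ResidueField]
    symm
    rw [← sub_eq_zero]
    show IsLocalRing.residue _ f - IsLocalRing.residue _ (algebraMap K v.toValuationSubring a) = 0
    rw [← map_sub, IsLocalRing.residue_eq_zero_iff, IsLocalRing.mem_maximalIdeal, mem_nonunits_iff]
    intro hu
    have hne : ((f - algebraMap K v.toValuationSubring a : v.toValuationSubring) : F) ≠ 0 := by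
      intro h0
      have : f - algebraMap K v.toValuationSubring a = 0 := Subtype.ext h0
      rw [this] at hu
      exact not_isUnit_zero hu
    have hinv := ff_inv_mem_of_isUnit v hu
    have := (ff_ord_pos_iff v hne).mp (by
      simpa using ha)
    exact this.2 hinv

/-- (D2) every place has degree one -/
theorem ff_deg_eq_one (v : Place K F) : v.deg = 1 := by
  have hbij : Function.Bijective (algebraMap K v.ResidueField) :=
    ⟨(algebraMap K v.ResidueField).injective, ff_residue_surjective K x v⟩
  have e : K ≃ₗ[K] v.ResidueField :=
    LinearEquiv.ofBijective (Algebra.linearMap K v.ResidueField) hbij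
  rw [Place.deg, ← e.finrank_eq, Module.finrank_self]


end Residue

section Loc
variable {K F : Type*} [Field K] [Field F] [Algebra K F]
variable {x : F} [FFGen K x] [CharZero K]

instance ffA_finiteType : Algebra.FiniteType K (ffA K x) :=
  (Subalgebra.fg_iff_finiteType _).mp ⟨{x}, by rw [Finset.coe_singleton]⟩

instance ffB_finiteType : Algebra.FiniteType K (ffB K x) :=
  Algebra.FiniteType.trans (S := ffA K x) inferInstance inferInstance

/-- `O_v` as a `B`-algebra (not an instance) -/
abbrev ff_algebraBO (v : Place K F) (hx : x ∈ v.toValuationSubring) :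
    Algebra (ffB K x) v.toValuationSubring := (ff_BtoO v hx).toAlgebra

theorem ff_isLocalization (v : Place K F) (hx : x ∈ v.toValuationSubring) :
    letI := ff_algebraBO v hx
    IsLocalization (ff_primeOf v hx).asIdeal.primeCompl v.toValuationSubring := by
  letI := ff_algebraBO v hx
  rw [isLocalization_iff]
  refine ⟨?_, ?_, ?_⟩
  · intro d
    by_contra hnu
    apply d.2
    show (d : ffB K x) ∈ (IsLocalRing.maximalIdeal v.toValuationSubring).comap (ff_BtoO v hx)
    rw [Ideal.mem_comap, IsLocalRing.mem_maximalIdeal]; exact hnu
  · intro z
    have hz : (ff_primeOf v hx).valuation F (z : F) ≤ 1 := by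
      have : (z : F) ∈ (ff_placeOf K x (ff_primeOf v hx)).toValuationSubring := by
        rw [ff_placeOf_primeOf]; exact z.2
      exact this
    obtain ⟨n, d, hnd⟩ := (ff_primeOf v hx).exists_primeCompl_mul_eq_of_integer (z : F) hz
    refine ⟨(n, d), ?_⟩
    apply Subtype.ext
    exact hnd
  · intro a b hab
    refine ⟨1, ?_⟩
    have : (a : F) = b := congrArg (fun z : v.toValuationSubring => (z : F)) hab
    simp only [OneMemClass.coe_one, one_mul]
    exact Subtype.ext this

/-- (D7) the valuation ring of a place at which `x` is integral is essentially of finite type -/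
theorem ff_essFiniteType_of_mem (v : Place K F) (hx : x ∈ v.toValuationSubring) :
    Algebra.EssFiniteType K v.toValuationSubring := by
  letI := ff_algebraBO v hx
  haveI : IsScalarTower K (ffB K x) v.toValuationSubring :=
    IsScalarTower.of_algebraMap_eq (fun a => rfl)
  haveI := ff_isLocalization v hx
  haveI : Algebra.EssFiniteType (ffB K x) v.toValuationSubring :=
    Algebra.EssFiniteType.of_isLocalization _ (ff_primeOf v hx).asIdeal.primeCompl
  exact Algebra.EssFiniteType.comp K (ffB K x) v.toValuationSubring


end Loc

section Ess
variable {K F : Type*} [Field K] [Field F] [Algebra K F]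

theorem ff_transcendental_inv {x : F} (hx : Transcendental K x) : Transcendental K x⁻¹ := by
  intro h
  apply hx
  have := h.inv
  rwa [inv_inv] at this

instance ff_gen_inv {x : F} [FFGen K x] : FFGen K x⁻¹ :=
  ff_gen_of_transcendental (x := x) (ff_transcendental_inv FFGen.transc)

variable (K) (x : F) [FFGen K x] [CharZero K]
include x

/-- (D7) the valuation ring of any place is essentially of finite type over `K` -/
theorem ff_essFiniteType_place (v : Place K F) :
    Algebra.EssFiniteType K v.toValuationSubring := by
  rcases v.toValuationSubring.mem_or_inv_mem x with hx | hx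
  · exact ff_essFiniteType_of_mem v hx
  · exact ff_essFiniteType_of_mem (x := x⁻¹) v hx


end Ess

section Centre
variable {K F : Type*} [Field K] [Field F] [Algebra K F]
variable (K) (x : F) [FFGen K x] [CharZero K] [IsAlgClosed K]

/-- (D3) every place is centred at some `c : K` or at `∞` with respect to the coordinate `x` -/
theorem ff_centre (v : Place K F) :
    (∃ c : K, 0 < v.ord (x - algebraMap K F c)) ∨ v.ord x < 0 := by
  have hx0 : x ≠ 0 := by
    have := ff_sub_ne_zero (K := K) (x := x) 0
    simpa using this
  by_cases hx : x ∈ v.toValuationSubring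
  · exact Or.inl (ff_exists_ord_sub_pos v hx)
  · right
    rw [ff_mem_iff_ord_nonneg v hx0] at hx
    omega

end Centre

end Fermat.Agent.Lib.FF
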