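/-
Function-field generalities for S24 (WP B1): the fundamental identity (D4).
-/
import Fermat.Agent.Lib.FF.FFBasicResidue

set_option autoImplicit false
set_option linter.style.haveILetI false
set_option linter.unusedSectionVars false
set_option linter.deprecated false

noncomputable section

open IsDedekindDomain WithZero IsLocalRing AlgebraicCurve IntermediateField Polynomial
open scoped IntermediateField.algebraAdjoinAdjoin

namespace Fermat.Agent.Lib.FF

section PrimeX
variable {K F : Type*} [Field K] [Field F] [Algebra K F]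
variable (K) (x : F) [FFGen K x]

/-- the prime `(x)` of `K[x]` -/
def ffP : Ideal (ffA K x) := Ideal.span {ffX K x}

variable {K x}

theorem ffX_ne_zero : ffX K x ≠ 0 := by
  intro h
  have : x = 0 := congrArg Subtype.val h
  have h0 := ff_sub_ne_zero (K := K) (x := x) 0
  simp [this] at h0

theorem ffP_ne_bot : ffP K x ≠ ⊥ := by
  rw [ffP, Ne, Ideal.span_singleton_eq_bot]
  exact ffX_ne_zero

/-- every element of `K[x]` is a constant modulo `x` -/
theorem ffA_exists_const (a : ffA K x) : ∃ c : K, a - algebraMap K (ffA K x) c ∈ ffP K x := by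
  have htr : Transcendental K x := FFGen.transc
  obtain ⟨g, rfl⟩ := (ffA_equiv htr).surjective a
  refine ⟨g.coeff 0, ?_⟩
  obtain ⟨h, hh⟩ : X ∣ g - C (g.coeff 0) := by
    rw [Polynomial.X_dvd_iff]; simp
  have : ffA_equiv htr g - algebraMap K (ffA K x) (g.coeff 0) = ffX K x * ffA_equiv htr h := by
    have h1 : algebraMap K (ffA K x) (g.coeff 0) = ffA_equiv htr (C (g.coeff 0)) := by
      rw [← Polynomial.algebraMap_eq, AlgEquiv.commutes]
    rw [h1, ← map_sub, hh, map_mul, ffA_equiv_X]
  rw [this, ffP]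
  exact Ideal.mul_mem_right _ _ (Ideal.subset_span rfl)

theorem ffP_ne_top : ffP K x ≠ ⊤ := by
  intro h
  have htr : Transcendental K x := FFGen.transc
  have h1 : (1 : ffA K x) ∈ ffP K x := by rw [h]; trivial
  rw [ffP, Ideal.mem_span_singleton] at h1
  obtain ⟨b, hb⟩ := h1
  obtain ⟨g, rfl⟩ := (ffA_equiv htr).surjective b
  rw [← ffA_equiv_X htr, ← map_mul] at hb
  have h2 : (1 : K[X]) = X * g := by
    apply (ffA_equiv htr).injective
    rw [map_one]; exact hb
  have := congrArg (Polynomial.coeff · 0) h2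
  simp at this

instance ffP_isMaximal : (ffP K x).IsMaximal := by
  rw [Ideal.isMaximal_iff]
  refine ⟨fun h => ffP_ne_top ((Ideal.eq_top_iff_one _).mpr h), ?_⟩
  intro J a hJ haP haJ
  obtain ⟨c, hc⟩ := ffA_exists_const a
  have hc0 : c ≠ 0 := by
    rintro rfl
    rw [map_zero, sub_zero] at hc
    exact haP hc
  have h1 : algebraMap K (ffA K x) c ∈ J := by
    have : algebraMap K (ffA K x) c = a - (a - algebraMap K (ffA K x) c) := by ring
    rw [this]
    exact J.sub_mem haJ (hJ hc)
  have h2 : algebraMap K (ffA K x) c⁻¹ * algebraMap K (ffA K x) c ∈ J := J.mul_mem_left _ h1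
  rwa [← map_mul, inv_mul_cancel₀ hc0, map_one] at h2


end PrimeX

section Inertia

/-- abstract form: residue degree one over an algebraically closed constant field -/
theorem ff_inertiaDeg_eq_one_aux {K A B : Type*} [Field K] [IsAlgClosed K] [CommRing A]
    [CommRing B] [Algebra K A] [Algebra K B] [Algebra A B] [IsScalarTower K A B]
    [Algebra.IsIntegral A B] (p : Ideal A) [p.IsMaximal] (P : Ideal B) [P.IsPrime]
    [P.LiesOver p] (hsurj1 : Function.Surjective (algebraMap K (A ⧸ p))) :
    Ideal.inertiaDeg' p P = 1 := by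
  rw [Ideal.inertiaDeg'_algebraMap]
  haveI : Algebra.IsIntegral K (A ⧸ p) :=
    Algebra.IsIntegral.of_surjective (Algebra.ofId K (A ⧸ p)) hsurj1
  haveI : Algebra.IsIntegral K (B ⧸ P) := Algebra.IsIntegral.trans (A ⧸ p)
  have hbij : Function.Bijective (algebraMap K (B ⧸ P)) :=
    IsAlgClosed.algebraMap_bijective_of_isIntegral
  have hsurj2 : Function.Surjective (algebraMap (A ⧸ p) (B ⧸ P)) := by
    intro y
    obtain ⟨c, rfl⟩ := hbij.2 y
    exact ⟨algebraMap K _ c, (IsScalarTower.algebraMap_apply K _ _ c).symm⟩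
  have hinj2 : Function.Injective (algebraMap (A ⧸ p) (B ⧸ P)) :=
    FaithfulSMul.algebraMap_injective _ _
  have e : (A ⧸ p) ≃ₗ[A ⧸ p] (B ⧸ P) :=
    LinearEquiv.ofBijective (Algebra.linearMap _ _) ⟨hinj2, hsurj2⟩
  rw [← e.finrank_eq, Module.finrank_self]

variable {K F : Type*} [Field K] [Field F] [Algebra K F]
variable {x : F} [FFGen K x] [CharZero K] [IsAlgClosed K]

theorem ff_inertiaDeg_eq_one (P : Ideal (ffB K x)) [P.IsPrime] [P.LiesOver (ffP K x)] :
    Ideal.inertiaDeg' (ffP K x) P = 1 := by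
  apply ff_inertiaDeg_eq_one_aux (K := K)
  intro y
  obtain ⟨a, rfl⟩ := Ideal.Quotient.mk_surjective y
  obtain ⟨c, hc⟩ := ffA_exists_const a
  refine ⟨c, ?_⟩
  rw [IsScalarTower.algebraMap_apply K (ffA K x) (ffA K x ⧸ ffP K x)]
  symm
  exact Ideal.Quotient.eq.mpr hc


end Inertia

section Ramification
variable {K F : Type*} [Field K] [Field F] [Algebra K F]
variable {x : F} [FFGen K x] [CharZero K]

/-- `x` as an element of `B` -/
def ffXB (K : Type*) {F : Type*} [Field K] [Field F] [Algebra K F] (x : F) : ffB K x :=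
  algebraMap (ffA K x) (ffB K x) (ffX K x)

omit [FFGen K x] [CharZero K] in
@[simp] theorem ffXB_coe : ((ffXB K x : ffB K x) : F) = x := rfl

omit [CharZero K] in
theorem ffXB_ne_zero : ffXB K x ≠ 0 := by
  intro h
  have : x = 0 := congrArg (fun b : ffB K x => (b : F)) h
  have h0 := ff_sub_ne_zero (K := K) (x := x) 0
  simp [this] at h0

omit [FFGen K x] [CharZero K] in
theorem ffP_map : (ffP K x).map (algebraMap (ffA K x) (ffB K x)) = Ideal.span {ffXB K x} := by
  rw [ffP, Ideal.map_span, Set.image_singleton]; rfl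

theorem ff_intValuation_XB (w : HeightOneSpectrum (ffB K x)) :
    w.intValuation (ffXB K x) = WithZero.exp (-((ff_placeOf K x w).ord x)) := by
  rw [ff_placeOf_ord, neg_neg]
  have h1 : w.valuation F x = w.intValuation (ffXB K x) := by
    rw [← w.valuation_of_algebraMap (K := F)]; rfl
  rw [h1, WithZero.exp_log]
  exact w.intValuation_ne_zero _ ffXB_ne_zero

theorem ff_ord_x_nonneg (w : HeightOneSpectrum (ffB K x)) : 0 ≤ (ff_placeOf K x w).ord x := by
  have hx0 : x ≠ 0 := by
    have := ff_sub_ne_zero (K := K) (x := x) 0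
    simpa using this
  exact (ff_mem_iff_ord_nonneg _ hx0).mp (ff_x_mem_placeOf w)

theorem ff_ramificationIdx_eq (w : HeightOneSpectrum (ffB K x)) :
    (Ideal.ramificationIdx' (ffP K x) w.asIdeal : ℤ) = (ff_placeOf K x w).ord x := by
  obtain ⟨n, hn⟩ := Int.eq_ofNat_of_zero_le (ff_ord_x_nonneg w)
  have hval := ff_intValuation_XB w
  rw [hn] at hval
  have h1 : (ffP K x).map (algebraMap (ffA K x) (ffB K x)) ≤ w.asIdeal ^ n := by
    rw [ffP_map, Ideal.span_singleton_le_iff_mem, ← w.intValuation_le_pow_iff_mem, hval]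
  have h2 : ¬ (ffP K x).map (algebraMap (ffA K x) (ffB K x)) ≤ w.asIdeal ^ (n + 1) := by
    rw [ffP_map, Ideal.span_singleton_le_iff_mem, ← w.intValuation_le_pow_iff_mem, hval,
      WithZero.exp_le_exp]
    push_cast
    omega
  rw [Ideal.ramificationIdx'_spec h1 h2, hn]


end Ramification

section FibreSum
variable {K F : Type*} [Field K] [Field F] [Algebra K F]
variable {x : F} [FFGen K x] [CharZero K]

theorem ff_ord_x_pos_iff (w : HeightOneSpectrum (ffB K x)) :
    0 < (ff_placeOf K x w).ord x ↔ ffXB K x ∈ w.asIdeal := by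
  rw [← w.intValuation_lt_one_iff_mem, ff_intValuation_XB, ← WithZero.exp_zero,
    WithZero.exp_lt_exp]
  omega

theorem ff_liesOver_of_mem (w : HeightOneSpectrum (ffB K x)) (h : ffXB K x ∈ w.asIdeal) :
    w.asIdeal.LiesOver (ffP K x) := by
  constructor
  have hle : ffP K x ≤ w.asIdeal.under (ffA K x) := by
    rw [ffP, Ideal.span_singleton_le_iff_mem, Ideal.under_def, Ideal.mem_comap]
    exact h
  have hne : w.asIdeal.under (ffA K x) ≠ ⊤ := by
    rw [Ideal.under_def]
    exact (Ideal.comap_isPrime _ _).ne_top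
  exact (ffP_isMaximal (K := K) (x := x)).eq_of_le hne hle

theorem ff_mem_of_liesOver (P : Ideal (ffB K x)) [h : P.LiesOver (ffP K x)] : ffXB K x ∈ P := by
  have h1 : ffX K x ∈ ffP K x := Ideal.subset_span rfl
  rw [h.over, Ideal.under_def, Ideal.mem_comap] at h1
  exact h1

variable (K x) in
/-- (D4) the fundamental identity for the zeros of `x` -/
theorem ff_fibreSum [IsAlgClosed K] : ∃ P : Finset (Place K F),
    (∀ v, v ∈ P ↔ 0 < v.ord x) ∧ ∑ v ∈ P, v.ord x = Module.finrank K⟮x⟯ F := by
  classical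
  set S := IsDedekindDomain.primesOverFinset (ffP K x) (ffB K x) with hS
  have hmem : ∀ P : Ideal (ffB K x), P ∈ S ↔ P ∈ Ideal.primesOver (ffP K x) (ffB K x) :=
    fun P => IsDedekindDomain.mem_primesOverFinset_iff (A := ffA K x) (p := ffP K x)
      (ffP_ne_bot (K := K) (x := x)) (ffB K x)
  have hprime : ∀ P : {P // P ∈ S}, P.1.IsPrime := fun P => ((hmem P.1).mp P.2).1
  have hlies : ∀ P : {P // P ∈ S}, P.1.LiesOver (ffP K x) := fun P => ((hmem P.1).mp P.2).2
  have hnebot : ∀ P : {P // P ∈ S}, P.1 ≠ ⊥ := fun P h => by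
    haveI := hlies P
    have h1 := ff_mem_of_liesOver (K := K) (x := x) P.1
    rw [h, Ideal.mem_bot] at h1
    exact ffXB_ne_zero (K := K) (x := x) h1
  let φ : {P // P ∈ S} → HeightOneSpectrum (ffB K x) := fun P => ⟨P.1, hprime P, hnebot P⟩
  have hφinj : Function.Injective φ := by
    intro P Q h
    apply Subtype.ext
    exact congrArg HeightOneSpectrum.asIdeal h
  refine ⟨S.attach.image (fun P => ff_placeOf K x (φ P)), ?_, ?_⟩
  · intro v
    rw [Finset.mem_image]
    constructor
    · rintro ⟨P, _, rfl⟩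
      rw [ff_ord_x_pos_iff]
      haveI := hlies P
      exact ff_mem_of_liesOver P.1
    · intro hv
      have hx0 : x ≠ 0 := by
        have := ff_sub_ne_zero (K := K) (x := x) 0
        simpa using this
      have hx : x ∈ v.toValuationSubring := (ff_mem_iff_ord_nonneg v hx0).mpr hv.le
      set w := ff_primeOf v hx with hw
      have hvw : ff_placeOf K x w = v := ff_placeOf_primeOf v hx
      have hxw : ffXB K x ∈ w.asIdeal := by
        rw [← ff_ord_x_pos_iff, hvw]; exact hv
      have hwS : w.asIdeal ∈ S := by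
        rw [hmem]
        exact ⟨w.isPrime, ff_liesOver_of_mem w hxw⟩
      refine ⟨⟨w.asIdeal, hwS⟩, Finset.mem_attach _ _, ?_⟩
      rw [← hvw]
  · rw [Finset.sum_image (fun P _ Q _ h => hφinj (ff_placeOf_injective h))]
    have h1 : ∀ P ∈ S.attach, (ff_placeOf K x (φ P)).ord x =
        ((Ideal.ramificationIdx' (ffP K x) P.1 * Ideal.inertiaDeg' (ffP K x) P.1 : ℕ) : ℤ) := by
      intro P _
      haveI := hprime P
      haveI := hlies P
      rw [ff_inertiaDeg_eq_one P.1, mul_one, ← ff_ramificationIdx_eq (φ P)]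
    rw [Finset.sum_congr rfl h1, ← Nat.cast_sum,
      Finset.sum_attach S (fun P => Ideal.ramificationIdx' (ffP K x) P * Ideal.inertiaDeg' (ffP K x) P)]
    congr 1
    exact Ideal.sum_ramification_inertia (R := ffA K x) (ffB K x) K⟮x⟯ F (p := ffP K x)
      (ffP_ne_bot (K := K) (x := x))


end FibreSum

section FibreSum2
variable {K F : Type*} [Field K] [Field F] [Algebra K F]

theorem ff_adjoin_sub_const (x : F) (c : K) : K⟮x - algebraMap K F c⟯ = K⟮x⟯ := by
  apply le_antisymm
  · rw [adjoin_simple_le_iff]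
    exact sub_mem (mem_adjoin_simple_self K x) (IntermediateField.algebraMap_mem _ c)
  · rw [adjoin_simple_le_iff]
    have h := add_mem (mem_adjoin_simple_self K (x - algebraMap K F c))
      (IntermediateField.algebraMap_mem K⟮x - algebraMap K F c⟯ c)
    rwa [sub_add_cancel] at h

theorem ff_adjoin_inv (x : F) : K⟮x⁻¹⟯ = K⟮x⟯ := by
  apply le_antisymm
  · rw [adjoin_simple_le_iff]
    exact inv_mem (mem_adjoin_simple_self K x)
  · rw [adjoin_simple_le_iff]
    have h := inv_mem (mem_adjoin_simple_self K x⁻¹)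
    rwa [inv_inv] at h

theorem ff_transcendental_sub_const {x : F} (hx : Transcendental K x) (c : K) :
    Transcendental K (x - algebraMap K F c) := by
  intro h
  apply hx
  have : x = (x - algebraMap K F c) + algebraMap K F c := by ring
  rw [this]
  exact h.add (isAlgebraic_algebraMap c)

instance ff_gen_sub_const {x : F} [FFGen K x] (c : K) : FFGen K (x - algebraMap K F c) :=
  ff_gen_of_transcendental (x := x) (ff_transcendental_sub_const FFGen.transc c)

variable (K) (x : F) [FFGen K x] [CharZero K] [IsAlgClosed K]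

/-- (D4) zeros of `x - c` -/
theorem ff_fibreSum_sub_const (c : K) : ∃ P : Finset (Place K F),
    (∀ v, v ∈ P ↔ 0 < v.ord (x - algebraMap K F c)) ∧
      ∑ v ∈ P, v.ord (x - algebraMap K F c) = Module.finrank K⟮x⟯ F := by
  obtain ⟨P, h1, h2⟩ := ff_fibreSum K (x - algebraMap K F c)
  refine ⟨P, h1, ?_⟩
  rw [h2, ff_adjoin_sub_const]

/-- (D4) poles of `x` -/
theorem ff_fibreSum_poles : ∃ P : Finset (Place K F),
    (∀ v, v ∈ P ↔ v.ord x < 0) ∧ ∑ v ∈ P, v.ord x = -(Module.finrank K⟮x⟯ F : ℤ) := by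
  obtain ⟨P, h1, h2⟩ := ff_fibreSum K x⁻¹
  refine ⟨P, fun v => ?_, ?_⟩
  · rw [h1, v.ord_inv]; omega
  · rw [ff_adjoin_inv] at h2
    rw [← h2, ← Finset.sum_neg_distrib]
    exact Finset.sum_congr rfl (fun v _ => by rw [v.ord_inv, neg_neg])


end FibreSum2

end Fermat.Agent.Lib.FF
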