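/-
S24 WP-C (helper9): the derivation `q d/dq` on Laurent series, and nontriviality of `Ω[F/K]`
for intermediate fields `F ⊆ K((q))` containing a non-constant series (characteristic zero).
-/
import Mathlib

set_option autoImplicit false

open HahnSeries KaehlerDifferential

namespace Fermat.Agent.Lib.FF

variable {K : Type*} [Field K]

/-- `θ = q d/dq` on Laurent series, coefficientwise `a_n ↦ n a_n`. -/
noncomputable def ffd_theta (f : LaurentSeries K) : LaurentSeries K where
  coeff n := (n : K) * f.coeff n
  isPWO_support' := f.isPWO_support.mono (fun n hn => by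
    simp only [Function.mem_support, ne_eq] at hn
    simp only [HahnSeries.mem_support, ne_eq]
    intro h
    apply hn
    rw [h, mul_zero])

@[simp] theorem ffd_theta_coeff (f : LaurentSeries K) (n : ℤ) :
    (ffd_theta f).coeff n = (n : K) * f.coeff n := rfl

theorem ffd_theta_support_subset (f : LaurentSeries K) :
    (ffd_theta f).support ⊆ f.support := by
  intro n hn
  simp only [HahnSeries.mem_support, ne_eq, ffd_theta_coeff] at hn ⊢
  intro h
  apply hn
  rw [h, mul_zero]

theorem ffd_theta_add (f g : LaurentSeries K) :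
    ffd_theta (f + g) = ffd_theta f + ffd_theta g := by
  ext n
  simp [mul_add]

theorem ffd_theta_mul (f g : LaurentSeries K) :
    ffd_theta (f * g) = f * ffd_theta g + g * ffd_theta f := by
  ext n
  rw [HahnSeries.coeff_add, ffd_theta_coeff, HahnSeries.coeff_mul,
    HahnSeries.coeff_mul_right' g.isPWO_support (ffd_theta_support_subset g),
    mul_comm g (ffd_theta f),
    HahnSeries.coeff_mul_left' f.isPWO_support (ffd_theta_support_subset f),
    Finset.mul_sum, ← Finset.sum_add_distrib]
  refine Finset.sum_congr rfl ?_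
  rintro ⟨i, j⟩ hij
  rw [Finset.mem_antidiagonal] at hij
  obtain ⟨-, -, hsum⟩ := hij
  simp only at hsum
  simp only [ffd_theta_coeff]
  rw [← hsum]
  push_cast
  ring

/-- The coefficientwise scalar action agrees with multiplication by the constant series. -/
theorem ffd_smul_eq_algebraMap_mul (c : K) (y : LaurentSeries K) :
    c • y = algebraMap K (LaurentSeries K) c * y := by
  rw [HahnSeries.algebraMap_apply']
  have h1 : algebraMap K (PowerSeries K) c = PowerSeries.C c := by simp
  rw [h1, HahnSeries.ofPowerSeries_C, HahnSeries.C_mul_eq_smul]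

theorem ffd_theta_algebraMap (c : K) : ffd_theta (algebraMap K (LaurentSeries K) c) = 0 := by
  rw [HahnSeries.algebraMap_apply']
  have h1 : algebraMap K (PowerSeries K) c = PowerSeries.C c := by simp
  rw [h1, HahnSeries.ofPowerSeries_C]
  ext n
  simp only [ffd_theta_coeff, HahnSeries.coeff_zero]
  by_cases hn : n = 0
  · subst hn; simp
  · rw [HahnSeries.C_apply, HahnSeries.coeff_single_of_ne hn, mul_zero]

/-- `θ` as a `K`-derivation of `K((q))`. -/
noncomputable def ffd_thetaDeriv : Derivation K (LaurentSeries K) (LaurentSeries K) where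
  toFun := ffd_theta
  map_add' := ffd_theta_add
  map_smul' c f := by
    rw [Algebra.smul_def, ffd_theta_mul, ffd_theta_algebraMap, mul_zero, add_zero,
      RingHom.id_apply, ffd_smul_eq_algebraMap_mul]
  map_one_eq_zero' := by
    show ffd_theta 1 = 0
    have := ffd_theta_algebraMap (K := K) 1
    rwa [map_one] at this
  leibniz' f g := by
    show ffd_theta (f * g) = f • ffd_theta g + g • ffd_theta f
    simp only [smul_eq_mul]
    exact ffd_theta_mul f g

@[simp] theorem ffd_thetaDeriv_apply (f : LaurentSeries K) : ffd_thetaDeriv f = ffd_theta f := rfl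

/-- Scalar tower instance w.r.t. the coefficientwise `K`-action on `K((q))`. -/
theorem ffd_isScalarTower (F : IntermediateField K (LaurentSeries K)) :
    IsScalarTower K F (LaurentSeries K) :=
  ⟨fun c f m => by
    rw [ffd_smul_eq_algebraMap_mul, Algebra.smul_def, IntermediateField.smul_def]
    simp only [smul_eq_mul, IntermediateField.algebraMap_apply, Algebra.smul_def]
    rw [MulMemClass.coe_mul, mul_assoc]
    rfl⟩

/-- If `x ∈ F ⊆ K((q))` has a nonzero coefficient in degree `n`, where `n ≠ 0` in `K`, then
`dx ≠ 0` in `Ω[F/K]`. -/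
theorem ffd_D_ne_zero (F : IntermediateField K (LaurentSeries K))
    {x : LaurentSeries K} (hx : x ∈ F) {n : ℤ} (hn : (n : K) ≠ 0) (hxn : x.coeff n ≠ 0) :
    D K F ⟨x, hx⟩ ≠ 0 := by
  have := ffd_isScalarTower F
  let d : Derivation K F (LaurentSeries K) := (ffd_thetaDeriv (K := K)).compAlgebraMap F
  have hd : d ⟨x, hx⟩ ≠ 0 := by
    intro h
    have h' : ffd_theta x = 0 := h
    have := congrArg (fun s => HahnSeries.coeff s n) h'
    simp only [ffd_theta_coeff, HahnSeries.coeff_zero] at this
    exact (mul_ne_zero hn hxn) this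
  intro hcon
  apply hd
  have h1 : d ⟨x, hx⟩ = d.liftKaehlerDifferential (D K F ⟨x, hx⟩) :=
    (Derivation.liftKaehlerDifferential_comp_D d ⟨x, hx⟩).symm
  rw [h1, hcon, map_zero]

/-- Under the same hypothesis `Ω[F/K]` is nontrivial. -/
theorem ffd_nontrivial_kaehler (F : IntermediateField K (LaurentSeries K))
    {x : LaurentSeries K} (hx : x ∈ F) {n : ℤ} (hn : (n : K) ≠ 0) (hxn : x.coeff n ≠ 0) :
    Nontrivial Ω[F⁄K] :=
  ⟨⟨_, 0, ffd_D_ne_zero F hx hn hxn⟩⟩

end Fermat.Agent.Lib.FF
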