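/-
S24 WP-C (helper9): specialisation of `LaurentDeriv` to the modular function field
`F = modularFunctionFieldBar N ⊆ Q̄((q))`: `dj ≠ 0`, hence `Ω[F/Q̄]` is nontrivial.
-/
import Mathlib
import Fermat.Prelude.Def_ModularCurve_ArithmeticGalois
import Fermat.Agent.Lib.FF.LaurentDeriv

set_option autoImplicit false

open KaehlerDifferential ModularCurve

namespace Fermat.Agent.Lib.FF

variable (N : ℕ)

/-- The `j`-function as an element of `Q̄((q))`. -/
noncomputable def ffd_jSeries : LaurentSeries (AlgebraicClosure ℚ) :=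
  coeffEmb (AlgebraicClosure ℚ) jq

theorem ffd_jSeries_mem : ffd_jSeries ∈ modularFunctionFieldBar N := by
  refine coeffEmb_mem_laurentBaseChange (AlgebraicClosure ℚ) ?_
  have h := jqd_mem_full N (one_dvd N)
  rwa [qExpand_one_apply] at h

/-- The `j`-function as an element of the modular function field over `Q̄`. -/
noncomputable def ffd_jBar : ↥(modularFunctionFieldBar N) := ⟨ffd_jSeries, ffd_jSeries_mem N⟩

@[simp] theorem ffd_jBar_coe : ((ffd_jBar N : ↥(modularFunctionFieldBar N)) :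
    LaurentSeries (AlgebraicClosure ℚ)) = coeffEmb (AlgebraicClosure ℚ) jq := rfl

theorem ffd_jSeries_coeff_neg_one : ffd_jSeries.coeff (-1 : ℤ) = 1 := by
  rw [ffd_jSeries, coeffEmb_coeff, coeff_jq_neg_one, map_one]

theorem ffd_D_jBar_ne_zero :
    D (AlgebraicClosure ℚ) ↥(modularFunctionFieldBar N) (ffd_jBar N) ≠ 0 := by
  refine ffd_D_ne_zero (modularFunctionFieldBar N) (ffd_jSeries_mem N) (n := -1) ?_ ?_
  · norm_num
  · rw [ffd_jSeries_coeff_neg_one]; exact one_ne_zero

instance ffd_nontrivial_modular :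
    Nontrivial Ω[↥(modularFunctionFieldBar N)⁄AlgebraicClosure ℚ] :=
  ⟨⟨_, 0, ffd_D_jBar_ne_zero N⟩⟩

end Fermat.Agent.Lib.FF
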