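/-
S24 (genus of the function field of `X₀(N)` over `Q̄` = genus formula): the INTERFACE between the
work packages (architect: helper9).  Everything here is a definition (mostly `Prop`-valued): the
exact shape of what every work package delivers.  `Hurwitz.lean` / `Assembly.lean` (helper5) prove
S24 from these `Prop`s.

LEVEL 1 (this file): boundary between
* B1  (helper6)  function-field generalities,
* A4  (helper1)  the degree `[F : K(j)] = ψ(N)`,
* the analytic side (A1, A2, A3, A5, T2, T3), summarised in `IfaceFibre`,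
* T1  (helper2, landed: `Squeeze.lean`), C (helper9, landed: `Differential.lean`),
* WP-D (helper5) the Hurwitz assembly `IfaceHurwitz`.
-/
import Fermat.Prelude.Def_AlgebraicCurve_CanonicalDivisor
import Fermat.Prelude.Def_ModularCurve_ArithmeticGalois
import Fermat.Prelude.Def_ModularCurve_GenusNumerics
import Fermat.Agent.Lib.RR.Coset
import Fermat.Agent.Lib.FF.ModularDiff

set_option autoImplicit false

namespace Fermat.Agent.Lib.FF

open AlgebraicCurve ModularCurve IntermediateField Matrix.SpecialLinearGroup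
open Fermat.Agent.Lib.RR (Q)
open scoped MatrixGroups

noncomputable section

/-- The base field `K = Q̄`. -/
abbrev ffi_K : Type := AlgebraicClosure ℚ

/-- The function field `F = Q̄(j(q^d) : d ∣ N) ⊆ Q̄((q))`. -/
abbrev ffi_F (N : ℕ) : Type := ↥(modularFunctionFieldBar N)

/-! ### B1 (helper6): function field generalities, for arbitrary `K`, `F`

To be proved for `K` algebraically closed of characteristic zero and `F` a finite extension of
`K(x)`, `x` transcendental. -/

section Generic

variable (K F : Type*) [Field K] [Field F] [Algebra K F]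

/-- D2: every place has degree one. -/
def IfaceDegOne : Prop := ∀ v : Place K F, v.deg = 1

/-- D7 + D2': the two hypotheses of `Differential.lean` at every place. -/
def IfaceLocal : Prop :=
  ∀ v : Place K F, Algebra.EssFiniteType K v.toValuationSubring ∧
    Function.Surjective (algebraMap K v.ResidueField)

/-- D3: every place is centred at some `c ∈ K` or at `∞` (w.r.t. the coordinate `x`). -/
def IfaceCentre (x : F) : Prop :=
  ∀ v : Place K F, (∃ c : K, 0 < v.ord (x - algebraMap K F c)) ∨ v.ord x < 0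

/-- D4: the fundamental identity in every fibre of `x`, with `d = [F : K(x)]`: the zeros of
`x - c` (with multiplicity) and the poles of `x` both number `d`. -/
def IfaceFibreSum (x : F) (d : ℕ) : Prop :=
  (∀ c : K, ∃ P : Finset (Place K F), (∀ v, v ∈ P ↔ 0 < v.ord (x - algebraMap K F c)) ∧
    ∑ v ∈ P, v.ord (x - algebraMap K F c) = d) ∧
  (∃ P : Finset (Place K F), (∀ v, v ∈ P ↔ v.ord x < 0) ∧ ∑ v ∈ P, v.ord x = -(d : ℤ))

/-- D5: principal divisors have degree zero. -/
def IfacePrincipal : Prop :=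
  ∀ f : F, f ≠ 0 → ∀ D : Divisor K F, (∀ v, D v = v.ord f) → Divisor.degree D = 0

end Generic

/-! ### A4 (helper1): the degree -/

/-- `[F : K(j)] = ψ(N) = #(SL₂(ℤ)/Γ₀(N))` (helper1; `≥` from the `ψ(N)` distinct embeddings, `≤`
from the orbit polynomial + `K`-descent). -/
def IfaceDegree (N : ℕ) [NeZero N] : Prop :=
  Transcendental ffi_K (ffd_jBar N) ∧
  FiniteDimensional (ffi_K)⟮ffd_jBar N⟯ (ffi_F N) ∧
  Module.finrank (ffi_K)⟮ffd_jBar N⟯ (ffi_F N) = Fintype.card (Q N)

/-! ### The analytic side, summarised -/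

/-- The hypotheses of the squeeze `ffs_card_places` (helper2) for the fibre of `t`
(`t = j - c` or `t = j⁻¹`), the coset set `X = Q N` and the permutation `δ`, EXCEPT the finiteness
and the fundamental identity (which come from `IfaceFibreSum`).  `ν x f` is the order of
`σ_x f` at the chosen point above the centre. -/
def IfaceFibre (N : ℕ) [NeZero N] (t : ffi_F N) (δ : Equiv.Perm (Q N)) : Prop :=
  ∃ (e₀ : ℕ) (ν : Q N → ffi_F N → ℤ),
    (∀ x, ν (δ x) = ν x) ∧
    (∀ x, ν x t ≤ e₀) ∧
    (∀ x f, f ≠ 0 →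
      (e₀ : ℤ) ∣ (Nat.card (MulAction.orbit (Subgroup.zpowers δ) x) : ℤ) * ν x f) ∧
    (∀ v : Place ffi_K (ffi_F N), 0 < v.ord t →
      ∃ x, ∃ m : ℤ, 0 < m ∧ ∀ f, f ≠ 0 → ν x f = m * v.ord f)

/-- The four fibre statements: generic `c`, `c = 1728` (point `i`, `δ = S`), `c = 0`
(point `ρ`, `δ = S T`), `∞` (`δ = T`). -/
def IfaceFibres (N : ℕ) [NeZero N] : Prop :=
  (∀ c : ffi_K, c ≠ 0 → c ≠ 1728 →
    IfaceFibre N (ffd_jBar N - algebraMap ffi_K (ffi_F N) c) 1) ∧
  IfaceFibre N (ffd_jBar N - algebraMap ffi_K (ffi_F N) 1728)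
    (MulAction.toPerm (ModularGroup.S : SL(2, ℤ))) ∧
  IfaceFibre N (ffd_jBar N) (MulAction.toPerm (ModularGroup.S * ModularGroup.T : SL(2, ℤ))) ∧
  IfaceFibre N (ffd_jBar N)⁻¹ (MulAction.toPerm (ModularGroup.T : SL(2, ℤ)))

/-- Orbit counts on `Q N` (helper3, from `CosetsFix`, `CosetsCusps`, `CosetsIndex` and the
prime-order orbit count of `Squeeze.lean`). -/
def IfaceOrbitCounts (N : ℕ) [NeZero N] : Prop :=
  2 * Nat.card (MulAction.orbitRel.Quotient
      (Subgroup.zpowers (MulAction.toPerm (ModularGroup.S : SL(2, ℤ)) : Equiv.Perm (Q N))) (Q N))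
    = Fintype.card (Q N) + nuTwo N ∧
  3 * Nat.card (MulAction.orbitRel.Quotient
      (Subgroup.zpowers
        (MulAction.toPerm (ModularGroup.S * ModularGroup.T : SL(2, ℤ)) : Equiv.Perm (Q N))) (Q N))
    = Fintype.card (Q N) + 2 * nuThree N ∧
  Nat.card (MulAction.orbitRel.Quotient
      (Subgroup.zpowers (MulAction.toPerm (ModularGroup.T : SL(2, ℤ)) : Equiv.Perm (Q N))) (Q N))
    = cuspCount N ∧
  Fintype.card (Q N) = dedekindPsi N

/-! ### WP-D (helper5): the Hurwitz assembly -/

/-- The final assembly: S24 from all the interface statements (plus `S20.result` for the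
integrality of `genusFormula N`, to be used inside the proof). -/
def IfaceHurwitz (N : ℕ) [NeZero N] : Prop :=
  IfaceDegOne ffi_K (ffi_F N) → IfaceLocal ffi_K (ffi_F N) →
  IfaceCentre ffi_K (ffi_F N) (ffd_jBar N) →
  IfaceFibreSum ffi_K (ffi_F N) (ffd_jBar N) (Fintype.card (Q N)) →
  IfacePrincipal ffi_K (ffi_F N) →
  IfaceFibres N → IfaceOrbitCounts N →
  ∀ [AlgebraicCurve.HasCanonicalDivisor (K := ffi_K) (F := ffi_F N)],
    (AlgebraicCurve.genus ffi_K (ffi_F N) : ℚ) = genusFormula N

end

end Fermat.Agent.Lib.FF
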