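/-
S24 WP-B1 (D5, helper2): principal divisors have degree zero, from the fundamental identity (D4,
helper6) applied to `f` and `f⁻¹`.
-/
import Fermat.Agent.Lib.FF.FFBasicResidue

set_option autoImplicit false

open AlgebraicCurve IntermediateField

namespace Fermat.Agent.Lib.FF

variable {K F : Type*} [Field K] [Field F] [Algebra K F]

/-- `K(f⁻¹) = K(f)`. -/
theorem ffs_adjoin_inv (f : F) : K⟮f⁻¹⟯ = K⟮f⟯ := by
  apply le_antisymm
  · rw [adjoin_simple_le_iff]
    exact inv_mem (mem_adjoin_simple_self K f)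
  · rw [adjoin_simple_le_iff]
    have : f⁻¹⁻¹ ∈ K⟮f⁻¹⟯ := inv_mem (mem_adjoin_simple_self K f⁻¹)
    rwa [inv_inv] at this

theorem ffs_finrank_adjoin_inv (f : F) :
    Module.finrank K⟮f⁻¹⟯ F = Module.finrank K⟮f⟯ F := by
  rw [ffs_adjoin_inv]

/-- **D5**: principal divisors have degree zero (given the fundamental identity D4 for every
generator `y`). -/
theorem ffs_principal (K : Type*) {F : Type*} [Field K] [Field F] [Algebra K F]
    (x : F) [FFGen K x] [CharZero K] [IsAlgClosed K]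
    (hD4 : ∀ y : F, FFGen K y → ∃ P : Finset (Place K F),
      (∀ v, v ∈ P ↔ 0 < v.ord y) ∧ ∑ v ∈ P, v.ord y = Module.finrank K⟮y⟯ F) :
    ∀ f : F, f ≠ 0 → ∀ D : Divisor K F, (∀ v, D v = v.ord f) → Divisor.degree D = 0 := by
  classical
  intro f hf0 D hD
  by_cases halg : IsAlgebraic K f
  · obtain ⟨a, rfl⟩ := ff_mem_range_of_isAlgebraic halg
    have : D = 0 := by
      ext v
      rw [hD v, ff_ord_algebraMap]
      rfl
    rw [this, map_zero]
  · have hgen : FFGen K f := ff_gen_of_transcendental (x := x) halg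
    have hgeninv : FFGen K f⁻¹ := ff_gen_inv
    obtain ⟨P₁, hP₁, hs₁⟩ := hD4 f hgen
    obtain ⟨P₂, hP₂, hs₂⟩ := hD4 f⁻¹ hgeninv
    have hdisj : Disjoint P₁ P₂ := by
      rw [Finset.disjoint_left]
      intro v h1 h2
      rw [hP₁] at h1
      rw [hP₂, v.ord_inv] at h2
      omega
    have hsupp : D.support ⊆ P₁ ∪ P₂ := by
      intro v hv
      rw [Finsupp.mem_support_iff, hD v] at hv
      rw [Finset.mem_union, hP₁, hP₂, v.ord_inv]
      omega
    have hdeg : Divisor.degree D = ∑ v ∈ P₁ ∪ P₂, D v := by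
      change (Finsupp.liftAddHom fun v : Place K F => AddMonoidHom.mulRight (v.deg : ℤ)) D = _
      rw [Finsupp.liftAddHom_apply, Finsupp.sum_of_support_subset D hsupp _ (by intro v _; simp)]
      refine Finset.sum_congr rfl fun v _ => ?_
      rw [AddMonoidHom.coe_mulRight, ff_deg_eq_one K x v]
      simp
    rw [hdeg, Finset.sum_union hdisj]
    have e1 : ∑ v ∈ P₁, D v = Module.finrank K⟮f⟯ F := by
      rw [← hs₁]; exact Finset.sum_congr rfl fun v _ => hD v
    have e2 : ∑ v ∈ P₂, D v = -(Module.finrank K⟮f⟯ F : ℤ) := by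
      rw [← ffs_finrank_adjoin_inv, ← hs₂, ← Finset.sum_neg_distrib]
      exact Finset.sum_congr rfl fun v _ => by rw [hD v, v.ord_inv, neg_neg]
    rw [e1, e2, add_neg_cancel]

end Fermat.Agent.Lib.FF
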