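/-
S24 WP B1 (helper6): the five generic function-field interface statements of `Interface.lean`
(`IfaceDegOne`, `IfaceLocal`, `IfaceCentre`, `IfaceFibreSum`, `IfacePrincipal`), proved for an
algebraically closed field `K` of characteristic zero and a finite extension `F` of `K(x)`.
-/
import Fermat.Agent.Lib.FF.Interface
import Fermat.Agent.Lib.FF.FFBasicIdentity
import Fermat.Agent.Lib.FF.SqueezePrincipal

set_option autoImplicit false

noncomputable section

open AlgebraicCurve IntermediateField

namespace Fermat.Agent.Lib.FF

variable (K : Type*) {F : Type*} [Field K] [Field F] [Algebra K F]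
variable (x : F) [FFGen K x] [CharZero K] [IsAlgClosed K]

include x in
theorem ff_ifaceDegOne : IfaceDegOne K F := fun v => ff_deg_eq_one K x v

include x in
theorem ff_ifaceLocal : IfaceLocal K F := fun v =>
  ⟨ff_essFiniteType_place K x v, ff_residue_surjective K x v⟩

theorem ff_ifaceCentre : IfaceCentre K F x := fun v => ff_centre K x v

theorem ff_ifaceFibreSum : IfaceFibreSum K F x (Module.finrank K⟮x⟯ F) :=
  ⟨fun c => ff_fibreSum_sub_const K x c, ff_fibreSum_poles K x⟩

include x in
theorem ff_ifacePrincipal : IfacePrincipal K F :=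
  ffs_principal K x (fun y hy => @ff_fibreSum K F _ _ _ y hy _ _)

/-- the five B1 interface statements at once, with the degree as a parameter -/
theorem ff_iface_all (d : ℕ) (hd : Module.finrank K⟮x⟯ F = d) :
    IfaceDegOne K F ∧ IfaceLocal K F ∧ IfaceCentre K F x ∧ IfaceFibreSum K F x d ∧
      IfacePrincipal K F :=
  ⟨ff_ifaceDegOne K x, ff_ifaceLocal K x, ff_ifaceCentre K x, hd ▸ ff_ifaceFibreSum K x,
    ff_ifacePrincipal K x⟩

end Fermat.Agent.Lib.FF

end
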