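import Mathlib
import Fermat.Agent.Lib.RR.Ramanujan

/-!
# Orders of invariant functions at the elliptic points `i` and `ρ` (S24, WP A5)

* `ffc_pow_order_eq_one`: if `G` is analytic at a fixed point `z₀` of `δ` with multiplier
  `δ'(z₀) = ζ`, has finite order `n` at `z₀` and `G ∘ δ = G` near `z₀`, then `ζ ^ n = 1`.
* `ffc_two_dvd_order_I`: a holomorphic `g : ℍ → ℂ` with `g (S • z) = g z` has even order at `i`.
* `ffc_three_dvd_order_rho`: a holomorphic `g` with `g ((S * T) • z) = g z` has order divisible by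
  `3` at `ρ`.
-/

set_option autoImplicit false

open UpperHalfPlane hiding I
open Filter Topology Complex ModularGroup

open scoped Real MatrixGroups Manifold

namespace Fermat.Agent.Lib.FF

/-- The multiplier of a local symmetry is a root of unity of order dividing the order of an
invariant function. -/
theorem ffc_pow_order_eq_one {G δ : ℂ → ℂ} {z₀ ζ : ℂ} {n : ℕ} (hG : AnalyticAt ℂ G z₀)
    (hn : analyticOrderAt G z₀ = n) (hδ : HasDerivAt δ ζ z₀) (hδ0 : δ z₀ = z₀)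
    (hinv : ∀ᶠ z in 𝓝 z₀, G (δ z) = G z) : ζ ^ n = 1 := by
  obtain ⟨H, hH, hH0, hGH⟩ := (hG.analyticOrderAt_eq_natCast).mp hn
  have hδt : Tendsto δ (𝓝 z₀) (𝓝 z₀) := by
    have := hδ.continuousAt.tendsto
    rwa [hδ0] at this
  have hGH' : ∀ᶠ z in 𝓝 z₀, G (δ z) = (δ z - z₀) ^ n • H (δ z) := hδt.eventually hGH
  have hev : ∀ᶠ z in 𝓝[≠] z₀, ((δ z - δ z₀) / (z - z₀)) ^ n * H (δ z) = H z := by
    have h1 : ∀ᶠ z in 𝓝[≠] z₀, G (δ z) = G z := hinv.filter_mono nhdsWithin_le_nhds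
    have h2 : ∀ᶠ z in 𝓝[≠] z₀, G (δ z) = (δ z - z₀) ^ n • H (δ z) :=
      hGH'.filter_mono nhdsWithin_le_nhds
    have h3 : ∀ᶠ z in 𝓝[≠] z₀, G z = (z - z₀) ^ n • H z := hGH.filter_mono nhdsWithin_le_nhds
    filter_upwards [h1, h2, h3, self_mem_nhdsWithin] with z hz1 hz2 hz3 hz4
    have hne : z - z₀ ≠ 0 := sub_ne_zero.mpr hz4
    rw [hδ0, div_pow, div_mul_eq_mul_div, div_eq_iff (pow_ne_zero n hne)]
    rw [hz2, hz3, smul_eq_mul, smul_eq_mul] at hz1
    rw [hz1]; ring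
  have hslope : Tendsto (fun z => (δ z - δ z₀) / (z - z₀)) (𝓝[≠] z₀) (𝓝 ζ) := by
    have := hasDerivAt_iff_tendsto_slope.mp hδ
    refine this.congr fun z => ?_
    rw [slope_def_field]
  have hHδ : Tendsto (fun z => H (δ z)) (𝓝[≠] z₀) (𝓝 (H z₀)) :=
    (hH.continuousAt.tendsto.comp hδt).mono_left nhdsWithin_le_nhds
  have hlhs : Tendsto (fun z => ((δ z - δ z₀) / (z - z₀)) ^ n * H (δ z)) (𝓝[≠] z₀)
      (𝓝 (ζ ^ n * H z₀)) := (hslope.pow n).mul hHδ
  have hrhs : Tendsto H (𝓝[≠] z₀) (𝓝 (H z₀)) :=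
    hH.continuousAt.tendsto.mono_left nhdsWithin_le_nhds
  have := tendsto_nhds_unique (hlhs.congr' hev) hrhs
  exact mul_right_cancel₀ hH0 (this.trans (one_mul _).symm)

/-- A holomorphic function on `ℍ` is analytic (after `ofComplex`) at every point of `ℍ`. -/
theorem ffc_analyticAt {g : ℍ → ℂ} (hg : MDiff g) (τ : ℍ) : AnalyticAt ℂ (g ∘ ofComplex) τ := by
  have h1 : DifferentiableOn ℂ (g ∘ ofComplex) {z : ℂ | 0 < z.im} :=
    UpperHalfPlane.mdifferentiable_iff.mp hg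
  exact h1.analyticAt (isOpen_upperHalfPlaneSet.mem_nhds τ.im_pos)

/-- Invariance of `g` under `γ`, fixing `τ`, with local multiplier `ζ` at `τ`, forces
`ζ ^ ord_τ g = 1`. -/
theorem ffc_multiplier_pow_order {g : ℍ → ℂ} (hg : MDiff g) (γ : SL(2, ℤ))
    (hγ : ∀ z : ℍ, g (γ • z) = g z) (τ : ℍ) (hτ : γ • τ = τ) (δ : ℂ → ℂ) (ζ : ℂ)
    (hδ : HasDerivAt δ ζ τ) (hδγ : ∀ z : ℍ, δ z = ((γ • z : ℍ) : ℂ)) {n : ℕ}
    (hn : analyticOrderAt (g ∘ ofComplex) τ = n) : ζ ^ n = 1 := by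
  refine ffc_pow_order_eq_one (ffc_analyticAt hg τ) hn hδ ?_ ?_
  · rw [hδγ τ, hτ]
  · have hopen : {z : ℂ | 0 < z.im} ∈ 𝓝 (τ : ℂ) := isOpen_upperHalfPlaneSet.mem_nhds τ.im_pos
    filter_upwards [hopen] with z hz
    obtain ⟨w, rfl⟩ : ∃ w : ℍ, (w : ℂ) = z := ⟨⟨z, hz⟩, rfl⟩
    rw [Function.comp_apply, Function.comp_apply, hδγ, ofComplex_apply, ofComplex_apply, hγ]

theorem ffc_coe_S_smul (z : ℍ) : ((S • z : ℍ) : ℂ) = (-(z : ℂ))⁻¹ := by
  rw [modular_S_smul]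

theorem ffc_coe_ST_smul (z : ℍ) : (((S * T) • z : ℍ) : ℂ) = (-(1 + (z : ℂ)))⁻¹ := by
  rw [mul_smul, ffc_coe_S_smul, modular_T_smul, coe_vadd, Complex.ofReal_one]

theorem ffc_coe_I : ((UpperHalfPlane.I : ℍ) : ℂ) = Complex.I := rfl

/-- A holomorphic function invariant under `S` has even order at `i`. -/
theorem ffc_two_dvd_order_I {g : ℍ → ℂ} (hg : MDiff g) (hS : ∀ z : ℍ, g (S • z) = g z) {n : ℕ}
    (hn : analyticOrderAt (g ∘ ofComplex) (UpperHalfPlane.I : ℍ) = n) : 2 ∣ n := by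
  have hδ : HasDerivAt (fun z : ℂ => (-z)⁻¹) (-1 : ℂ) ((UpperHalfPlane.I : ℍ) : ℂ) := by
    have h1 : HasDerivAt (fun z : ℂ => -z) (-1 : ℂ) ((UpperHalfPlane.I : ℍ) : ℂ) :=
      (hasDerivAt_id _).neg
    have hne : -((UpperHalfPlane.I : ℍ) : ℂ) ≠ 0 := neg_ne_zero.mpr (UpperHalfPlane.ne_zero _)
    have h2 := h1.inv hne
    have h3 : (- -1 / (-((UpperHalfPlane.I : ℍ) : ℂ)) ^ 2 : ℂ) = -1 := by
      rw [ffc_coe_I, neg_sq, Complex.I_sq]
      norm_num
    rw [h3] at h2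
    exact h2
  have h := ffc_multiplier_pow_order hg S hS UpperHalfPlane.I RR.Ramanujan.S_smul_I _ _ hδ
    (fun z => (ffc_coe_S_smul z).symm) hn
  rcases Nat.even_or_odd n with he | ho
  · exact he.two_dvd
  · rw [ho.neg_one_pow] at h
    norm_num at h

theorem ffc_three_dvd_of_rho_pow {n : ℕ} (h : ((RR.Ramanujan.rho : ℍ) : ℂ) ^ n = 1) : 3 ∣ n := by
  have hr := RR.Ramanujan.rho_sq_add_rho_add_one
  have h3 := RR.Ramanujan.rho_cube
  set r : ℂ := ((RR.Ramanujan.rho : ℍ) : ℂ) with hrdef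
  have hdecomp : n = 3 * (n / 3) + n % 3 := (Nat.div_add_mod n 3).symm
  rw [hdecomp, pow_add, pow_mul, h3, one_pow, one_mul] at h
  have hlt : n % 3 < 3 := Nat.mod_lt _ (by norm_num)
  interval_cases hmod : n % 3
  · exact Nat.dvd_of_mod_eq_zero hmod
  · exfalso
    rw [pow_one] at h
    rw [h] at hr
    norm_num at hr
  · exfalso
    have h2 : r = -2 := by linear_combination hr - h
    rw [h2] at h
    norm_num at h

/-- A holomorphic function invariant under `S T` has order divisible by `3` at `ρ`. -/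
theorem ffc_three_dvd_order_rho {g : ℍ → ℂ} (hg : MDiff g)
    (hST : ∀ z : ℍ, g ((S * T) • z) = g z) {n : ℕ}
    (hn : analyticOrderAt (g ∘ ofComplex) (RR.Ramanujan.rho : ℍ) = n) : 3 ∣ n := by
  set r : ℂ := ((RR.Ramanujan.rho : ℍ) : ℂ) with hrdef
  have hr0 : r ≠ 0 := UpperHalfPlane.ne_zero _
  have hδ : HasDerivAt (fun z : ℂ => (-(1 + z))⁻¹) (r⁻¹ : ℂ) r := by
    have h1 : HasDerivAt (fun z : ℂ => -(1 + z)) (-1 : ℂ) r :=
      ((hasDerivAt_id r).const_add 1).neg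
    have hne : -(1 + r) ≠ 0 := by
      intro h0
      have hsq := RR.Ramanujan.rho_add_one_sq
      rw [← hrdef] at hsq
      have : r + 1 = 0 := by linear_combination -h0
      rw [this] at hsq
      exact hr0 (by rw [← hsq]; norm_num)
    have h2 := h1.inv hne
    have h3 : (- -1 / (-(1 + r)) ^ 2 : ℂ) = r⁻¹ := by
      have hsq := RR.Ramanujan.rho_add_one_sq
      rw [← hrdef] at hsq
      have : (-(1 + r)) ^ 2 = r := by rw [neg_sq, add_comm]; exact hsq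
      rw [this, neg_neg, one_div]
    rw [h3] at h2
    exact h2
  have h := ffc_multiplier_pow_order hg (S * T) hST RR.Ramanujan.rho RR.Ramanujan.ST_smul_rho
    _ _ hδ (fun z => (ffc_coe_ST_smul z).symm) hn
  rw [inv_pow, inv_eq_one] at h
  exact ffc_three_dvd_of_rho_pow h

end Fermat.Agent.Lib.FF
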