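/-
S24, LEVEL 2 interface (architect: helper9): how `IfaceFibre` (see `Interface.lean`) is obtained
from
* the NORM TRICK (`IfaceNormTrick`, helper4 + helper6; pure algebra), and
* a FIBRE MODEL (`IsFibreModel`): a field `E` with an `SL₂(ℤ)`-action, an embedding
  `φ : F →+* E`, a valuation `w` on `E` (the order at the chosen point above the centre) and an
  element `g ∈ SL₂(ℤ)` fixing that point.  (helper5: `E`, the action, `w`; helper7: `φ`;
  helper1: injectivity of `q ↦ σ_q`; helper8: the order of `j - c`; helper3: T3 at `i`, `ρ`, `∞`.)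

The analytic assembly `ffi_fibre_of_model` is proved here.
-/
import Fermat.Agent.Lib.FF.Interface

set_option autoImplicit false

namespace Fermat.Agent.Lib.FF

open AlgebraicCurve ModularCurve IntermediateField Matrix.SpecialLinearGroup CongruenceSubgroup
open Fermat.Agent.Lib.RR (Q)
open scoped MatrixGroups
open WithZero

noncomputable section

/-- The (additive, `ℤ`-valued) order attached to a `ℤᵐ⁰`-valued valuation; same convention as the
Prelude's `Place.ord`. -/
def ffi_ord {E : Type*} [Field E] (w : Valuation E ℤᵐ⁰) (x : E) : ℤ := -(WithZero.log (w x))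

/-- The embedding `σ_q = (q.out • ·) ∘ φ` attached to the coset `q`. -/
def ffi_sigma (N : ℕ) {E : Type*} [Field E] [MulSemiringAction SL(2, ℤ) E]
    (φ : ffi_F N →+* E) (q : Q N) : ffi_F N →+* E :=
  (MulSemiringAction.toRingHom SL(2, ℤ) E q.out).comp φ

@[simp] theorem ffi_sigma_apply (N : ℕ) {E : Type*} [Field E] [MulSemiringAction SL(2, ℤ) E]
    (φ : ffi_F N →+* E) (q : Q N) (f : ffi_F N) : ffi_sigma N φ q f = q.out • φ f := rfl

/-- **T2, the norm trick, at the level of places** (helper4 + helper6).  Given `card X = [F : K(t)]`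
pairwise distinct embeddings `σ_x : F → E` agreeing on `K(t)` and a valuation `w` on `E`, trivial
on the constants, with `w (σ t) < 1`: every place `v` of `F` over `t = 0` is the valuation ring of
some `w ∘ σ_x`, and `ord (w ∘ σ_x) = m • v.ord`. -/
def IfaceNormTrick (K F : Type*) [Field K] [Field F] [Algebra K F] (t : F) : Prop :=
  ∀ (E : Type) [Field E] (X : Type) [Fintype X] (σ : X → F →+* E) (w : Valuation E ℤᵐ⁰),
    Function.Injective σ → Fintype.card X = Module.finrank K⟮t⟯ F →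
    (∀ x y, σ x t = σ y t) →
    (∀ x y (c : K), σ x (algebraMap K F c) = σ y (algebraMap K F c)) →
    (∀ x (c : K), c ≠ 0 → w (σ x (algebraMap K F c)) = 1) →
    (∀ x, w (σ x t) < 1) →
    ∀ v : Place K F, 0 < v.ord t →
      ∃ x, ∃ m : ℤ, 0 < m ∧ ∀ f, f ≠ 0 → ffi_ord w (σ x f) = m * v.ord f

/-- A fibre model for `t` (`= j - c` or `j⁻¹`): the point above the centre is fixed by `g`, the
local order of `t` there is at most `e₀`, and invariance under `g ^ k` forces `e₀ ∣ k * order`. -/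
structure IsFibreModel (N : ℕ) {E : Type} [Field E] [MulSemiringAction SL(2, ℤ) E]
    (φ : ffi_F N →+* E) (w : Valuation E ℤᵐ⁰) (g : SL(2, ℤ)) (e₀ : ℕ) (t : ffi_F N) : Prop where
  /-- elements of `F` are `Γ₀(N)`-invariant (helper7) -/
  inv : ∀ γ ∈ Gamma0 N, ∀ f : ffi_F N, γ • φ f = φ f
  /-- constants are `SL₂(ℤ)`-invariant (helper7) -/
  const_inv : ∀ (γ : SL(2, ℤ)) (c : ffi_K), γ • φ (algebraMap ffi_K (ffi_F N) c)
    = φ (algebraMap ffi_K (ffi_F N) c)
  /-- `t` is `SL₂(ℤ)`-invariant (helper7: `φ j = j_E`) -/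
  t_inv : ∀ γ : SL(2, ℤ), γ • φ t = φ t
  /-- the valuation is trivial on constants (helper5) -/
  w_const : ∀ c : ffi_K, c ≠ 0 → w (φ (algebraMap ffi_K (ffi_F N) c)) = 1
  /-- `g` fixes the point (helper5 equivariance + helper3) -/
  w_smul : ∀ x : E, w (g • x) = w x
  /-- `t` vanishes at the point ... -/
  t_lt : w (φ t) < 1
  /-- ... to order at most `e₀` (helper8 / helper3) -/
  t_ub : ffi_ord w (φ t) ≤ e₀
  /-- T3 (helper3 / helper4 / helper5) -/
  t3 : ∀ x : E, x ≠ 0 → ∀ k : ℕ, g ^ k • x = x → (e₀ : ℤ) ∣ k * ffi_ord w x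
  /-- the `σ_q` are pairwise distinct (helper1) -/
  inj : Function.Injective (ffi_sigma N φ)

section Assembly

variable {N : ℕ} [NeZero N] {E : Type} [Field E] [MulSemiringAction SL(2, ℤ) E]
  {φ : ffi_F N →+* E} {w : Valuation E ℤᵐ⁰} {g : SL(2, ℤ)} {e₀ : ℕ} {t : ffi_F N}

omit [NeZero N] in
/-- `σ_{γ • q} f = γ • σ_q f`. -/
theorem ffi_sigma_smul (hinv : ∀ γ ∈ Gamma0 N, ∀ f : ffi_F N, γ • φ f = φ f)
    (γ : SL(2, ℤ)) (q : Q N) (f : ffi_F N) :
    ffi_sigma N φ (γ • q) f = γ • ffi_sigma N φ q f := by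
  simp only [ffi_sigma_apply]
  have hq : γ • q = ((γ * q.out : SL(2, ℤ)) : Q N) := by
    conv_lhs => rw [← QuotientGroup.out_eq' q]
    rfl
  obtain ⟨h, hh⟩ := QuotientGroup.mk_out_eq_mul (Gamma0 N) (γ * q.out)
  rw [hq, hh, mul_smul, mul_smul, hinv _ h.2]

omit [NeZero N] in
/-- If `γ • q = q` then `σ_q f` is `γ`-invariant. -/
theorem ffi_smul_sigma_of_fixed (hinv : ∀ γ ∈ Gamma0 N, ∀ f : ffi_F N, γ • φ f = φ f)
    {γ : SL(2, ℤ)} {q : Q N} (hq : γ • q = q) (f : ffi_F N) :
    γ • ffi_sigma N φ q f = ffi_sigma N φ q f := by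
  rw [← ffi_sigma_smul hinv, hq]

omit [NeZero N] in
/-- `g ^ k` fixes `q`, where `k` is the size of the orbit of `q` under `⟨g⟩`. -/
theorem ffi_pow_card_orbit_smul (g : SL(2, ℤ)) (q : Q N)
    [Finite (MulAction.orbit (Subgroup.zpowers (MulAction.toPerm g : Equiv.Perm (Q N))) q)] :
    g ^ Nat.card (MulAction.orbit (Subgroup.zpowers (MulAction.toPerm g : Equiv.Perm (Q N))) q)
      • q = q := by
  classical
  have := Fintype.ofFinite
    (MulAction.orbit (Subgroup.zpowers (MulAction.toPerm g : Equiv.Perm (Q N))) q)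
  rw [Nat.card_eq_fintype_card, ← MulAction.minimalPeriod_eq_card]
  have h := Function.isPeriodicPt_minimalPeriod
    ((MulAction.toPerm g : Equiv.Perm (Q N)) • ·) q
  rw [Function.IsPeriodicPt, Function.IsFixedPt, smul_iterate] at h
  have h2 : ∀ n : ℕ, (MulAction.toPerm g : Equiv.Perm (Q N)) ^ n = MulAction.toPerm (g ^ n) := by
    intro n
    ext x
    rw [Equiv.Perm.coe_pow]
    exact congrFun (smul_iterate g n) x
  rw [h2] at h
  exact h

/-- **The analytic assembly**: a fibre model plus the norm trick give `IfaceFibre`. -/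
theorem ffi_fibre_of_model (hNT : IfaceNormTrick ffi_K (ffi_F N) t)
    (hdeg : Fintype.card (Q N) = Module.finrank (ffi_K)⟮t⟯ (ffi_F N))
    (hM : IsFibreModel N φ w g e₀ t) :
    IfaceFibre N t (MulAction.toPerm g) := by
  refine ⟨e₀, fun q f => ffi_ord w (ffi_sigma N φ q f), ?_, ?_, ?_, ?_⟩
  · -- invariance under δ
    intro q
    funext f
    show ffi_ord w (ffi_sigma N φ (g • q) f) = ffi_ord w (ffi_sigma N φ q f)
    rw [ffi_sigma_smul hM.inv, ffi_ord, ffi_ord, hM.w_smul]
  · -- upper bound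
    intro q
    show ffi_ord w (ffi_sigma N φ q t) ≤ e₀
    rw [ffi_sigma_apply, hM.t_inv]
    exact hM.t_ub
  · -- divisibility
    intro q f hf
    have hfix := ffi_pow_card_orbit_smul g q
    have hx : ffi_sigma N φ q f ≠ 0 := (map_ne_zero _).mpr hf
    exact hM.t3 _ hx _ (ffi_smul_sigma_of_fixed hM.inv hfix f)
  · -- surjectivity: the norm trick
    intro v hv
    refine hNT E (Q N) (ffi_sigma N φ) w hM.inj hdeg ?_ ?_ ?_ ?_ v hv
    · intro x y
      simp only [ffi_sigma_apply, hM.t_inv]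
    · intro x y c
      simp only [ffi_sigma_apply, hM.const_inv]
    · intro x c hc
      rw [ffi_sigma_apply, hM.const_inv]
      exact hM.w_const c hc
    · intro x
      rw [ffi_sigma_apply, hM.t_inv]
      exact hM.t_lt

end Assembly

end

end Fermat.Agent.Lib.FF
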