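/-
S24, WP A1 (analytic model), part 1: the ring `ffm_R N` of holomorphic `Γ(N)`-invariant functions
on the upper half plane of moderate growth at all cusps, its fraction field `ffm_E N`, and the
action of `SL(2, ℤ)` by `(γ • f) z = f (γ⁻¹ • z)`.
-/
import Mathlib

set_option autoImplicit false

namespace Fermat.Agent.Lib.FF

open UpperHalfPlane hiding I
open Filter Complex Real CongruenceSubgroup Matrix.SpecialLinearGroup
open scoped MatrixGroups Manifold Topology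

noncomputable section

def ffm_ModerateGrowth (f : ℍ → ℂ) : Prop :=
  ∃ M : ℕ, IsBoundedAtImInfty (fun z : ℍ => f z * cexp (2 * π * I * M * z))

theorem ffm_norm_cexp_le_one (M : ℕ) (z : ℍ) : ‖cexp (2 * π * I * M * z)‖ ≤ 1 := by
  rw [Complex.norm_exp]
  have : (2 * π * I * M * z : ℂ).re = -(2 * π * M * z.im) := by
    simp [mul_re, mul_im]
  rw [this, Real.exp_le_one_iff]
  have := z.im_pos
  have hπ := Real.pi_pos
  have hM : (0 : ℝ) ≤ M := Nat.cast_nonneg M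
  nlinarith [mul_nonneg (mul_nonneg (by positivity : (0:ℝ) ≤ 2 * π) hM) this.le]

theorem ffm_cexp_add (M k : ℕ) (z : ℍ) :
    cexp (2 * π * I * ((M + k : ℕ) : ℂ) * z) = cexp (2 * π * I * M * z) * cexp (2 * π * I * k * z) := by
  rw [← Complex.exp_add]; congr 1; push_cast; ring

theorem ffm_bdd_mono {f : ℍ → ℂ} {M M' : ℕ} (h : M ≤ M')
    (hf : IsBoundedAtImInfty (fun z : ℍ => f z * cexp (2 * π * I * M * z))) :
    IsBoundedAtImInfty (fun z : ℍ => f z * cexp (2 * π * I * M' * z)) := by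
  obtain ⟨k, rfl⟩ := Nat.exists_eq_add_of_le h
  rw [UpperHalfPlane.isBoundedAtImInfty_iff] at hf ⊢
  obtain ⟨C, A, hC⟩ := hf
  refine ⟨C, A, fun z hz => ?_⟩
  rw [ffm_cexp_add, ← mul_assoc, norm_mul]
  calc _ ≤ C * 1 := mul_le_mul (hC z hz) (ffm_norm_cexp_le_one k z) (norm_nonneg _)
        ((norm_nonneg _).trans (hC z hz))
    _ = C := mul_one C

theorem ffm_ModerateGrowth.add {f g : ℍ → ℂ} (hf : ffm_ModerateGrowth f)
    (hg : ffm_ModerateGrowth g) : ffm_ModerateGrowth (f + g) := by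
  obtain ⟨M, hM⟩ := hf
  obtain ⟨M', hM'⟩ := hg
  refine ⟨max M M', ?_⟩
  have h1 := ffm_bdd_mono (le_max_left M M') hM
  have h2 := ffm_bdd_mono (le_max_right M M') hM'
  have := h1.add h2
  refine this.congr' (Eventually.of_forall fun z => ?_) (EventuallyEq.refl _ _)
  simp [add_mul]

theorem ffm_ModerateGrowth.mul {f g : ℍ → ℂ} (hf : ffm_ModerateGrowth f)
    (hg : ffm_ModerateGrowth g) : ffm_ModerateGrowth (f * g) := by
  obtain ⟨M, hM⟩ := hf
  obtain ⟨M', hM'⟩ := hg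
  refine ⟨M + M', ?_⟩
  have := hM.mul hM'
  refine this.congr' (Eventually.of_forall fun z => ?_) (EventuallyEq.refl _ _)
  simp only [Pi.mul_apply]
  rw [ffm_cexp_add]; ring

theorem ffm_ModerateGrowth.const (c : ℂ) : ffm_ModerateGrowth (fun _ => c) := by
  refine ⟨0, ?_⟩
  rw [UpperHalfPlane.isBoundedAtImInfty_iff]
  exact ⟨‖c‖, 0, fun z _ => by simp⟩

/-- The defining predicate of the ring `ffm_R N`. -/
structure ffm_IsWH (N : ℕ) (f : ℍ → ℂ) : Prop where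
  mdiff : MDiff f
  inv : ∀ γ ∈ CongruenceSubgroup.Gamma N, ∀ z : ℍ, f (γ • z) = f z
  growth : ∀ γ : SL(2, ℤ), ffm_ModerateGrowth (fun z : ℍ => f (γ • z))

def ffm_R (N : ℕ) : Subalgebra ℂ (ℍ → ℂ) where
  carrier := {f | ffm_IsWH N f}
  mul_mem' := by
    intro f g hf hg
    exact ⟨hf.mdiff.mul hg.mdiff, fun γ hγ z => by
        show f (γ • z) * g (γ • z) = f z * g z
        rw [hf.inv γ hγ z, hg.inv γ hγ z],
      fun γ => (hf.growth γ).mul (hg.growth γ)⟩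
  add_mem' := by
    intro f g hf hg
    exact ⟨hf.mdiff.add hg.mdiff, fun γ hγ z => by
        show f (γ • z) + g (γ • z) = f z + g z
        rw [hf.inv γ hγ z, hg.inv γ hγ z],
      fun γ => (hf.growth γ).add (hg.growth γ)⟩
  algebraMap_mem' := by
    intro c
    exact ⟨mdifferentiable_const, fun γ hγ z => rfl, fun γ => ffm_ModerateGrowth.const c⟩

theorem ffm_mem_R_iff {N : ℕ} {f : ℍ → ℂ} : f ∈ ffm_R N ↔ ffm_IsWH N f := Iff.rfl

theorem ffm_R_mdiff {N : ℕ} (f : ffm_R N) : MDiff (f : ℍ → ℂ) := f.2.mdiff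

instance ffm_R_isDomain (N : ℕ) : IsDomain (ffm_R N) := by
  have : NoZeroDivisors (ffm_R N) := ⟨by
    intro f g h
    have h' : (f : ℍ → ℂ) * (g : ℍ → ℂ) = 0 := by
      have := congrArg Subtype.val h
      simpa using this
    rcases (UpperHalfPlane.mul_eq_zero_iff f.2.mdiff g.2.mdiff).mp h' with h0 | h0
    · exact Or.inl (Subtype.ext h0)
    · exact Or.inr (Subtype.ext h0)⟩
  have : Nontrivial (ffm_R N) := ⟨⟨0, 1, fun h => by
    have := congrFun (congrArg Subtype.val h) UpperHalfPlane.I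
    simp at this⟩⟩
  exact NoZeroDivisors.to_isDomain _

/-- The fraction field of `ffm_R N`: the field in which all analytic embeddings live. -/
abbrev ffm_E (N : ℕ) : Type := FractionRing (ffm_R N)

/-- The translate `z ↦ f (γ⁻¹ • z)` -/
theorem ffm_IsWH.smul {N : ℕ} {f : ℍ → ℂ} (hf : ffm_IsWH N f) (γ : SL(2, ℤ)) :
    ffm_IsWH N (fun z => f (γ⁻¹ • z)) := by
  refine ⟨?_, ?_, ?_⟩
  · have : MDiff (fun τ : ℍ => ((γ⁻¹ : SL(2, ℤ)) : GL (Fin 2) ℝ) • τ) :=
      UpperHalfPlane.mdifferentiable_smul (by simp)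
    exact hf.mdiff.comp this
  · intro δ hδ z
    have hnorm : γ⁻¹ * δ * γ ∈ CongruenceSubgroup.Gamma N := by
      have := (CongruenceSubgroup.Gamma_normal N).conj_mem δ hδ γ⁻¹
      simpa using this
    show f (γ⁻¹ • δ • z) = f (γ⁻¹ • z)
    have : γ⁻¹ • δ • z = (γ⁻¹ * δ * γ) • (γ⁻¹ • z) := by
      simp [mul_smul]
    rw [this, hf.inv _ hnorm]
  · intro δ
    have := hf.growth (γ⁻¹ * δ)
    simpa [mul_smul] using this


instance ffm_R_smul (N : ℕ) : SMul SL(2, ℤ) (ffm_R N) :=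
  ⟨fun γ f => ⟨fun z => (f : ℍ → ℂ) (γ⁻¹ • z), f.2.smul γ⟩⟩

@[simp] theorem ffm_smul_apply {N : ℕ} (γ : SL(2, ℤ)) (f : ffm_R N) (z : ℍ) :
    ((γ • f : ffm_R N) : ℍ → ℂ) z = (f : ℍ → ℂ) (γ⁻¹ • z) := rfl

instance ffm_R_mulSemiringAction (N : ℕ) : MulSemiringAction SL(2, ℤ) (ffm_R N) where
  one_smul f := by
    ext z; simp
  mul_smul γ δ f := by
    ext z; simp [mul_smul]
  smul_zero γ := by
    ext z; simp
  smul_add γ f g := by
    ext z; simp
  smul_one γ := by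
    ext z; simp
  smul_mul γ f g := by
    ext z; simp

instance ffm_R_smulCommClass (N : ℕ) : SMulCommClass SL(2, ℤ) ℂ (ffm_R N) :=
  ⟨fun γ c f => by ext z; simp⟩

theorem ffm_smul_algebraMap_C {N : ℕ} (γ : SL(2, ℤ)) (c : ℂ) :
    γ • (algebraMap ℂ (ffm_R N) c) = algebraMap ℂ (ffm_R N) c := by
  ext z; rfl

instance ffm_E_mulSemiringAction (N : ℕ) : MulSemiringAction SL(2, ℤ) (ffm_E N) :=
  IsFractionRing.mulSemiringAction SL(2, ℤ) (ffm_R N) (ffm_E N)

instance ffm_E_smulDistribClass (N : ℕ) : SMulDistribClass SL(2, ℤ) (ffm_R N) (ffm_E N) :=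
  IsFractionRing.smulDistribClass SL(2, ℤ) (ffm_R N) (ffm_E N)

theorem ffm_smul_algebraMap {N : ℕ} (γ : SL(2, ℤ)) (f : ffm_R N) :
    γ • (algebraMap (ffm_R N) (ffm_E N) f) = algebraMap (ffm_R N) (ffm_E N) (γ • f) :=
  (algebraMap.coe_smul' γ f (ffm_E N)).symm

instance ffm_E_smulCommClass (N : ℕ) : SMulCommClass SL(2, ℤ) ℂ (ffm_E N) :=
  ⟨fun γ c x => by
    rw [Algebra.smul_def, Algebra.smul_def, smul_mul', IsScalarTower.algebraMap_apply ℂ (ffm_R N) (ffm_E N),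
      ffm_smul_algebraMap, ffm_smul_algebraMap_C]⟩

theorem ffm_algebraMap_injective (N : ℕ) :
    Function.Injective (algebraMap (ffm_R N) (ffm_E N)) :=
  IsFractionRing.injective _ _

/-- Constructor for elements of `ffm_R N`. -/
def ffm_mk {N : ℕ} (f : ℍ → ℂ) (hf : ffm_IsWH N f) : ffm_R N := ⟨f, hf⟩

@[simp] theorem ffm_mk_coe {N : ℕ} (f : ℍ → ℂ) (hf : ffm_IsWH N f) :
    ((ffm_mk f hf : ffm_R N) : ℍ → ℂ) = f := rfl

end

end Fermat.Agent.Lib.FF
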