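/-
S24, WP A1 (analytic model), part 2: the valuations `ffm_ordAt N τ` (order at a point `τ ∈ ℍ`) and
`ffm_ordInf N` (order at `i∞` in the parameter `q_N = exp(2πiz/N)`) on the field `ffm_E N`.
-/
import Fermat.Agent.Lib.FF.Model

set_option autoImplicit false

namespace Fermat.Agent.Lib.FF

open UpperHalfPlane hiding I
open Filter Matrix.SpecialLinearGroup
open scoped MatrixGroups Manifold Topology WithZero

noncomputable section

/-! ### From orders to `ℤᵐ⁰`-valued valuations -/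

/-- `n ↦ exp (-n)`, `⊤ ↦ 0`. -/
def ffm_ordToVal : WithTop ℤ → ℤᵐ⁰
  | ⊤ => 0
  | (n : ℤ) => WithZero.exp (-n)

@[simp] theorem ffm_ordToVal_top : ffm_ordToVal ⊤ = 0 := rfl

@[simp] theorem ffm_ordToVal_coe (n : ℤ) : ffm_ordToVal (n : WithTop ℤ) = WithZero.exp (-n) := rfl

theorem ffm_ordToVal_zero : ffm_ordToVal 0 = 1 := by
  have : (0 : WithTop ℤ) = ((0 : ℤ) : WithTop ℤ) := rfl
  rw [this, ffm_ordToVal_coe, neg_zero, WithZero.exp_zero]

theorem ffm_ordToVal_add (a b : WithTop ℤ) :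
    ffm_ordToVal (a + b) = ffm_ordToVal a * ffm_ordToVal b := by
  induction a using WithTop.recTopCoe with
  | top => simp
  | coe a =>
    induction b using WithTop.recTopCoe with
    | top => simp
    | coe b =>
      rw [← WithTop.coe_add]
      simp only [ffm_ordToVal_coe, neg_add, WithZero.exp_add]

theorem ffm_ordToVal_eq_zero {a : WithTop ℤ} : ffm_ordToVal a = 0 ↔ a = ⊤ := by
  induction a using WithTop.recTopCoe with
  | top => simp
  | coe a => simp

theorem ffm_ordToVal_anti {a b : WithTop ℤ} (h : a ≤ b) : ffm_ordToVal b ≤ ffm_ordToVal a := by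
  induction b using WithTop.recTopCoe with
  | top => simp
  | coe b =>
    induction a using WithTop.recTopCoe with
    | top => simp at h
    | coe a =>
      have h' : a ≤ b := by exact_mod_cast h
      simp only [ffm_ordToVal_coe]
      rw [WithZero.exp_le_exp]
      omega

theorem ffm_ordToVal_le_max {a b c : WithTop ℤ} (h : min a b ≤ c) :
    ffm_ordToVal c ≤ max (ffm_ordToVal a) (ffm_ordToVal b) := by
  rcases le_total a b with hab | hab
  · rw [min_eq_left hab] at h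
    exact (ffm_ordToVal_anti h).trans (le_max_left _ _)
  · rw [min_eq_right hab] at h
    exact (ffm_ordToVal_anti h).trans (le_max_right _ _)

theorem ffm_log_ordToVal (n : ℤ) : WithZero.log (ffm_ordToVal (n : WithTop ℤ)) = -n := by
  simp

/-- A valuation on a ring from a "germ map" into functions meromorphic at a point. -/
def ffm_valOfGerm {R : Type*} [CommRing R] (Φ : R → ℂ → ℂ) (x : ℂ)
    (hmer : ∀ f, MeromorphicAt (Φ f) x)
    (hzero : Φ 0 =ᶠ[𝓝[≠] x] 0)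
    (hone : Φ 1 =ᶠ[𝓝[≠] x] 1)
    (hmul : ∀ f g, Φ (f * g) =ᶠ[𝓝[≠] x] Φ f * Φ g)
    (hadd : ∀ f g, Φ (f + g) =ᶠ[𝓝[≠] x] Φ f + Φ g) : Valuation R ℤᵐ⁰ where
  toFun f := ffm_ordToVal (meromorphicOrderAt (Φ f) x)
  map_zero' := by
    rw [ffm_ordToVal_eq_zero, meromorphicOrderAt_eq_top_iff]
    exact hzero
  map_one' := by
    rw [meromorphicOrderAt_congr hone]
    have : meromorphicOrderAt (1 : ℂ → ℂ) x = 0 := by
      have h := meromorphicOrderAt_const x (1 : ℂ)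
      simp at h
      exact h
    rw [this, ffm_ordToVal_zero]
  map_mul' f g := by
    rw [meromorphicOrderAt_congr (hmul f g), meromorphicOrderAt_mul (hmer f) (hmer g),
      ffm_ordToVal_add]
  map_add_le_max' f g := by
    rw [meromorphicOrderAt_congr (hadd f g)]
    exact ffm_ordToVal_le_max (meromorphicOrderAt_add (hmer f) (hmer g))

theorem ffm_valOfGerm_apply {R : Type*} [CommRing R] (Φ : R → ℂ → ℂ) (x : ℂ)
    (hmer : ∀ f, MeromorphicAt (Φ f) x)
    (hzero : Φ 0 =ᶠ[𝓝[≠] x] 0)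
    (hone : Φ 1 =ᶠ[𝓝[≠] x] 1)
    (hmul : ∀ f g, Φ (f * g) =ᶠ[𝓝[≠] x] Φ f * Φ g)
    (hadd : ∀ f g, Φ (f + g) =ᶠ[𝓝[≠] x] Φ f + Φ g) (f : R) :
    ffm_valOfGerm Φ x hmer hzero hone hmul hadd f = ffm_ordToVal (meromorphicOrderAt (Φ f) x) :=
  rfl

/-! ### The order at a point `τ ∈ ℍ` -/

theorem ffm_det_pos (γ : SL(2, ℤ)) : 0 < ((γ : SL(2, ℤ)) : GL (Fin 2) ℝ).val.det := by
  have h := Matrix.SpecialLinearGroup.det_coe (Matrix.SpecialLinearGroup.map (Int.castRingHom ℝ) γ)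
  simp only [Matrix.SpecialLinearGroup.coe_GL_coe_matrix]
  rw [h]; exact one_pos

theorem ffm_analyticAt_comp_ofComplex {f : ℍ → ℂ} (hf : MDiff f) (τ : ℍ) :
    AnalyticAt ℂ (f ∘ ofComplex) (τ : ℂ) :=
  DifferentiableOn.analyticAt (UpperHalfPlane.mdifferentiable_iff.mp hf)
    (isOpen_upperHalfPlaneSet.mem_nhds τ.im_pos)

/-- The germ at `τ` of an element of `ffm_R N`, as a function on `ℂ`. -/
def ffm_germAt (N : ℕ) (f : ffm_R N) : ℂ → ℂ := (f : ℍ → ℂ) ∘ ofComplex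

theorem ffm_germAt_analyticAt (N : ℕ) (f : ffm_R N) (τ : ℍ) :
    AnalyticAt ℂ (ffm_germAt N f) (τ : ℂ) :=
  ffm_analyticAt_comp_ofComplex f.2.mdiff τ

/-- The order-at-`τ` valuation on the ring `ffm_R N`. -/
def ffm_ordAtR (N : ℕ) (τ : ℍ) : Valuation (ffm_R N) ℤᵐ⁰ :=
  ffm_valOfGerm (ffm_germAt N) (τ : ℂ)
    (fun f => (ffm_germAt_analyticAt N f τ).meromorphicAt)
    (Eventually.of_forall fun _ => rfl)
    (Eventually.of_forall fun _ => rfl)
    (fun _ _ => Eventually.of_forall fun _ => rfl)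
    (fun _ _ => Eventually.of_forall fun _ => rfl)

theorem ffm_ordAtR_apply (N : ℕ) (τ : ℍ) (f : ffm_R N) :
    ffm_ordAtR N τ f = ffm_ordToVal (meromorphicOrderAt (ffm_germAt N f) (τ : ℂ)) := rfl

theorem ffm_ordAtR_eq_zero_iff (N : ℕ) (τ : ℍ) (f : ffm_R N) : ffm_ordAtR N τ f = 0 ↔ f = 0 := by
  constructor
  · intro h
    rw [ffm_ordAtR_apply, ffm_ordToVal_eq_zero, meromorphicOrderAt_eq_top_iff] at h
    apply Subtype.ext
    apply UpperHalfPlane.eq_zero_of_frequently (τ := τ) f.2.mdiff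
    apply Eventually.frequently
    rw [eventually_nhdsWithin_iff] at h ⊢
    rw [← isOpenEmbedding_coe.map_nhds_eq, eventually_map] at h
    filter_upwards [h] with a ha hne
    have := ha (fun h => hne (UpperHalfPlane.ext h))
    simpa [ffm_germAt] using this
  · rintro rfl
    exact map_zero _

theorem ffm_nonZeroDivisors_le_ordAtR (N : ℕ) (τ : ℍ) :
    nonZeroDivisors (ffm_R N) ≤ (ffm_ordAtR N τ).supp.primeCompl := by
  intro s hs
  show s ∉ (ffm_ordAtR N τ).supp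
  rw [Valuation.mem_supp_iff, ffm_ordAtR_eq_zero_iff]
  exact nonZeroDivisors.ne_zero hs

/-- The order-at-`τ` valuation on the field `ffm_E N`. -/
def ffm_ordAt (N : ℕ) (τ : ℍ) : Valuation (ffm_E N) ℤᵐ⁰ :=
  (ffm_ordAtR N τ).extendToLocalization (ffm_nonZeroDivisors_le_ordAtR N τ) (ffm_E N)

theorem ffm_ordAt_algebraMap (N : ℕ) (τ : ℍ) (f : ffm_R N) :
    ffm_ordAt N τ (algebraMap (ffm_R N) (ffm_E N) f) =
      ffm_ordToVal (meromorphicOrderAt (ffm_germAt N f) (τ : ℂ)) :=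
  Valuation.extendToLocalization_apply_map_apply _ _ _ f

theorem ffm_ordAt_algebraMap_eq_analyticOrderAt (N : ℕ) (τ : ℍ) (f : ffm_R N) :
    ffm_ordAt N τ (algebraMap (ffm_R N) (ffm_E N) f) =
      ffm_ordToVal ((analyticOrderAt (ffm_germAt N f) (τ : ℂ)).map (↑)) := by
  rw [ffm_ordAt_algebraMap, (ffm_germAt_analyticAt N f τ).meromorphicOrderAt_eq]

theorem ffm_ordAt_algebraMap_le_one (N : ℕ) (τ : ℍ) (f : ffm_R N) :
    ffm_ordAt N τ (algebraMap (ffm_R N) (ffm_E N) f) ≤ 1 := by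
  rw [ffm_ordAt_algebraMap, ← ffm_ordToVal_zero]
  apply ffm_ordToVal_anti
  exact (ffm_germAt_analyticAt N f τ).meromorphicOrderAt_nonneg

/-- Value one at a function not vanishing at `τ`. -/
theorem ffm_ordAt_algebraMap_eq_one (N : ℕ) (τ : ℍ) (f : ffm_R N) (h : (f : ℍ → ℂ) τ ≠ 0) :
    ffm_ordAt N τ (algebraMap (ffm_R N) (ffm_E N) f) = 1 := by
  rw [ffm_ordAt_algebraMap_eq_analyticOrderAt]
  have : analyticOrderAt (ffm_germAt N f) (τ : ℂ) = 0 := by
    rw [(ffm_germAt_analyticAt N f τ).analyticOrderAt_eq_zero]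
    simpa [ffm_germAt] using h
  rw [this]
  exact ffm_ordToVal_zero

/-- Value `< 1` at a function vanishing at `τ`. -/
theorem ffm_ordAt_algebraMap_lt_one (N : ℕ) (τ : ℍ) (f : ffm_R N) (h : (f : ℍ → ℂ) τ = 0) :
    ffm_ordAt N τ (algebraMap (ffm_R N) (ffm_E N) f) < 1 := by
  refine lt_of_le_of_ne (ffm_ordAt_algebraMap_le_one N τ f) fun h1 => ?_
  rw [ffm_ordAt_algebraMap_eq_analyticOrderAt] at h1
  by_cases hf : f = 0
  · subst hf
    have : ffm_ordAt N τ (algebraMap (ffm_R N) (ffm_E N) 0) = 0 := by simp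
    rw [ffm_ordAt_algebraMap_eq_analyticOrderAt] at this
    rw [this] at h1
    exact zero_ne_one h1
  · have hne : analyticOrderAt (ffm_germAt N f) (τ : ℂ) ≠ 0 := by
      rw [Ne, (ffm_germAt_analyticAt N f τ).analyticOrderAt_eq_zero, not_not]
      simpa [ffm_germAt] using h
    cases hn : analyticOrderAt (ffm_germAt N f) (τ : ℂ) with
    | top => rw [hn] at h1; simp at h1
    | coe n =>
      rw [hn] at h1 hne
      have hn0 : n ≠ 0 := by exact_mod_cast hne
      have : ffm_ordToVal ((n : ℕ∞).map (↑)) = WithZero.exp (-(n : ℤ)) := rfl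
      rw [this, ← WithZero.exp_zero, WithZero.exp_inj] at h1
      omega

theorem ffm_ordAt_const (N : ℕ) (τ : ℍ) {c : ℂ} (hc : c ≠ 0) :
    ffm_ordAt N τ (algebraMap ℂ (ffm_E N) c) = 1 := by
  rw [IsScalarTower.algebraMap_apply ℂ (ffm_R N) (ffm_E N)]
  exact ffm_ordAt_algebraMap_eq_one N τ _ hc

/-- Equivariance: the order of `γ • x` at `τ` is the order of `x` at `γ⁻¹ • τ`. -/
theorem ffm_ordAt_smul (N : ℕ) (τ : ℍ) (γ : SL(2, ℤ)) (x : ffm_E N) :
    ffm_ordAt N τ (γ • x) = ffm_ordAt N (γ⁻¹ • τ) x := by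
  obtain ⟨a, b, hb, rfl⟩ := IsFractionRing.div_surjective (A := ffm_R N) x
  have key : ∀ f : ffm_R N, ffm_ordAt N τ (γ • algebraMap (ffm_R N) (ffm_E N) f) =
      ffm_ordAt N (γ⁻¹ • τ) (algebraMap (ffm_R N) (ffm_E N) f) := by
    intro f
    rw [ffm_smul_algebraMap, ffm_ordAt_algebraMap, ffm_ordAt_algebraMap]
    congr 1
    have hdet : 0 < ((γ⁻¹ : SL(2, ℤ)) : GL (Fin 2) ℝ).val.det := ffm_det_pos γ⁻¹
    have := UpperHalfPlane.meromorphicOrderAt_comp_smul (f := (f : ℍ → ℂ)) (τ := τ) hdet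
    exact this
  rw [smul_div₀', map_div₀, map_div₀, key, key]

end

end Fermat.Agent.Lib.FF
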