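/-
S24 (architect: helper9): the fibre models (`IsFibreModel`, see `InterfaceModel.lean`) at the FINITE
points, for the concrete analytic model `ffm_E N` (helper5), the order valuations `ffm_ordAt N τ`
(helper5), the local orders of `j` (helper8) and the elliptic divisibility lemmas (helper3), given
the bridge properties `IsBridge` of `φ` (helper7, helper1).
-/
import Fermat.Agent.Lib.FF.InterfaceModel
import Fermat.Agent.Lib.FF.ModelVal
import Fermat.Agent.Lib.FF.JAnalytic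
import Fermat.Agent.Lib.FF.CuspsElliptic

set_option autoImplicit false

namespace Fermat.Agent.Lib.FF

open AlgebraicCurve ModularCurve IntermediateField Matrix.SpecialLinearGroup CongruenceSubgroup
open UpperHalfPlane hiding I
open ModularGroup
open Fermat.Agent.Lib.RR (Q E4 E6 Dl div_ord)
open scoped MatrixGroups Manifold
open WithZero

noncomputable section

/-- The properties of the bridge `φ : F → ffm_E N` (helper7) and of the embeddings `σ_q`
(helper1) used by the fibre models. -/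
structure IsBridge (N : ℕ) (ι : ffi_K →+* ℂ) (φ : ffi_F N →+* ffm_E N) : Prop where
  inv : ∀ γ ∈ Gamma0 N, ∀ f : ffi_F N, γ • φ f = φ f
  map_const : ∀ c : ffi_K, φ (algebraMap ffi_K (ffi_F N) c) = algebraMap ℂ (ffm_E N) (ι c)
  map_j : ∃ hj : ffm_IsWH N ffj_j,
    φ (ffd_jBar N) = algebraMap (ffm_R N) (ffm_E N) ⟨ffj_j, hj⟩
  inj : Function.Injective (ffi_sigma N φ)

/-! ### Orders -/

theorem ffi_ord_mul {E : Type*} [Field E] (w : Valuation E ℤᵐ⁰) {x y : E} (hx : x ≠ 0)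
    (hy : y ≠ 0) : ffi_ord w (x * y) = ffi_ord w x + ffi_ord w y := by
  unfold ffi_ord
  rw [map_mul, WithZero.log_mul ((Valuation.ne_zero_iff _).mpr hx)
    ((Valuation.ne_zero_iff _).mpr hy)]
  ring

/-- The order of (the class of) `f ∈ ffm_R N` at `τ` is the analytic order. -/
theorem ffi_ord_ordAt_algebraMap {N : ℕ} (τ : ℍ) (f : ffm_R N) {n : ℕ}
    (hn : analyticOrderAt ((f : ℍ → ℂ) ∘ ofComplex) (τ : ℂ) = n) :
    ffi_ord (ffm_ordAt N τ) (algebraMap (ffm_R N) (ffm_E N) f) = n := by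
  unfold ffi_ord
  rw [ffm_ordAt_algebraMap_eq_analyticOrderAt]
  have : analyticOrderAt (ffm_germAt N f) (τ : ℂ) = n := hn
  rw [this]
  have h2 : ((n : ℕ∞).map (Nat.cast : ℕ → ℤ)) = ((n : ℤ) : WithTop ℤ) := rfl
  rw [h2, ffm_log_ordToVal]
  ring

/-! ### Reduction of T3 from `E = Frac R` to `R` -/

/-- If `h ^ m` acts trivially on `R` and every nonzero `h`-invariant element of `R` has order
divisible by `e`, then so has every nonzero `h`-invariant element of `E = Frac R`. -/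
theorem ffi_dvd_ord_of_fixed {N : ℕ} (w : Valuation (ffm_E N) ℤᵐ⁰) (h : SL(2, ℤ)) (m : ℕ)
    (hhm : ∀ f : ffm_R N, h ^ (m + 1) • f = f) (e : ℤ)
    (hR : ∀ f : ffm_R N, f ≠ 0 → h • f = f →
      e ∣ ffi_ord w (algebraMap (ffm_R N) (ffm_E N) f))
    (x : ffm_E N) (hx : x ≠ 0) (hhx : h • x = x) : e ∣ ffi_ord w x := by
  obtain ⟨a, b, hb, rfl⟩ := IsFractionRing.div_surjective (A := ffm_R N) x
  have hb0 : b ≠ 0 := nonZeroDivisors.ne_zero hb
  have ha0 : a ≠ 0 := by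
    rintro rfl
    simp at hx
  -- the `h`-norm of `b`
  set P' : ffm_R N := ∏ i ∈ Finset.range m, h ^ (i + 1) • b with hP'
  set P : ffm_R N := ∏ i ∈ Finset.range (m + 1), h ^ i • b with hP
  have hPP' : P = P' * b := by
    rw [hP, Finset.prod_range_succ', pow_zero, one_smul]
  have hsmul_ne : ∀ i : ℕ, h ^ i • b ≠ 0 := fun i => by
    rw [Ne, smul_eq_zero_iff_eq]; exact hb0
  have hP'0 : P' ≠ 0 := Finset.prod_ne_zero_iff.mpr fun i _ => hsmul_ne _
  have hP0 : P ≠ 0 := Finset.prod_ne_zero_iff.mpr fun i _ => hsmul_ne _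
  have hhP : h • P = P := by
    have h1 : h • P = ∏ i ∈ Finset.range (m + 1), h ^ (i + 1) • b := by
      rw [hP, Finset.smul_prod']
      refine Finset.prod_congr rfl fun i _ => ?_
      rw [← mul_smul, ← pow_succ']
    rw [h1, Finset.prod_range_succ, hhm, hPP']
  -- the numerator
  set a' : ffm_R N := a * P' with ha'
  have ha'0 : a' ≠ 0 := mul_ne_zero ha0 hP'0
  have hkey : algebraMap (ffm_R N) (ffm_E N) a / algebraMap (ffm_R N) (ffm_E N) b *
      algebraMap (ffm_R N) (ffm_E N) P = algebraMap (ffm_R N) (ffm_E N) a' := by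
    have hbE : algebraMap (ffm_R N) (ffm_E N) b ≠ 0 := by
      rw [Ne, map_eq_zero_iff _ (ffm_algebraMap_injective N)]; exact hb0
    rw [hPP', ha', map_mul, map_mul]
    field_simp
  have hha' : h • a' = a' := by
    apply ffm_algebraMap_injective N
    rw [← ffm_smul_algebraMap, ← hkey, smul_mul', hhx, ffm_smul_algebraMap, hhP]
  have hPE : algebraMap (ffm_R N) (ffm_E N) P ≠ 0 := by
    rw [Ne, map_eq_zero_iff _ (ffm_algebraMap_injective N)]; exact hP0
  have hord : ffi_ord w (algebraMap (ffm_R N) (ffm_E N) a') =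
      ffi_ord w (algebraMap (ffm_R N) (ffm_E N) a / algebraMap (ffm_R N) (ffm_E N) b) +
        ffi_ord w (algebraMap (ffm_R N) (ffm_E N) P) := by
    rw [← hkey, ffi_ord_mul w hx hPE]
  have h1 := hR a' ha'0 hha'
  have h2 := hR P hP0 hhP
  rw [hord] at h1
  exact (Int.dvd_add_left h2).mp h1

/-! ### The fibre model at a point of `ℍ` -/

/-- The function `j - ι c` as an element of `ffm_R N`. -/
def ffi_jSub (N : ℕ) (hj : ffm_IsWH N ffj_j) (a : ℂ) : ffm_R N :=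
  (⟨ffj_j, hj⟩ : ffm_R N) - algebraMap ℂ (ffm_R N) a

theorem ffi_jSub_apply (N : ℕ) (hj : ffm_IsWH N ffj_j) (a : ℂ) (z : ℍ) :
    (ffi_jSub N hj a : ℍ → ℂ) z = ffj_j z - a := rfl

theorem ffi_smul_jSub (N : ℕ) (hj : ffm_IsWH N ffj_j) (a : ℂ) (γ : SL(2, ℤ)) :
    γ • ffi_jSub N hj a = ffi_jSub N hj a := by
  apply Subtype.ext
  funext z
  rw [ffm_smul_apply, ffi_jSub_apply, ffi_jSub_apply, ffj_smul]

theorem ffi_phi_jSub {N : ℕ} {ι : ffi_K →+* ℂ} {φ : ffi_F N →+* ffm_E N}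
    (hB : IsBridge N ι φ) (hj : ffm_IsWH N ffj_j) (c : ffi_K) :
    φ (ffd_jBar N - algebraMap ffi_K (ffi_F N) c) =
      algebraMap (ffm_R N) (ffm_E N) (ffi_jSub N hj (ι c)) := by
  obtain ⟨hj', hφj⟩ := hB.map_j
  rw [φ.map_sub, hφj, hB.map_const, ffi_jSub, (algebraMap (ffm_R N) (ffm_E N)).map_sub,
    ← IsScalarTower.algebraMap_apply ℂ (ffm_R N) (ffm_E N)]

/-- The fibre model at `τ₀ ∈ ℍ` over `c = j(τ₀)`, from the local order of `j - c` and T3. -/
theorem ffi_model_finite {N : ℕ} {ι : ffi_K →+* ℂ} {φ : ffi_F N →+* ffm_E N}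
    (hB : IsBridge N ι φ) (τ₀ : ℍ) (g : SL(2, ℤ)) (hg : g • τ₀ = τ₀) (c : ffi_K)
    (hc : ffj_j τ₀ = ι c) (e₀ : ℕ)
    (hord : div_ord (fun z => ffj_j z - ffj_j τ₀) τ₀ = e₀)
    (ht3 : ∀ x : ffm_E N, x ≠ 0 → ∀ k : ℕ, g ^ k • x = x →
      (e₀ : ℤ) ∣ k * ffi_ord (ffm_ordAt N τ₀) x) :
    IsFibreModel N φ (ffm_ordAt N τ₀) g e₀ (ffd_jBar N - algebraMap ffi_K (ffi_F N) c) := by
  obtain ⟨hj, -⟩ := hB.map_j
  have hφt := ffi_phi_jSub hB hj c
  have hfun : ((ffi_jSub N hj (ι c) : ffm_R N) : ℍ → ℂ) = fun z => ffj_j z - ffj_j τ₀ := by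
    funext z
    rw [ffi_jSub_apply, hc]
  refine
    { inv := hB.inv
      const_inv := ?_
      t_inv := ?_
      w_const := ?_
      w_smul := ?_
      t_lt := ?_
      t_ub := ?_
      t3 := ht3
      inj := hB.inj }
  · intro γ a
    rw [hB.map_const, smul_algebraMap]
  · intro γ
    rw [hφt, ffm_smul_algebraMap, ffi_smul_jSub]
  · intro a ha
    rw [hB.map_const]
    exact ffm_ordAt_const N τ₀ ((map_ne_zero ι).mpr ha)
  · intro x
    rw [ffm_ordAt_smul]
    have : g⁻¹ • τ₀ = τ₀ := by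
      conv_lhs => rw [← hg]
      rw [inv_smul_smul]
    rw [this]
  · rw [hφt]
    refine ffm_ordAt_algebraMap_lt_one N τ₀ _ ?_
    rw [ffi_jSub_apply, hc, sub_self]
  · rw [hφt]
    refine le_of_eq (ffi_ord_ordAt_algebraMap τ₀ _ ?_)
    rw [hfun]
    exact hord

/-! ### T3 for an element of prime order -/

/-- If `γ` acts trivially on `R`, it acts trivially on `E`. -/
theorem ffi_smul_eq_self_of_R {N : ℕ} (γ : SL(2, ℤ)) (h : ∀ f : ffm_R N, γ • f = f)
    (x : ffm_E N) : γ • x = x := by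
  obtain ⟨a, b, -, rfl⟩ := IsFractionRing.div_surjective (A := ffm_R N) x
  rw [smul_div₀', ffm_smul_algebraMap, ffm_smul_algebraMap, h, h]

/-- `-1` acts trivially on `R`. -/
theorem ffi_neg_one_smul {N : ℕ} (f : ffm_R N) : (-1 : SL(2, ℤ)) • f = f := by
  apply Subtype.ext
  funext z
  rw [ffm_smul_apply]
  have : ((-1 : SL(2, ℤ))⁻¹ • z : ℍ) = z := by
    rw [inv_neg, inv_one, ModularGroup.SL_neg_smul, one_smul]
  rw [this]

/-- T3 for `g` of prime order `p` on `E`: from divisibility of the order of the invariant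
elements of `R`. -/
theorem ffi_t3_of_prime {N : ℕ} (w : Valuation (ffm_E N) ℤᵐ⁰) (g : SL(2, ℤ)) {p : ℕ}
    (hp : p.Prime) (hgp : ∀ f : ffm_R N, g ^ p • f = f)
    (hR : ∀ f : ffm_R N, f ≠ 0 → g • f = f →
      (p : ℤ) ∣ ffi_ord w (algebraMap (ffm_R N) (ffm_E N) f))
    (x : ffm_E N) (hx : x ≠ 0) (k : ℕ) (hk : g ^ k • x = x) :
    (p : ℤ) ∣ k * ffi_ord w x := by
  by_cases hpk : p ∣ k
  · exact Dvd.dvd.mul_right (by exact_mod_cast hpk) _
  · have h1 : MulAction.period g x ∣ k := MulAction.pow_smul_eq_iff_period_dvd.mp hk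
    have h2 : MulAction.period g x ∣ p :=
      MulAction.pow_smul_eq_iff_period_dvd.mp (ffi_smul_eq_self_of_R _ hgp x)
    have h3 : MulAction.period g x = 1 := by
      rcases (Nat.dvd_prime hp).mp h2 with h | h
      · exact h
      · exact absurd (h ▸ h1) hpk
    have hgx : g • x = x := MulAction.period_eq_one_iff.mp h3
    obtain ⟨m, hm⟩ : ∃ m, p = m + 1 := ⟨p - 1, (Nat.succ_pred_eq_of_pos hp.pos).symm⟩
    have := ffi_dvd_ord_of_fixed w g m (by rw [← hm]; exact hgp) (p : ℤ) hR x hx hgx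
    exact Dvd.dvd.mul_left this _

theorem ffi_exists_order {N : ℕ} (τ : ℍ) (f : ffm_R N) (hf : f ≠ 0) :
    ∃ n : ℕ, analyticOrderAt ((f : ℍ → ℂ) ∘ ofComplex) (τ : ℂ) = n := by
  have h1 : ffm_ordAtR N τ f ≠ 0 := by
    rw [Ne, ffm_ordAtR_eq_zero_iff]; exact hf
  rw [ffm_ordAtR_apply, Ne, ffm_ordToVal_eq_zero,
    (ffm_germAt_analyticAt N f τ).meromorphicOrderAt_eq] at h1
  have h2 : analyticOrderAt (ffm_germAt N f) (τ : ℂ) ≠ ⊤ := by
    intro h
    rw [h] at h1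
    exact h1 rfl
  exact ⟨(analyticOrderAt (ffm_germAt N f) (τ : ℂ)).toNat, (ENat.natCast_toNat h2).symm⟩

/-! ### The three finite fibre models -/

theorem ffi_S_sq : (S : SL(2, ℤ)) ^ 2 = -1 := by
  ext i j
  rw [Matrix.SpecialLinearGroup.coe_pow, Matrix.SpecialLinearGroup.coe_neg,
    Matrix.SpecialLinearGroup.coe_one, pow_two, S_mul_S_eq]

theorem ffi_ST_cube : ((S * T : SL(2, ℤ))) ^ 3 = -1 := by
  ext i j
  rw [Matrix.SpecialLinearGroup.coe_pow, Matrix.SpecialLinearGroup.coe_neg,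
    Matrix.SpecialLinearGroup.coe_one, Matrix.SpecialLinearGroup.coe_mul, coe_S, coe_T]
  fin_cases i <;> fin_cases j <;> simp [pow_succ, Matrix.mul_apply, Fin.sum_univ_two]

/-- `γ • f = f` in `R` means `f (γ • z) = f z`. -/
theorem ffi_apply_smul_of_fixed {N : ℕ} {γ : SL(2, ℤ)} {f : ffm_R N} (h : γ • f = f) (z : ℍ) :
    (f : ℍ → ℂ) (γ • z) = (f : ℍ → ℂ) z := by
  have := congrFun (congrArg Subtype.val h) (γ • z)
  rw [ffm_smul_apply, inv_smul_smul] at this
  exact this.symm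

/-- The generic fibre model: over `c ∉ {0, 1728}`. -/
theorem ffi_model_generic {N : ℕ} {ι : ffi_K →+* ℂ} {φ : ffi_F N →+* ffm_E N}
    (hB : IsBridge N ι φ) (c : ffi_K) (hc0 : c ≠ 0) (hc1 : c ≠ 1728) :
    ∃ w : Valuation (ffm_E N) ℤᵐ⁰,
      IsFibreModel N φ w 1 1 (ffd_jBar N - algebraMap ffi_K (ffi_F N) c) := by
  obtain ⟨τ₀, hτ₀⟩ := ffj_surjective (ι c)
  have h4 : E4 τ₀ ≠ 0 := by
    intro h
    have := (ffj_eq_zero_iff τ₀).mpr h
    rw [hτ₀] at this
    exact hc0 ((map_eq_zero ι).mp this)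
  have h6 : E6 τ₀ ≠ 0 := by
    intro h
    have := (ffj_eq_1728_iff τ₀).mpr h
    rw [hτ₀] at this
    apply hc1
    apply ι.injective
    rw [this, map_ofNat]
  refine ⟨ffm_ordAt N τ₀, ?_⟩
  have := ffi_model_finite hB τ₀ 1 (one_smul _ τ₀) c hτ₀ 1
    (by rw [ffj_div_ord_generic h4 h6]; rfl)
    (fun x _ k _ => by rw [Nat.cast_one]; exact one_dvd _)
  exact this

/-- The fibre model at `i`, over `c = 1728`. -/
theorem ffi_model_I {N : ℕ} {ι : ffi_K →+* ℂ} {φ : ffi_F N →+* ffm_E N}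
    (hB : IsBridge N ι φ) :
    IsFibreModel N φ (ffm_ordAt N UpperHalfPlane.I) S 2
      (ffd_jBar N - algebraMap ffi_K (ffi_F N) 1728) := by
  have h6 : E6 UpperHalfPlane.I = 0 := RR.Ramanujan.E₆_I
  have hj : ffj_j UpperHalfPlane.I = ι 1728 := by
    rw [(ffj_eq_1728_iff _).mpr h6, map_ofNat]
  refine ffi_model_finite hB UpperHalfPlane.I S RR.Ramanujan.S_smul_I 1728 hj 2
    (by rw [ffj_div_ord_of_E6_eq_zero h6]; rfl) ?_
  intro x hx k hk
  refine ffi_t3_of_prime (ffm_ordAt N UpperHalfPlane.I) S Nat.prime_two ?_ ?_ x hx k hk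
  · intro f
    rw [ffi_S_sq]
    exact ffi_neg_one_smul f
  · intro f hf hSf
    obtain ⟨n, hn⟩ := ffi_exists_order UpperHalfPlane.I f hf
    rw [ffi_ord_ordAt_algebraMap _ f hn]
    have := ffc_two_dvd_order_I f.2.mdiff (ffi_apply_smul_of_fixed hSf) hn
    exact_mod_cast this

/-- The fibre model at `ρ`, over `c = 0`. -/
theorem ffi_model_rho {N : ℕ} {ι : ffi_K →+* ℂ} {φ : ffi_F N →+* ffm_E N}
    (hB : IsBridge N ι φ) :
    IsFibreModel N φ (ffm_ordAt N RR.Ramanujan.rho) (S * T) 3 (ffd_jBar N) := by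
  have h4 : E4 RR.Ramanujan.rho = 0 := RR.Ramanujan.E₄_rho
  have hj : ffj_j RR.Ramanujan.rho = ι 0 := by
    rw [(ffj_eq_zero_iff _).mpr h4, map_zero]
  have := ffi_model_finite hB RR.Ramanujan.rho (S * T) RR.Ramanujan.ST_smul_rho 0 hj 3
    (by rw [ffj_div_ord_of_E4_eq_zero h4]; rfl) ?_
  · rwa [map_zero, sub_zero] at this
  intro x hx k hk
  refine ffi_t3_of_prime (ffm_ordAt N RR.Ramanujan.rho) (S * T) Nat.prime_three ?_ ?_ x hx k hk
  · intro f
    rw [ffi_ST_cube]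
    exact ffi_neg_one_smul f
  · intro f hf hSf
    obtain ⟨n, hn⟩ := ffi_exists_order RR.Ramanujan.rho f hf
    rw [ffi_ord_ordAt_algebraMap _ f hn]
    have := ffc_three_dvd_order_rho f.2.mdiff (ffi_apply_smul_of_fixed hSf) hn
    exact_mod_cast this

end

end Fermat.Agent.Lib.FF
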