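/-
S24 (architect: helper9): `IfaceFibres N` from the four fibre models, the norm trick and the degree.
-/
import Fermat.Agent.Lib.FF.InterfaceModel

set_option autoImplicit false

namespace Fermat.Agent.Lib.FF

open AlgebraicCurve ModularCurve IntermediateField Matrix.SpecialLinearGroup CongruenceSubgroup
open Fermat.Agent.Lib.RR (Q)
open scoped MatrixGroups
open WithZero

noncomputable section

section Adjoin

variable {K F : Type*} [Field K] [Field F] [Algebra K F]

theorem ffi_adjoin_sub_const (x : F) (c : K) : K⟮x - algebraMap K F c⟯ = K⟮x⟯ := by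
  apply le_antisymm
  · rw [adjoin_simple_le_iff]
    exact sub_mem (mem_adjoin_simple_self K x) (IntermediateField.algebraMap_mem _ c)
  · rw [adjoin_simple_le_iff]
    have h := add_mem (mem_adjoin_simple_self K (x - algebraMap K F c))
      (IntermediateField.algebraMap_mem K⟮x - algebraMap K F c⟯ c)
    rwa [sub_add_cancel] at h

theorem ffi_adjoin_inv (x : F) : K⟮x⁻¹⟯ = K⟮x⟯ := by
  apply le_antisymm
  · rw [adjoin_simple_le_iff]
    exact inv_mem (mem_adjoin_simple_self K x)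
  · rw [adjoin_simple_le_iff]
    have h := inv_mem (mem_adjoin_simple_self K x⁻¹)
    rwa [inv_inv] at h

theorem ffi_finrank_congr {A B : IntermediateField K F} (h : A = B) :
    Module.finrank A F = Module.finrank B F := by
  subst h; rfl

theorem ffi_finrank_sub_const (x : F) (c : K) :
    Module.finrank K⟮x - algebraMap K F c⟯ F = Module.finrank K⟮x⟯ F :=
  ffi_finrank_congr (ffi_adjoin_sub_const x c)

theorem ffi_finrank_inv (x : F) : Module.finrank K⟮x⁻¹⟯ F = Module.finrank K⟮x⟯ F :=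
  ffi_finrank_congr (ffi_adjoin_inv x)

end Adjoin

theorem ffi_toPerm_one (N : ℕ) :
    (MulAction.toPerm (1 : SL(2, ℤ)) : Equiv.Perm (Q N)) = 1 := by
  ext x
  simp

/-- `IfaceFibres N` from the four fibre models (over a generic `c`, over `1728`, over `0`, over
`∞`), the norm trick for `t = j - c` and `t = j⁻¹`, and the degree. -/
theorem ffi_ifaceFibres_of_models (N : ℕ) [NeZero N] {E : Type} [Field E]
    [MulSemiringAction SL(2, ℤ) E] (φ : ffi_F N →+* E)
    (hdeg : IfaceDegree N)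
    (hNTc : ∀ c : ffi_K,
      IfaceNormTrick ffi_K (ffi_F N) (ffd_jBar N - algebraMap ffi_K (ffi_F N) c))
    (hNTinf : IfaceNormTrick ffi_K (ffi_F N) (ffd_jBar N)⁻¹)
    (hgen : ∀ c : ffi_K, c ≠ 0 → c ≠ 1728 → ∃ w : Valuation E ℤᵐ⁰,
      IsFibreModel N φ w 1 1 (ffd_jBar N - algebraMap ffi_K (ffi_F N) c))
    (h1728 : ∃ w : Valuation E ℤᵐ⁰,
      IsFibreModel N φ w ModularGroup.S 2 (ffd_jBar N - algebraMap ffi_K (ffi_F N) 1728))
    (h0 : ∃ w : Valuation E ℤᵐ⁰,
      IsFibreModel N φ w (ModularGroup.S * ModularGroup.T) 3 (ffd_jBar N))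
    (hinf : ∃ w : Valuation E ℤᵐ⁰,
      IsFibreModel N φ w ModularGroup.T N (ffd_jBar N)⁻¹) :
    IfaceFibres N := by
  obtain ⟨-, -, hfin⟩ := hdeg
  have hdc : ∀ c : ffi_K, Fintype.card (Q N)
      = Module.finrank (ffi_K)⟮ffd_jBar N - algebraMap ffi_K (ffi_F N) c⟯ (ffi_F N) := by
    intro c
    rw [ffi_finrank_sub_const, hfin]
  have hdinf : Fintype.card (Q N) = Module.finrank (ffi_K)⟮(ffd_jBar N)⁻¹⟯ (ffi_F N) := by
    rw [ffi_finrank_inv, hfin]
  refine ⟨?_, ?_, ?_, ?_⟩
  · intro c hc0 hc1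
    obtain ⟨w, hw⟩ := hgen c hc0 hc1
    have := ffi_fibre_of_model (hNTc c) (hdc c) hw
    rwa [ffi_toPerm_one] at this
  · obtain ⟨w, hw⟩ := h1728
    exact ffi_fibre_of_model (hNTc 1728) (hdc 1728) hw
  · obtain ⟨w, hw⟩ := h0
    have h := hNTc 0
    have hd := hdc 0
    rw [map_zero, sub_zero] at h hd
    exact ffi_fibre_of_model h hd hw
  · obtain ⟨w, hw⟩ := hinf
    exact ffi_fibre_of_model hNTinf hdinf hw

end

end Fermat.Agent.Lib.FF
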