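import Mathlib
import Fermat.Prelude.Def_AlgebraicCurve_DivisorClassGroup

/-!
# The abstract counting squeeze (S24, WP-B2)

`ffs_card_places`: if the places of `F` over `t` are all realised by "analytic" valuations `ν x`
indexed by a finite set `X` of size `d = ∑ e_v`, constant along the orbits of a permutation `δ`
of `X`, with local orders of `t` bounded by `e₀` and value groups constrained by the orbit sizes,
then the number of places over `t` is the number of `δ`-orbits (and `e_v` is the orbit size).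
-/

set_option autoImplicit false

namespace Fermat.Agent.Lib.FF

open AlgebraicCurve

variable {K F : Type*} [Field K] [Field F] [Algebra K F]

/-- Membership in the valuation ring of a place in terms of `ord`. -/
theorem ffs_mem_iff_ord_nonneg (v : Place K F) {f : F} (hf : f ≠ 0) :
    f ∈ v.toValuationSubring ↔ 0 ≤ v.ord f := by
  obtain ⟨π, hπ⟩ := IsDiscreteValuationRing.exists_irreducible v.toValuationSubring
  obtain ⟨u, hu⟩ := v.exists_unit_mul_zpow hf hπ
  have hπF : (π : F) ≠ 0 := by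
    simpa [ne_eq, ZeroMemClass.coe_eq_zero] using hπ.ne_zero
  obtain ⟨k, hk⟩ : ∃ k : ℤ, k = v.ord f := ⟨_, rfl⟩
  rw [← hk] at hu ⊢
  constructor
  · intro hmem
    by_contra hneg
    rw [not_le] at hneg
    -- `f * π ^ (-k) = u` would be in the maximal ideal
    obtain ⟨n, hn⟩ : ∃ n : ℕ, -k = (n : ℤ) + 1 := ⟨(-k - 1).toNat, by omega⟩
    have h1 : (⟨f, hmem⟩ : v.toValuationSubring) * π ^ (n + 1) = (u : v.toValuationSubring) := by
      apply Subtype.ext
      push_cast
      have e : (π : F) ^ (n + 1) = (π : F) ^ (-k) := by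
        rw [hn, ← zpow_natCast]; push_cast; rfl
      rw [e, hu, mul_assoc, ← zpow_add₀ hπF, add_neg_cancel, zpow_zero, mul_one]
    have h2 : ¬ IsUnit ((⟨f, hmem⟩ : v.toValuationSubring) * π ^ (n + 1)) := by
      intro hunit
      have := isUnit_of_mul_isUnit_right hunit
      exact hπ.not_isUnit (isUnit_of_mul_isUnit_left (by rwa [pow_succ'] at this))
    rw [h1] at h2
    exact h2 u.isUnit
  · intro hnn
    obtain ⟨n, hn⟩ : ∃ n : ℕ, k = (n : ℤ) := ⟨k.toNat, by omega⟩
    rw [hu, hn, zpow_natCast]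
    exact (v.toValuationSubring).mul_mem _ _ (u : v.toValuationSubring).2
      ((v.toValuationSubring).pow_mem π.2 n)

/-- Two places whose `ord` functions are positively proportional coincide. -/
theorem ffs_place_eq_of_proportional (v w : Place K F) (m m' : ℤ) (hm : 0 < m) (hm' : 0 < m')
    (h : ∀ f : F, f ≠ 0 → m * v.ord f = m' * w.ord f) : v = w := by
  apply Place.ext
  ext f
  by_cases hf : f = 0
  · subst hf
    simp
  · rw [ffs_mem_iff_ord_nonneg v hf, ffs_mem_iff_ord_nonneg w hf]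
    have := h f hf
    constructor
    · intro h0
      have : 0 ≤ m' * w.ord f := by rw [← this]; positivity
      exact nonneg_of_mul_nonneg_right this hm'
    · intro h0
      have : 0 ≤ m * v.ord f := by rw [this]; positivity
      exact nonneg_of_mul_nonneg_right this hm

theorem ffs_exists_ord_eq_one (v : Place K F) : ∃ π : F, π ≠ 0 ∧ v.ord π = 1 := by
  obtain ⟨π, hπ⟩ := IsDiscreteValuationRing.exists_irreducible v.toValuationSubring
  refine ⟨(π : F), ?_, v.ord_coe_irreducible hπ⟩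
  simpa [ne_eq, ZeroMemClass.coe_eq_zero] using hπ.ne_zero

/-- The purely combinatorial squeeze. -/
theorem ffs_squeeze_combinatorial {α Ω : Type*} [Fintype Ω] [DecidableEq Ω] (P : Finset α)
    (g : α → Ω) (hg : Set.InjOn g P) (e : α → ℤ) (s : Ω → ℕ) (hs : ∀ ω, 1 ≤ s ω)
    (hle : ∀ v ∈ P, e v ≤ s (g v)) (hsum : ∑ v ∈ P, e v = ∑ ω, (s ω : ℤ)) :
    P.card = Fintype.card Ω ∧ ∀ v ∈ P, e v = s (g v) := by
  classical
  have h1 : ∑ v ∈ P, e v ≤ ∑ v ∈ P, (s (g v) : ℤ) := Finset.sum_le_sum hle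
  have h2 : ∑ v ∈ P, (s (g v) : ℤ) = ∑ ω ∈ P.image g, (s ω : ℤ) :=
    (Finset.sum_image (f := fun ω => (s ω : ℤ)) hg).symm
  have h3 : ∑ ω ∈ P.image g, (s ω : ℤ) ≤ ∑ ω, (s ω : ℤ) :=
    Finset.sum_le_sum_of_subset_of_nonneg (Finset.subset_univ _) fun ω _ _ => by positivity
  have himg : P.image g = Finset.univ := by
    by_contra hne
    obtain ⟨ω, hω⟩ : ∃ ω, ω ∉ P.image g := by
      by_contra hall
      push Not at hall
      exact hne (Finset.eq_univ_iff_forall.mpr hall)
    have h4 : ∑ ω' ∈ P.image g, (s ω' : ℤ) + s ω ≤ ∑ ω', (s ω' : ℤ) := by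
      have h40 : ∑ ω' ∈ insert ω (P.image g), (s ω' : ℤ)
          = (s ω : ℤ) + ∑ ω' ∈ P.image g, (s ω' : ℤ) := Finset.sum_insert hω
      have h41 : ∑ ω' ∈ insert ω (P.image g), (s ω' : ℤ) ≤ ∑ ω', (s ω' : ℤ) :=
        Finset.sum_le_sum_of_subset_of_nonneg (Finset.subset_univ _)
          fun ω _ _ => by positivity
      omega
    have h5 : (1 : ℤ) ≤ s ω := by exact_mod_cast hs ω
    omega
  constructor
  · rw [← Finset.card_image_of_injOn hg, himg, Finset.card_univ]
  · have h6 : ∑ v ∈ P, e v = ∑ v ∈ P, (s (g v) : ℤ) := by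
      rw [himg] at h2
      omega
    exact (Finset.sum_eq_sum_iff_of_le hle).mp h6

section Orbits

variable {X : Type*} (δ : Equiv.Perm X)

theorem ffs_zpow_invariant {β : Type*} (ν : X → β) (hδ : ∀ x, ν (δ x) = ν x) (k : ℤ) (x : X) :
    ν ((δ ^ k) x) = ν x := by
  have hinv : ∀ y, ν (δ⁻¹ y) = ν y := fun y => by
    have := hδ (δ⁻¹ y)
    rw [show δ (δ⁻¹ y) = y from Equiv.apply_symm_apply δ y] at this
    exact this.symm
  induction k using Int.induction_on generalizing x with
  | zero => simp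
  | succ n ih =>
    rw [zpow_add_one, Equiv.Perm.mul_apply, ih, hδ]
  | pred n ih =>
    rw [zpow_sub_one, Equiv.Perm.mul_apply, ih, hinv]

theorem ffs_orbit_invariant {β : Type*} (ν : X → β) (hδ : ∀ x, ν (δ x) = ν x) {x y : X}
    (h : x ∈ MulAction.orbit (Subgroup.zpowers δ) y) : ν x = ν y := by
  obtain ⟨⟨γ, hγ⟩, rfl⟩ := h
  obtain ⟨k, rfl⟩ := Subgroup.mem_zpowers_iff.mp hγ
  exact ffs_zpow_invariant δ ν hδ k y

variable [Fintype X]

theorem ffs_sum_card_orbits :
    (∑ᶠ ω : MulAction.orbitRel.Quotient (Subgroup.zpowers δ) X, Nat.card ω.orbit)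
      = Fintype.card X := by
  classical
  let _ : Fintype (MulAction.orbitRel.Quotient (Subgroup.zpowers δ) X) := Fintype.ofFinite _
  rw [finsum_eq_sum_of_fintype, ← Nat.card_eq_fintype_card,
    Nat.card_congr (MulAction.selfEquivSigmaOrbits' (Subgroup.zpowers δ) X), Nat.card_sigma]

end Orbits

/-- **The counting squeeze** (S24, WP-B2).  `P` is the (finite) set of places over `t`, `X` a
finite set with `|X| = ∑_{v ∈ P} e_v` (fundamental identity), `ν x` "analytic valuations" constant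
on the orbits of `δ`, realising every place of `P`, with `ν x t ≤ e₀` and
`e₀ ∣ |orbit x| * ν x f`.  Then `|P|` is the number of `δ`-orbits and `e_v` is the size of the
orbit of any `x` realising `v`. -/
theorem ffs_card_places (t : F) {X : Type*} [Fintype X] (δ : Equiv.Perm X) (ν : X → F → ℤ)
    (e₀ : ℕ) (P : Finset (Place K F))
    (hP : ∀ v ∈ P, 0 < v.ord t)
    (hFI : ∑ v ∈ P, v.ord t = Fintype.card X)
    (hδ : ∀ x, ν (δ x) = ν x)
    (hub : ∀ x, ν x t ≤ e₀)
    (hdiv : ∀ x f, f ≠ 0 →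
      (e₀ : ℤ) ∣ (Nat.card (MulAction.orbit (Subgroup.zpowers δ) x) : ℤ) * ν x f)
    (hsurj : ∀ v ∈ P, ∃ x, ∃ m : ℤ, 0 < m ∧ ∀ f, f ≠ 0 → ν x f = m * v.ord f) :
    P.card = Nat.card (MulAction.orbitRel.Quotient (Subgroup.zpowers δ) X) ∧
    ∀ v ∈ P, ∀ x, (∃ m : ℤ, 0 < m ∧ ∀ f, f ≠ 0 → ν x f = m * v.ord f) →
      v.ord t = Nat.card (MulAction.orbit (Subgroup.zpowers δ) x) := by
  classical
  let Ω := MulAction.orbitRel.Quotient (Subgroup.zpowers δ) X
  let _ : Fintype Ω := Fintype.ofFinite _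
  -- choose realising points
  have hsurj' : ∀ v : {v // v ∈ P}, ∃ x, ∃ m : ℤ, 0 < m ∧ ∀ f, f ≠ 0 → ν x f = m * v.1.ord f :=
    fun v => hsurj v.1 v.2
  choose xs ms hms hν using hsurj'
  let g : {v // v ∈ P} → Ω := fun v => Quotient.mk'' (xs v)
  let s : Ω → ℕ := fun ω => Nat.card ω.orbit
  have ht0 : ∀ v ∈ P, t ≠ 0 := by
    intro v hv h0
    have := hP v hv
    rw [h0, Place.ord_zero] at this
    exact lt_irrefl _ this
  -- the key local inequality, for any realising point
  have hkey : ∀ v ∈ P, ∀ x, (∃ m : ℤ, 0 < m ∧ ∀ f, f ≠ 0 → ν x f = m * v.ord f) →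
      v.ord t ≤ Nat.card (MulAction.orbit (Subgroup.zpowers δ) x) := by
    rintro v hv x ⟨m, hm, hνx⟩
    obtain ⟨π, hπ0, hπ⟩ := ffs_exists_ord_eq_one v
    have h1 := hdiv x π hπ0
    rw [hνx π hπ0, hπ, mul_one] at h1
    have hpos : 0 < (Nat.card (MulAction.orbit (Subgroup.zpowers δ) x) : ℤ) * m := by
      have : 0 < Nat.card (MulAction.orbit (Subgroup.zpowers δ) x) :=
        Nat.card_pos_iff.mpr ⟨⟨⟨x, MulAction.mem_orbit_self x⟩⟩, inferInstance⟩
      positivity
    have h2 : (e₀ : ℤ) ≤ (Nat.card (MulAction.orbit (Subgroup.zpowers δ) x) : ℤ) * m :=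
      Int.le_of_dvd hpos h1
    have h3 := hub x
    rw [hνx t (ht0 v hv)] at h3
    have h4 : m * v.ord t ≤ m * (Nat.card (MulAction.orbit (Subgroup.zpowers δ) x) : ℤ) := by
      rw [mul_comm m (Nat.card _ : ℤ)]
      exact h3.trans h2
    exact le_of_mul_le_mul_left h4 hm
  -- injectivity of `g`
  have hginj : Set.InjOn g (Finset.univ : Finset {v // v ∈ P}) := by
    intro v _ w _ hvw
    have hmem : xs v ∈ MulAction.orbit (Subgroup.zpowers δ) (xs w) :=
      MulAction.orbitRel_apply.mp (Quotient.exact' hvw)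
    have hνeq : ν (xs v) = ν (xs w) := ffs_orbit_invariant δ ν hδ hmem
    apply Subtype.ext
    refine ffs_place_eq_of_proportional v.1 w.1 (ms v) (ms w) (hms v) (hms w) fun f hf => ?_
    rw [← hν v f hf, ← hν w f hf, hνeq]
  have hs : ∀ ω : Ω, 1 ≤ s ω := by
    intro ω
    induction ω using Quotient.inductionOn' with
    | h x =>
      exact Nat.card_pos_iff.mpr ⟨⟨⟨x, by
        rw [MulAction.orbitRel.Quotient.mem_orbit]⟩⟩, inferInstance⟩
  have hsg : ∀ v : {v // v ∈ P}, s (g v)
      = Nat.card (MulAction.orbit (Subgroup.zpowers δ) (xs v)) := by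
    intro v
    simp only [s, g]
    rw [MulAction.orbitRel.Quotient.orbit_mk]
  have hsum : ∑ v ∈ (Finset.univ : Finset {v // v ∈ P}), v.1.ord t = ∑ ω : Ω, (s ω : ℤ) := by
    have h1 : ∑ v ∈ (Finset.univ : Finset {v // v ∈ P}), v.1.ord t = ∑ v ∈ P, v.ord t :=
      Finset.sum_coe_sort P (fun v => v.ord t)
    rw [h1, hFI, ← ffs_sum_card_orbits δ, finsum_eq_sum_of_fintype]
    push_cast
    rfl
  obtain ⟨hcard, heq⟩ := ffs_squeeze_combinatorial (Finset.univ : Finset {v // v ∈ P}) g hginj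
    (fun v => v.1.ord t) s hs
    (fun v _ => by rw [hsg]; exact hkey v.1 v.2 (xs v) ⟨ms v, hms v, hν v⟩) hsum
  refine ⟨?_, ?_⟩
  · rw [Nat.card_eq_fintype_card, ← hcard, Finset.card_univ, Fintype.card_coe]
  · intro v hv x hx
    -- `g` is bijective, so the orbit of `x` is `g w` for some `w ∈ P`, and then `w = v`
    have hginj' : Function.Injective g := fun a b hab =>
      hginj (Finset.mem_coe.mpr (Finset.mem_univ a)) (Finset.mem_coe.mpr (Finset.mem_univ b)) hab
    have hgbij : Function.Bijective g := by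
      rw [Fintype.bijective_iff_injective_and_card]
      refine ⟨hginj', ?_⟩
      rw [← hcard, Finset.card_univ]
    obtain ⟨w, hw⟩ := hgbij.2 (Quotient.mk'' x : Ω)
    have hmem : xs w ∈ MulAction.orbit (Subgroup.zpowers δ) x :=
      MulAction.orbitRel_apply.mp (Quotient.exact' hw)
    have hνeq : ν (xs w) = ν x := ffs_orbit_invariant δ ν hδ hmem
    obtain ⟨m, hm, hνx⟩ := hx
    have hwv : w.1 = v := by
      refine ffs_place_eq_of_proportional w.1 v (ms w) m (hms w) hm fun f hf => ?_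
      rw [← hν w f hf, ← hνx f hf, hνeq]
    have h0 : w.1.ord t = (s (g w) : ℤ) := heq w (Finset.mem_univ _)
    rw [hwv] at h0
    rw [h0]
    congr 1
    rw [hw]
    change Nat.card (MulAction.orbitRel.Quotient.orbit (Quotient.mk'' x : Ω)) = _
    rw [MulAction.orbitRel.Quotient.orbit_mk]

/-- Corollary: the ramification contribution `∑_{v | t} (e_v - 1) = d - #orbits`. -/
theorem ffs_sum_ord_sub_one (t : F) {X : Type*} [Fintype X] (δ : Equiv.Perm X) (ν : X → F → ℤ)
    (e₀ : ℕ) (P : Finset (Place K F))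
    (hP : ∀ v ∈ P, 0 < v.ord t)
    (hFI : ∑ v ∈ P, v.ord t = Fintype.card X)
    (hδ : ∀ x, ν (δ x) = ν x)
    (hub : ∀ x, ν x t ≤ e₀)
    (hdiv : ∀ x f, f ≠ 0 →
      (e₀ : ℤ) ∣ (Nat.card (MulAction.orbit (Subgroup.zpowers δ) x) : ℤ) * ν x f)
    (hsurj : ∀ v ∈ P, ∃ x, ∃ m : ℤ, 0 < m ∧ ∀ f, f ≠ 0 → ν x f = m * v.ord f) :
    ∑ v ∈ P, (v.ord t - 1) = (Fintype.card X : ℤ)
      - Nat.card (MulAction.orbitRel.Quotient (Subgroup.zpowers δ) X) := by
  have h := (ffs_card_places t δ ν e₀ P hP hFI hδ hub hdiv hsurj).1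
  rw [Finset.sum_sub_distrib, hFI, ← h]
  simp

/-! ### Orbit counts for a permutation of prime order -/

/-- For `g ≠ 1` in the cyclic group generated by an element `δ` of prime order, the fixed points
of `g` are the fixed points of `δ`. -/
theorem ffs_fixedBy_eq_of_prime {X : Type*} (δ : Equiv.Perm X) {ℓ : ℕ} (hℓ : ℓ.Prime)
    (hδ : δ ^ ℓ = 1) (g : Subgroup.zpowers δ) (hg : g ≠ 1) (x : X) :
    g • x = x ↔ δ x = x := by
  obtain ⟨g, hgm⟩ := g
  obtain ⟨k, rfl⟩ := Subgroup.mem_zpowers_iff.mp hgm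
  have hk : ¬ (ℓ : ℤ) ∣ k := by
    intro hdvd
    apply hg
    obtain ⟨m, rfl⟩ := hdvd
    ext1
    simp only [Subgroup.coe_one]
    rw [zpow_mul, zpow_natCast, hδ, one_zpow]
  have hcop : IsCoprime (ℓ : ℤ) k :=
    (Nat.prime_iff_prime_int.mp hℓ).coprime_iff_not_dvd.mpr hk
  obtain ⟨a, b, hab⟩ := hcop
  change (δ ^ k) x = x ↔ δ x = x
  constructor
  · intro h
    have h2 : ∀ n : ℤ, ((δ ^ k) ^ n) x = x := by
      intro n
      have : (δ ^ k) ^ n ∈ MulAction.stabilizer (Equiv.Perm X) x :=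
        Subgroup.zpow_mem _ (by simpa [MulAction.mem_stabilizer_iff] using h) n
      simpa [MulAction.mem_stabilizer_iff] using this
    have h3 : δ = (δ ^ k) ^ b := by
      have : δ ^ (a * ℓ + b * k) = δ := by rw [hab, zpow_one]
      rw [zpow_add, zpow_mul', zpow_natCast, hδ, one_zpow, one_mul, mul_comm, zpow_mul] at this
      exact this.symm
    rw [h3]; exact h2 b
  · intro h
    have : δ ^ k ∈ MulAction.stabilizer (Equiv.Perm X) x :=
      Subgroup.zpow_mem _ (by simpa [MulAction.mem_stabilizer_iff] using h) k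
    simpa [MulAction.mem_stabilizer_iff] using this

/-- **Orbit count for a permutation of prime order** (Burnside): if `δ ^ ℓ = 1` with `ℓ` prime,
then `ℓ · #orbits = #X + (ℓ - 1) · #fixed points`. -/
theorem ffs_card_orbits_prime {X : Type*} [Fintype X] [DecidableEq X] (δ : Equiv.Perm X) {ℓ : ℕ}
    (hℓ : ℓ.Prime) (hδ : δ ^ ℓ = 1) :
    ℓ * Nat.card (MulAction.orbitRel.Quotient (Subgroup.zpowers δ) X) =
      Fintype.card X + (ℓ - 1) * (Finset.univ.filter (fun x => δ x = x)).card := by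
  classical
  have : Fintype (Subgroup.zpowers δ) := Fintype.ofFinite _
  have : Fintype (MulAction.orbitRel.Quotient (Subgroup.zpowers δ) X) := Fintype.ofFinite _
  have hB := MulAction.sum_card_fixedBy_eq_card_orbits_mul_card_group (Subgroup.zpowers δ) X
  -- each term of the Burnside sum
  have hterm : ∀ g : Subgroup.zpowers δ, Fintype.card (MulAction.fixedBy X g) =
      if g = 1 then Fintype.card X else (Finset.univ.filter (fun x => δ x = x)).card := by
    intro g
    split_ifs with hg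
    · subst hg
      rw [Fintype.card_congr (Equiv.subtypeUnivEquiv (by intro x; simp))]
    · rw [Fintype.card_subtype]
      congr 1
      ext x
      simp only [Finset.mem_filter, Finset.mem_univ, true_and, MulAction.mem_fixedBy]
      exact ffs_fixedBy_eq_of_prime δ hℓ hδ g hg x
  simp_rw [hterm] at hB
  rw [Finset.sum_ite, Finset.sum_const, Finset.sum_const, smul_eq_mul, smul_eq_mul] at hB
  have h1 : (Finset.univ.filter (fun g : Subgroup.zpowers δ => g = 1)).card = 1 := by
    rw [Finset.card_eq_one]; exact ⟨1, by ext g; simp⟩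
  have h2 : (Finset.univ.filter (fun g : Subgroup.zpowers δ => ¬ g = 1)).card =
      Fintype.card (Subgroup.zpowers δ) - 1 := by
    rw [Finset.filter_not, Finset.card_sdiff_of_subset (Finset.filter_subset _ _), h1,
      Finset.card_univ]
  rw [h1, h2, one_mul] at hB
  rw [Nat.card_eq_fintype_card]
  by_cases hd1 : δ = 1
  · subst hd1
    have hc : Fintype.card (Subgroup.zpowers (1 : Equiv.Perm X)) = 1 := by
      rw [Fintype.card_eq_one_iff]
      refine ⟨1, fun y => ?_⟩
      obtain ⟨y, hy⟩ := y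
      rw [Subgroup.zpowers_one_eq_bot, Subgroup.mem_bot] at hy
      subst hy; rfl
    rw [hc] at hB
    simp only [Nat.sub_self, zero_mul, add_zero, mul_one] at hB
    rw [← hB]
    have : (Finset.univ.filter (fun x : X => (1 : Equiv.Perm X) x = x)).card = Fintype.card X := by
      rw [Finset.filter_true_of_mem (by intro x _; rfl), Finset.card_univ]
    rw [this]
    have hℓ1 := hℓ.one_le
    zify [hℓ1]; ring
  · have : Fact ℓ.Prime := ⟨hℓ⟩
    have hord : orderOf δ = ℓ := orderOf_eq_prime hδ hd1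
    have hc : Fintype.card (Subgroup.zpowers δ) = ℓ := by
      rw [← Nat.card_eq_fintype_card, Nat.card_zpowers, hord]
    rw [hc] at hB
    rw [hB, mul_comm]

/-- Ramification contribution over a centre whose inertia permutation `δ` has prime order `ℓ`:
`ℓ · ∑_{v | t} (e_v - 1) = (ℓ - 1) · (d - #fixed points of δ)`. -/
theorem ffs_sum_ord_sub_one_prime (t : F) {X : Type*} [Fintype X] [DecidableEq X]
    (δ : Equiv.Perm X) (ν : X → F → ℤ)
    (e₀ : ℕ) (P : Finset (Place K F)) {ℓ : ℕ} (hℓ : ℓ.Prime) (hδℓ : δ ^ ℓ = 1)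
    (hP : ∀ v ∈ P, 0 < v.ord t)
    (hFI : ∑ v ∈ P, v.ord t = Fintype.card X)
    (hδ : ∀ x, ν (δ x) = ν x)
    (hub : ∀ x, ν x t ≤ e₀)
    (hdiv : ∀ x f, f ≠ 0 →
      (e₀ : ℤ) ∣ (Nat.card (MulAction.orbit (Subgroup.zpowers δ) x) : ℤ) * ν x f)
    (hsurj : ∀ v ∈ P, ∃ x, ∃ m : ℤ, 0 < m ∧ ∀ f, f ≠ 0 → ν x f = m * v.ord f) :
    (ℓ : ℤ) * ∑ v ∈ P, (v.ord t - 1) = ((ℓ : ℤ) - 1) * ((Fintype.card X : ℤ)
      - ((Finset.univ.filter (fun x => δ x = x)).card : ℤ)) := by
  rw [ffs_sum_ord_sub_one t δ ν e₀ P hP hFI hδ hub hdiv hsurj]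
  have h := ffs_card_orbits_prime δ hℓ hδℓ
  have hℓ1 := hℓ.one_le
  zify [hℓ1] at h
  linear_combination -h

/-! ### Comparison with `ℤᵐ⁰`-valued valuations (D6) and the valuation form of the squeeze -/

section Val

open WithZero

/-- A place (DVR) has no proper overring other than the whole field. -/
theorem ffs_eq_of_le (v : Place K F) (A : ValuationSubring F) (hle : v.toValuationSubring ≤ A)
    (hA : A ≠ ⊤) : A = v.toValuationSubring := by
  refine le_antisymm ?_ hle
  intro f hfA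
  by_contra hfv
  apply hA
  have hf0 : f ≠ 0 := fun h => hfv (h ▸ v.toValuationSubring.zero_mem)
  obtain ⟨π, hπ⟩ := IsDiscreteValuationRing.exists_irreducible v.toValuationSubring
  have hπF : (π : F) ≠ 0 := by
    simpa [ne_eq, ZeroMemClass.coe_eq_zero] using hπ.ne_zero
  obtain ⟨u, hu⟩ := v.exists_unit_mul_zpow hf0 hπ
  have hneg : v.ord f < 0 := by
    rw [ffs_mem_iff_ord_nonneg v hf0] at hfv
    exact not_le.mp hfv
  -- `π⁻¹ ∈ A`
  have hπinv : (π : F)⁻¹ ∈ A := by
    obtain ⟨n, hn⟩ : ∃ n : ℕ, v.ord f = -((n : ℤ) + 1) := ⟨(-v.ord f - 1).toNat, by omega⟩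
    have h1 : (π : F)⁻¹ = (((u⁻¹ : v.toValuationSubringˣ) : v.toValuationSubring) : F) * f
        * (π : F) ^ n := by
      have hu0 : ((u : v.toValuationSubring) : F) ≠ 0 := by
        simp [ne_eq, ZeroMemClass.coe_eq_zero]
      have huinv : (((u⁻¹ : v.toValuationSubringˣ) : v.toValuationSubring) : F)
          * ((u : v.toValuationSubring) : F) = 1 := by
        have h5 : ((u⁻¹ : v.toValuationSubringˣ) : v.toValuationSubring)
            * (u : v.toValuationSubring) = 1 := Units.inv_mul u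
        have := congrArg (Subtype.val) h5
        rwa [MulMemClass.coe_mul, OneMemClass.coe_one] at this
      rw [hu, hn, ← mul_assoc, huinv, one_mul, ← zpow_natCast, ← zpow_add₀ hπF]
      rw [show -((n : ℤ) + 1) + (n : ℤ) = -1 by ring, zpow_neg_one]
    rw [h1]
    exact A.mul_mem _ _ (A.mul_mem _ _ (hle (Subtype.mem _)) hfA)
      (A.pow_mem (hle π.2) n)
  rw [eq_top_iff]
  intro g _
  by_cases hg0 : g = 0
  · subst hg0; exact A.zero_mem
  obtain ⟨w, hw⟩ := v.exists_unit_mul_zpow hg0 hπ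
  rw [hw]
  refine A.mul_mem _ _ (hle (Subtype.mem _)) ?_
  rcases le_total 0 (v.ord g) with h | h
  · obtain ⟨n, hn⟩ : ∃ n : ℕ, v.ord g = (n : ℤ) := ⟨(v.ord g).toNat, by omega⟩
    rw [hn, zpow_natCast]
    exact A.pow_mem (hle π.2) n
  · obtain ⟨n, hn⟩ : ∃ n : ℕ, v.ord g = -(n : ℤ) := ⟨(-v.ord g).toNat, by omega⟩
    rw [hn, zpow_neg, zpow_natCast, ← inv_pow]
    exact A.pow_mem hπinv n

/-- A `ℤᵐ⁰`-valued valuation on `F` whose valuation ring is the ring of a place `v` is a positive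
power of the `v`-adic valuation: `-log (w f) = m * v.ord f`. -/
theorem ffs_exists_proportional (w : Valuation F ℤᵐ⁰) (v : Place K F)
    (h : w.valuationSubring = v.toValuationSubring) :
    ∃ m : ℤ, 0 < m ∧ ∀ f : F, f ≠ 0 → -(WithZero.log (w f)) = m * v.ord f := by
  obtain ⟨π, hπ⟩ := IsDiscreteValuationRing.exists_irreducible v.toValuationSubring
  have hπF : (π : F) ≠ 0 := by
    simpa [ne_eq, ZeroMemClass.coe_eq_zero] using hπ.ne_zero
  have hmem : ∀ g : F, g ∈ v.toValuationSubring ↔ w g ≤ 1 := by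
    intro g; rw [← h]; exact Valuation.mem_valuationSubring_iff w g
  have hunit : ∀ u : v.toValuationSubringˣ, w ((u : v.toValuationSubring) : F) = 1 := by
    intro u
    have h1 : w ((u : v.toValuationSubring) : F) ≤ 1 := (hmem _).mp (Subtype.mem _)
    have h2 : w (((u⁻¹ : v.toValuationSubringˣ) : v.toValuationSubring) : F) ≤ 1 :=
      (hmem _).mp (Subtype.mem _)
    have h3 : w ((u : v.toValuationSubring) : F)
        * w (((u⁻¹ : v.toValuationSubringˣ) : v.toValuationSubring) : F) = 1 := by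
      rw [← map_mul]
      have h5 : (u : v.toValuationSubring)
          * ((u⁻¹ : v.toValuationSubringˣ) : v.toValuationSubring) = 1 := Units.mul_inv u
      have := congrArg (Subtype.val) h5
      have h4 : ((u : v.toValuationSubring) : F)
          * (((u⁻¹ : v.toValuationSubringˣ) : v.toValuationSubring) : F) = 1 := by
        rwa [MulMemClass.coe_mul, OneMemClass.coe_one] at this
      rw [h4, map_one]
    by_contra hne
    have hlt : w ((u : v.toValuationSubring) : F) < 1 := lt_of_le_of_ne h1 hne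
    have : w ((u : v.toValuationSubring) : F)
        * w (((u⁻¹ : v.toValuationSubringˣ) : v.toValuationSubring) : F) < 1 := by
      calc _ ≤ w ((u : v.toValuationSubring) : F) * 1 := by gcongr
        _ = w ((u : v.toValuationSubring) : F) := mul_one _
        _ < 1 := hlt
    rw [h3] at this
    exact lt_irrefl _ this
  have hwπ0 : w (π : F) ≠ 0 := (Valuation.ne_zero_iff w).mpr hπF
  have hwπle : w (π : F) ≤ 1 := (hmem _).mp π.2
  have hwπne : w (π : F) ≠ 1 := by
    intro h1
    have : (π : F)⁻¹ ∈ v.toValuationSubring := by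
      rw [hmem, map_inv₀, h1, inv_one]
    rw [ffs_mem_iff_ord_nonneg v (inv_ne_zero hπF), v.ord_inv, v.ord_coe_irreducible hπ] at this
    omega
  have hwπlt : w (π : F) < 1 := lt_of_le_of_ne hwπle hwπne
  refine ⟨-(WithZero.log (w (π : F))), ?_, ?_⟩
  · have : WithZero.log (w (π : F)) < 0 := by
      have := (WithZero.log_lt_log hwπ0 one_ne_zero).mpr hwπlt
      simpa using this
    omega
  · intro f hf
    obtain ⟨u, hu⟩ := v.exists_unit_mul_zpow hf hπ
    conv_lhs => rw [hu]
    rw [map_mul, hunit u, one_mul, map_zpow₀, WithZero.log_zpow, smul_eq_mul]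
    ring

/-- If the valuation ring of `w` contains `O_v` and `w` is nontrivial, it is `O_v`. -/
theorem ffs_valuationSubring_eq_of_le (w : Valuation F ℤᵐ⁰) (v : Place K F)
    (hle : ∀ f : F, f ∈ v.toValuationSubring → w f ≤ 1) {t : F} (ht : w t < 1) (ht0 : t ≠ 0) :
    w.valuationSubring = v.toValuationSubring := by
  refine ffs_eq_of_le v _ (fun f hf => (Valuation.mem_valuationSubring_iff w f).mpr (hle f hf)) ?_
  intro htop
  have : t⁻¹ ∈ w.valuationSubring := by rw [htop]; exact ValuationSubring.mem_top _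
  rw [Valuation.mem_valuationSubring_iff, map_inv₀] at this
  have h0 : w t ≠ 0 := (Valuation.ne_zero_iff w).mpr ht0
  have h1 : 1 ≤ w t := by
    have := mul_le_mul_left this (w t)
    rwa [inv_mul_cancel₀ h0, one_mul] at this
  exact absurd ht (not_lt.mpr h1)

/-- **Counting squeeze, valuation form.** Same as `ffs_card_places`, with the family of orders
given as `ℤᵐ⁰`-valued valuations `w x` on `F` (`ν x f = -log (w x f)`), and surjectivity stated as
`O_v ⊆ valuation ring of w x`, `w x t < 1`. -/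
theorem ffs_card_places_val (t : F) {X : Type*} [Fintype X] (δ : Equiv.Perm X)
    (w : X → Valuation F ℤᵐ⁰) (e₀ : ℕ) (P : Finset (Place K F))
    (hP : ∀ v ∈ P, 0 < v.ord t)
    (hFI : ∑ v ∈ P, v.ord t = Fintype.card X)
    (hδ : ∀ x, w (δ x) = w x)
    (hub : ∀ x, -(log (w x t)) ≤ e₀)
    (hdiv : ∀ x f, f ≠ 0 →
      (e₀ : ℤ) ∣ (Nat.card (MulAction.orbit (Subgroup.zpowers δ) x) : ℤ) * -(log (w x f)))
    (hsurj : ∀ v ∈ P, ∃ x, (∀ f : F, f ∈ v.toValuationSubring → w x f ≤ 1) ∧ w x t < 1) :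
    P.card = Nat.card (MulAction.orbitRel.Quotient (Subgroup.zpowers δ) X) ∧
      ∑ v ∈ P, (v.ord t - 1) = (Fintype.card X : ℤ)
        - Nat.card (MulAction.orbitRel.Quotient (Subgroup.zpowers δ) X) := by
  have hsurj' : ∀ v ∈ P, ∃ x, ∃ m : ℤ, 0 < m ∧
      ∀ f, f ≠ 0 → (fun x f => -(log (w x f))) x f = m * v.ord f := by
    intro v hv
    obtain ⟨x, hle, hlt⟩ := hsurj v hv
    have ht0 : t ≠ 0 := by
      rintro rfl
      have := hP v hv
      simp at this
    exact ⟨x, ffs_exists_proportional (w x) v (ffs_valuationSubring_eq_of_le (w x) v hle hlt ht0)⟩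
  have hδ' : ∀ x, (fun x f => -(log (w x f))) (δ x) = (fun x f => -(log (w x f))) x := by
    intro x; funext f; simp only [hδ x]
  exact ⟨(ffs_card_places t δ (fun x f => -(log (w x f))) e₀ P hP hFI hδ' hub hdiv hsurj').1,
    ffs_sum_ord_sub_one t δ (fun x f => -(log (w x f))) e₀ P hP hFI hδ' hub hdiv hsurj'⟩

end Val

end Fermat.Agent.Lib.FF
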