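/-
S24, WP-D part 1: the abstract Riemann–Hurwitz computation.

For a function field `F / K` (with `K`-rational places) and `t ∈ F`, the degree of the divisor of
any nonzero differential is computed from the ramification of `t`:
`deg div(ω) = ∑_{c ∈ S} (d - r_c) - d - r_∞`,
where `d = [F : K(t)]`, `S` is a finite set containing all finite branch values, `r_c` is the number
of places over `c`, and `r_∞` the number of poles of `t`.  All inputs are explicit hypotheses.
-/
import Fermat.Agent.Lib.FF.Differential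
import Fermat.Agent.Lib.FF.Squeeze
import Fermat.Prelude.Def_AlgebraicCurve_CanonicalDivisor
import Fermat.Prelude.Def_ModularCurve_GenusNumerics

set_option autoImplicit false

namespace Fermat.Agent.Lib.FF

open AlgebraicCurve KaehlerDifferential

noncomputable section

variable {K F : Type*} [Field K] [Field F] [Algebra K F]

/-! ### Elementary facts on `Place.ord` -/

theorem ffh_ord_add_ge (v : Place K F) {f g : F} (hf : f ≠ 0) (hg : g ≠ 0) (hfg : f + g ≠ 0) :
    min (v.ord f) (v.ord g) ≤ v.ord (f + g) := by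
  have h := v.adicValuation.map_add f g
  have hf' := v.adicValuation_ne_zero hf
  have hg' := v.adicValuation_ne_zero hg
  have hfg' := v.adicValuation_ne_zero hfg
  simp only [Place.ord]
  rcases le_max_iff.mp h with h1 | h1
  · have := (WithZero.log_le_log hfg' hf').mpr h1
    exact (min_le_left _ _).trans (neg_le_neg this)
  · have := (WithZero.log_le_log hfg' hg').mpr h1
    exact (min_le_right _ _).trans (neg_le_neg this)

theorem ffh_ord_algebraMap (v : Place K F) {c : K} (hc : c ≠ 0) :
    v.ord (algebraMap K F c) = 0 := by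
  have hc' : algebraMap K F c ≠ 0 := by simpa using hc
  have h1 : 0 ≤ v.ord (algebraMap K F c) :=
    (ffs_mem_iff_ord_nonneg v hc').mp (v.algebraMap_mem' c)
  have h2 : 0 ≤ v.ord (algebraMap K F c)⁻¹ := by
    rw [← map_inv₀]
    exact (ffs_mem_iff_ord_nonneg v (by simpa using hc)).mp (v.algebraMap_mem' c⁻¹)
  rw [v.ord_inv] at h2
  omega

theorem ffh_ord_neg (v : Place K F) (f : F) : v.ord (-f) = v.ord f := by
  simp [Place.ord]

/-- A nonzero element of the maximal ideal has positive order. -/
theorem ffh_ord_pos_of_mem_maximalIdeal (v : Place K F) {x : v.toValuationSubring}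
    (hx : x ∈ IsLocalRing.maximalIdeal v.toValuationSubring) (hx0 : (x : F) ≠ 0) :
    0 < v.ord (x : F) := by
  have h1 : 0 ≤ v.ord (x : F) := (ffs_mem_iff_ord_nonneg v hx0).mp x.2
  rcases h1.lt_or_eq with h | h
  · exact h
  · exfalso
    have h2 : 0 ≤ v.ord ((x : F)⁻¹) := by rw [v.ord_inv, ← h, neg_zero]
    have h3 : (x : F)⁻¹ ∈ v.toValuationSubring :=
      (ffs_mem_iff_ord_nonneg v (inv_ne_zero hx0)).mpr h2
    have hu : IsUnit x := by
      refine IsUnit.of_mul_eq_one ⟨(x : F)⁻¹, h3⟩ ?_
      ext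
      simp [hx0]
    exact (IsLocalRing.mem_maximalIdeal x).mp hx hu

/-- Every place where `t` has no pole is centred at a unique `c ∈ K`. -/
theorem ffh_exists_centre (v : Place K F)
    (hres : Function.Surjective (algebraMap K v.ResidueField))
    {t : F} (ht : ∀ c : K, t ≠ algebraMap K F c) (hv : 0 ≤ v.ord t) :
    ∃ c : K, 0 < v.ord (t - algebraMap K F c) := by
  have ht0 : t ≠ 0 := by
    have := ht 0
    simpa using this
  have htm : t ∈ v.toValuationSubring := (ffs_mem_iff_ord_nonneg v ht0).mpr hv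
  obtain ⟨c, hc⟩ := hres (IsLocalRing.residue v.toValuationSubring ⟨t, htm⟩)
  refine ⟨c, ?_⟩
  have hmem : (⟨t, htm⟩ - algebraMap K v.toValuationSubring c : v.toValuationSubring)
      ∈ IsLocalRing.maximalIdeal v.toValuationSubring := by
    rw [← IsLocalRing.residue_eq_zero_iff, map_sub, sub_eq_zero, ← hc]
    rfl
  have := ffh_ord_pos_of_mem_maximalIdeal v hmem (by
    show t - algebraMap K F c ≠ 0
    exact sub_ne_zero.mpr (ht c))
  exact this

theorem ffh_centre_unique (v : Place K F) {t : F} {c c' : K}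
    (hc : 0 < v.ord (t - algebraMap K F c)) (hc' : 0 < v.ord (t - algebraMap K F c')) :
    c = c' := by
  by_contra hne
  have hd : c' - c ≠ 0 := sub_ne_zero.mpr (Ne.symm hne)
  have h0 : v.ord (algebraMap K F (c' - c)) = 0 := ffh_ord_algebraMap v hd
  have hf : t - algebraMap K F c ≠ 0 := by
    intro h
    rw [h] at hc
    simp at hc
  have hg : -(t - algebraMap K F c') ≠ 0 := by
    intro h
    rw [neg_eq_zero] at h
    rw [h] at hc'
    simp at hc'
  have hsum : (t - algebraMap K F c) + -(t - algebraMap K F c') = algebraMap K F (c' - c) := by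
    rw [map_sub]; ring
  have hne' : (t - algebraMap K F c) + -(t - algebraMap K F c') ≠ 0 := by
    rw [hsum]; exact (map_ne_zero (algebraMap K F)).mpr hd
  have := ffh_ord_add_ge v hf hg hne'
  rw [hsum, h0, ffh_ord_neg] at this
  have := lt_min hc hc'
  omega

theorem ffh_not_pole_of_centre (v : Place K F) {t : F} {c : K}
    (hc : 0 < v.ord (t - algebraMap K F c)) : 0 ≤ v.ord t := by
  by_contra hlt
  push Not at hlt
  have hf : t - algebraMap K F c ≠ 0 := by
    intro h
    rw [h] at hc
    simp at hc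
  by_cases hc0 : c = 0
  · subst hc0
    rw [map_zero, sub_zero] at hc
    omega
  · have hg : algebraMap K F c ≠ 0 := by simpa using hc0
    have ht0 : t ≠ 0 := by
      intro h
      rw [h] at hlt
      simp at hlt
    have hsum : (t - algebraMap K F c) + algebraMap K F c = t := by ring
    have := ffh_ord_add_ge v hf hg (by rw [hsum]; exact ht0)
    rw [hsum, ffh_ord_algebraMap v hc0] at this
    have h2 : 0 ≤ min (v.ord (t - algebraMap K F c)) 0 := le_min hc.le le_rfl
    omega

theorem ffh_deg_eq_one (v : Place K F)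
    (hres : Function.Surjective (algebraMap K v.ResidueField)) : v.deg = 1 := by
  unfold Place.deg
  rw [finrank_eq_one_iff_of_nonzero' (1 : v.ResidueField) one_ne_zero]
  intro w
  obtain ⟨c, rfl⟩ := hres w
  exact ⟨c, by rw [Algebra.smul_def, mul_one]⟩

/-! ### Degree of a divisor with rational places -/

theorem ffh_degree_eq_sum (hdeg : ∀ v : Place K F, v.deg = 1) (E : Divisor K F)
    (T : Finset (Place K F)) (hT : ∀ v, E v ≠ 0 → v ∈ T) :
    Divisor.degree E = ∑ v ∈ T, E v := by
  classical
  have h1 : Divisor.degree E = ∑ v ∈ E.support, E v := by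
    unfold Divisor.degree
    rw [Finsupp.liftAddHom_apply, Finsupp.sum]
    refine Finset.sum_congr rfl fun v _ => ?_
    simp [hdeg v]
  rw [h1]
  refine Finset.sum_subset (fun v hv => hT v (Finsupp.mem_support_iff.mp hv)) fun v _ hv => ?_
  simpa using hv

/-! ### The genus from the degree of canonical divisors -/

theorem ffh_genus_eq [HasCanonicalDivisor (K := K) (F := F)]
    (hΩ : ∃ ω : Ω[F⁄K], ω ≠ 0) (g : ℕ)
    (hdeg : ∀ (ω : Ω[F⁄K]) (hω : ω ≠ 0),
      Divisor.degree (canonicalDivisorOf hω) = 2 * (g : ℤ) - 2) :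
    genus K F = g := by
  unfold genus
  rw [dif_pos hΩ, hdeg]
  have : (2 * (g : ℤ) - 2 + 2).toNat = 2 * g := by omega
  rw [this]
  omega

/-! ### Riemann–Hurwitz -/

/-- **Abstract Riemann–Hurwitz.** -/
theorem ffh_degree_canonical [CharZero K] [HasCanonicalDivisor (K := K) (F := F)]
    [Nontrivial Ω[F⁄K]]
    (hEFT : ∀ v : Place K F, Algebra.EssFiniteType K v.toValuationSubring)
    (hres : ∀ v : Place K F, Function.Surjective (algebraMap K v.ResidueField))
    (hprin : ∀ f : F, f ≠ 0 → ∀ D : Divisor K F, (∀ v, D v = v.ord f) → Divisor.degree D = 0)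
    (t : F) (ht : ∀ c : K, t ≠ algebraMap K F c) (hDt : D K F t ≠ 0)
    (Pfin : K → Finset (Place K F))
    (hPfin : ∀ c v, v ∈ Pfin c ↔ 0 < v.ord (t - algebraMap K F c))
    (Pinf : Finset (Place K F)) (hPinf : ∀ v, v ∈ Pinf ↔ v.ord t < 0)
    (d : ℤ)
    (hFI : ∀ c, ∑ v ∈ Pfin c, v.ord (t - algebraMap K F c) = d)
    (hFIinf : ∑ v ∈ Pinf, v.ord t = -d)
    (S : Finset K) (hunram : ∀ c, c ∉ S → ∀ v ∈ Pfin c, v.ord (t - algebraMap K F c) = 1)
    (ω : Ω[F⁄K]) (hω : ω ≠ 0) :
    Divisor.degree (canonicalDivisorOf hω)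
      = ∑ c ∈ S, (d - ((Pfin c).card : ℤ)) - d - (Pinf.card : ℤ) := by
  classical
  -- ω = f • dt
  by_cases hne : IsEmpty (Place K F)
  · -- without places both sides vanish
    have hd : d = 0 := by
      have := hFI 0
      rw [Finset.sum_eq_zero (fun v _ => (hne.false v).elim)] at this
      exact this.symm
    have hdeg0 : Divisor.degree (canonicalDivisorOf hω) = 0 := by
      have : canonicalDivisorOf hω = 0 := Finsupp.ext fun v => (hne.false v).elim
      rw [this, map_zero]
    have hc : ∀ c, (Pfin c).card = 0 := fun c =>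
      Finset.card_eq_zero.mpr (Finset.eq_empty_of_forall_notMem fun v => (hne.false v).elim)
    have hci : Pinf.card = 0 :=
      Finset.card_eq_zero.mpr (Finset.eq_empty_of_forall_notMem fun v => (hne.false v).elim)
    rw [hdeg0, hci, hd]
    simp [hc]
  rw [not_isEmpty_iff] at hne
  obtain ⟨v0⟩ := hne
  have := hEFT v0
  obtain ⟨f, hf⟩ := ffd_exists_eq_smul_D v0 (hres v0) hDt ω
  have hf0 : f ≠ 0 := by
    rintro rfl
    rw [zero_smul] at hf
    exact hω hf
  -- the divisor of `f` is `div ω - div dt`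
  set E : Divisor K F := canonicalDivisorOf hDt with hE
  have hDf : ∀ v, (canonicalDivisorOf hω - E) v = v.ord f := by
    intro v
    have := hEFT v
    have hgen : v.DCoordGenerates := ffd_dCoordGenerates v (hres v)
    have hcoeff : v.differentialCoeff (D K F t) ≠ 0 := by
      intro h0
      have := v.differentialCoeff_smul_dCoord (D K F t)
      rw [h0, zero_smul] at this
      exact hDt this.symm
    rw [hE, Finsupp.sub_apply, canonicalDivisorOf_apply, canonicalDivisorOf_apply, hf,
      v.ordDifferential_smul hf0 hcoeff]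
    ring
  have hdegE : Divisor.degree (canonicalDivisorOf hω) = Divisor.degree E := by
    have := hprin f hf0 _ hDf
    rw [map_sub, sub_eq_zero] at this
    exact this
  -- values of E
  have hEfin : ∀ c v, v ∈ Pfin c → E v = v.ord (t - algebraMap K F c) - 1 := by
    intro c v hv
    have := hEFT v
    have hpos := (hPfin c v).mp hv
    rw [hE, canonicalDivisorOf_apply, ← ffd_D_sub_algebraMap t c]
    exact ffd_ordDifferential_D v (hres v) hpos.ne'
  have hEinf : ∀ v, v ∈ Pinf → E v = v.ord t - 1 := by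
    intro v hv
    have := hEFT v
    have hneg := (hPinf v).mp hv
    rw [hE, canonicalDivisorOf_apply]
    exact ffd_ordDifferential_D v (hres v) hneg.ne
  -- support
  set T : Finset (Place K F) := (S.biUnion Pfin) ∪ Pinf with hT
  have hsupp : ∀ v, E v ≠ 0 → v ∈ T := by
    intro v hv
    by_cases hpole : v.ord t < 0
    · exact Finset.mem_union_right _ ((hPinf v).mpr hpole)
    · push Not at hpole
      obtain ⟨c, hc⟩ := ffh_exists_centre v (hres v) ht hpole
      have hvc : v ∈ Pfin c := (hPfin c v).mpr hc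
      by_cases hcS : c ∈ S
      · exact Finset.mem_union_left _ (Finset.mem_biUnion.mpr ⟨c, hcS, hvc⟩)
      · exfalso
        apply hv
        rw [hEfin c v hvc, hunram c hcS v hvc]
        rfl
  rw [hdegE, ffh_degree_eq_sum (fun v => ffh_deg_eq_one v (hres v)) E T hsupp, hT]
  have hdisj1 : Disjoint (S.biUnion Pfin) Pinf := by
    rw [Finset.disjoint_left]
    intro v hv hv'
    obtain ⟨c, -, hvc⟩ := Finset.mem_biUnion.mp hv
    have h1 := ffh_not_pole_of_centre v ((hPfin c v).mp hvc)
    have h2 := (hPinf v).mp hv'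
    omega
  have hdisj2 : (S : Set K).PairwiseDisjoint Pfin := by
    intro c _ c' _ hne
    rw [Function.onFun, Finset.disjoint_left]
    intro v hv hv'
    exact hne (ffh_centre_unique v ((hPfin c v).mp hv) ((hPfin c' v).mp hv'))
  rw [Finset.sum_union hdisj1, Finset.sum_biUnion hdisj2]
  have h1 : ∀ c ∈ S, ∑ v ∈ Pfin c, E v = d - ((Pfin c).card : ℤ) := by
    intro c _
    rw [Finset.sum_congr rfl (fun v hv => hEfin c v hv), Finset.sum_sub_distrib, hFI c]
    simp
  have h2 : ∑ v ∈ Pinf, E v = -d - (Pinf.card : ℤ) := by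
    rw [Finset.sum_congr rfl (fun v hv => hEinf v hv), Finset.sum_sub_distrib, hFIinf]
    simp
  rw [Finset.sum_congr rfl h1, h2]
  ring


/-! ### Numerics for `X₀(N)` -/

open ModularCurve in
theorem ffh_numerics (N : ℕ) (g r0 r1 : ℕ) (hg : (g : ℚ) = genusFormula N)
    (h1 : 2 * r1 = dedekindPsi N + nuTwo N) (h0 : 3 * r0 = dedekindPsi N + 2 * nuThree N) :
    ((dedekindPsi N : ℤ) - r0) + ((dedekindPsi N : ℤ) - r1) - (dedekindPsi N : ℤ)
      - (cuspCount N : ℤ) = 2 * (g : ℤ) - 2 := by
  have h1' : (2 : ℚ) * r1 = dedekindPsi N + nuTwo N := by exact_mod_cast h1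
  have h0' : (3 : ℚ) * r0 = dedekindPsi N + 2 * nuThree N := by exact_mod_cast h0
  unfold genusFormula at hg
  have key : ((((dedekindPsi N : ℤ) - r0) + ((dedekindPsi N : ℤ) - r1) - (dedekindPsi N : ℤ)
      - (cuspCount N : ℤ) : ℤ) : ℚ) = ((2 * (g : ℤ) - 2 : ℤ) : ℚ) := by
    push_cast
    linarith
  exact_mod_cast key

open ModularCurve in
/-- **Genus of a function field with the ramification data of `X₀(N)`.**  Here `c0`, `c1` are the
two branch values (`0` and `1728` for `t = j`). -/
theorem ffh_genus_of_counts [CharZero K] [HasCanonicalDivisor (K := K) (F := F)]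
    [Nontrivial Ω[F⁄K]]
    (hEFT : ∀ v : Place K F, Algebra.EssFiniteType K v.toValuationSubring)
    (hres : ∀ v : Place K F, Function.Surjective (algebraMap K v.ResidueField))
    (hprin : ∀ f : F, f ≠ 0 → ∀ D : Divisor K F, (∀ v, D v = v.ord f) → Divisor.degree D = 0)
    (t : F) (ht : ∀ c : K, t ≠ algebraMap K F c) (hDt : D K F t ≠ 0)
    (Pfin : K → Finset (Place K F))
    (hPfin : ∀ c v, v ∈ Pfin c ↔ 0 < v.ord (t - algebraMap K F c))
    (Pinf : Finset (Place K F)) (hPinf : ∀ v, v ∈ Pinf ↔ v.ord t < 0)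
    (N : ℕ)
    (hFI : ∀ c, ∑ v ∈ Pfin c, v.ord (t - algebraMap K F c) = (dedekindPsi N : ℤ))
    (hFIinf : ∑ v ∈ Pinf, v.ord t = -(dedekindPsi N : ℤ))
    (c0 c1 : K) (hc01 : c0 ≠ c1)
    (hunram : ∀ c, c ≠ c0 → c ≠ c1 → ∀ v ∈ Pfin c, v.ord (t - algebraMap K F c) = 1)
    (h1 : 2 * (Pfin c1).card = dedekindPsi N + nuTwo N)
    (h0 : 3 * (Pfin c0).card = dedekindPsi N + 2 * nuThree N)
    (hinf : Pinf.card = cuspCount N)
    (g : ℕ) (hg : (g : ℚ) = genusFormula N) :
    genus K F = g := by
  classical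
  refine ffh_genus_eq ⟨D K F t, hDt⟩ g fun ω hω => ?_
  rw [ffh_degree_canonical hEFT hres hprin t ht hDt Pfin hPfin Pinf hPinf (dedekindPsi N : ℤ) hFI hFIinf
    {c0, c1} (fun c hc v hv => hunram c (fun h => hc (by simp [h])) (fun h => hc (by simp [h])) v hv)
    ω hω, Finset.sum_pair hc01, hinf]
  exact ffh_numerics N g _ _ hg h1 h0

end

end Fermat.Agent.Lib.FF
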