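/-
S24, WP-D part 2: the Hurwitz assembly `IfaceHurwitz N` of `Interface.lean`, proved from the
abstract Riemann–Hurwitz computation (`Hurwitz.lean`), the counting squeeze (`Squeeze.lean`) and
`S20.result` (integrality of `genusFormula N`).
-/
import Fermat.Agent.Lib.FF.Interface
import Fermat.Agent.Lib.FF.Hurwitz
import Fermat.Agent.S20

set_option autoImplicit false

namespace Fermat.Agent.Lib.FF

open AlgebraicCurve ModularCurve KaehlerDifferential Matrix.SpecialLinearGroup
open Fermat.Agent.Lib.RR (Q)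
open scoped MatrixGroups

noncomputable section

/-- Number of orbits of the trivial permutation. -/
theorem ffh_card_orbits_one (X : Type*) [Fintype X] :
    Nat.card (MulAction.orbitRel.Quotient (Subgroup.zpowers (1 : Equiv.Perm X)) X)
      = Fintype.card X := by
  classical
  rw [← Nat.card_eq_fintype_card]
  refine Nat.card_congr (Equiv.ofBijective (fun ω => Quotient.liftOn' ω id ?_) ⟨?_, ?_⟩).symm.symm
  · intro a b hab
    obtain ⟨⟨g, hg⟩, rfl⟩ := hab
    rw [Subgroup.zpowers_one_eq_bot, Subgroup.mem_bot] at hg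
    subst hg
    simp
  · intro a b
    induction a using Quotient.inductionOn'
    induction b using Quotient.inductionOn'
    intro h
    simp only [Quotient.liftOn'_mk'', id] at h
    rw [h]
  · intro x
    exact ⟨Quotient.mk'' x, rfl⟩

theorem ffh_card_orbit_one {X : Type*} (x : X) :
    Nat.card (MulAction.orbit (Subgroup.zpowers (1 : Equiv.Perm X)) x) = 1 := by
  have : MulAction.orbit (Subgroup.zpowers (1 : Equiv.Perm X)) x = {x} := by
    ext y
    constructor
    · rintro ⟨⟨g, hg⟩, rfl⟩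
      rw [Subgroup.zpowers_one_eq_bot, Subgroup.mem_bot] at hg
      subst hg
      simp
    · rintro rfl
      exact MulAction.mem_orbit_self _
  rw [this]
  simp

/-- The squeeze applied to one fibre: the number of places over `t` is the number of orbits. -/
theorem ffh_card_of_fibre (N : ℕ) [NeZero N] (t : ffi_F N) (δ : Equiv.Perm (Q N))
    (h : IfaceFibre N t δ) (P : Finset (Place ffi_K (ffi_F N)))
    (hP : ∀ v, v ∈ P ↔ 0 < v.ord t) (hFI : ∑ v ∈ P, v.ord t = Fintype.card (Q N)) :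
    P.card = Nat.card (MulAction.orbitRel.Quotient (Subgroup.zpowers δ) (Q N)) ∧
      ∀ v ∈ P, ∃ x : Q N, v.ord t = Nat.card (MulAction.orbit (Subgroup.zpowers δ) x) := by
  obtain ⟨e₀, ν, hδ, hub, hdiv, hsurj⟩ := h
  have hsurj' : ∀ v ∈ P, ∃ x, ∃ m : ℤ, 0 < m ∧ ∀ f, f ≠ 0 → ν x f = m * v.ord f :=
    fun v hv => hsurj v ((hP v).mp hv)
  obtain ⟨h1, h2⟩ := ffs_card_places t δ ν e₀ P (fun v hv => (hP v).mp hv) hFI hδ hub hdiv hsurj'
  refine ⟨h1, fun v hv => ?_⟩
  obtain ⟨x, hx⟩ := hsurj' v hv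
  exact ⟨x, h2 v hv x hx⟩

/-- **The Hurwitz assembly.** -/
theorem ffh_ifaceHurwitz (N : ℕ) [NeZero N] : IfaceHurwitz N := by
  intro _hdeg hloc _hcentre hsum hprin hfib hcounts _
  classical
  obtain ⟨hfin, hinf⟩ := hsum
  obtain ⟨hgen, h1728, h0, hT⟩ := hfib
  obtain ⟨hcS, hcST, hcT, hψ⟩ := hcounts
  choose Pfin hPfin hFI using hfin
  obtain ⟨Pinf, hPinf, hFIinf⟩ := hinf
  have hDt := ffd_D_jBar_ne_zero N
  have ht : ∀ c : ffi_K, ffd_jBar N ≠ algebraMap ffi_K (ffi_F N) c := by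
    intro c h
    apply hDt
    rw [h, Derivation.map_algebraMap]
  have hS20 := Fermat.Agent.S20.result N
  set g : ℕ := Module.finrank ℂ (CuspForm (CongruenceSubgroup.Gamma0 N) 2) with hg
  -- the fibre over `∞`
  have hPinf' : ∀ v, v ∈ Pinf ↔ 0 < v.ord (ffd_jBar N)⁻¹ := by
    intro v
    rw [hPinf, Place.ord_inv]
    omega
  have hFIinf' : ∑ v ∈ Pinf, v.ord (ffd_jBar N)⁻¹ = Fintype.card (Q N) := by
    simp only [Place.ord_inv, Finset.sum_neg_distrib, hFIinf, neg_neg]
  have hcardinf := (ffh_card_of_fibre N _ _ hT Pinf hPinf' hFIinf').1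
  -- the fibre over `1728`
  have hcard1 := (ffh_card_of_fibre N _ _ h1728 (Pfin 1728) (hPfin 1728) (hFI 1728)).1
  -- the fibre over `0`
  have hP0 : ∀ v, v ∈ Pfin 0 ↔ 0 < v.ord (ffd_jBar N) := by
    intro v
    rw [hPfin 0, map_zero, sub_zero]
  have hFI0 : ∑ v ∈ Pfin 0, v.ord (ffd_jBar N) = Fintype.card (Q N) := by
    have := hFI 0
    simpa only [map_zero, sub_zero] using this
  have hcard0 := (ffh_card_of_fibre N _ _ h0 (Pfin 0) hP0 hFI0).1
  -- generic fibres are unramified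
  have hunram : ∀ c : ffi_K, c ≠ 0 → c ≠ 1728 → ∀ v ∈ Pfin c,
      v.ord (ffd_jBar N - algebraMap ffi_K (ffi_F N) c) = 1 := by
    intro c hc0 hc1 v hv
    obtain ⟨x, hx⟩ := (ffh_card_of_fibre N _ _ (hgen c hc0 hc1) (Pfin c) (hPfin c) (hFI c)).2 v hv
    rw [hx, ffh_card_orbit_one]
    rfl
  have key := ffh_genus_of_counts (K := ffi_K) (F := ffi_F N)
    (fun v => (hloc v).1) (fun v => (hloc v).2) hprin (ffd_jBar N) ht hDt Pfin hPfin Pinf hPinf N
    (fun c => by rw [hFI c, hψ]) (by rw [hFIinf, hψ]) 0 1728 (by norm_num) hunram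
    (by rw [hcard1, hcS, hψ]) (by rw [hcard0, hcST, hψ]) (by rw [hcardinf, hcT]) g hS20
  rw [key]
  exact hS20

end

end Fermat.Agent.Lib.FF
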