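import Mathlib

/-!
# S24, norm trick (T2) in the Dedekind (AKLB) setting

* `ffn_norm_eq_prod`: `finrank k L` pairwise distinct `k`-embeddings `L → E` compute the norm.
* `ffn_centerAt`: the centre on `B` of a valuation of `E` along an embedding.
* `ffn_exists_centerAt_eq` (**T2**): every prime of `B` over `p` is such a centre.
* `ffn_val_eq_zpow`: a valuation of `L` centred at `P` is a power of the `P`-adic valuation.
* `ffn_log_eq_ramificationIdx_mul`, `ffn_ramificationIdx_le`: ramification index versus orders.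
-/

set_option autoImplicit false

namespace Fermat.Agent.Lib.FF

open IsDedekindDomain WithZero

section Inertia

/-- Over an algebraically closed constant field `K`, a prime of a finite extension lying over a
maximal ideal with residue field `K` has inertia degree one. -/
theorem ffn_inertiaDeg_eq_one {K A B : Type*} [Field K] [IsAlgClosed K] [CommRing A] [CommRing B]
    [Algebra K A] [Algebra K B] [Algebra A B] [IsScalarTower K A B] [Module.Finite A B]
    (p : Ideal A) [hp : p.IsMaximal] (hres : Function.Surjective (algebraMap K (A ⧸ p)))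
    (P : Ideal B) [hP : P.IsPrime] [hPp : P.LiesOver p] : P.inertiaDeg A = 1 := by
  have hPmax : P.IsMaximal := by
    apply Ideal.isMaximal_of_isIntegral_of_isMaximal_comap (R := A) P
    have : P.comap (algebraMap A B) = p := (P.over_def p).symm
    rw [this]; exact hp
  rw [Ideal.inertiaDeg_eq_of_isMaximal p P]
  let _ : Field (A ⧸ p) := Ideal.Quotient.field p
  let _ : Field (B ⧸ P) := Ideal.Quotient.field P
  have h1 : Algebra.IsIntegral K (A ⧸ p) := Algebra.isIntegral_of_surjective hres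
  have h2 : Algebra.IsIntegral K (B ⧸ P) := Algebra.IsIntegral.trans (A ⧸ p)
  have hbij : Function.Bijective (algebraMap K (B ⧸ P)) :=
    IsAlgClosed.algebraMap_bijective_of_isIntegral
  apply Module.finrank_of_bijective_algebraMap
  refine ⟨(algebraMap (A ⧸ p) (B ⧸ P)).injective, fun y => ?_⟩
  obtain ⟨c, rfl⟩ := hbij.2 y
  exact ⟨algebraMap K (A ⧸ p) c, (IsScalarTower.algebraMap_apply K (A ⧸ p) (B ⧸ P) c).symm⟩

end Inertia

section NormProd

variable {k L E X : Type*} [Field k] [Field L] [Field E] [Algebra k L] [Algebra k E]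
  [FiniteDimensional k L] [Algebra.IsSeparable k L] [Fintype X]

/-- If `σ` is an injective family of `finrank k L` many `k`-embeddings `L → E`, then the norm is
the product of the `σ i`. (`E` need not be algebraically closed.) -/
theorem ffn_norm_eq_prod (σ : X → (L →ₐ[k] E)) (hσ : Function.Injective σ)
    (hcard : Fintype.card X = Module.finrank k L) (θ : L) :
    algebraMap k E (Algebra.norm k θ) = ∏ i, σ i θ := by
  classical
  let Ebar := AlgebraicClosure E
  let ι : E →ₐ[k] Ebar := IsScalarTower.toAlgHom k E Ebar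
  have hι : Function.Injective ι := (algebraMap E Ebar).injective
  let Φ : X → (L →ₐ[k] Ebar) := fun i => ι.comp (σ i)
  have hΦinj : Function.Injective Φ := by
    intro i j hij
    apply hσ
    ext x
    apply hι
    exact DFunLike.congr_fun hij x
  have hΦ : Function.Bijective Φ := by
    rw [Fintype.bijective_iff_injective_and_card]
    exact ⟨hΦinj, by rw [hcard, AlgHom.card]⟩
  have h1 : algebraMap k Ebar (Algebra.norm k θ) = ∏ τ : L →ₐ[k] Ebar, τ θ :=
    Algebra.norm_eq_prod_embeddings k Ebar θ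
  have h2 : ∏ τ : L →ₐ[k] Ebar, τ θ = ∏ i, Φ i θ :=
    (Fintype.prod_bijective Φ hΦ _ _ (fun _ => rfl)).symm
  apply hι
  rw [map_prod]
  have h3 : ι (algebraMap k E (Algebra.norm k θ)) = algebraMap k Ebar (Algebra.norm k θ) :=
    ι.commutes _
  rw [h3, h1, h2]
  rfl

end NormProd

section Center

variable {B E Γ₀ : Type*} [CommRing B] [CommRing E] [LinearOrderedCommGroupWithZero Γ₀]

/-- The centre on `B` of a valuation `ν` of `E` along a ring hom `φ : B → E` with `ν ∘ φ ≤ 1`. -/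
def ffn_center (φ : B →+* E) (ν : Valuation E Γ₀) (h : ∀ b, ν (φ b) ≤ 1) : Ideal B where
  carrier := {b | ν (φ b) < 1}
  zero_mem' := by simp
  add_mem' := fun {a b} ha hb => by
    simp only [Set.mem_ofPred_eq, map_add] at *
    exact lt_of_le_of_lt (ν.map_add _ _) (max_lt ha hb)
  smul_mem' := fun c {b} hb => by
    simp only [Set.mem_ofPred_eq, smul_eq_mul, map_mul] at *
    calc ν (φ c) * ν (φ b) ≤ 1 * ν (φ b) := mul_le_mul_left (h c) _
      _ = ν (φ b) := one_mul _
      _ < 1 := hb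

theorem ffn_mem_center {φ : B →+* E} {ν : Valuation E Γ₀} {h : ∀ b, ν (φ b) ≤ 1} {b : B} :
    b ∈ ffn_center φ ν h ↔ ν (φ b) < 1 := Iff.rfl

theorem ffn_not_mem_center {φ : B →+* E} {ν : Valuation E Γ₀} {h : ∀ b, ν (φ b) ≤ 1} {b : B} :
    b ∉ ffn_center φ ν h ↔ ν (φ b) = 1 := by
  rw [ffn_mem_center, not_lt]
  exact ⟨fun h' => le_antisymm (h b) h', fun h' => h'.ge⟩

instance ffn_center_isPrime (φ : B →+* E) (ν : Valuation E Γ₀) (h : ∀ b, ν (φ b) ≤ 1) :
    (ffn_center φ ν h).IsPrime where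
  ne_top' := by
    rw [Ideal.ne_top_iff_one]
    rw [ffn_not_mem_center]
    simp
  mem_or_mem' := fun {a b} hab => by
    by_contra hcon
    rw [not_or, ffn_not_mem_center, ffn_not_mem_center] at hcon
    rw [ffn_mem_center, map_mul, map_mul, hcon.1, hcon.2, one_mul] at hab
    exact lt_irrefl _ hab

end Center

section Power

variable {B L : Type*} [CommRing B] [IsDedekindDomain B] [Field L] [Algebra B L]
  [IsFractionRing B L]

/-- A valuation of `L` which is `≤ 1` on `B` with centre `P` is trivial on the `P`-adic units. -/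
theorem ffn_val_eq_one_of_adic_eq_one (P : HeightOneSpectrum B) (ν' : Valuation L ℤᵐ⁰)
    (hB : ∀ b : B, ν' (algebraMap B L b) ≤ 1)
    (hc : ∀ b : B, ν' (algebraMap B L b) < 1 ↔ b ∈ P.asIdeal)
    {y : L} (hy : P.valuation L y = 1) : ν' y = 1 := by
  obtain ⟨n, d, hnd⟩ := P.exists_primeCompl_mul_eq_of_integer y hy.le
  have hd : (d : B) ∉ P.asIdeal := d.2
  have hwd : P.valuation L (algebraMap B L d) = 1 :=
    (P.valuation_eq_one_iff_notMem (K := L)).mpr hd
  have hwn : P.valuation L (algebraMap B L n) = 1 := by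
    rw [← hnd, map_mul, hy, hwd, one_mul]
  have hn : n ∉ P.asIdeal := (P.valuation_eq_one_iff_notMem (K := L)).mp hwn
  have hνd : ν' (algebraMap B L d) = 1 :=
    le_antisymm (hB d) (not_lt.mp (fun h => hd ((hc d).mp h)))
  have hνn : ν' (algebraMap B L n) = 1 :=
    le_antisymm (hB n) (not_lt.mp (fun h => hn ((hc n).mp h)))
  have := congrArg ν' hnd
  rw [map_mul, hνd, hνn, mul_one] at this
  exact this

/-- A valuation of `L` which is `≤ 1` on `B` with centre `P` is a power of the `P`-adic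
valuation: `ν' f = ν' π₀ ^ (ord_P f)` for a `P`-adic uniformizer `π₀`. -/
theorem ffn_val_eq_zpow (P : HeightOneSpectrum B) (ν' : Valuation L ℤᵐ⁰)
    (hB : ∀ b : B, ν' (algebraMap B L b) ≤ 1)
    (hc : ∀ b : B, ν' (algebraMap B L b) < 1 ↔ b ∈ P.asIdeal)
    {π₀ : L} (hπ₀ : P.valuation L π₀ = exp (-1 : ℤ)) {f : L} (hf : f ≠ 0) :
    ν' f = ν' π₀ ^ (-(log (P.valuation L f))) := by
  have hπ0 : π₀ ≠ 0 := by
    rintro rfl
    rw [map_zero] at hπ₀
    exact WithZero.exp_ne_zero hπ₀.symm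
  have hwf : P.valuation L f ≠ 0 := (Valuation.ne_zero_iff _).mpr hf
  set n : ℤ := -(log (P.valuation L f)) with hn
  have hy : P.valuation L (f * π₀ ^ (-n)) = 1 := by
    rw [map_mul, map_zpow₀, hπ₀, ← exp_zsmul, smul_eq_mul, hn]
    have : P.valuation L f = exp (log (P.valuation L f)) := (exp_log hwf).symm
    rw [this, ← exp_add, log_exp]
    simp
  have h1 := ffn_val_eq_one_of_adic_eq_one P ν' hB hc hy
  rw [map_mul, map_zpow₀] at h1
  have hνπ : ν' π₀ ≠ 0 := (Valuation.ne_zero_iff _).mpr hπ0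
  have : ν' f = ν' f * (ν' π₀ ^ (-n) * ν' π₀ ^ n) := by
    rw [← zpow_add₀ hνπ]; simp
  rw [this, ← mul_assoc, h1, one_mul]

end Power

section AKLB

variable {A B k L E X : Type*}
  [CommRing A] [IsDedekindDomain A] [CommRing B] [IsDedekindDomain B] [Algebra A B]
  [Module.Finite A B] [Module.IsTorsionFree A B]
  [Field k] [Algebra A k] [IsFractionRing A k]
  [Field L] [Algebra B L] [IsFractionRing B L]
  [Algebra k L] [Algebra A L] [IsScalarTower A B L] [IsScalarTower A k L]
  [FiniteDimensional k L] [Algebra.IsSeparable k L]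
  [Field E] [Algebra k E] [Algebra A E] [IsScalarTower A k E]
  [Fintype X]

/-- The ring homomorphism `B → L → E` attached to an embedding. -/
def ffn_phi (τ : L →ₐ[k] E) : B →+* E := (τ : L →+* E).comp (algebraMap B L)

omit [IsDedekindDomain A] [IsDedekindDomain B] [Module.Finite A B] [Module.IsTorsionFree A B]
  [IsFractionRing A k] [IsFractionRing B L] [FiniteDimensional k L] [Algebra.IsSeparable k L] in
theorem ffn_phi_algebraMap (τ : L →ₐ[k] E) (a : A) :
    ffn_phi (B := B) τ (algebraMap A B a) = algebraMap A E a := by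
  show τ (algebraMap B L (algebraMap A B a)) = algebraMap A E a
  rw [← IsScalarTower.algebraMap_apply A B L, IsScalarTower.algebraMap_apply A k L,
    AlgHom.commutes, ← IsScalarTower.algebraMap_apply A k E]

omit [IsDedekindDomain A] [IsDedekindDomain B] [Module.IsTorsionFree A B]
  [IsFractionRing A k] [IsFractionRing B L] [FiniteDimensional k L] [Algebra.IsSeparable k L] in
/-- Integrality: a valuation `≤ 1` on the image of `A` is `≤ 1` on the image of `B`. -/
theorem ffn_le_one_of_integral (ν : Valuation E ℤᵐ⁰) (hA : ∀ a : A, ν (algebraMap A E a) ≤ 1)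
    (τ : L →ₐ[k] E) (b : B) : ν (ffn_phi τ b) ≤ 1 := by
  have hb : IsIntegral A b := Algebra.IsIntegral.isIntegral b
  let φ : A →+* ν.integer := (algebraMap A E).codRestrict ν.integer (fun a => hA a)
  have hint : IsIntegral ν.integer (ffn_phi τ b) := by
    refine IsIntegral.map_of_comp_eq φ (ffn_phi τ) ?_ hb
    ext a
    exact (ffn_phi_algebraMap τ a).symm
  exact (Valuation.integer.integers ν).mem_of_integral hint

/-- The centre on `B` of the valuation `ν` of `E` along the embedding `τ`. -/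
def ffn_centerAt (ν : Valuation E ℤᵐ⁰) (hA : ∀ a : A, ν (algebraMap A E a) ≤ 1)
    (τ : L →ₐ[k] E) : Ideal B :=
  ffn_center (ffn_phi τ) ν (ffn_le_one_of_integral ν hA τ)

omit [IsDedekindDomain A] [IsDedekindDomain B] [Module.IsTorsionFree A B]
  [IsFractionRing A k] [IsFractionRing B L] [FiniteDimensional k L] [Algebra.IsSeparable k L] in
theorem ffn_mem_centerAt {ν : Valuation E ℤᵐ⁰} {hA : ∀ a : A, ν (algebraMap A E a) ≤ 1}
    {τ : L →ₐ[k] E} {b : B} :
    b ∈ ffn_centerAt ν hA τ ↔ ν (τ (algebraMap B L b)) < 1 := Iff.rfl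

omit [IsDedekindDomain A] [IsDedekindDomain B] [Module.IsTorsionFree A B]
  [IsFractionRing A k] [IsFractionRing B L] [FiniteDimensional k L] [Algebra.IsSeparable k L] in
theorem ffn_not_mem_centerAt {ν : Valuation E ℤᵐ⁰} {hA : ∀ a : A, ν (algebraMap A E a) ≤ 1}
    {τ : L →ₐ[k] E} {b : B} :
    b ∉ ffn_centerAt ν hA τ ↔ ν (τ (algebraMap B L b)) = 1 :=
  ffn_not_mem_center

instance ffn_centerAt_isPrime (ν : Valuation E ℤᵐ⁰) (hA : ∀ a : A, ν (algebraMap A E a) ≤ 1)
    (τ : L →ₐ[k] E) : (ffn_centerAt (B := B) ν hA τ).IsPrime :=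
  ffn_center_isPrime _ _ _

omit [IsDedekindDomain A] [IsDedekindDomain B] [Module.IsTorsionFree A B]
  [IsFractionRing A k] [IsFractionRing B L] [FiniteDimensional k L] [Algebra.IsSeparable k L] in
theorem ffn_centerAt_liesOver (ν : Valuation E ℤᵐ⁰) (hA : ∀ a : A, ν (algebraMap A E a) ≤ 1)
    (p : Ideal A) [hpm : p.IsMaximal] (hp : ∀ a ∈ p, ν (algebraMap A E a) < 1)
    (τ : L →ₐ[k] E) : (ffn_centerAt (B := B) ν hA τ).LiesOver p := by
  constructor
  have hle : p ≤ (ffn_centerAt (B := B) ν hA τ).under A := by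
    intro a ha
    rw [Ideal.mem_comap]
    show ν (ffn_phi τ (algebraMap A B a)) < 1
    rw [ffn_phi_algebraMap]
    exact hp a ha
  have hne : (ffn_centerAt (B := B) ν hA τ).under A ≠ ⊤ :=
    (Ideal.IsPrime.under A (ffn_centerAt (B := B) ν hA τ)).ne_top
  exact hpm.eq_of_le hne hle

/-- **Norm trick (T2).** Every prime of `B` over `p` is the centre of `ν` along one of the
embeddings `σ i`. -/
theorem ffn_exists_centerAt_eq (σ : X → (L →ₐ[k] E)) (hσ : Function.Injective σ)
    (hcard : Fintype.card X = Module.finrank k L)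
    (ν : Valuation E ℤᵐ⁰) (hA : ∀ a : A, ν (algebraMap A E a) ≤ 1)
    (p : Ideal A) [p.IsMaximal] (hp0 : p ≠ ⊥) (hp : ∀ a ∈ p, ν (algebraMap A E a) < 1)
    (P : Ideal B) [hP : P.IsPrime] [hPp : P.LiesOver p] :
    ∃ i, P = ffn_centerAt ν hA (σ i) := by
  classical
  by_contra hcon
  push Not at hcon
  have hP0 : P ≠ ⊥ := Ideal.ne_bot_of_liesOver_of_ne_bot hp0 P
  have hPmax : P.IsMaximal := hP.isMaximal hP0
  have hnle : ∀ i, ¬ P ≤ ffn_centerAt ν hA (σ i) := fun i hle =>
    hcon i (hPmax.eq_of_le (ffn_centerAt_isPrime ν hA (σ i)).ne_top hle)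
  have hX : Nonempty X := by
    rw [← Fintype.card_pos_iff, hcard]
    exact Module.finrank_pos
  obtain ⟨i₀⟩ := hX
  have hav : ¬ ((P : Set B) ⊆ ⋃ i ∈ ((Finset.univ : Finset X) : Set X),
      (ffn_centerAt (B := B) ν hA (σ i) : Set B)) := by
    rw [Ideal.subset_union_prime i₀ i₀
      (fun i _ _ _ => ffn_centerAt_isPrime ν hA (σ i))]
    rintro ⟨i, -, hi⟩
    exact hnle i hi
  rw [Set.not_subset] at hav
  obtain ⟨θ, hθP, hθ⟩ := hav
  have hθ' : ∀ i, ν (σ i (algebraMap B L θ)) = 1 := by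
    intro i
    rw [← ffn_not_mem_centerAt (hA := hA)]
    intro hmem
    apply hθ
    simp only [Finset.coe_univ, Set.mem_univ, Set.iUnion_true, Set.mem_iUnion, SetLike.mem_coe]
    exact ⟨i, hmem⟩
  -- the norm
  have hnorm := ffn_norm_eq_prod σ hσ hcard (algebraMap B L θ)
  have : IsIntegralClosure B A L := IsIntegralClosure.of_isIntegrallyClosed B A L
  have hN : algebraMap A k (Algebra.intNorm A B θ) = Algebra.norm k (algebraMap B L θ) :=
    Algebra.algebraMap_intNorm (A := A) (K := k) (L := L) (B := B) θ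
  have hNp : Algebra.intNorm A B θ ∈ p := by
    have hdvd := Algebra.dvd_algebraMap_intNorm_self A B θ
    have : algebraMap A B (Algebra.intNorm A B θ) ∈ P := Ideal.mem_of_dvd P hdvd hθP
    rw [hPp.over]
    exact Ideal.mem_comap.mpr this
  have h1 : ν (algebraMap A E (Algebra.intNorm A B θ)) < 1 := hp _ hNp
  rw [IsScalarTower.algebraMap_apply A k E, hN, hnorm, map_prod] at h1
  simp only [hθ', Finset.prod_const_one, lt_self_iff_false] at h1

omit [IsDedekindDomain A] [IsDedekindDomain B] [Module.Finite A B] [Module.IsTorsionFree A B]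
  [IsFractionRing A k] [IsFractionRing B L] [FiniteDimensional k L] [Algebra.IsSeparable k L] in
/-- If `ν ϖ < 1` then `ν < 1` on the ideal generated by `ϖ`. -/
theorem ffn_lt_one_of_mem_span (ν : Valuation E ℤᵐ⁰) (hA : ∀ a : A, ν (algebraMap A E a) ≤ 1)
    (ϖ : A) (hνϖ : ν (algebraMap A E ϖ) < 1) :
    ∀ a ∈ Ideal.span {ϖ}, ν (algebraMap A E a) < 1 := by
  intro a ha
  obtain ⟨c, rfl⟩ := Ideal.mem_span_singleton'.mp ha
  rw [map_mul, map_mul]
  calc ν (algebraMap A E c) * ν (algebraMap A E ϖ) ≤ 1 * ν (algebraMap A E ϖ) :=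
        mul_le_mul_left (hA c) _
    _ = ν (algebraMap A E ϖ) := one_mul _
    _ < 1 := hνϖ

omit [IsFractionRing A k] [FiniteDimensional k L] [Algebra.IsSeparable k L] in
/-- The relation `e₀ = m * e`: the `ν`-order of `ϖ` is the ramification index of the centre times
the `ν`-order of a uniformizer of the centre. -/
theorem ffn_log_eq_ramificationIdx_mul (ν : Valuation E ℤᵐ⁰)
    (hA : ∀ a : A, ν (algebraMap A E a) ≤ 1)
    (ϖ : A) [hϖmax : (Ideal.span {ϖ}).IsMaximal] (hϖ0 : ϖ ≠ 0)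
    (hνϖ : ν (algebraMap A E ϖ) < 1) (τ : L →ₐ[k] E)
    (P : HeightOneSpectrum B) (hP : P.asIdeal = ffn_centerAt (B := B) ν hA τ)
    {π₀ : L} (hπ₀ : P.valuation L π₀ = exp (-1 : ℤ)) :
    log (ν (algebraMap A E ϖ)) =
      ((ffn_centerAt (B := B) ν hA τ).ramificationIdx A : ℤ) * log (ν (τ π₀)) := by
  classical
  set p : Ideal A := Ideal.span {ϖ} with hp
  have hp0 : p ≠ ⊥ := by
    rw [hp, Ne, Ideal.span_singleton_eq_bot]; exact hϖ0
  have hlt := ffn_lt_one_of_mem_span ν hA ϖ hνϖ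
  have hlies : (ffn_centerAt (B := B) ν hA τ).LiesOver p :=
    ffn_centerAt_liesOver ν hA p hlt τ
  have hinjAB : Function.Injective (algebraMap A B) :=
    FaithfulSMul.algebraMap_injective A B
  have hϖB : algebraMap A B ϖ ≠ 0 := by
    rw [Ne, map_eq_zero_iff _ hinjAB]; exact hϖ0
  have hmap : p.map (algebraMap A B) = Ideal.span {algebraMap A B ϖ} := by
    rw [hp, Ideal.map_span, Set.image_singleton]
  have hmap0 : p.map (algebraMap A B) ≠ ⊥ := by
    rw [hmap, Ne, Ideal.span_singleton_eq_bot]; exact hϖB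
  have he : (ffn_centerAt (B := B) ν hA τ).ramificationIdx A =
      multiplicity P.asIdeal (Ideal.span {algebraMap A B ϖ}) := by
    rw [Ideal.IsDedekindDomain.ramificationIdx_eq_multiplicity p _ hmap0, hmap, hP]
  have hw : P.valuation L (algebraMap A L ϖ) =
      exp (-((ffn_centerAt (B := B) ν hA τ).ramificationIdx A : ℤ)) := by
    rw [IsScalarTower.algebraMap_apply A B L, HeightOneSpectrum.valuation_of_algebraMap,
      P.intValuation_eq_exp_neg_multiplicity hϖB, he]
  -- the comap valuation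
  let ν' : Valuation L ℤᵐ⁰ := ν.comap (τ : L →+* E)
  have hB : ∀ b : B, ν' (algebraMap B L b) ≤ 1 := fun b => ffn_le_one_of_integral ν hA τ b
  have hc : ∀ b : B, ν' (algebraMap B L b) < 1 ↔ b ∈ P.asIdeal := fun b => by
    rw [hP]; exact Iff.rfl
  have hϖL : algebraMap A L ϖ ≠ 0 := by
    rw [IsScalarTower.algebraMap_apply A B L, Ne,
      map_eq_zero_iff _ (IsFractionRing.injective B L)]
    exact hϖB
  have hpow := ffn_val_eq_zpow P ν' hB hc hπ₀ hϖL
  rw [hw, log_exp, neg_neg] at hpow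
  have h1 : ν' (algebraMap A L ϖ) = ν (algebraMap A E ϖ) := by
    show ν (τ (algebraMap A L ϖ)) = ν (algebraMap A E ϖ)
    rw [IsScalarTower.algebraMap_apply A k L, AlgHom.commutes,
      ← IsScalarTower.algebraMap_apply A k E]
  have h2 : ν' π₀ = ν (τ π₀) := rfl
  rw [h1, h2] at hpow
  rw [hpow, log_zpow, smul_eq_mul]

omit [IsFractionRing A k] [FiniteDimensional k L] [Algebra.IsSeparable k L] in
/-- **Ramification bound.** If all `ν`-orders along `τ` are divisible by `d` and the `ν`-order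
`e₀` of `ϖ` is at most `d * per`, then the ramification index of the centre is at most `per`. -/
theorem ffn_ramificationIdx_le (ν : Valuation E ℤᵐ⁰)
    (hA : ∀ a : A, ν (algebraMap A E a) ≤ 1)
    (ϖ : A) [hϖmax : (Ideal.span {ϖ}).IsMaximal] (hϖ0 : ϖ ≠ 0)
    (e₀ : ℕ) (he₀ : 0 < e₀) (hνϖ : ν (algebraMap A E ϖ) = exp (-(e₀ : ℤ)))
    (τ : L →ₐ[k] E) (d : ℕ) (hd : 0 < d)
    (hdiv : ∀ f : L, f ≠ 0 → (d : ℤ) ∣ log (ν (τ f)))
    (per : ℕ) (hsize : e₀ ≤ d * per) :
    (ffn_centerAt (B := B) ν hA τ).ramificationIdx A ≤ per := by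
  classical
  have hνϖ' : ν (algebraMap A E ϖ) < 1 := by
    rw [hνϖ, ← exp_zero, exp_lt_exp]
    omega
  set p : Ideal A := Ideal.span {ϖ} with hp
  have hp0 : p ≠ ⊥ := by
    rw [hp, Ne, Ideal.span_singleton_eq_bot]; exact hϖ0
  have hlies : (ffn_centerAt (B := B) ν hA τ).LiesOver p :=
    ffn_centerAt_liesOver ν hA p (ffn_lt_one_of_mem_span ν hA ϖ hνϖ') τ
  have hP0 : ffn_centerAt (B := B) ν hA τ ≠ ⊥ := Ideal.ne_bot_of_liesOver_of_ne_bot hp0 _
  let P : HeightOneSpectrum B := ⟨ffn_centerAt (B := B) ν hA τ, inferInstance, hP0⟩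
  obtain ⟨π₀, hπ₀⟩ := P.valuation_exists_uniformizer L
  have hπ0 : π₀ ≠ 0 := by
    rintro rfl
    rw [map_zero] at hπ₀
    exact WithZero.exp_ne_zero hπ₀.symm
  have hrel := ffn_log_eq_ramificationIdx_mul ν hA ϖ hϖ0 hνϖ' τ P rfl hπ₀
  rw [hνϖ, log_exp] at hrel
  obtain ⟨c, hc⟩ := hdiv π₀ hπ0
  rw [hc] at hrel
  set e : ℕ := (ffn_centerAt (B := B) ν hA τ).ramificationIdx A with he
  -- `-e₀ = e * (d * c)`
  have hcneg : c ≤ -1 := by
    by_contra hcon
    have hc0 : 0 ≤ c := by omega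
    have : (0 : ℤ) ≤ (e : ℤ) * ((d : ℤ) * c) := by positivity
    have he₀' : (0 : ℤ) < e₀ := by exact_mod_cast he₀
    linarith
  have h1 : (e : ℤ) * d ≤ e₀ := by
    have : (e₀ : ℤ) = (e : ℤ) * d * (-c) := by linarith
    rw [this]
    have hnn : (0 : ℤ) ≤ (e : ℤ) * d := by positivity
    nlinarith
  have h2 : e * d ≤ d * per := by
    have : e * d ≤ e₀ := by exact_mod_cast h1
    exact this.trans hsize
  rw [mul_comm e d] at h2
  exact Nat.le_of_mul_le_mul_left h2 hd

omit [IsDedekindDomain A] [Module.Finite A B]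
  [IsFractionRing A k] [IsFractionRing B L] [FiniteDimensional k L] [Algebra.IsSeparable k L]
  [Algebra A L] [IsScalarTower A B L] [IsScalarTower A k L] [Algebra k L] [Algebra B L]
  [Algebra A k] in
/-- The primes over `(ϖ)`, counted as height-one primes of `B` containing `ϖ`. -/
theorem ffn_card_heightOneSpectrum_eq [IsDomain A] (ϖ : A) [hϖmax : (Ideal.span {ϖ}).IsMaximal]
    (hϖ0 : ϖ ≠ 0) :
    Nat.card {P : HeightOneSpectrum B // algebraMap A B ϖ ∈ P.asIdeal} =
      ((Ideal.span {ϖ}).primesOver B).ncard := by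
  classical
  rw [← Nat.card_coe_set_eq]
  have hp0 : Ideal.span {ϖ} ≠ (⊥ : Ideal A) := by
    rw [Ne, Ideal.span_singleton_eq_bot]; exact hϖ0
  refine Nat.card_eq_of_bijective
    (fun P : {P : HeightOneSpectrum B // algebraMap A B ϖ ∈ P.asIdeal} =>
      (⟨P.1.asIdeal, P.1.isPrime, ⟨?_⟩⟩ : (Ideal.span {ϖ}).primesOver B)) ⟨?_, ?_⟩
  · have hle : Ideal.span {ϖ} ≤ P.1.asIdeal.under A := by
      rw [Ideal.span_singleton_le_iff_mem, Ideal.mem_comap]
      exact P.2
    have hne : P.1.asIdeal.under A ≠ ⊤ := (Ideal.IsPrime.under A P.1.asIdeal).ne_top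
    exact hϖmax.eq_of_le hne hle
  · intro P Q h
    have : P.1.asIdeal = Q.1.asIdeal := congrArg Subtype.val h
    exact Subtype.ext (HeightOneSpectrum.ext this)
  · rintro ⟨Q, hQ, hQp⟩
    have hQ0 : Q ≠ ⊥ := Ideal.ne_bot_of_liesOver_of_ne_bot hp0 Q
    refine ⟨⟨⟨Q, hQ, hQ0⟩, ?_⟩, rfl⟩
    show algebraMap A B ϖ ∈ Q
    have : ϖ ∈ Q.under A := by
      rw [← hQp.over]; exact Ideal.mem_span_singleton_self ϖ
    exact Ideal.mem_comap.mp this

end AKLB

end Fermat.Agent.Lib.FF
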