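/-
S24, T2 at the level of places (helper4): `IfaceNormTrick K F t` for every transcendental
generator `t` of a function field `F / K` of characteristic zero.

Transport of the Dedekind-form norm trick (`NormTrick.lean`, `ffn_exists_centerAt_eq`) through
helper6's dictionary `HeightOneSpectrum (ffB K t) ↔ {places with t integral}`.
-/
import Fermat.Agent.Lib.FF.NormTrick
import Fermat.Agent.Lib.FF.FFBasicResidue
import Fermat.Agent.Lib.FF.InterfaceModel

set_option autoImplicit false
set_option linter.style.haveILetI false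
set_option linter.unusedSectionVars false

noncomputable section

open IsDedekindDomain WithZero IsLocalRing AlgebraicCurve IntermediateField Polynomial
open scoped IntermediateField.algebraAdjoinAdjoin

namespace Fermat.Agent.Lib.FF

variable {K F : Type*} [Field K] [Field F] [Algebra K F]

/-- Two ring homomorphisms out of `F` agreeing on `K` and on `t` agree on `K(t)`. -/
theorem ffn_eq_on_adjoin {E : Type*} [Field E] (t : F) (f g : F →+* E)
    (hK : ∀ c : K, f (algebraMap K F c) = g (algebraMap K F c)) (ht : f t = g t) :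
    ∀ y ∈ K⟮t⟯, f y = g y := by
  let S : IntermediateField K F := Subfield.toIntermediateField (f.eqLocusField g) hK
  have hle : K⟮t⟯ ≤ S := by
    rw [adjoin_simple_le_iff]
    exact ht
  intro y hy
  exact hle hy

/-- A valuation which is trivial on the constants and `< 1` at `t` is `≤ 1` on `K[t]`. -/
theorem ffn_le_one_on_adjoin {E : Type*} [Field E] (t : F) (f : F →+* E) (w : Valuation E ℤᵐ⁰)
    (hK : ∀ c : K, c ≠ 0 → w (f (algebraMap K F c)) = 1) (ht : w (f t) < 1) :
    ∀ a ∈ Algebra.adjoin K {t}, w (f a) ≤ 1 := by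
  intro a ha
  induction ha using Algebra.adjoin_induction with
  | mem x hx =>
    rw [Set.mem_singleton_iff] at hx
    rw [hx]; exact ht.le
  | algebraMap c =>
    rcases eq_or_ne c 0 with rfl | hc
    · simp
    · exact (hK c hc).le
  | add x y _ _ hx hy =>
    rw [map_add]
    exact (w.map_add _ _).trans (max_le hx hy)
  | mul x y _ _ hx hy =>
    rw [map_mul, map_mul]
    exact mul_le_one' hx hy

variable (t : F) [FFGen K t] [CharZero K]

/-- `t` is irreducible in `K[t]`. -/
theorem ffn_irreducible_ffX : Irreducible (ffX K t) := by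
  have htr : Transcendental K t := FFGen.transc
  rw [← ffA_equiv_X htr]
  exact (MulEquiv.irreducible_iff (ffA_equiv htr).toMulEquiv).mpr Polynomial.irreducible_X

instance ffn_span_ffX_isMaximal : (Ideal.span {ffX K t}).IsMaximal :=
  PrincipalIdealRing.isMaximal_of_irreducible (ffn_irreducible_ffX t)

theorem ffn_ffX_ne_zero : ffX K t ≠ 0 := (ffn_irreducible_ffX (K := K) t).ne_zero

/-- The prime of `B` attached to a zero `v` of `t` lies over `(t)`. -/
theorem ffn_primeOf_liesOver (v : Place K F) (ht : t ∈ v.toValuationSubring)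
    (hv : 0 < v.ord t) :
    (ff_primeOf v ht).asIdeal.LiesOver (Ideal.span {ffX K t}) := by
  constructor
  have ht0 : t ≠ 0 := by
    rintro rfl
    simp at hv
  have hle : Ideal.span {ffX K t} ≤ (ff_primeOf v ht).asIdeal.under (ffA K t) := by
    rw [Ideal.span_singleton_le_iff_mem, Ideal.mem_comap]
    show ff_BtoO v ht (algebraMap (ffA K t) (ffB K t) (ffX K t)) ∈
      IsLocalRing.maximalIdeal v.toValuationSubring
    rw [IsLocalRing.mem_maximalIdeal, mem_nonunits_iff]
    intro hu
    have hinv := ff_inv_mem_of_isUnit v hu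
    have hinv' : t⁻¹ ∈ v.toValuationSubring := hinv
    exact ((ff_ord_pos_iff v ht0).mp hv).2 hinv'
  have hne : (ff_primeOf v ht).asIdeal.under (ffA K t) ≠ ⊤ :=
    (Ideal.IsPrime.under (ffA K t) (ff_primeOf v ht).asIdeal).ne_top
  exact (ffn_span_ffX_isMaximal t).eq_of_le hne hle

/-- **T2 at the level of places**: `IfaceNormTrick K F t`. -/
theorem ffn_ifaceNormTrick : IfaceNormTrick K F t := by
  intro E _ X _ σ w hσ hcard hσt hσK hwK hwt v hv
  classical
  -- a base point
  have hX : Nonempty X := by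
    rw [← Fintype.card_pos_iff, hcard]
    exact Module.finrank_pos
  obtain ⟨x₀⟩ := hX
  have ht0 : t ≠ 0 := by
    rintro rfl
    simp at hv
  have htv : t ∈ v.toValuationSubring := ((ff_ord_pos_iff v ht0).mp hv).1
  -- algebra structures on `E`
  letI algkE : Algebra K⟮t⟯ E := ((σ x₀).comp (algebraMap K⟮t⟯ F)).toAlgebra
  letI algAE : Algebra (ffA K t) E := ((σ x₀).comp (algebraMap (ffA K t) F)).toAlgebra
  haveI : IsScalarTower (ffA K t) K⟮t⟯ E := IsScalarTower.of_algebraMap_eq fun a => by
    show σ x₀ (algebraMap (ffA K t) F a) = σ x₀ (algebraMap K⟮t⟯ F (algebraMap (ffA K t) K⟮t⟯ a))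
    rw [← IsScalarTower.algebraMap_apply (ffA K t) K⟮t⟯ F]
  haveI : IsScalarTower (ffA K t) (ffB K t) F := IsScalarTower.of_algebraMap_eq (fun _ => rfl)
  -- the embeddings as `K(t)`-algebra homomorphisms
  let σ' : X → (F →ₐ[K⟮t⟯] E) := fun x =>
    { toRingHom := σ x
      commutes' := fun y => by
        show σ x (algebraMap K⟮t⟯ F y) = σ x₀ (algebraMap K⟮t⟯ F y)
        exact ffn_eq_on_adjoin t (σ x) (σ x₀) (fun c => hσK x x₀ c) (hσt x x₀) _ y.2 }
  have hσ'apply : ∀ x (f : F), σ' x f = σ x f := fun _ _ => rfl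
  have hσ' : Function.Injective σ' := by
    intro x y hxy
    apply hσ
    ext f
    have := DFunLike.congr_fun hxy f
    exact this
  -- the valuation on `A = K[t]`
  have hA : ∀ a : ffA K t, w (algebraMap (ffA K t) E a) ≤ 1 := fun a =>
    ffn_le_one_on_adjoin t (σ x₀) w (hwK x₀) (hwt x₀) a a.2
  have hϖ : w (algebraMap (ffA K t) E (ffX K t)) < 1 := hwt x₀
  have hlt := ffn_lt_one_of_mem_span w hA (ffX K t) hϖ
  have hp0 : Ideal.span {ffX K t} ≠ (⊥ : Ideal (ffA K t)) := by
    rw [Ne, Ideal.span_singleton_eq_bot]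
    exact ffn_ffX_ne_zero t
  -- the prime attached to `v`
  set P := ff_primeOf v htv with hP
  haveI : P.asIdeal.LiesOver (Ideal.span {ffX K t}) := ffn_primeOf_liesOver t v htv hv
  haveI : P.asIdeal.IsPrime := P.isPrime
  obtain ⟨x, hx⟩ := ffn_exists_centerAt_eq (A := ffA K t) (B := ffB K t) (k := K⟮t⟯) (L := F)
    σ' hσ' hcard w hA (Ideal.span {ffX K t}) hp0 hlt P.asIdeal
  refine ⟨x, ?_⟩
  -- a uniformizer in `B`
  obtain ⟨π, hπ'⟩ := P.valuation_exists_uniformizer' F
  have hπ : P.valuation F (algebraMap (ffB K t) F π) = exp (-1 : ℤ) := hπ'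
  have hπP : π ∈ P.asIdeal := by
    rw [← P.valuation_lt_one_iff_mem (K := F), hπ, ← exp_zero, exp_lt_exp]
    norm_num
  have hπ0 : algebraMap (ffB K t) F π ≠ 0 := by
    intro h0
    rw [h0, map_zero] at hπ
    exact WithZero.exp_ne_zero hπ.symm
  have hπc : w (σ x (algebraMap (ffB K t) F π)) < 1 := by
    rw [hx] at hπP
    exact hπP
  have hπne : w (σ x (algebraMap (ffB K t) F π)) ≠ 0 :=
    (Valuation.ne_zero_iff _).mpr ((_root_.map_ne_zero _).mpr hπ0)
  refine ⟨-(log (w (σ x (algebraMap (ffB K t) F π)))), ?_, ?_⟩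
  · rw [neg_pos, ← log_one, log_lt_log hπne one_ne_zero]
    exact hπc
  · intro f hf
    let ν' : Valuation F ℤᵐ⁰ := w.comap (σ x)
    have hB : ∀ b : ffB K t, ν' (algebraMap (ffB K t) F b) ≤ 1 := fun b =>
      ffn_le_one_of_integral w hA (σ' x) b
    have hc : ∀ b : ffB K t, ν' (algebraMap (ffB K t) F b) < 1 ↔ b ∈ P.asIdeal := fun b => by
      rw [hx]; exact Iff.rfl
    have hpow := ffn_val_eq_zpow P ν' hB hc hπ hf
    have hvord : v.ord f = -(log (P.valuation F f)) := by
      rw [← ff_placeOf_ord P f, hP, ff_placeOf_primeOf]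
    show -(log (w (σ x f))) = _
    have h1 : w (σ x f) = ν' f := rfl
    have h2 : w (σ x (algebraMap (ffB K t) F π)) = ν' (algebraMap (ffB K t) F π) := rfl
    rw [h1, hpow, log_zpow, smul_eq_mul, hvord, h2]
    ring

/-- The norm trick for `t = x - c`. -/
theorem ffn_ifaceNormTrick_sub_const (x : F) [FFGen K x] (c : K) :
    IfaceNormTrick K F (x - algebraMap K F c) := by
  have htr : Transcendental K (x - algebraMap K F c) := by
    intro halg
    have hx : Transcendental K x := FFGen.transc
    apply hx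
    have := halg.add (isAlgebraic_algebraMap (R := K) (A := F) c)
    rwa [sub_add_cancel] at this
  haveI : FFGen K (x - algebraMap K F c) := ff_gen_of_transcendental (x := x) htr
  exact ffn_ifaceNormTrick _

/-- The norm trick for `t = x⁻¹`. -/
theorem ffn_ifaceNormTrick_inv (x : F) [FFGen K x] : IfaceNormTrick K F x⁻¹ :=
  ffn_ifaceNormTrick _

end Fermat.Agent.Lib.FF
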