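/-
S24 (helper2): the orbit counts `IfaceOrbitCounts N` of `Interface.lean`, from helper3's coset
counts (`card_fixedBy_S`, `card_fixedBy_ST`, `card_orbits_T`, `card_quotient_Gamma0`) and the
prime-order orbit count `ffs_card_orbits_prime` of `Squeeze.lean`.
-/
import Fermat.Agent.Lib.FF.Interface
import Fermat.Agent.Lib.FF.Squeeze
import Fermat.Agent.Lib.RR.Cosets

set_option autoImplicit false

namespace Fermat.Agent.Lib.FF

open AlgebraicCurve ModularCurve Matrix.SpecialLinearGroup CongruenceSubgroup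
open Fermat.Agent.Lib.RR (Q)
open scoped MatrixGroups

variable {N : ℕ}

/-- If `σ ^ n = -1` in `SL(2, ℤ)` then the permutation of `σ` on the cosets has order dividing
`n`. -/
theorem ffs_toPerm_pow (σ : SL(2, ℤ)) (n : ℕ) (hσ : σ ^ n = -1) :
    (MulAction.toPerm σ : Equiv.Perm (Q N)) ^ n = 1 := by
  have hpow : (MulAction.toPerm σ : Equiv.Perm (Q N)) ^ n = MulAction.toPerm (σ ^ n) :=
    ((MulAction.toPermHom SL(2, ℤ) (Q N)).map_pow σ n).symm
  ext q
  rw [hpow, hσ]
  exact Fermat.Agent.Lib.RR.neg_one_smul_Q q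

theorem ffs_S_sq : (ModularGroup.S : SL(2, ℤ)) ^ 2 = -1 := by
  ext i j
  fin_cases i <;> fin_cases j <;>
    simp [pow_succ, ModularGroup.S, Matrix.mul_apply, Fin.sum_univ_two]

theorem ffs_ST_cube : (ModularGroup.S * ModularGroup.T : SL(2, ℤ)) ^ 3 = -1 := by
  ext i j
  fin_cases i <;> fin_cases j <;>
    simp [pow_succ, ModularGroup.S, ModularGroup.T, Matrix.mul_apply, Fin.sum_univ_two]

/-- The number of fixed points of the permutation of `σ`, as a `Finset.card`. -/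
theorem ffs_card_filter_fixed [NeZero N] [DecidableEq (Q N)] (σ : SL(2, ℤ)) :
    (Finset.univ.filter (fun x : Q N => (MulAction.toPerm σ : Equiv.Perm (Q N)) x = x)).card =
      Nat.card (MulAction.fixedBy (Q N) σ) := by
  classical
  rw [Nat.card_eq_fintype_card, Fintype.card_subtype]
  congr 1

/-- The orbits of `zpowers (toPerm σ) ≤ Perm (Q N)` are those of `zpowers σ ≤ SL(2, ℤ)`. -/
theorem ffs_orbitRel_toPerm (σ : SL(2, ℤ)) :
    MulAction.orbitRel (Subgroup.zpowers (MulAction.toPerm σ : Equiv.Perm (Q N))) (Q N) =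
      MulAction.orbitRel (Subgroup.zpowers σ) (Q N) := by
  ext x y
  rw [MulAction.orbitRel_apply, MulAction.orbitRel_apply, MulAction.mem_orbit_iff,
    MulAction.mem_orbit_iff]
  have hz : ∀ k : ℤ, (MulAction.toPerm σ : Equiv.Perm (Q N)) ^ k = MulAction.toPerm (σ ^ k) :=
    fun k => ((MulAction.toPermHom SL(2, ℤ) (Q N)).map_zpow σ k).symm
  constructor
  · rintro ⟨⟨g, hg⟩, h⟩
    obtain ⟨k, rfl⟩ := Subgroup.mem_zpowers_iff.mp hg
    refine ⟨⟨σ ^ k, Subgroup.zpow_mem_zpowers σ k⟩, ?_⟩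
    rw [← h]
    change (σ ^ k) • y = ((MulAction.toPerm σ : Equiv.Perm (Q N)) ^ k) y
    rw [hz k]
    rfl
  · rintro ⟨⟨g, hg⟩, h⟩
    obtain ⟨k, rfl⟩ := Subgroup.mem_zpowers_iff.mp hg
    refine ⟨⟨(MulAction.toPerm σ : Equiv.Perm (Q N)) ^ k, Subgroup.zpow_mem_zpowers _ k⟩, ?_⟩
    rw [← h]
    change ((MulAction.toPerm σ : Equiv.Perm (Q N)) ^ k) y = (σ ^ k) • y
    rw [hz k]
    rfl

theorem ffs_card_orbits_toPerm (σ : SL(2, ℤ)) :
    Nat.card (MulAction.orbitRel.Quotient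
        (Subgroup.zpowers (MulAction.toPerm σ : Equiv.Perm (Q N))) (Q N)) =
      Nat.card (MulAction.orbitRel.Quotient (Subgroup.zpowers σ) (Q N)) := by
  unfold MulAction.orbitRel.Quotient
  rw [ffs_orbitRel_toPerm]

/-- **Orbit counts on the cosets** (`IfaceOrbitCounts N`). -/
theorem ffs_ifaceOrbitCounts (N : ℕ) [NeZero N] : IfaceOrbitCounts N := by
  classical
  have hcard : Fintype.card (Q N) = dedekindPsi N := by
    rw [← Nat.card_eq_fintype_card]
    exact Fermat.Agent.Lib.RR.Cosets.card_quotient_Gamma0 N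
  refine ⟨?_, ?_, ?_, hcard⟩
  · have h := ffs_card_orbits_prime (MulAction.toPerm (ModularGroup.S : SL(2, ℤ)) :
      Equiv.Perm (Q N)) Nat.prime_two (ffs_toPerm_pow _ 2 ffs_S_sq)
    rw [ffs_card_filter_fixed, Fermat.Agent.Lib.RR.Cosets.card_fixedBy_S N] at h
    rw [h]
    simp
  · have h := ffs_card_orbits_prime (MulAction.toPerm
      (ModularGroup.S * ModularGroup.T : SL(2, ℤ)) : Equiv.Perm (Q N)) Nat.prime_three
      (ffs_toPerm_pow _ 3 ffs_ST_cube)
    rw [ffs_card_filter_fixed, Fermat.Agent.Lib.RR.Cosets.card_fixedBy_ST N] at h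
    rw [h]
  · rw [ffs_card_orbits_toPerm]
    exact Fermat.Agent.Lib.RR.Cosets.card_orbits_T N

end Fermat.Agent.Lib.FF
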