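/-
S24: the final assembly.  From the bridge `φ : F → ffm_E N` (`IsBridge`), the degree statement
`IfaceDegree N` and the fibre model at `i∞`, deduce `genus = genusFormula N`.
-/
import Fermat.Agent.Lib.FF.HurwitzAsm
import Fermat.Agent.Lib.FF.FFBasicIface
import Fermat.Agent.Lib.FF.NormTrickPlace
import Fermat.Agent.Lib.FF.Fibres
import Fermat.Agent.Lib.FF.FibreModels
import Fermat.Agent.Lib.FF.SqueezeOrbits

set_option autoImplicit false

namespace Fermat.Agent.Lib.FF

open AlgebraicCurve ModularCurve IntermediateField Matrix.SpecialLinearGroup CongruenceSubgroup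
open Fermat.Agent.Lib.RR (Q)
open scoped MatrixGroups
open WithZero

noncomputable section

/-- S24 from the bridge, the degree and the fibre model at `i∞`. -/
theorem ffh_genus_of_bridge (N : ℕ) [NeZero N] (ι : ffi_K →+* ℂ) (φ : ffi_F N →+* ffm_E N)
    (hB : IsBridge N ι φ) (hdeg : IfaceDegree N)
    (hinf : ∃ w : Valuation (ffm_E N) ℤᵐ⁰,
      IsFibreModel N φ w ModularGroup.T N (ffd_jBar N)⁻¹)
    [AlgebraicCurve.HasCanonicalDivisor (K := ffi_K) (F := ffi_F N)] :
    (AlgebraicCurve.genus ffi_K (ffi_F N) : ℚ) = genusFormula N := by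
  have : FFGen ffi_K (ffd_jBar N) := ⟨hdeg.1, hdeg.2.1⟩
  obtain ⟨h1, h2, h3, h4, h5⟩ := ff_iface_all ffi_K (ffd_jBar N) (Fintype.card (Q N)) hdeg.2.2
  have hfib : IfaceFibres N :=
    ffi_ifaceFibres_of_models N φ hdeg
      (fun c => ffn_ifaceNormTrick_sub_const (ffd_jBar N) c)
      (ffn_ifaceNormTrick_inv (ffd_jBar N))
      (fun c hc0 hc1 => ffi_model_generic hB c hc0 hc1)
      ⟨_, ffi_model_I hB⟩ ⟨_, ffi_model_rho hB⟩ hinf
  exact ffh_ifaceHurwitz N h1 h2 h3 h4 h5 hfib (ffs_ifaceOrbitCounts N)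

end

end Fermat.Agent.Lib.FF
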