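import Mathlib

/-!
# Leading exponents at `i∞` (S24, WP A5)

`ffc_HasExp N g n`: the function `g : ℍ → ℂ` has leading exponent `n` in the local parameter
`q_N = e^{2πiz/N}` at `i∞`, i.e. `g(z) q_N^{-n}` tends to a nonzero constant as `Im z → ∞`.
We prove uniqueness, multiplicativity, invariance under `z ↦ z + 1` and the divisibility forced by
`h`-periodicity (`(N / h) ∣ n`).
-/

set_option autoImplicit false

open UpperHalfPlane hiding I
open Filter Topology Complex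

open scoped Real

namespace Fermat.Agent.Lib.FF

/-- The local parameter power `q_N^n = e^{2πi n z / N}`. -/
noncomputable def ffc_qpow (N : ℕ) (n : ℤ) (z : ℍ) : ℂ := cexp (2 * π * I * n * z / N)

theorem ffc_qpow_ne_zero (N : ℕ) (n : ℤ) (z : ℍ) : ffc_qpow N n z ≠ 0 := Complex.exp_ne_zero _

theorem ffc_qpow_add (N : ℕ) (n m : ℤ) (z : ℍ) :
    ffc_qpow N (n + m) z = ffc_qpow N n z * ffc_qpow N m z := by
  rw [ffc_qpow, ffc_qpow, ffc_qpow, ← Complex.exp_add]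
  congr 1
  push_cast
  ring

theorem ffc_qpow_zero (N : ℕ) (z : ℍ) : ffc_qpow N 0 z = 1 := by
  simp [ffc_qpow]

theorem ffc_qpow_neg (N : ℕ) (n : ℤ) (z : ℍ) : ffc_qpow N (-n) z = (ffc_qpow N n z)⁻¹ := by
  rw [ffc_qpow, ffc_qpow, ← Complex.exp_neg]
  congr 1
  push_cast
  ring

theorem ffc_norm_qpow (N : ℕ) (n : ℤ) (z : ℍ) :
    ‖ffc_qpow N n z‖ = Real.exp (-(2 * π * n * z.im / N)) := by
  rw [ffc_qpow, Complex.norm_exp]
  congr 1
  have : (2 * (π : ℂ) * I * n * z / N).re = -(2 * π * n * z.im / N) := by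
    have h1 : (2 * (π : ℂ) * I * n * z / N) = ((2 * π * n / N : ℝ) : ℂ) * (I * z) := by
      push_cast; ring
    rw [h1, Complex.re_ofReal_mul]
    have h2 : (I * (z : ℂ)).re = -z.im := by
      rw [Complex.mul_re]; simp
    rw [h2]; ring
  exact this

/-- `q_N^n → 0` as `Im z → ∞` for `n > 0`. -/
theorem ffc_tendsto_qpow_zero {N : ℕ} (hN : N ≠ 0) {n : ℤ} (hn : 0 < n) :
    Tendsto (ffc_qpow N n) atImInfty (𝓝 0) := by
  rw [tendsto_zero_iff_norm_tendsto_zero]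
  simp only [ffc_norm_qpow]
  have hpos : (0 : ℝ) < 2 * π * n / N := by
    have h1 : (0 : ℝ) < N := by exact_mod_cast Nat.pos_of_ne_zero hN
    have h2 : (0 : ℝ) < n := by exact_mod_cast hn
    positivity
  have h1 : Tendsto (fun z : ℍ => z.im) atImInfty atTop := tendsto_comap
  have h2 : Tendsto (fun z : ℍ => -(2 * π * n * z.im / N)) atImInfty atBot := by
    have : (fun z : ℍ => -(2 * π * n * z.im / N)) = fun z : ℍ => -((2 * π * n / N) * z.im) := by
      funext z; ring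
    rw [this]
    exact tendsto_neg_atTop_atBot.comp (h1.const_mul_atTop hpos)
  exact Real.tendsto_exp_atBot.comp h2

/-- `g` has leading exponent `n` in `q_N = e^{2πiz/N}` at `i∞`. -/
def ffc_HasExp (N : ℕ) (g : ℍ → ℂ) (n : ℤ) : Prop :=
  ∃ c : ℂ, c ≠ 0 ∧ Tendsto (fun z : ℍ => g z * cexp (-(2 * π * I * n * z / N))) atImInfty (𝓝 c)

theorem ffc_hasExp_iff (N : ℕ) (g : ℍ → ℂ) (n : ℤ) :
    ffc_HasExp N g n ↔
      ∃ c : ℂ, c ≠ 0 ∧ Tendsto (fun z : ℍ => g z * ffc_qpow N (-n) z) atImInfty (𝓝 c) := by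
  have : ∀ z : ℍ, cexp (-(2 * π * I * n * z / N)) = ffc_qpow N (-n) z := by
    intro z
    rw [ffc_qpow]
    congr 1
    push_cast
    ring
  simp only [ffc_HasExp, this]

theorem ffc_hasExp_const (N : ℕ) {c : ℂ} (hc : c ≠ 0) : ffc_HasExp N (fun _ => c) 0 := by
  refine ⟨c, hc, ?_⟩
  simp

theorem ffc_hasExp_one (N : ℕ) : ffc_HasExp N 1 0 := ffc_hasExp_const N one_ne_zero

theorem ffc_hasExp_qpow (N : ℕ) (n : ℤ) : ffc_HasExp N (ffc_qpow N n) n := by
  rw [ffc_hasExp_iff]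
  refine ⟨1, one_ne_zero, ?_⟩
  have : (fun z : ℍ => ffc_qpow N n z * ffc_qpow N (-n) z) = fun _ => 1 := by
    funext z
    rw [← ffc_qpow_add, add_neg_cancel, ffc_qpow_zero]
  rw [this]
  exact tendsto_const_nhds

theorem ffc_HasExp.mul {N : ℕ} {g g' : ℍ → ℂ} {n n' : ℤ} (h : ffc_HasExp N g n)
    (h' : ffc_HasExp N g' n') : ffc_HasExp N (g * g') (n + n') := by
  rw [ffc_hasExp_iff] at h h' ⊢
  obtain ⟨c, hc, hlim⟩ := h
  obtain ⟨c', hc', hlim'⟩ := h'
  refine ⟨c * c', mul_ne_zero hc hc', ?_⟩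
  have : (fun z : ℍ => (g * g') z * ffc_qpow N (-(n + n')) z) =
      fun z : ℍ => (g z * ffc_qpow N (-n) z) * (g' z * ffc_qpow N (-n') z) := by
    funext z
    rw [neg_add, ffc_qpow_add, Pi.mul_apply]
    ring
  rw [this]
  exact hlim.mul hlim'

theorem ffc_HasExp.inv {N : ℕ} {g : ℍ → ℂ} {n : ℤ} (h : ffc_HasExp N g n) :
    ffc_HasExp N g⁻¹ (-n) := by
  rw [ffc_hasExp_iff] at h ⊢
  obtain ⟨c, hc, hlim⟩ := h
  refine ⟨c⁻¹, inv_ne_zero hc, ?_⟩
  have : (fun z : ℍ => g⁻¹ z * ffc_qpow N (-(-n)) z) =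
      fun z : ℍ => (g z * ffc_qpow N (-n) z)⁻¹ := by
    funext z
    rw [Pi.inv_apply, mul_inv, ffc_qpow_neg N (-n)]
  rw [this]
  exact hlim.inv₀ hc

theorem ffc_HasExp.div {N : ℕ} {g g' : ℍ → ℂ} {n n' : ℤ} (h : ffc_HasExp N g n)
    (h' : ffc_HasExp N g' n') : ffc_HasExp N (g / g') (n - n') := by
  rw [div_eq_mul_inv, sub_eq_add_neg]
  exact h.mul h'.inv

theorem ffc_HasExp.congr {N : ℕ} {g g' : ℍ → ℂ} {n : ℤ} (h : ffc_HasExp N g n)
    (hgg' : ∀ z, g z = g' z) : ffc_HasExp N g' n := by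
  have : g = g' := funext hgg'
  rwa [← this]

/-- The leading exponent is unique. -/
theorem ffc_HasExp.unique {N : ℕ} (hN : N ≠ 0) {g : ℍ → ℂ} {n m : ℤ} (h : ffc_HasExp N g n)
    (h' : ffc_HasExp N g m) : n = m := by
  -- it suffices to exclude `n < m` for any such pair
  have key : ∀ (n m : ℤ), ffc_HasExp N g n → ffc_HasExp N g m → ¬ n < m := by
    intro n m h h' hnm
    rw [ffc_hasExp_iff] at h h'
    obtain ⟨c, hc, hlim⟩ := h
    obtain ⟨c', hc', hlim'⟩ := h'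
    -- `g q^{-n} = (g q^{-m}) q^{m-n}` tends to `c' * 0`
    have h0 : Tendsto (fun z : ℍ => (g z * ffc_qpow N (-m) z) * ffc_qpow N (m - n) z) atImInfty
        (𝓝 (c' * 0)) := hlim'.mul (ffc_tendsto_qpow_zero hN (by omega))
    have heq : (fun z : ℍ => (g z * ffc_qpow N (-m) z) * ffc_qpow N (m - n) z) =
        fun z : ℍ => g z * ffc_qpow N (-n) z := by
      funext z
      rw [mul_assoc, ← ffc_qpow_add]
      congr 2
      ring
    rw [heq, mul_zero] at h0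
    exact hc (tendsto_nhds_unique hlim h0)
  rcases lt_trichotomy n m with hlt | heq | hgt
  · exact absurd hlt (key n m h h')
  · exact heq
  · exact absurd hgt (key m n h' h)

theorem ffc_tendsto_vadd (x : ℝ) : Tendsto (fun z : ℍ => x +ᵥ z) atImInfty atImInfty := by
  rw [atImInfty, tendsto_comap_iff]
  have : (UpperHalfPlane.im ∘ fun z : ℍ => x +ᵥ z) = UpperHalfPlane.im := by
    funext z
    exact vadd_im x z
  rw [this]
  exact tendsto_comap

theorem ffc_qpow_vadd (N : ℕ) (n : ℤ) (x : ℝ) (z : ℍ) :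
    ffc_qpow N n (x +ᵥ z) = cexp (2 * π * I * n * x / N) * ffc_qpow N n z := by
  rw [ffc_qpow, ffc_qpow, ← Complex.exp_add, coe_vadd]
  congr 1
  ring

/-- Translating by a real number does not change the leading exponent. -/
theorem ffc_HasExp.vadd {N : ℕ} {g : ℍ → ℂ} {n : ℤ} (h : ffc_HasExp N g n) (x : ℝ) :
    ffc_HasExp N (fun z => g (x +ᵥ z)) n := by
  rw [ffc_hasExp_iff] at h ⊢
  obtain ⟨c, hc, hlim⟩ := h
  refine ⟨c * (cexp (2 * π * I * (-n : ℤ) * x / N))⁻¹,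
    mul_ne_zero hc (inv_ne_zero (Complex.exp_ne_zero _)), ?_⟩
  have h1 := hlim.comp (ffc_tendsto_vadd x)
  have h2 : (fun z : ℍ => g (x +ᵥ z) * ffc_qpow N (-n) z) =
      fun z : ℍ => ((fun w : ℍ => g w * ffc_qpow N (-n) w) ∘ fun z : ℍ => x +ᵥ z) z *
        (cexp (2 * π * I * (-n : ℤ) * x / N))⁻¹ := by
    funext z
    rw [Function.comp_apply, ffc_qpow_vadd, mul_assoc, mul_comm (cexp _) _, mul_assoc,
      mul_inv_cancel₀ (Complex.exp_ne_zero _), mul_one]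
  rw [h2]
  exact h1.mul_const _

/-- If `g` is `h`-periodic and has leading exponent `n` in `q_N`, then `N ∣ h * n`. -/
theorem ffc_HasExp.dvd_mul_of_periodic {N : ℕ} (hN : N ≠ 0) {g : ℍ → ℂ} {n : ℤ}
    (hn : ffc_HasExp N g n) {h : ℕ} (hper : ∀ z : ℍ, g ((h : ℝ) +ᵥ z) = g z) :
    (N : ℤ) ∣ h * n := by
  rw [ffc_hasExp_iff] at hn
  obtain ⟨c, hc, hlim⟩ := hn
  -- compare the limits of `g q^{-n}` along `z` and along `z + h`
  have h1 := hlim.comp (ffc_tendsto_vadd (h : ℝ))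
  have h2 : ((fun w : ℍ => g w * ffc_qpow N (-n) w) ∘ fun z : ℍ => (h : ℝ) +ᵥ z) =
      fun z : ℍ => cexp (2 * π * I * (-n : ℤ) * (h : ℝ) / N) * (g z * ffc_qpow N (-n) z) := by
    funext z
    rw [Function.comp_apply, hper, ffc_qpow_vadd]
    ring
  rw [h2] at h1
  have h3 := tendsto_nhds_unique h1 (hlim.const_mul _)
  have h4 : cexp (2 * π * I * (-n : ℤ) * (h : ℝ) / N) = 1 := by
    exact mul_right_cancel₀ hc (h3.symm.trans (one_mul c).symm)
  rw [Complex.exp_eq_one_iff] at h4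
  obtain ⟨k, hk⟩ := h4
  have hN' : (N : ℂ) ≠ 0 := Nat.cast_ne_zero.mpr hN
  have hpi : (2 * (π : ℂ) * I) ≠ 0 := by
    simp [Real.pi_ne_zero, Complex.I_ne_zero]
  have h5 : ((-n * h : ℤ) : ℂ) = ((k * N : ℤ) : ℂ) := by
    push_cast
    have hk' : 2 * (π : ℂ) * I * (-(n : ℂ)) * (h : ℂ) / N = k * (2 * π * I) := by
      push_cast at hk
      exact hk
    rw [div_eq_iff hN'] at hk'
    have : (2 * (π : ℂ) * I) * (-(n : ℂ) * h) = (2 * (π : ℂ) * I) * (k * N) := by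
      linear_combination hk'
    exact mul_left_cancel₀ hpi this
  have h6 : -n * h = k * N := by exact_mod_cast h5
  exact ⟨-k, by linarith⟩

/-- If `g` is `h`-periodic with `h ∣ N` and has leading exponent `n` in `q_N`, then
`(N / h) ∣ n`. -/
theorem ffc_HasExp.dvd_of_periodic {N : ℕ} (hN : N ≠ 0) {g : ℍ → ℂ} {n : ℤ}
    (hn : ffc_HasExp N g n) {h : ℕ} (hh : h ∣ N) (hper : ∀ z : ℍ, g ((h : ℝ) +ᵥ z) = g z) :
    ((N / h : ℕ) : ℤ) ∣ n := by
  have h0 : h ≠ 0 := fun h0 => hN (by rw [h0] at hh; exact Nat.eq_zero_of_zero_dvd hh)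
  obtain ⟨k, hk⟩ := hh
  have hdiv := hn.dvd_mul_of_periodic hN hper
  have hNh : N / h = k := by rw [hk, Nat.mul_div_cancel_left _ (Nat.pos_of_ne_zero h0)]
  rw [hNh]
  rw [hk] at hdiv
  push_cast at hdiv
  exact (mul_dvd_mul_iff_left (by exact_mod_cast h0 : (h : ℤ) ≠ 0)).mp hdiv

end Fermat.Agent.Lib.FF
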