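/-
S24 WP A5 (helper3): orbit counts on `Q N = SL(2, ℤ) ⧸ Γ₀(N)` for the permutations induced by
`S`, `S T`, `T` — the combinatorial input `IfaceOrbitCounts N` of the Hurwitz assembly.

* `ffc_toPerm_S_sq`, `ffc_toPerm_ST_cube`, `ffc_toPerm_T_pow` : orders of the permutations;
* `ffc_card_orbit_T_dvd` : every `T`-orbit has size dividing `N`;
* `ffc_ifaceOrbitCounts : IfaceOrbitCounts N`.
-/
import Fermat.Agent.Lib.FF.Interface
import Fermat.Agent.Lib.FF.Squeeze
import Fermat.Agent.Lib.RR.Cosets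
import Fermat.Agent.Lib.Period.ParDim

set_option autoImplicit false

namespace Fermat.Agent.Lib.FF

open Matrix.SpecialLinearGroup CongruenceSubgroup ModularGroup ModularCurve
open Fermat.Agent.Lib.RR (Q)
open Fermat.Agent.Lib.Period
open scoped MatrixGroups

section General

variable {G X : Type*} [Group G] [MulAction G X]

/-- `toPerm` commutes with powers. -/
theorem ffc_toPerm_pow (g : G) (n : ℕ) :
    (MulAction.toPerm g : Equiv.Perm X) ^ n = MulAction.toPerm (g ^ n) :=
  (map_pow (MulAction.toPermHom G X) g n).symm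

/-- `toPerm` commutes with integer powers. -/
theorem ffc_toPerm_zpow (g : G) (n : ℤ) :
    (MulAction.toPerm g : Equiv.Perm X) ^ n = MulAction.toPerm (g ^ n) :=
  (map_zpow (MulAction.toPermHom G X) g n).symm

/-- The orbits of `⟨toPerm g⟩` are the orbits of `⟨g⟩`. -/
theorem ffc_orbitRel_zpowers_toPerm (g : G) :
    MulAction.orbitRel (Subgroup.zpowers (MulAction.toPerm g : Equiv.Perm X)) X =
      MulAction.orbitRel (Subgroup.zpowers g) X := by
  ext x y
  simp only [MulAction.orbitRel_apply, MulAction.mem_orbit_iff]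
  constructor
  · rintro ⟨⟨p, k, rfl⟩, hp⟩
    refine ⟨⟨g ^ k, k, rfl⟩, ?_⟩
    rw [← hp]
    show (g ^ k) • y = ((MulAction.toPerm g : Equiv.Perm X) ^ k) y
    rw [ffc_toPerm_zpow]
    rfl
  · rintro ⟨⟨p, k, rfl⟩, hp⟩
    refine ⟨⟨(MulAction.toPerm g : Equiv.Perm X) ^ k, k, rfl⟩, ?_⟩
    rw [← hp]
    show ((MulAction.toPerm g : Equiv.Perm X) ^ k) y = (g ^ k) • y
    rw [ffc_toPerm_zpow]
    rfl

/-- The number of orbits of `⟨toPerm g⟩` is the number of orbits of `⟨g⟩`. -/
theorem ffc_card_orbits_toPerm (g : G) :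
    Nat.card (MulAction.orbitRel.Quotient
      (Subgroup.zpowers (MulAction.toPerm g : Equiv.Perm X)) X) =
    Nat.card (MulAction.orbitRel.Quotient (Subgroup.zpowers g) X) := by
  unfold MulAction.orbitRel.Quotient
  rw [ffc_orbitRel_zpowers_toPerm]

/-- The fixed points of `toPerm g`, as a filtered `Finset`, are counted by `fixedBy`. -/
theorem ffc_card_filter_fixed [Fintype X] [DecidableEq X] (g : G) :
    (Finset.univ.filter (fun x : X => (MulAction.toPerm g : Equiv.Perm X) x = x)).card =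
      Nat.card (MulAction.fixedBy X g) := by
  rw [Nat.card_eq_fintype_card, Fintype.card_subtype]
  rfl

end General

section Concrete

variable (N : ℕ)

/-- `-1` acts trivially on the cosets. -/
theorem ffc_neg_one_smul (x : Q N) : (-1 : SL(2, ℤ)) • x = x :=
  pmD_smul_eq_of_central (Gamma0 N) pmD_neg_one_central (pmD_neg_one_mem_Gamma0 N) x

/-- The permutation of the cosets induced by `S` is an involution. -/
theorem ffc_toPerm_S_sq : (MulAction.toPerm (S : SL(2, ℤ)) : Equiv.Perm (Q N)) ^ 2 = 1 := by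
  rw [ffc_toPerm_pow, pow_two, pmD_S_mul_S]
  ext x
  exact ffc_neg_one_smul N x

/-- The permutation of the cosets induced by `S T` has order dividing three. -/
theorem ffc_toPerm_ST_cube :
    (MulAction.toPerm (S * T : SL(2, ℤ)) : Equiv.Perm (Q N)) ^ 3 = 1 := by
  rw [ffc_toPerm_pow, pow_succ, pow_two, pmD_ST_cube]
  ext x
  exact ffc_neg_one_smul N x

/-- The permutation of the cosets induced by `T` has order dividing `N`. -/
theorem ffc_toPerm_T_pow : (MulAction.toPerm (T : SL(2, ℤ)) : Equiv.Perm (Q N)) ^ N = 1 := by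
  rw [ffc_toPerm_pow]
  ext x
  exact Fermat.Agent.Lib.RR.Cosets.T_pow_smul N x

/-- Every orbit of `T` on the cosets has size dividing `N`. -/
theorem ffc_card_orbit_T_dvd [NeZero N] (x : Q N) :
    Nat.card (MulAction.orbit
      (Subgroup.zpowers (MulAction.toPerm (T : SL(2, ℤ)) : Equiv.Perm (Q N))) x) ∣ N := by
  classical
  have := Fintype.ofFinite
    (MulAction.orbit (Subgroup.zpowers (MulAction.toPerm (T : SL(2, ℤ)) : Equiv.Perm (Q N))) x)
  rw [Nat.card_eq_fintype_card, ← MulAction.minimalPeriod_eq_card]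
  apply Function.IsPeriodicPt.minimalPeriod_dvd
  rw [Function.IsPeriodicPt, Function.IsFixedPt, smul_iterate, ffc_toPerm_T_pow]
  exact one_smul _ x

/-- **The orbit counts** on `Q N = SL(2, ℤ) ⧸ Γ₀(N)`:
`2 #(orbits of S) = ψ + ν₂`, `3 #(orbits of S T) = ψ + 2 ν₃`, `#(orbits of T) = ν_∞`, `#Q = ψ`. -/
theorem ffc_ifaceOrbitCounts [NeZero N] : IfaceOrbitCounts N := by
  classical
  refine ⟨?_, ?_, ?_, ?_⟩
  · have h := ffs_card_orbits_prime (MulAction.toPerm (S : SL(2, ℤ)) : Equiv.Perm (Q N))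
      Nat.prime_two (ffc_toPerm_S_sq N)
    rw [ffc_card_filter_fixed, Fermat.Agent.Lib.RR.Cosets.card_fixedBy_S] at h
    rw [h]
    norm_num
  · have h := ffs_card_orbits_prime (MulAction.toPerm (S * T : SL(2, ℤ)) : Equiv.Perm (Q N))
      Nat.prime_three (ffc_toPerm_ST_cube N)
    rw [ffc_card_filter_fixed, Fermat.Agent.Lib.RR.Cosets.card_fixedBy_ST] at h
    rw [h]
  · rw [ffc_card_orbits_toPerm]
    exact Fermat.Agent.Lib.RR.Cosets.card_orbits_T N
  · rw [← Nat.card_eq_fintype_card]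
    exact Fermat.Agent.Lib.RR.Cosets.card_quotient_Gamma0 N

end Concrete

end Fermat.Agent.Lib.FF
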