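import Fermat.Agent.Lib.FF.CuspsElliptic
import Fermat.Agent.Lib.ES.Cocycle

/-!
# Equivariance of the order of vanishing under `SL(2, ℤ)` (S24, WP A5)

`ffc_order_comp_smul`: `ord_τ (g ∘ γ) = ord_{γ τ} g`.
-/

set_option autoImplicit false

open UpperHalfPlane hiding I
open Filter Topology Complex ModularGroup

open scoped Real MatrixGroups Manifold

namespace Fermat.Agent.Lib.FF

open Fermat.Agent.Lib.ES in
/-- The order of `g ∘ γ` at `τ` is the order of `g` at `γ τ`. -/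
theorem ffc_order_comp_smul (g : ℍ → ℂ) (γ : SL(2, ℤ)) (τ : ℍ) :
    analyticOrderAt ((fun z : ℍ => g (γ • z)) ∘ ofComplex) (τ : ℂ) =
      analyticOrderAt (g ∘ ofComplex) ((γ • τ : ℍ) : ℂ) := by
  have hden : mobDen (γ : Matrix (Fin 2) (Fin 2) ℤ) (τ : ℂ) ≠ 0 := mobDen_coe_ne_zero γ τ
  have hderiv := hasDerivAt_mob (γ : Matrix (Fin 2) (Fin 2) ℤ) hden
  have han : AnalyticAt ℂ (mob (γ : Matrix (Fin 2) (Fin 2) ℤ)) (τ : ℂ) := by
    unfold mob
    refine AnalyticAt.div (by fun_prop) (by fun_prop) hden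
  have hd0 : deriv (mob (γ : Matrix (Fin 2) (Fin 2) ℤ)) (τ : ℂ) ≠ 0 := by
    rw [hderiv.deriv]
    have : ((γ : Matrix (Fin 2) (Fin 2) ℤ).det : ℂ) = 1 := by
      rw [γ.2]; norm_num
    rw [this]
    exact div_ne_zero one_ne_zero (pow_ne_zero 2 hden)
  have hev : ((fun z : ℍ => g (γ • z)) ∘ ofComplex) =ᶠ[𝓝 (τ : ℂ)]
      ((g ∘ ofComplex) ∘ mob (γ : Matrix (Fin 2) (Fin 2) ℤ)) := by
    have hopen : {z : ℂ | 0 < z.im} ∈ 𝓝 (τ : ℂ) := isOpen_upperHalfPlaneSet.mem_nhds τ.im_pos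
    filter_upwards [hopen] with z hz
    obtain ⟨w, rfl⟩ : ∃ w : ℍ, (w : ℂ) = z := ⟨⟨z, hz⟩, rfl⟩
    rw [Function.comp_apply, Function.comp_apply, Function.comp_apply, mob_coe, ofComplex_apply,
      ofComplex_apply]
  rw [analyticOrderAt_congr hev, analyticOrderAt_comp_of_deriv_ne_zero han hd0, mob_coe]

end Fermat.Agent.Lib.FF
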