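/-
S24 WP A5 (helper3), T3: if `x ≠ 0` in the model field `E = ffm_E N` is fixed by `g ^ k`, then
`e₀ ∣ k * ord_w x`, for `(w, g, e₀) = (order at i, S, 2)`, `(order at ρ, S T, 3)` and
`(order at ∞, T, N)`.

* `ffc_exists_invariant_frac` : an invariant fraction is a fraction of invariants;
* `ffc_smul_eq_of_forall` : an element acting trivially on `R` acts trivially on `Frac R`;
* `ffc_t3_prime` : the generic statement for `g` of prime order `ℓ` on `R`;
* `ffc_t3_cusp` : the statement at `∞` from the divisibility of the order of `T ^ h`-invariants.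
-/
import Fermat.Agent.Lib.FF.InterfaceModel
import Fermat.Agent.Lib.FF.Model
import Fermat.Agent.Lib.FF.CuspsElliptic
import Fermat.Agent.Lib.FF.CuspsOrder
import Fermat.Agent.Lib.FF.CuspsOrbits

set_option autoImplicit false

namespace Fermat.Agent.Lib.FF

open UpperHalfPlane hiding I
open Filter Complex Matrix.SpecialLinearGroup CongruenceSubgroup ModularGroup
open scoped MatrixGroups Manifold Topology
open WithZero

noncomputable section

section Generic

variable {G R E : Type*} [Group G] [CommRing R] [IsDomain R] [MulSemiringAction G R]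
  [Field E] [Algebra R E] [IsFractionRing R E] [MulSemiringAction G E]

omit [IsDomain R] in
/-- An element acting trivially on `R` acts trivially on its fraction field. -/
theorem ffc_smul_eq_of_forall
    (hc : ∀ (g : G) (r : R), g • algebraMap R E r = algebraMap R E (g • r))
    (g : G) (hg : ∀ r : R, g • r = r) (x : E) : g • x = x := by
  have h : MulSemiringAction.toRingHom G E g = RingHom.id E := by
    apply IsLocalization.ringHom_ext (nonZeroDivisors R)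
    ext r
    simp only [RingHom.comp_apply, MulSemiringAction.toRingHom_apply, RingHom.id_apply]
    rw [hc, hg]
  exact congrArg (fun f : E →+* E => f x) h

/-- A `g`-invariant element of the fraction field is a quotient of `g`-invariant elements, if
some positive power of `g` acts trivially. -/
theorem ffc_exists_invariant_frac
    (hc : ∀ (g : G) (r : R), g • algebraMap R E r = algebraMap R E (g • r))
    (g : G) (n : ℕ) (hn : ∀ r : R, g ^ (n + 1) • r = r) (x : E) (hx : g • x = x) :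
    ∃ a b : R, b ≠ 0 ∧ g • a = a ∧ g • b = b ∧ x = algebraMap R E a / algebraMap R E b := by
  obtain ⟨a₀, b₀, hb₀, rfl⟩ := IsFractionRing.div_surjective (A := R) x
  have hb₀' : b₀ ≠ 0 := nonZeroDivisors.ne_zero hb₀
  set c : R := ∏ i ∈ Finset.range n, g ^ (i + 1) • b₀ with hc_def
  have hc0 : c ≠ 0 := by
    rw [hc_def, Finset.prod_ne_zero_iff]
    intro i _
    rwa [smul_ne_zero_iff_ne]
  have hinj : Function.Injective (algebraMap R E) := IsFractionRing.injective R E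
  have hgb : g • (c * b₀) = c * b₀ := by
    have h1 : g • (c * b₀) = ∏ i ∈ Finset.range (n + 1), g ^ (i + 1) • b₀ := by
      rw [Finset.prod_range_succ', smul_mul', hc_def, Finset.smul_prod']
      congr 1
      · refine Finset.prod_congr rfl fun i _ => ?_
        rw [← mul_smul, ← pow_succ']
      · simp
    rw [h1, Finset.prod_range_succ, hn]
  refine ⟨a₀ * c, c * b₀, mul_ne_zero hc0 hb₀', ?_, hgb, ?_⟩
  · apply hinj
    have hb0E : algebraMap R E (c * b₀) ≠ 0 := by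
      rw [Ne, map_eq_zero_iff _ hinj]
      exact mul_ne_zero hc0 hb₀'
    have h2 : algebraMap R E (a₀ * c) =
        (algebraMap R E a₀ / algebraMap R E b₀) * algebraMap R E (c * b₀) := by
      have : algebraMap R E b₀ ≠ 0 := by rwa [Ne, map_eq_zero_iff _ hinj]
      rw [map_mul, map_mul]
      field_simp
    rw [← hc, h2, smul_mul', hx, hc, hgb]
  · have h1 : algebraMap R E b₀ ≠ 0 := by rwa [Ne, map_eq_zero_iff _ hinj]
    have h2 : algebraMap R E c ≠ 0 := by rwa [Ne, map_eq_zero_iff _ hinj]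
    rw [map_mul, map_mul]
    field_simp

/-- If `g ^ k` and `g ^ m` fix `x` then so does `g ^ gcd k m`. -/
theorem ffc_pow_gcd_smul {X : Type*} [MulAction G X] (g : G) (x : X) (k m : ℕ)
    (hk : g ^ k • x = x) (hm : g ^ m • x = x) : g ^ Nat.gcd k m • x = x := by
  have hk' : g ^ k ∈ MulAction.stabilizer G x := hk
  have hm' : g ^ m ∈ MulAction.stabilizer G x := hm
  have h : g ^ ((Nat.gcd k m : ℕ) : ℤ) ∈ MulAction.stabilizer G x := by
    rw [Nat.gcd_eq_gcd_ab, zpow_add, zpow_mul, zpow_mul, zpow_natCast, zpow_natCast]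
    exact mul_mem (zpow_mem hk' _) (zpow_mem hm' _)
  rw [zpow_natCast] at h
  exact h

end Generic

section Model

variable {N : ℕ}

/-- The order of a quotient. -/
theorem ffc_ord_div {E : Type*} [Field E] (w : Valuation E ℤᵐ⁰) {a b : E} (ha : a ≠ 0)
    (hb : b ≠ 0) : ffi_ord w (a / b) = ffi_ord w a - ffi_ord w b := by
  unfold ffi_ord
  rw [map_div₀, WithZero.log_div ((Valuation.ne_zero_iff w).mpr ha)
    ((Valuation.ne_zero_iff w).mpr hb)]
  ring

/-- **T3 for an element of prime order**: if `g ^ ℓ` acts trivially on `ffm_R N` and the orders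
of `g`-invariant elements of `ffm_R N` are divisible by `ℓ`, then for every `x ≠ 0` in `ffm_E N`
fixed by `g ^ k`, `ℓ ∣ k * ord x`. -/
theorem ffc_t3_prime (w : Valuation (ffm_E N) ℤᵐ⁰) (g : SL(2, ℤ)) {ℓ : ℕ} (hℓ : ℓ.Prime)
    (hg : ∀ r : ffm_R N, g ^ ℓ • r = r)
    (hR : ∀ a : ffm_R N, a ≠ 0 → g • a = a →
      (ℓ : ℤ) ∣ ffi_ord w (algebraMap (ffm_R N) (ffm_E N) a))
    (x : ffm_E N) (hx : x ≠ 0) (k : ℕ) (hk : g ^ k • x = x) : (ℓ : ℤ) ∣ k * ffi_ord w x := by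
  by_cases hdvd : ℓ ∣ k
  · exact Dvd.dvd.mul_right (Int.natCast_dvd_natCast.mpr hdvd) _
  · have hcop : Nat.gcd k ℓ = 1 := by
      rw [Nat.gcd_comm]
      exact (Nat.Prime.coprime_iff_not_dvd hℓ).mpr hdvd
    have hgE : g ^ ℓ • x = x :=
      ffc_smul_eq_of_forall (G := SL(2, ℤ)) (R := ffm_R N) (E := ffm_E N)
        (fun γ r => ffm_smul_algebraMap γ r) (g ^ ℓ) hg x
    have hgx : g • x = x := by
      have := ffc_pow_gcd_smul g x k ℓ hk hgE
      rwa [hcop, pow_one] at this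
    obtain ⟨n, rfl⟩ : ∃ n, ℓ = n + 1 := ⟨ℓ - 1, (Nat.succ_pred_eq_of_pos hℓ.pos).symm⟩
    obtain ⟨a, b, hb, hga, hgb, rfl⟩ := ffc_exists_invariant_frac (G := SL(2, ℤ))
      (R := ffm_R N) (E := ffm_E N) (fun γ r => ffm_smul_algebraMap γ r) g n hg x hgx
    have hinj := ffm_algebraMap_injective N
    have hbE : algebraMap (ffm_R N) (ffm_E N) b ≠ 0 := by rwa [Ne, map_eq_zero_iff _ hinj]
    have haE : algebraMap (ffm_R N) (ffm_E N) a ≠ 0 := by
      intro h0
      rw [h0, zero_div] at hx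
      exact hx rfl
    have ha : a ≠ 0 := by
      intro h0
      rw [h0, map_zero] at haE
      exact haE rfl
    rw [ffc_ord_div w haE hbE]
    exact Dvd.dvd.mul_left (dvd_sub (hR a ha hga) (hR b hb hgb)) _

/-- **T3 at the cusp `∞`**: if `T ^ N` acts trivially and the order of every `T ^ h`-invariant
element (`h ∣ N`) is divisible by `N / h`, then for `x ≠ 0` fixed by `T ^ k`, `N ∣ k * ord x`. -/
theorem ffc_t3_cusp {E : Type*} [Field E] [MulAction SL(2, ℤ) E] (w : Valuation E ℤᵐ⁰)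
    (hTN : ∀ x : E, (T : SL(2, ℤ)) ^ N • x = x)
    (hdvd : ∀ (h : ℕ), h ∣ N → ∀ x : E, x ≠ 0 → (T : SL(2, ℤ)) ^ h • x = x →
      ((N / h : ℕ) : ℤ) ∣ ffi_ord w x)
    (x : E) (hx : x ≠ 0) (k : ℕ) (hk : (T : SL(2, ℤ)) ^ k • x = x) :
    (N : ℤ) ∣ k * ffi_ord w x := by
  have hd : Nat.gcd k N ∣ N := Nat.gcd_dvd_right k N
  have h1 := hdvd (Nat.gcd k N) hd x hx (ffc_pow_gcd_smul T x k N hk (hTN x))
  obtain ⟨m, hm⟩ := h1
  obtain ⟨k', hk'⟩ := Nat.gcd_dvd_left k N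
  refine ⟨k' * m, ?_⟩
  rw [hm]
  have h2 : ((Nat.gcd k N * (N / Nat.gcd k N) : ℕ) : ℤ) = N := by
    rw [Nat.mul_div_cancel' hd]
  have h3 : (k : ℤ) = ((Nat.gcd k N : ℕ) : ℤ) * k' := by exact_mod_cast hk'
  rw [h3, ← h2]
  push_cast
  ring

/-- An element of `SL(2, ℤ)` acting trivially on `ℍ` acts trivially on `ffm_R N`. -/
theorem ffc_smul_R_eq_of_forall (γ : SL(2, ℤ)) (h : ∀ z : ℍ, γ • z = z) (r : ffm_R N) :
    γ • r = r := by
  ext z
  rw [ffm_smul_apply]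
  have h1 : γ⁻¹ • z = z := by rw [inv_smul_eq_iff, h]
  rw [h1]

/-- `S ^ 2` acts trivially on `ffm_R N`. -/
theorem ffc_S_sq_smul_R (r : ffm_R N) : (S : SL(2, ℤ)) ^ 2 • r = r := by
  apply ffc_smul_R_eq_of_forall
  intro z
  rw [pow_two, Fermat.Agent.Lib.Period.pmD_S_mul_S, ModularGroup.SL_neg_smul, one_smul]

/-- `(S T) ^ 3` acts trivially on `ffm_R N`. -/
theorem ffc_ST_cube_smul_R (r : ffm_R N) : (S * T : SL(2, ℤ)) ^ 3 • r = r := by
  apply ffc_smul_R_eq_of_forall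
  intro z
  rw [pow_succ, pow_two, Fermat.Agent.Lib.Period.pmD_ST_cube, ModularGroup.SL_neg_smul, one_smul]

/-- `T ^ N ∈ Γ(N)`. -/
theorem ffc_T_pow_mem_Gamma (N : ℕ) : (T : SL(2, ℤ)) ^ N ∈ CongruenceSubgroup.Gamma N := by
  rw [CongruenceSubgroup.Gamma_mem]
  have h := ModularGroup.coe_T_zpow (N : ℤ)
  rw [zpow_natCast] at h
  simp [h]

/-- `T ^ N` acts trivially on `ffm_R N`. -/
theorem ffc_T_pow_smul_R (r : ffm_R N) : (T : SL(2, ℤ)) ^ N • r = r := by
  ext z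
  rw [ffm_smul_apply]
  exact r.2.inv _ (inv_mem (ffc_T_pow_mem_Gamma N)) z

/-- `T ^ N` acts trivially on `ffm_E N`. -/
theorem ffc_T_pow_smul_E (x : ffm_E N) : (T : SL(2, ℤ)) ^ N • x = x :=
  ffc_smul_eq_of_forall (G := SL(2, ℤ)) (R := ffm_R N) (E := ffm_E N)
    (fun γ r => ffm_smul_algebraMap γ r) _ ffc_T_pow_smul_R x

/-- Invariance under `γ` as an element of `ffm_R N`, unfolded. -/
theorem ffc_apply_smul_of_smul_eq {γ : SL(2, ℤ)} {a : ffm_R N} (h : γ • a = a) (z : ℍ) :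
    (a : ℍ → ℂ) (γ • z) = (a : ℍ → ℂ) z := by
  have h1 := congrArg (fun f : ffm_R N => (f : ℍ → ℂ) (γ • z)) h
  simp only [ffm_smul_apply, inv_smul_smul] at h1
  exact h1.symm

/-- The hypothesis on a valuation `w` of `ffm_E N`: on `ffm_R N` it is `exp (- order at τ)`. -/
def ffc_IsOrdAt (N : ℕ) (w : Valuation (ffm_E N) ℤᵐ⁰) (τ : ℍ) : Prop :=
  ∀ a : ffm_R N, a ≠ 0 → ∃ n : ℕ, analyticOrderAt ((a : ℍ → ℂ) ∘ ofComplex) (τ : ℂ) = n ∧
    w (algebraMap (ffm_R N) (ffm_E N) a) = WithZero.exp (-(n : ℤ))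

theorem ffc_IsOrdAt.ord_eq {w : Valuation (ffm_E N) ℤᵐ⁰} {τ : ℍ} (hw : ffc_IsOrdAt N w τ)
    {a : ffm_R N} (ha : a ≠ 0) {n : ℕ}
    (hn : analyticOrderAt ((a : ℍ → ℂ) ∘ ofComplex) (τ : ℂ) = n) :
    ffi_ord w (algebraMap (ffm_R N) (ffm_E N) a) = n := by
  obtain ⟨m, hm, hwm⟩ := hw a ha
  rw [hm] at hn
  have : m = n := by exact_mod_cast hn
  subst this
  rw [ffi_ord, hwm, WithZero.log_exp, neg_neg]

/-- **T3 at `i`**: `x ≠ 0` fixed by `S ^ k` has `2 ∣ k * ord_i x`. -/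
theorem ffc_t3_I {w : Valuation (ffm_E N) ℤᵐ⁰} (hw : ffc_IsOrdAt N w UpperHalfPlane.I)
    (x : ffm_E N) (hx : x ≠ 0) (k : ℕ) (hk : (S : SL(2, ℤ)) ^ k • x = x) :
    ((2 : ℕ) : ℤ) ∣ k * ffi_ord w x := by
  refine ffc_t3_prime w S Nat.prime_two ffc_S_sq_smul_R ?_ x hx k hk
  intro a ha hSa
  obtain ⟨n, hn, -⟩ := hw a ha
  rw [hw.ord_eq ha hn]
  exact_mod_cast ffc_two_dvd_order_I (ffm_R_mdiff a) (ffc_apply_smul_of_smul_eq hSa) hn

/-- **T3 at `ρ`**: `x ≠ 0` fixed by `(S T) ^ k` has `3 ∣ k * ord_ρ x`. -/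
theorem ffc_t3_rho {w : Valuation (ffm_E N) ℤᵐ⁰} (hw : ffc_IsOrdAt N w RR.Ramanujan.rho)
    (x : ffm_E N) (hx : x ≠ 0) (k : ℕ) (hk : (S * T : SL(2, ℤ)) ^ k • x = x) :
    ((3 : ℕ) : ℤ) ∣ k * ffi_ord w x := by
  refine ffc_t3_prime w (S * T) Nat.prime_three ffc_ST_cube_smul_R ?_ x hx k hk
  intro a ha hSa
  obtain ⟨n, hn, -⟩ := hw a ha
  rw [hw.ord_eq ha hn]
  exact_mod_cast ffc_three_dvd_order_rho (ffm_R_mdiff a) (ffc_apply_smul_of_smul_eq hSa) hn

/-- **T3 at a generic point** (`g = 1`, `e₀ = 1`): trivial. -/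
theorem ffc_t3_generic {E : Type*} [Field E] (w : Valuation E ℤᵐ⁰) (x : E) (k : ℕ) :
    ((1 : ℕ) : ℤ) ∣ k * ffi_ord w x := by
  simp

end Model

end

end Fermat.Agent.Lib.FF
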