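/-
S24, level-one analytic package: the analytic `j`-function `j = E₄³ / Δ` on the upper half plane.
Invariance, holomorphy, injectivity modulo `SL(2, ℤ)`, surjectivity onto `ℂ`, local orders,
behaviour at `i∞`, and "holomorphic level-one invariants of finite order at `i∞` are polynomials
in `j`".
-/
import Fermat.Agent.Lib.RR.JInjective
import Fermat.Agent.Lib.RR.Free
import Fermat.Agent.Lib.RR.G2LevelOne
import Fermat.Agent.Lib.RR.DivMF

set_option autoImplicit false

namespace Fermat.Agent.Lib.FF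

open UpperHalfPlane hiding I
open ModularForm CongruenceSubgroup Matrix.SpecialLinearGroup Filter Asymptotics Complex Real
open Fermat.Agent.Lib.RR
open scoped MatrixGroups Manifold Topology

noncomputable section

/-- The analytic `j`-function `E₄³ / Δ`. -/
def ffj_j : ℍ → ℂ := fun z => E4 z ^ 3 / Dl z

theorem ffj_j_apply (z : ℍ) : ffj_j z = E4 z ^ 3 / Dl z := rfl

theorem ffj_j_eq_div : ffj_j = E4 ^ 3 / Dl := rfl

/-- Pointwise transformation law of level-one forms as functions. -/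
theorem ffj_apply_smul_of_mem_MF1 {k : ℤ} {f : ℍ → ℂ} (hf : f ∈ MF1 k) (γ : SL(2, ℤ)) (z : ℍ) :
    f (γ • z) = denom γ z ^ k * f z := by
  obtain ⟨F, rfl⟩ := hf
  exact Ramanujan.levelOne_modular_eqn F γ z

theorem ffj_smul (γ : SL(2, ℤ)) (z : ℍ) : ffj_j (γ • z) = ffj_j z := by
  have h4 := ffj_apply_smul_of_mem_MF1 E4_mem_MF1 γ z
  have h12 := ffj_apply_smul_of_mem_MF1 Dl_mem_MF1 γ z
  have hd : denom γ z ≠ 0 := denom_ne_zero γ z
  rw [ffj_j_apply, ffj_j_apply, h4, h12, mul_pow, ← zpow_natCast (denom γ z ^ (4 : ℤ)) 3,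
    ← zpow_mul]
  have : ((4 : ℤ) * ((3 : ℕ) : ℤ)) = 12 := by norm_num
  rw [this, mul_div_mul_left _ _ (zpow_ne_zero 12 hd)]

theorem ffj_vadd_one (z : ℍ) : ffj_j ((1 : ℝ) +ᵥ z) = ffj_j z := by
  have := ffj_smul ModularGroup.T z
  rwa [modular_T_smul] at this

theorem ffj_mdifferentiable : MDiff ffj_j := by
  rw [UpperHalfPlane.mdifferentiable_iff]
  have h4 : DifferentiableOn ℂ ((E4 ^ 3) ∘ ofComplex) upperHalfPlaneSet :=
    UpperHalfPlane.mdifferentiable_iff.mp (mdifferentiable_E4.pow 3)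
  have hD : DifferentiableOn ℂ (Dl ∘ ofComplex) upperHalfPlaneSet :=
    UpperHalfPlane.mdifferentiable_iff.mp mdifferentiable_Dl
  have : (ffj_j ∘ ofComplex) = ((E4 ^ 3) ∘ ofComplex) / (Dl ∘ ofComplex) := rfl
  rw [this]
  exact h4.div hD fun z _ => Dl_ne_zero _

/-- `j z₀ = j z₁` iff `z₀` and `z₁` are `SL(2, ℤ)`-equivalent. -/
theorem ffj_eq_iff (z0 z1 : ℍ) : ffj_j z0 = ffj_j z1 ↔ ∃ γ : SL(2, ℤ), γ • z0 = z1 := by
  constructor
  · intro h
    apply j_injective
    rw [ffj_j_apply, ffj_j_apply, div_eq_div_iff (Dl_ne_zero z0) (Dl_ne_zero z1)] at h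
    exact h
  · rintro ⟨γ, rfl⟩
    exact (ffj_smul γ z0).symm

theorem ffj_sub_1728 (z : ℍ) : ffj_j z - 1728 = E6 z ^ 2 / Dl z := by
  have hD := Dl_ne_zero z
  rw [ffj_j_apply, eq_div_iff hD, sub_mul, div_mul_cancel₀ _ hD, Dl_apply]
  ring

theorem ffj_eq_zero_iff (z : ℍ) : ffj_j z = 0 ↔ E4 z = 0 := by
  rw [ffj_j_apply, div_eq_zero_iff]
  constructor
  · rintro (h | h)
    · exact pow_eq_zero_iff (by norm_num) |>.mp h
    · exact absurd h (Dl_ne_zero z)
  · intro h
    left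
    rw [h]; ring

theorem ffj_eq_1728_iff (z : ℍ) : ffj_j z = 1728 ↔ E6 z = 0 := by
  rw [← sub_eq_zero, ffj_sub_1728, div_eq_zero_iff]
  constructor
  · rintro (h | h)
    · exact pow_eq_zero_iff (by norm_num) |>.mp h
    · exact absurd h (Dl_ne_zero z)
  · intro h
    left
    rw [h]; ring

/-- Limits at `i∞` of `E₄` and of `j q`. -/
theorem ffj_tendsto_mul_exp :
    Tendsto (fun z : ℍ => ffj_j z * cexp (2 * π * I * z)) atImInfty (𝓝 1) := by
  have h1 : Tendsto (fun z : ℍ => E4 z ^ 3) atImInfty (𝓝 1) := by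
    have := tendsto_E4.pow 3
    simpa using this
  have h2 := h1.div g2a_tendsto_Dl_mul_exp one_ne_zero
  rw [div_one] at h2
  refine h2.congr fun z => ?_
  have he : cexp (-2 * π * I * z) * cexp (2 * π * I * z) = 1 := by
    rw [← Complex.exp_add]; simp
  have hne : cexp (-2 * π * I * z) ≠ 0 := Complex.exp_ne_zero _
  have hD := Dl_ne_zero z
  show E4 z ^ 3 / (Dl z * cexp (-2 * π * I * z)) = ffj_j z * cexp (2 * π * I * z)
  rw [ffj_j_apply, div_mul_eq_mul_div, div_eq_div_iff (mul_ne_zero hD hne) hD]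
  linear_combination (-(E4 z ^ 3 * Dl z)) * he

/-- `j` takes every complex value. -/
theorem ffj_surjective (c : ℂ) : ∃ z : ℍ, ffj_j z = c := by
  by_contra hne
  push Not at hne
  set g : ℍ → ℂ := E4 ^ 3 - c • Dl with hg
  have hgz : ∀ z, g z ≠ 0 := by
    intro z h0
    apply hne z
    rw [ffj_j_apply, div_eq_iff (Dl_ne_zero z)]
    have : E4 z ^ 3 - c * Dl z = 0 := h0
    linear_combination this
  have hgM : g ∈ MF1 12 := by
    refine Submodule.sub_mem _ ?_ (Submodule.smul_mem _ _ Dl_mem_MF1)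
    have := pow_mem_MF1 E4_mem_MF1 3
    exact this
  have hlim : Tendsto (fun z : ℍ => g z * cexp (-2 * π * I * (0 : ℕ) * z)) atImInfty (𝓝 1) := by
    have h1 : Tendsto (fun z : ℍ => E4 z ^ 3) atImInfty (𝓝 1) := by
      have := tendsto_E4.pow 3
      simpa using this
    have h2 : Tendsto Dl atImInfty (𝓝 0) := by
      have := free_tendsto_of_mem_MF1 Dl_mem_MF1
      have hz : IsZeroAtImInfty Dl := isZeroAtImInfty_of_mem_CF (N := 1) (Dl_mem_CF 1)
      exact hz
    have h3 := h1.sub (h2.const_mul c)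
    simp only [mul_zero, sub_zero] at h3
    refine h3.congr fun z => ?_
    simp [hg]
  have := g2a_weight_eq hgM hgz one_ne_zero hlim
  norm_num at this

/-! ### Local orders of `j - j(z₀)` -/

theorem ffj_mdifferentiable_sub_const (c : ℂ) : MDiff (fun z => ffj_j z - c) :=
  ffj_mdifferentiable.sub mdifferentiable_const

/-- `div_ord` of a product with a function not vanishing at the point. -/
theorem ffj_div_ord_of_mul_eq {f u g : ℍ → ℂ} (hf : MDiff f) (hu : MDiff u) (z : ℍ)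
    (huz : u z ≠ 0) (h : f * u = g) : div_ord f z = div_ord g z := by
  rw [← h, div_ord_mul hf hu, (div_ord_eq_zero_iff hu z).mpr huz, add_zero]

/-- At a point which is not in the orbit of `i` or `ρ`, `j - j(z₀)` has a simple zero. -/
theorem ffj_div_ord_generic {z0 : ℍ} (h4 : E4 z0 ≠ 0) (h6 : E6 z0 ≠ 0) :
    div_ord (fun z => ffj_j z - ffj_j z0) z0 = 1 := by
  have hu : MDiff (fun z => Dl z0 * Dl z) := mdifferentiable_const.mul mdifferentiable_Dl
  have hmul : (fun z => ffj_j z - ffj_j z0) * (fun z => Dl z0 * Dl z) = Ramanujan.jNum z0 := by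
    funext z
    have hD := Dl_ne_zero z
    have hD0 := Dl_ne_zero z0
    simp only [Pi.mul_apply, Ramanujan.jNum_apply, ffj_j_apply]
    show (E4 z ^ 3 / Dl z - E4 z0 ^ 3 / Dl z0) * (Dl z0 * Dl z) = Dl z0 * E4 z ^ 3 - E4 z0 ^ 3 * Dl z
    field_simp
  rw [ffj_div_ord_of_mul_eq (ffj_mdifferentiable_sub_const _) hu z0
    (mul_ne_zero (Dl_ne_zero z0) (Dl_ne_zero z0)) hmul]
  exact Ramanujan.analyticOrderAt_jNum (Ramanujan.jNum_self z0) h4 h6

/-- At a zero of `E₆` (the orbit of `i`), `j - 1728` has a double zero. -/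
theorem ffj_div_ord_of_E6_eq_zero {z0 : ℍ} (h6 : E6 z0 = 0) :
    div_ord (fun z => ffj_j z - ffj_j z0) z0 = 2 := by
  have hj0 : ffj_j z0 = 1728 := (ffj_eq_1728_iff z0).mpr h6
  have hmul : (fun z => ffj_j z - ffj_j z0) * Dl = E6 * E6 := by
    funext z
    simp only [Pi.mul_apply]
    rw [hj0, ffj_sub_1728, div_mul_cancel₀ _ (Dl_ne_zero z)]
    ring
  rw [ffj_div_ord_of_mul_eq (ffj_mdifferentiable_sub_const _) mdifferentiable_Dl z0
    (Dl_ne_zero z0) hmul, div_ord_mul mdifferentiable_E6 mdifferentiable_E6]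
  have h1 : div_ord E6 z0 = 1 := Ramanujan.analyticOrderAt_E₆ h6
  rw [h1]
  rfl

/-- At a zero of `E₄` (the orbit of `ρ`), `j` has a triple zero. -/
theorem ffj_div_ord_of_E4_eq_zero {z0 : ℍ} (h4 : E4 z0 = 0) :
    div_ord (fun z => ffj_j z - ffj_j z0) z0 = 3 := by
  have hj0 : ffj_j z0 = 0 := (ffj_eq_zero_iff z0).mpr h4
  have hmul : (fun z => ffj_j z - ffj_j z0) * Dl = E4 * (E4 * E4) := by
    funext z
    simp only [Pi.mul_apply]
    rw [hj0, sub_zero, ffj_j_apply, div_mul_cancel₀ _ (Dl_ne_zero z)]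
    ring
  rw [ffj_div_ord_of_mul_eq (ffj_mdifferentiable_sub_const _) mdifferentiable_Dl z0
    (Dl_ne_zero z0) hmul, div_ord_mul mdifferentiable_E4 (mdifferentiable_E4.mul mdifferentiable_E4),
    div_ord_mul mdifferentiable_E4 mdifferentiable_E4]
  have h1 : div_ord E4 z0 = 1 := Ramanujan.analyticOrderAt_E₄ h4
  rw [h1]
  rfl

/-! ### Level-one invariants are polynomials in `j` -/

/-- Every level-one form of weight `12 M` is `Δ^M` times a polynomial of degree `≤ M` in `j`. -/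
theorem ffj_exists_poly_of_mem_MF1 : ∀ (M : ℕ) (g : ℍ → ℂ), g ∈ MF1 (12 * (M : ℤ)) →
    ∃ P : Polynomial ℂ, P.natDegree ≤ M ∧ ∀ z, g z = Dl z ^ M * P.eval (ffj_j z) := by
  intro M
  induction M with
  | zero =>
    intro g hg
    have hg0 : g ∈ MF1 0 := by simpa using hg
    obtain ⟨c, rfl⟩ := g2a_eq_const_of_mem_MF1_zero hg0
    exact ⟨Polynomial.C c, by simp, fun z => by simp⟩
  | succ M ih =>
    intro g hg
    set c : ℂ := valueAtInfty g with hc
    have hE : E4 ^ (3 * (M + 1)) ∈ MF1 (12 * ((M + 1 : ℕ) : ℤ)) := by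
      have := pow_mem_MF1 E4_mem_MF1 (3 * (M + 1))
      have he : ((3 * (M + 1) : ℕ) : ℤ) * 4 = 12 * ((M + 1 : ℕ) : ℤ) := by push_cast; ring
      rwa [he] at this
    set h : ℍ → ℂ := g - c • E4 ^ (3 * (M + 1)) with hh
    have hhM : h ∈ MF1 (12 * ((M + 1 : ℕ) : ℤ)) :=
      Submodule.sub_mem _ hg (Submodule.smul_mem _ _ hE)
    have hlim : Tendsto h atImInfty (𝓝 0) := by
      have h1 : Tendsto (fun z : ℍ => E4 z ^ (3 * (M + 1))) atImInfty (𝓝 1) := by
        have := tendsto_E4.pow (3 * (M + 1))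
        simpa using this
      have h2 := (free_tendsto_of_mem_MF1 hg).sub (h1.const_mul c)
      rw [mul_one, ← hc, sub_self] at h2
      refine h2.congr fun z => ?_
      simp [hh]
    obtain ⟨h', hh', hmul⟩ := exists_mul_Dl_of_mem_CF1 (mem_CF1_of_tendsto_zero hhM hlim)
    have hw : 12 * ((M + 1 : ℕ) : ℤ) - 12 = 12 * (M : ℤ) := by push_cast; ring
    rw [hw] at hh'
    obtain ⟨P', hdeg', hP'⟩ := ih h' hh'
    refine ⟨Polynomial.C c * Polynomial.X ^ (M + 1) + P', ?_, fun z => ?_⟩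
    · refine (Polynomial.natDegree_add_le _ _).trans (max_le ?_ (hdeg'.trans (Nat.le_succ M)))
      exact (Polynomial.natDegree_C_mul_le _ _).trans (Polynomial.natDegree_X_pow_le _)
    · have hgz : g z = c * E4 z ^ (3 * (M + 1)) + Dl z * h' z := by
        have h1 : h z = Dl z * h' z := by rw [hmul]; rfl
        have h2 : h z = g z - c * E4 z ^ (3 * (M + 1)) := by simp [hh]
        rw [← h1, h2]; ring
      have hD := Dl_ne_zero z
      rw [hgz, hP' z]
      simp only [Polynomial.eval_add, Polynomial.eval_mul, Polynomial.eval_C, Polynomial.eval_pow,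
        Polynomial.eval_X, ffj_j_apply, div_pow]
      rw [pow_mul (E4 z) 3 (M + 1)]
      field_simp
      ring

/-- **Level-one invariants of finite order at `i∞` are polynomials in `j`.** -/
theorem ffj_exists_poly {f : ℍ → ℂ} (hol : MDiff f)
    (hinv : ∀ (γ : SL(2, ℤ)) (z : ℍ), f (γ • z) = f z) (M : ℕ)
    (hgrowth : IsBoundedAtImInfty (fun z : ℍ => f z * cexp (2 * π * I * M * z))) :
    ∃ P : Polynomial ℂ, P.natDegree ≤ M ∧ ∀ z, f z = P.eval (ffj_j z) := by
  have hDM : Dl ^ M ∈ MF1 (12 * (M : ℤ)) := by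
    have := pow_mem_MF1 Dl_mem_MF1 M
    rwa [mul_comm] at this
  have hg : f * Dl ^ M ∈ MF1 (12 * (M : ℤ)) := by
    refine mem_MF1_of (hol.mul (mdifferentiable_Dl.pow M)) (fun γ => ?_) ?_
    · have h0 : f ∣[(0 : ℤ)] γ = f := by
        funext z
        rw [SL_slash_apply, hinv]
        simp
      have := mul_slash_SL2 0 (12 * (M : ℤ)) γ f (Dl ^ M)
      rw [zero_add] at this
      rw [this, h0, slash_eq_of_mem_MF1 hDM γ]
    · have h1 : Tendsto (fun z : ℍ => (Dl z * cexp (-2 * π * I * z)) ^ M) atImInfty (𝓝 1) := by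
        have := g2a_tendsto_Dl_mul_exp.pow M
        simpa using this
      have h2 : IsBoundedAtImInfty (fun z : ℍ => (Dl z * cexp (-2 * π * I * z)) ^ M) :=
        h1.isBigO_one ℝ
      have h3 := hgrowth.mul h2
      refine h3.congr' (Eventually.of_forall fun z => ?_) (Eventually.of_forall fun z => by simp)
      have he : cexp (2 * π * I * M * z) * cexp (-2 * π * I * z) ^ M = 1 := by
        rw [← Complex.exp_nat_mul, ← Complex.exp_add]
        have : 2 * π * I * M * z + M * (-2 * π * I * z) = 0 := by ring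
        rw [this, Complex.exp_zero]
      show f z * cexp (2 * π * I * M * z) * (Dl z * cexp (-2 * π * I * z)) ^ M = f z * Dl z ^ M
      rw [mul_pow]
      linear_combination (f z * Dl z ^ M) * he
  obtain ⟨P, hdeg, hP⟩ := ffj_exists_poly_of_mem_MF1 M _ hg
  refine ⟨P, hdeg, fun z => ?_⟩
  have hD : Dl z ^ M ≠ 0 := pow_ne_zero _ (Dl_ne_zero z)
  have := hP z
  rw [Pi.mul_apply, Pi.pow_apply, mul_comm] at this
  exact mul_left_cancel₀ hD this

end

end Fermat.Agent.Lib.FF
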