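/-
S24 WP A5 (helper3): the fibre models `IsFibreModel` (see `InterfaceModel.lean`) at points of the
upper half plane, from a bridge `φ : F →+* ffm_E N` (hypotheses `ffc_IsBridge`), the order
valuations `ffm_ordAt N τ` (helper5), the local orders of `j - c` (helper8) and T3 (`CuspsT3`).

* `ffc_J N : ffm_R N` : the analytic `j` function as an element of the model ring;
* `ffc_IsBridge N φ ι` : what is needed from the bridge;
* `ffc_fibreModel_generic`, `ffc_fibreModel_1728`, `ffc_fibreModel_zero`.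
-/
import Fermat.Agent.Lib.FF.CuspsT3
import Fermat.Agent.Lib.FF.ModelVal
import Fermat.Agent.Lib.FF.JAnalytic

set_option autoImplicit false

namespace Fermat.Agent.Lib.FF

open UpperHalfPlane hiding I
open Filter Complex Matrix.SpecialLinearGroup CongruenceSubgroup ModularGroup
open Fermat.Agent.Lib.RR
open scoped MatrixGroups Manifold Topology
open WithZero

noncomputable section

/-- `j` has moderate growth. -/
theorem ffc_moderateGrowth_j : ffm_ModerateGrowth ffj_j := by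
  refine ⟨1, ?_⟩
  have h := ffj_tendsto_mul_exp
  have h2 : (fun z : ℍ => ffj_j z * cexp (2 * Real.pi * I * (1 : ℕ) * z)) =
      fun z : ℍ => ffj_j z * cexp (2 * Real.pi * I * z) := by
    funext z
    simp
  rw [h2]
  exact h.isBigO_one ℝ

/-- `j` belongs to the model ring at every level. -/
theorem ffc_isWH_j (N : ℕ) : ffm_IsWH N ffj_j where
  mdiff := ffj_mdifferentiable
  inv := fun γ _ z => ffj_smul γ z
  growth := fun γ => by
    have : (fun z : ℍ => ffj_j (γ • z)) = ffj_j := funext fun z => ffj_smul γ z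
    rw [this]
    exact ffc_moderateGrowth_j

/-- The analytic `j` function as an element of the model ring. -/
def ffc_J (N : ℕ) : ffm_R N := ffm_mk ffj_j (ffc_isWH_j N)

@[simp] theorem ffc_J_coe (N : ℕ) : ((ffc_J N : ffm_R N) : ℍ → ℂ) = ffj_j := rfl

theorem ffc_smul_J (N : ℕ) (γ : SL(2, ℤ)) : γ • ffc_J N = ffc_J N := by
  ext z
  rw [ffm_smul_apply, ffc_J_coe, ffj_smul]

/-- What the fibre models need from the bridge `φ : F →+* ffm_E N` (helper7, helper1). -/
structure ffc_IsBridge (N : ℕ) (φ : ffi_F N →+* ffm_E N) (ι : ffi_K →+* ℂ) : Prop where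
  /-- elements of `F` are `Γ₀(N)`-invariant -/
  inv : ∀ γ ∈ Gamma0 N, ∀ f : ffi_F N, γ • φ f = φ f
  /-- constants go to constants -/
  const : ∀ c : ffi_K, φ (algebraMap ffi_K (ffi_F N) c) = algebraMap ℂ (ffm_E N) (ι c)
  /-- the formal `j` goes to the analytic `j` -/
  j : φ (ffd_jBar N) = algebraMap (ffm_R N) (ffm_E N) (ffc_J N)
  /-- the embeddings `σ_q` are pairwise distinct -/
  inj : Function.Injective (ffi_sigma N φ)

section

variable {N : ℕ} {φ : ffi_F N →+* ffm_E N} {ι : ffi_K →+* ℂ}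

/-- Constants of `ffm_E N` are invariant. -/
theorem ffc_smul_algebraMap_C (γ : SL(2, ℤ)) (c : ℂ) :
    γ • algebraMap ℂ (ffm_E N) c = algebraMap ℂ (ffm_E N) c := by
  rw [IsScalarTower.algebraMap_apply ℂ (ffm_R N) (ffm_E N), ffm_smul_algebraMap,
    ffm_smul_algebraMap_C]

/-- The image of `j - c` under the bridge. -/
theorem ffc_phi_j_sub (hφ : ffc_IsBridge N φ ι) (c : ffi_K) :
    φ (ffd_jBar N - algebraMap ffi_K (ffi_F N) c) =
      algebraMap (ffm_R N) (ffm_E N) (ffc_J N - algebraMap ℂ (ffm_R N) (ι c)) := by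
  rw [RingHom.map_sub, RingHom.map_sub, hφ.j, hφ.const,
    ← IsScalarTower.algebraMap_apply ℂ (ffm_R N) (ffm_E N)]

theorem ffc_J_sub_apply (c : ℂ) (z : ℍ) :
    ((ffc_J N - algebraMap ℂ (ffm_R N) c : ffm_R N) : ℍ → ℂ) z = ffj_j z - c := rfl

/-- The valuation `ffm_ordAt N τ` is the order at `τ` on `ffm_R N`. -/
theorem ffc_isOrdAt (N : ℕ) (τ : ℍ) : ffc_IsOrdAt N (ffm_ordAt N τ) τ := by
  intro a ha
  have h1 := ffm_ordAt_algebraMap_eq_analyticOrderAt N τ a
  have h2 : ffm_ordAt N τ (algebraMap (ffm_R N) (ffm_E N) a) ≠ 0 := by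
    rw [Valuation.ne_zero_iff, Ne, map_eq_zero_iff _ (ffm_algebraMap_injective N)]
    exact ha
  cases hn : analyticOrderAt (ffm_germAt N a) (τ : ℂ) with
  | top =>
    rw [hn] at h1
    exact absurd h1 h2
  | coe n =>
    refine ⟨n, hn, ?_⟩
    rw [h1, hn]
    rfl

/-- The fibre model at a point `τ₀` of the upper half plane with `j τ₀ = c`, given an element `g`
fixing `τ₀`, the order `e₀` of `j - c` at `τ₀` and T3. -/
theorem ffc_fibreModel_at (hφ : ffc_IsBridge N φ ι) (c : ffi_K) (τ₀ : ℍ) (hτ : ffj_j τ₀ = ι c)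
    (g : SL(2, ℤ)) (hg : g • τ₀ = τ₀) (e₀ : ℕ)
    (hord : div_ord (fun z => ffj_j z - ffj_j τ₀) τ₀ = e₀)
    (ht3 : ∀ x : ffm_E N, x ≠ 0 → ∀ k : ℕ, g ^ k • x = x →
      (e₀ : ℤ) ∣ k * ffi_ord (ffm_ordAt N τ₀) x) :
    IsFibreModel N φ (ffm_ordAt N τ₀) g e₀ (ffd_jBar N - algebraMap ffi_K (ffi_F N) c) where
  inv := hφ.inv
  const_inv := fun γ c' => by rw [hφ.const, ffc_smul_algebraMap_C]
  t_inv := fun γ => by
    rw [ffc_phi_j_sub hφ, ffm_smul_algebraMap, smul_sub, ffc_smul_J, ffm_smul_algebraMap_C]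
  w_const := fun c' hc' => by
    rw [hφ.const]
    exact ffm_ordAt_const N τ₀ ((map_ne_zero ι).mpr hc')
  w_smul := fun x => by
    rw [ffm_ordAt_smul]
    have : g⁻¹ • τ₀ = τ₀ := by rw [inv_smul_eq_iff, hg]
    rw [this]
  t_lt := by
    rw [ffc_phi_j_sub hφ]
    apply ffm_ordAt_algebraMap_lt_one
    rw [ffc_J_sub_apply, hτ, sub_self]
  t_ub := by
    rw [ffc_phi_j_sub hφ]
    have hne : (ffc_J N - algebraMap ℂ (ffm_R N) (ι c) : ffm_R N) ≠ 0 := by
      intro h0
      have h1 : ∀ z : ℍ, ffj_j z = ι c := by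
        intro z
        have := congrArg (fun f : ffm_R N => (f : ℍ → ℂ) z) h0
        simp only [ffc_J_sub_apply] at this
        exact sub_eq_zero.mp this
      have h2 : div_ord (fun z => ffj_j z - ffj_j τ₀) τ₀ = ⊤ := by
        have : (fun z => ffj_j z - ffj_j τ₀) = fun _ => (0 : ℂ) := by
          funext z
          rw [h1 z, h1 τ₀, sub_self]
        rw [this, div_ord]
        have h3 : ((fun _ : ℍ => (0 : ℂ)) ∘ ofComplex) = fun _ => (0 : ℂ) := rfl
        rw [h3, analyticOrderAt_eq_top]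
        exact Eventually.of_forall fun _ => rfl
      rw [h2] at hord
      exact absurd hord (by simp)
    have hfun : ((ffc_J N - algebraMap ℂ (ffm_R N) (ι c) : ffm_R N) : ℍ → ℂ) =
        fun z => ffj_j z - ffj_j τ₀ := by
      funext z
      rw [ffc_J_sub_apply, hτ]
    have hn : analyticOrderAt
        (((ffc_J N - algebraMap ℂ (ffm_R N) (ι c) : ffm_R N) : ℍ → ℂ) ∘ ofComplex) (τ₀ : ℂ) =
        (e₀ : ℕ∞) := by
      rw [hfun]
      exact hord
    rw [(ffc_isOrdAt N τ₀).ord_eq hne hn]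
  t3 := ht3
  inj := hφ.inj

/-- The fibre model over a generic `c` (`c ≠ 0, 1728`). -/
theorem ffc_fibreModel_generic (hφ : ffc_IsBridge N φ ι) (c : ffi_K) (hc0 : c ≠ 0)
    (hc1 : c ≠ 1728) :
    ∃ w : Valuation (ffm_E N) ℤᵐ⁰,
      IsFibreModel N φ w 1 1 (ffd_jBar N - algebraMap ffi_K (ffi_F N) c) := by
  obtain ⟨τ₀, hτ⟩ := ffj_surjective (ι c)
  refine ⟨ffm_ordAt N τ₀, ffc_fibreModel_at hφ c τ₀ hτ 1 (one_smul _ _) 1 ?_ ?_⟩
  · have h4 : E4 τ₀ ≠ 0 := by
      rw [Ne, ← ffj_eq_zero_iff, hτ, map_eq_zero]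
      exact hc0
    have h6 : E6 τ₀ ≠ 0 := by
      rw [Ne, ← ffj_eq_1728_iff, hτ]
      intro h
      apply hc1
      apply ι.injective
      rw [h, map_ofNat]
    rw [ffj_div_ord_generic h4 h6]
    rfl
  · intro x _ k _
    exact ffc_t3_generic _ x k

/-- The fibre model over `1728` (point `i`, `g = S`, `e₀ = 2`). -/
theorem ffc_fibreModel_1728 (hφ : ffc_IsBridge N φ ι) :
    IsFibreModel N φ (ffm_ordAt N UpperHalfPlane.I) S 2
      (ffd_jBar N - algebraMap ffi_K (ffi_F N) 1728) := by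
  have h6 : E6 UpperHalfPlane.I = 0 := Ramanujan.E₆_I
  refine ffc_fibreModel_at hφ 1728 UpperHalfPlane.I ?_ S Ramanujan.S_smul_I 2 ?_ ?_
  · rw [(ffj_eq_1728_iff _).mpr h6, map_ofNat]
  · rw [ffj_div_ord_of_E6_eq_zero h6]
    rfl
  · exact ffc_t3_I (ffc_isOrdAt N _)

/-- The fibre model over `0` (point `ρ`, `g = S T`, `e₀ = 3`). -/
theorem ffc_fibreModel_zero (hφ : ffc_IsBridge N φ ι) :
    IsFibreModel N φ (ffm_ordAt N Ramanujan.rho) (S * T) 3 (ffd_jBar N) := by
  have h4 : E4 Ramanujan.rho = 0 := Ramanujan.E₄_rho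
  have h := ffc_fibreModel_at hφ 0 Ramanujan.rho ?_ (S * T) Ramanujan.ST_smul_rho 3 ?_ ?_
  · rwa [map_zero, sub_zero] at h
  · rw [(ffj_eq_zero_iff _).mpr h4, map_zero]
  · rw [ffj_div_ord_of_E4_eq_zero h4]
    rfl
  · exact ffc_t3_rho (ffc_isOrdAt N _)

end

end

end Fermat.Agent.Lib.FF
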