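/-
S24 WP A5 (helper3): the fibre model `IsFibreModel` at the cusp `∞` (`g = T`, `e₀ = N`,
`t = j⁻¹`), from a bridge `φ` (`ffc_IsBridge`) and a valuation `w` on `ffm_E N` which on
`ffm_R N` is the leading exponent in `q_N = e^{2πiz/N}` (`ffc_IsOrdInf`).
-/
import Fermat.Agent.Lib.FF.CuspsFibre
import Fermat.Agent.Lib.FF.CuspsExp

set_option autoImplicit false

namespace Fermat.Agent.Lib.FF

open UpperHalfPlane hiding I
open Filter Complex Matrix.SpecialLinearGroup CongruenceSubgroup ModularGroup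
open Fermat.Agent.Lib.RR
open scoped MatrixGroups Manifold Topology
open WithZero

noncomputable section

/-- The specification of the valuation at `∞`: on `ffm_R N` the (additive) order is the leading
exponent of the expansion in `q_N`. -/
def ffc_IsOrdInf (N : ℕ) (w : Valuation (ffm_E N) ℤᵐ⁰) : Prop :=
  ∀ f : ffm_R N, f ≠ 0 →
    ffc_HasExp N (f : ℍ → ℂ) (ffi_ord w (algebraMap (ffm_R N) (ffm_E N) f))

section Ord

variable {E : Type*} [Field E] (w : Valuation E ℤᵐ⁰)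

theorem ffc_ord_inv (x : E) : ffi_ord w x⁻¹ = -ffi_ord w x := by
  unfold ffi_ord
  rw [map_inv₀, WithZero.log_inv]

theorem ffc_val_eq_exp {x : E} (hx : x ≠ 0) : w x = WithZero.exp (-ffi_ord w x) := by
  unfold ffi_ord
  rw [neg_neg, WithZero.exp_log ((Valuation.ne_zero_iff w).mpr hx)]

theorem ffc_val_eq_of_ord_eq {x y : E} (hx : x ≠ 0) (hy : y ≠ 0)
    (h : ffi_ord w x = ffi_ord w y) : w x = w y := by
  rw [ffc_val_eq_exp w hx, ffc_val_eq_exp w hy, h]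

theorem ffc_val_eq_one_of_ord_eq_zero {x : E} (hx : x ≠ 0) (h : ffi_ord w x = 0) : w x = 1 := by
  rw [ffc_val_eq_exp w hx, h, neg_zero, WithZero.exp_zero]

theorem ffc_val_lt_one_of_ord_pos {x : E} (hx : x ≠ 0) (h : 0 < ffi_ord w x) : w x < 1 := by
  rw [ffc_val_eq_exp w hx, ← WithZero.exp_zero, WithZero.exp_lt_exp]
  omega

end Ord

section

variable {N : ℕ}

/-- `T ^ h` acts on the upper half plane as the translation by `h`. -/
theorem ffc_T_pow_smul_eq_vadd (h : ℕ) (z : ℍ) : (T : SL(2, ℤ)) ^ h • z = (h : ℝ) +ᵥ z := by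
  have := UpperHalfPlane.modular_T_zpow_smul z (h : ℤ)
  rw [zpow_natCast] at this
  rw [this]
  norm_cast

/-- `T⁻¹` acts on the upper half plane as the translation by `-1`. -/
theorem ffc_T_inv_smul_eq_vadd (z : ℍ) : (T : SL(2, ℤ))⁻¹ • z = (-1 : ℝ) +ᵥ z := by
  have := UpperHalfPlane.modular_T_zpow_smul z (-1 : ℤ)
  rw [zpow_neg_one] at this
  rw [this]
  norm_cast

/-- `j` has leading exponent `-N` in `q_N`. -/
theorem ffc_hasExp_j (hN : N ≠ 0) : ffc_HasExp N ffj_j (-(N : ℤ)) := by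
  refine ⟨1, one_ne_zero, ?_⟩
  refine ffj_tendsto_mul_exp.congr fun z => ?_
  congr 2
  have hN' : (N : ℂ) ≠ 0 := Nat.cast_ne_zero.mpr hN
  push_cast
  field_simp

variable {w : Valuation (ffm_E N) ℤᵐ⁰}

theorem ffc_IsOrdInf.ord_eq (hw : ffc_IsOrdInf N w) (hN : N ≠ 0) {f : ffm_R N} (hf : f ≠ 0)
    {n : ℤ} (h : ffc_HasExp N (f : ℍ → ℂ) n) :
    ffi_ord w (algebraMap (ffm_R N) (ffm_E N) f) = n :=
  (hw f hf).unique hN h

theorem ffc_algebraMap_ne_zero {f : ffm_R N} (hf : f ≠ 0) :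
    algebraMap (ffm_R N) (ffm_E N) f ≠ 0 := by
  rwa [Ne, map_eq_zero_iff _ (ffm_algebraMap_injective N)]

/-- The valuation at `∞` is trivial on nonzero constants. -/
theorem ffc_IsOrdInf.const (hw : ffc_IsOrdInf N w) (hN : N ≠ 0) {c : ℂ} (hc : c ≠ 0) :
    w (algebraMap ℂ (ffm_E N) c) = 1 := by
  rw [IsScalarTower.algebraMap_apply ℂ (ffm_R N) (ffm_E N)]
  have hne : algebraMap ℂ (ffm_R N) c ≠ 0 := by
    intro h0
    have := congrArg (fun f : ffm_R N => (f : ℍ → ℂ) UpperHalfPlane.I) h0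
    exact hc this
  apply ffc_val_eq_one_of_ord_eq_zero w (ffc_algebraMap_ne_zero hne)
  exact hw.ord_eq hN hne (ffc_hasExp_const N hc)

/-- The valuation at `∞` is `T`-invariant on `ffm_R N`. -/
theorem ffc_IsOrdInf.T_smul_R (hw : ffc_IsOrdInf N w) (hN : N ≠ 0) (f : ffm_R N) :
    w (algebraMap (ffm_R N) (ffm_E N) ((T : SL(2, ℤ)) • f)) =
      w (algebraMap (ffm_R N) (ffm_E N) f) := by
  by_cases hf : f = 0
  · rw [hf, smul_zero]
  · have hTf : (T : SL(2, ℤ)) • f ≠ 0 := by rwa [smul_ne_zero_iff_ne]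
    apply ffc_val_eq_of_ord_eq w (ffc_algebraMap_ne_zero hTf) (ffc_algebraMap_ne_zero hf)
    apply hw.ord_eq hN hTf
    have h := (hw f hf).vadd (-1 : ℝ)
    refine h.congr fun z => ?_
    rw [ffm_smul_apply, ffc_T_inv_smul_eq_vadd]

/-- The valuation at `∞` is `T`-invariant. -/
theorem ffc_IsOrdInf.T_smul (hw : ffc_IsOrdInf N w) (hN : N ≠ 0) (x : ffm_E N) :
    w ((T : SL(2, ℤ)) • x) = w x := by
  obtain ⟨a, b, -, rfl⟩ := IsFractionRing.div_surjective (A := ffm_R N) x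
  rw [smul_div₀', map_div₀, map_div₀, ffm_smul_algebraMap, ffm_smul_algebraMap,
    hw.T_smul_R hN, hw.T_smul_R hN]

theorem ffc_J_ne_zero (hN : N ≠ 0) : ffc_J N ≠ 0 := by
  intro h0
  have h2 := ffc_hasExp_j (N := N) hN
  have h3 : ffj_j = fun _ : ℍ => (0 : ℂ) := by
    have := congrArg (fun f : ffm_R N => (f : ℍ → ℂ)) h0
    exact this
  rw [h3] at h2
  obtain ⟨c, hc, hlim⟩ := h2
  simp only [zero_mul] at hlim
  exact hc (tendsto_nhds_unique hlim tendsto_const_nhds)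

/-- The order of `j` at `∞` is `-N`. -/
theorem ffc_IsOrdInf.ord_J (hw : ffc_IsOrdInf N w) (hN : N ≠ 0) :
    ffi_ord w (algebraMap (ffm_R N) (ffm_E N) (ffc_J N)) = -(N : ℤ) :=
  hw.ord_eq hN (ffc_J_ne_zero hN) (ffc_hasExp_j hN)

/-- The divisibility of orders of `T ^ h`-invariant elements at `∞`. -/
theorem ffc_IsOrdInf.dvd (hw : ffc_IsOrdInf N w) (hN : N ≠ 0) (h : ℕ) (hh : h ∣ N)
    (x : ffm_E N) (hx : x ≠ 0) (hTx : (T : SL(2, ℤ)) ^ h • x = x) :
    ((N / h : ℕ) : ℤ) ∣ ffi_ord w x := by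
  obtain ⟨k, hk⟩ := hh
  have hk0 : k ≠ 0 := by
    rintro rfl
    exact hN (by rw [hk, mul_zero])
  obtain ⟨n, rfl⟩ : ∃ n, k = n + 1 := ⟨k - 1, by omega⟩
  have hpow : ∀ r : ffm_R N, ((T : SL(2, ℤ)) ^ h) ^ (n + 1) • r = r := by
    intro r
    rw [← pow_mul, ← hk]
    exact ffc_T_pow_smul_R r
  obtain ⟨a, b, hb, hga, hgb, rfl⟩ := ffc_exists_invariant_frac (G := SL(2, ℤ))
    (R := ffm_R N) (E := ffm_E N) (fun γ r => ffm_smul_algebraMap γ r) (T ^ h) n hpow x hTx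
  have hbE := ffc_algebraMap_ne_zero hb
  have haE : algebraMap (ffm_R N) (ffm_E N) a ≠ 0 := by
    intro h0
    rw [h0, zero_div] at hx
    exact hx rfl
  have ha : a ≠ 0 := by
    intro h0
    rw [h0, map_zero] at haE
    exact haE rfl
  have hper : ∀ {c : ffm_R N}, (T : SL(2, ℤ)) ^ h • c = c →
      ∀ z : ℍ, (c : ℍ → ℂ) ((h : ℝ) +ᵥ z) = (c : ℍ → ℂ) z := by
    intro c hc z
    rw [← ffc_T_pow_smul_eq_vadd]
    exact ffc_apply_smul_of_smul_eq hc z
  rw [ffc_ord_div w haE hbE]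
  exact dvd_sub ((hw a ha).dvd_of_periodic hN ⟨n + 1, hk⟩ (hper hga))
    ((hw b hb).dvd_of_periodic hN ⟨n + 1, hk⟩ (hper hgb))

/-- **The fibre model at `∞`** (`g = T`, `e₀ = N`, `t = j⁻¹`). -/
theorem ffc_fibreModel_inf [NeZero N] {φ : ffi_F N →+* ffm_E N} {ι : ffi_K →+* ℂ}
    (hφ : ffc_IsBridge N φ ι) (hw : ffc_IsOrdInf N w) :
    IsFibreModel N φ w T N (ffd_jBar N)⁻¹ := by
  have hN : N ≠ 0 := NeZero.ne N
  have hJ : φ (ffd_jBar N)⁻¹ = (algebraMap (ffm_R N) (ffm_E N) (ffc_J N))⁻¹ := by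
    rw [map_inv₀ φ, hφ.j]
  have hJE := ffc_algebraMap_ne_zero (ffc_J_ne_zero (N := N) hN)
  have hord : ffi_ord w (φ (ffd_jBar N)⁻¹) = (N : ℤ) := by
    rw [hJ, ffc_ord_inv, hw.ord_J hN, neg_neg]
  exact
  { inv := hφ.inv
    const_inv := fun γ c' => by rw [hφ.const, ffc_smul_algebraMap_C]
    t_inv := fun γ => by
      rw [hJ, smul_inv'', ffm_smul_algebraMap, ffc_smul_J]
    w_const := fun c' hc' => by
      rw [hφ.const]
      exact hw.const hN ((map_ne_zero ι).mpr hc')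
    w_smul := hw.T_smul hN
    t_lt := by
      apply ffc_val_lt_one_of_ord_pos w
      · rw [hJ]
        exact inv_ne_zero hJE
      · rw [hord]
        exact_mod_cast Nat.pos_of_ne_zero hN
    t_ub := by rw [hord]
    t3 := fun x hx k hk =>
      ffc_t3_cusp w ffc_T_pow_smul_E (fun h hh x hx hTx => hw.dvd hN h hh x hx hTx) x hx k hk
    inj := hφ.inj }

end

end

end Fermat.Agent.Lib.FF
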