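/-
S24, WP A1 (analytic model), part 3: the valuation `ffm_ordInf N` on `ffm_E N`: the order at `i∞`
in the local parameter `q_N = exp(2πiz/N)`.
-/
import Fermat.Agent.Lib.FF.ModelVal
import Fermat.Agent.Lib.FF.CuspsExp

set_option autoImplicit false

namespace Fermat.Agent.Lib.FF

open UpperHalfPlane hiding I
open Filter Matrix.SpecialLinearGroup Function
open scoped MatrixGroups Manifold Topology WithZero Real

noncomputable section

local notation "𝕢" => Periodic.qParam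

/-! ### Periodicity -/

theorem ffm_T_pow_mem_Gamma (N : ℕ) : ModularGroup.T ^ (N : ℤ) ∈ CongruenceSubgroup.Gamma N := by
  rw [CongruenceSubgroup.Gamma_mem, ModularGroup.coe_T_zpow]
  simp

/-- Elements of `ffm_R N` are `N`-periodic. -/
theorem ffm_vadd_N {N : ℕ} (f : ffm_R N) (z : ℍ) :
    (f : ℍ → ℂ) ((N : ℝ) +ᵥ z) = (f : ℍ → ℂ) z := by
  have h := f.2.inv _ (ffm_T_pow_mem_Gamma N) z
  rw [UpperHalfPlane.modular_T_zpow_smul] at h
  simpa using h

theorem ffm_periodic {N : ℕ} (f : ffm_R N) : Periodic ((f : ℍ → ℂ) ∘ ofComplex) (N : ℝ) := by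
  intro w
  by_cases hw : 0 < Complex.im w
  · have hw' : 0 < Complex.im (w + (N : ℝ)) := by simpa using hw
    simp only [comp_apply, ofComplex_apply_of_im_pos hw', ofComplex_apply_of_im_pos hw]
    rw [← ffm_vadd_N f ⟨w, hw⟩]
    have : (⟨w + (N : ℝ), hw'⟩ : ℍ) = (N : ℝ) +ᵥ (⟨w, hw⟩ : ℍ) := by
      apply UpperHalfPlane.ext
      simp [add_comm]
    rw [this]
  · have hw0 : Complex.im w ≤ 0 := not_lt.mp hw
    have hw' : Complex.im (w + (N : ℝ)) ≤ 0 := by simpa using hw0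
    simp only [comp_apply, ofComplex_apply_of_im_nonpos hw', ofComplex_apply_of_im_nonpos hw0]

/-! ### The germ at `i∞` -/

/-- The germ at `i∞` of an element of `ffm_R N`: its cusp function in the parameter `q_N`. -/
def ffm_germInf (N : ℕ) (f : ffm_R N) : ℂ → ℂ := cuspFunction (N : ℝ) (f : ℍ → ℂ)

theorem ffm_germInf_of_ne_zero (N : ℕ) (f : ffm_R N) {q : ℂ} (hq : q ≠ 0) :
    ffm_germInf N f q = (f : ℍ → ℂ) (ofComplex (Periodic.invQParam (N : ℝ) q)) := by
  simp only [ffm_germInf, cuspFunction, Periodic.cuspFunction_eq_of_nonzero _ _ hq, comp_apply]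

theorem ffm_germInf_qParam (N : ℕ) [NeZero N] (f : ffm_R N) (τ : ℍ) :
    ffm_germInf N f (𝕢 (N : ℝ) τ) = (f : ℍ → ℂ) τ :=
  eq_cuspFunction τ (by exact_mod_cast NeZero.ne N) (ffm_periodic f)

theorem ffm_N_pos (N : ℕ) [NeZero N] : (0 : ℝ) < N := by
  exact_mod_cast Nat.pos_of_ne_zero (NeZero.ne N)

/-- `exp(2πiMz) = q_N(z)^(N M)`. -/
theorem ffm_cexp_eq_qParam_pow (N : ℕ) [NeZero N] (M : ℕ) (z : ℂ) :
    Complex.exp (2 * π * Complex.I * M * z) = 𝕢 (N : ℝ) z ^ (N * M) := by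
  rw [Periodic.qParam, ← Complex.exp_nat_mul]
  congr 1
  have hN : (N : ℂ) ≠ 0 := Nat.cast_ne_zero.mpr (NeZero.ne N)
  push_cast
  field_simp

theorem ffm_germInf_meromorphicAt (N : ℕ) [NeZero N] (f : ffm_R N) :
    MeromorphicAt (ffm_germInf N f) 0 := by
  obtain ⟨M, hM⟩ := f.2.growth 1
  simp only [one_smul] at hM
  -- the bounded function `g = f · exp(2πiMz)`
  set g : ℍ → ℂ := fun z => (f : ℍ → ℂ) z * Complex.exp (2 * π * Complex.I * M * z) with hg
  have hgper : Periodic (g ∘ ofComplex) (N : ℝ) := by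
    intro w
    have h1 := ffm_periodic f w
    simp only [comp_apply] at h1 ⊢
    by_cases hw : 0 < Complex.im w
    · have hw' : 0 < Complex.im (w + (N : ℝ)) := by simpa using hw
      simp only [hg]
      rw [h1, ofComplex_apply_of_im_pos hw', ofComplex_apply_of_im_pos hw]
      congr 1
      rw [ffm_cexp_eq_qParam_pow N, ffm_cexp_eq_qParam_pow N]
      congr 1
      simp only [Periodic.qParam]
      have hN : ((N : ℝ) : ℂ) ≠ 0 := by exact_mod_cast NeZero.ne N
      have : 2 * (π : ℂ) * Complex.I * (w + ((N : ℝ) : ℂ)) / ((N : ℝ) : ℂ) =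
          2 * π * Complex.I * w / ((N : ℝ) : ℂ) + 2 * π * Complex.I := by
        field_simp
      rw [this, Complex.exp_add, Complex.exp_two_pi_mul_I, mul_one]
    · have hw0 : Complex.im w ≤ 0 := not_lt.mp hw
      have hw' : Complex.im (w + (N : ℝ)) ≤ 0 := by simpa using hw0
      simp only [ofComplex_apply_of_im_nonpos hw', ofComplex_apply_of_im_nonpos hw0]
  have hghol : MDiff g := by
    refine f.2.mdiff.mul ?_
    have hd : Differentiable ℂ (fun w : ℂ => Complex.exp (2 * π * Complex.I * M * w)) := by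
      fun_prop
    exact hd.comp_mdifferentiable mdifferentiable_coe
  have han : AnalyticAt ℂ (cuspFunction (N : ℝ) g) 0 :=
    analyticAt_cuspFunction_zero (ffm_N_pos N) hgper hghol hM
  -- on the punctured disc, `germInf f q = cuspFunction g q * (q ^ (N M))⁻¹`
  have hev : ffm_germInf N f =ᶠ[𝓝[≠] 0]
      fun q => cuspFunction (N : ℝ) g q * (q ^ (N * M))⁻¹ := by
    have hball : Metric.ball (0 : ℂ) 1 ∈ 𝓝 (0 : ℂ) := Metric.ball_mem_nhds 0 one_pos
    filter_upwards [nhdsWithin_le_nhds hball, self_mem_nhdsWithin] with q hq1 hq0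
    have hq0' : q ≠ 0 := hq0
    have hq1' : ‖q‖ < 1 := by simpa using hq1
    have him : 0 < Complex.im (Periodic.invQParam (N : ℝ) q) :=
      Periodic.im_invQParam_pos_of_norm_lt_one (ffm_N_pos N) hq1' hq0'
    rw [ffm_germInf_of_ne_zero N f hq0']
    simp only [cuspFunction, Periodic.cuspFunction_eq_of_nonzero _ _ hq0', comp_apply, hg]
    rw [ofComplex_apply_of_im_pos him]
    rw [ffm_cexp_eq_qParam_pow N, Periodic.qParam_right_inv (ffm_N_pos N).ne' hq0',
      mul_assoc, mul_inv_cancel₀ (pow_ne_zero _ hq0'), mul_one]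
  refine MeromorphicAt.congr ?_ hev.symm
  exact han.meromorphicAt.mul ((MeromorphicAt.id 0).pow _).inv

/-! ### The valuation at `i∞` -/

/-- The order-at-`i∞` valuation on the ring `ffm_R N`. -/
def ffm_ordInfR (N : ℕ) [NeZero N] : Valuation (ffm_R N) ℤᵐ⁰ :=
  ffm_valOfGerm (ffm_germInf N) 0 (ffm_germInf_meromorphicAt N)
    (eventually_nhdsWithin_of_forall fun q hq => by
      rw [ffm_germInf_of_ne_zero N _ hq]; rfl)
    (eventually_nhdsWithin_of_forall fun q hq => by
      rw [ffm_germInf_of_ne_zero N _ hq]; rfl)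
    (fun f g => eventually_nhdsWithin_of_forall fun q hq => by
      rw [Pi.mul_apply, ffm_germInf_of_ne_zero N _ hq, ffm_germInf_of_ne_zero N _ hq,
        ffm_germInf_of_ne_zero N _ hq]; rfl)
    (fun f g => eventually_nhdsWithin_of_forall fun q hq => by
      rw [Pi.add_apply, ffm_germInf_of_ne_zero N _ hq, ffm_germInf_of_ne_zero N _ hq,
        ffm_germInf_of_ne_zero N _ hq]; rfl)

theorem ffm_ordInfR_apply (N : ℕ) [NeZero N] (f : ffm_R N) :
    ffm_ordInfR N f = ffm_ordToVal (meromorphicOrderAt (ffm_germInf N f) 0) := rfl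

/-- `q_N(τ) → 0` within the punctured neighbourhood as `Im τ → ∞`. -/
theorem ffm_tendsto_qParam (N : ℕ) [NeZero N] :
    Tendsto (fun τ : ℍ => 𝕢 (N : ℝ) τ) atImInfty (𝓝[≠] 0) :=
  (Periodic.qParam_tendsto (ffm_N_pos N)).comp tendsto_coe_atImInfty

theorem ffm_ordInfR_eq_zero_iff (N : ℕ) [NeZero N] (f : ffm_R N) :
    ffm_ordInfR N f = 0 ↔ f = 0 := by
  constructor
  · intro h
    rw [ffm_ordInfR_apply, ffm_ordToVal_eq_zero, meromorphicOrderAt_eq_top_iff] at h
    have h2 : ∀ᶠ τ : ℍ in atImInfty, (f : ℍ → ℂ) τ = 0 := by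
      filter_upwards [(ffm_tendsto_qParam N).eventually h] with τ hτ
      rwa [ffm_germInf_qParam] at hτ
    rw [Filter.eventually_iff, atImInfty_mem] at h2
    obtain ⟨A, hA⟩ := h2
    -- `f` vanishes on the open set `Im z > A`, hence everywhere
    set τ₀ : ℍ := ⟨⟨0, max A 0 + 1⟩, by simp; positivity⟩ with hτ₀
    apply Subtype.ext
    apply UpperHalfPlane.eq_zero_of_frequently (τ := τ₀) f.2.mdiff
    apply Eventually.frequently
    apply eventually_nhdsWithin_of_eventually_nhds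
    have hopen : IsOpen {z : ℍ | A < z.im} := isOpen_lt continuous_const UpperHalfPlane.continuous_im
    have hmem : τ₀ ∈ {z : ℍ | A < z.im} := by
      show A < τ₀.im
      have : τ₀.im = max A 0 + 1 := rfl
      rw [this]
      linarith [le_max_left A 0]
    filter_upwards [hopen.mem_nhds hmem] with z hz
    exact hA z (le_of_lt hz)
  · rintro rfl
    exact map_zero _

theorem ffm_nonZeroDivisors_le_ordInfR (N : ℕ) [NeZero N] :
    nonZeroDivisors (ffm_R N) ≤ (ffm_ordInfR N).supp.primeCompl := by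
  intro s hs
  show s ∉ (ffm_ordInfR N).supp
  rw [Valuation.mem_supp_iff, ffm_ordInfR_eq_zero_iff]
  exact nonZeroDivisors.ne_zero hs

/-- The order-at-`i∞` valuation on the field `ffm_E N` (in the parameter `q_N`). -/
def ffm_ordInf (N : ℕ) [NeZero N] : Valuation (ffm_E N) ℤᵐ⁰ :=
  (ffm_ordInfR N).extendToLocalization (ffm_nonZeroDivisors_le_ordInfR N) (ffm_E N)

theorem ffm_ordInf_algebraMap (N : ℕ) [NeZero N] (f : ffm_R N) :
    ffm_ordInf N (algebraMap (ffm_R N) (ffm_E N) f) =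
      ffm_ordToVal (meromorphicOrderAt (ffm_germInf N f) 0) :=
  Valuation.extendToLocalization_apply_map_apply _ _ _ f

/-! ### The spec: leading exponents -/

theorem ffm_ordInf_algebraMap_ne_zero (N : ℕ) [NeZero N] {f : ffm_R N} (hf : f ≠ 0) :
    ffm_ordInf N (algebraMap (ffm_R N) (ffm_E N) f) ≠ 0 := by
  have : ffm_ordInf N (algebraMap (ffm_R N) (ffm_E N) f) = ffm_ordInfR N f :=
    Valuation.extendToLocalization_apply_map_apply _ _ _ f
  rw [this, Ne, ffm_ordInfR_eq_zero_iff]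
  exact hf

/-- The order at `i∞` (as an integer) of a nonzero element of `ffm_R N`. -/
def ffm_expInf (N : ℕ) [NeZero N] (f : ffm_R N) : ℤ :=
  -(WithZero.log (ffm_ordInf N (algebraMap (ffm_R N) (ffm_E N) f)))

theorem ffm_expInf_eq (N : ℕ) [NeZero N] {f : ffm_R N} (hf : f ≠ 0) :
    meromorphicOrderAt (ffm_germInf N f) 0 = (ffm_expInf N f : WithTop ℤ) := by
  have hne : meromorphicOrderAt (ffm_germInf N f) 0 ≠ ⊤ := by
    intro h
    have := (ffm_ordInfR_eq_zero_iff N f).mp (by rw [ffm_ordInfR_apply, h]; rfl)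
    exact hf this
  obtain ⟨n, hn⟩ := WithTop.ne_top_iff_exists.mp hne
  rw [ffm_expInf, ffm_ordInf_algebraMap, ← hn, ffm_log_ordToVal, neg_neg]

theorem ffm_ordInf_algebraMap_eq_exp (N : ℕ) [NeZero N] {f : ffm_R N} (hf : f ≠ 0) :
    ffm_ordInf N (algebraMap (ffm_R N) (ffm_E N) f) = WithZero.exp (-(ffm_expInf N f)) := by
  rw [ffm_ordInf_algebraMap, ffm_expInf_eq N hf, ffm_ordToVal_coe]

/-- **Spec (∞)**: a nonzero `f ∈ ffm_R N` has leading exponent `ffm_expInf N f` in `q_N`. -/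
theorem ffm_hasExp (N : ℕ) [NeZero N] {f : ffm_R N} (hf : f ≠ 0) :
    ffc_HasExp N (f : ℍ → ℂ) (ffm_expInf N f) := by
  have hord := ffm_expInf_eq N hf
  set n := ffm_expInf N f with hn
  obtain ⟨g, hg, hg0, hev⟩ :=
    (meromorphicOrderAt_eq_int_iff (ffm_germInf_meromorphicAt N f)).mp hord
  refine ⟨g 0, hg0, ?_⟩
  have h1 : Tendsto (fun τ : ℍ => g (𝕢 (N : ℝ) τ)) atImInfty (𝓝 (g 0)) :=
    hg.continuousAt.tendsto.comp ((ffm_tendsto_qParam N).mono_right nhdsWithin_le_nhds)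
  refine h1.congr' ?_
  filter_upwards [(ffm_tendsto_qParam N).eventually hev] with τ hτ
  rw [ffm_germInf_qParam, sub_zero, smul_eq_mul] at hτ
  rw [hτ]
  have hq : 𝕢 (N : ℝ) τ ≠ 0 := Periodic.qParam_ne_zero _
  have hexp : Complex.exp (-(2 * π * Complex.I * n * τ / N)) = (𝕢 (N : ℝ) τ ^ n)⁻¹ := by
    rw [Periodic.qParam, ← Complex.exp_int_mul, ← Complex.exp_neg]
    congr 1
    push_cast
    ring
  rw [hexp, mul_comm (𝕢 (N : ℝ) τ ^ n), mul_assoc, mul_inv_cancel₀ (zpow_ne_zero _ hq), mul_one]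

/-- The order at `i∞` is determined by the leading exponent. -/
theorem ffm_expInf_eq_of_hasExp (N : ℕ) [NeZero N] {f : ffm_R N} {n : ℤ}
    (h : ffc_HasExp N (f : ℍ → ℂ) n) : ffm_expInf N f = n := by
  have hf : f ≠ 0 := by
    rintro rfl
    obtain ⟨c, hc, hlim⟩ := h
    have : Tendsto (fun z : ℍ => ((0 : ffm_R N) : ℍ → ℂ) z *
        Complex.exp (-(2 * π * Complex.I * n * z / N))) atImInfty (𝓝 0) := by
      have : (fun z : ℍ => ((0 : ffm_R N) : ℍ → ℂ) z *
        Complex.exp (-(2 * π * Complex.I * n * z / N))) = fun _ => 0 := by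
        funext z; simp
      rw [this]; exact tendsto_const_nhds
    exact hc (tendsto_nhds_unique hlim this)
  exact (ffm_hasExp N hf).unique (NeZero.ne N) h

theorem ffm_ordInf_of_hasExp (N : ℕ) [NeZero N] {f : ffm_R N} {n : ℤ}
    (h : ffc_HasExp N (f : ℍ → ℂ) n) :
    ffm_ordInf N (algebraMap (ffm_R N) (ffm_E N) f) = WithZero.exp (-n) := by
  have hf : f ≠ 0 := by
    rintro rfl
    obtain ⟨c, hc, hlim⟩ := h
    have : (fun z : ℍ => ((0 : ffm_R N) : ℍ → ℂ) z *
        Complex.exp (-(2 * π * Complex.I * n * z / N))) = fun _ => 0 := by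
      funext z; simp
    rw [this] at hlim
    exact hc (tendsto_nhds_unique hlim tendsto_const_nhds)
  rw [ffm_ordInf_algebraMap_eq_exp N hf, ffm_expInf_eq_of_hasExp N h]

theorem ffm_ordInf_const (N : ℕ) [NeZero N] {c : ℂ} (hc : c ≠ 0) :
    ffm_ordInf N (algebraMap ℂ (ffm_E N) c) = 1 := by
  rw [IsScalarTower.algebraMap_apply ℂ (ffm_R N) (ffm_E N)]
  have h : ffc_HasExp N ((algebraMap ℂ (ffm_R N) c : ffm_R N) : ℍ → ℂ) 0 := ffc_hasExp_const N hc
  rw [ffm_ordInf_of_hasExp N h, neg_zero, WithZero.exp_zero]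

/-- `(T • f) z = f (z - 1)`. -/
theorem ffm_T_smul_coe {N : ℕ} (f : ffm_R N) :
    ((ModularGroup.T • f : ffm_R N) : ℍ → ℂ) = fun z => (f : ℍ → ℂ) ((-1 : ℝ) +ᵥ z) := by
  funext z
  rw [ffm_smul_apply]
  have := UpperHalfPlane.modular_T_zpow_smul z (-1)
  rw [zpow_neg_one] at this
  rw [this]
  simp

/-- `T`-invariance of the order at `i∞`. -/
theorem ffm_ordInf_T_smul (N : ℕ) [NeZero N] (x : ffm_E N) :
    ffm_ordInf N (ModularGroup.T • x) = ffm_ordInf N x := by
  obtain ⟨a, b, hb, rfl⟩ := IsFractionRing.div_surjective (A := ffm_R N) x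
  have key : ∀ f : ffm_R N, ffm_ordInf N (ModularGroup.T • algebraMap (ffm_R N) (ffm_E N) f) =
      ffm_ordInf N (algebraMap (ffm_R N) (ffm_E N) f) := by
    intro f
    rw [ffm_smul_algebraMap]
    by_cases hf : f = 0
    · subst hf
      simp
    · have h1 := (ffm_hasExp N hf).vadd (-1 : ℝ)
      rw [← ffm_T_smul_coe] at h1
      rw [ffm_ordInf_of_hasExp N h1, ffm_ordInf_algebraMap_eq_exp N hf]
  rw [smul_div₀', map_div₀, map_div₀, key, key]

end

end Fermat.Agent.Lib.FF
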