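/-
S24 WP A5 (helper3): the FOURTH fibre model, at the cusp `∞`:
`ffc_model_inf (hB : IsBridge N ι φ) : IsFibreModel N φ (ffm_ordInf N) T N (ffd_jBar N)⁻¹`
(with helper9's `IsBridge`, helper5's `ffm_ordInf` and its spec `ffm_hasExp`).
-/
import Fermat.Agent.Lib.FF.CuspsInf
import Fermat.Agent.Lib.FF.FibreModels
import Fermat.Agent.Lib.FF.ModelInf

set_option autoImplicit false

namespace Fermat.Agent.Lib.FF

open Matrix.SpecialLinearGroup CongruenceSubgroup ModularGroup
open scoped MatrixGroups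
open WithZero

noncomputable section

variable {N : ℕ}

/-- helper5's valuation at `∞` satisfies the spec `ffc_IsOrdInf`. -/
theorem ffc_isOrdInf (N : ℕ) [NeZero N] : ffc_IsOrdInf N (ffm_ordInf N) :=
  fun _ hf => ffm_hasExp N hf

/-- helper9's bridge package gives mine. -/
theorem ffc_isBridge_of_isBridge {ι : ffi_K →+* ℂ} {φ : ffi_F N →+* ffm_E N}
    (hB : IsBridge N ι φ) : ffc_IsBridge N φ ι where
  inv := hB.inv
  const := hB.map_const
  j := by
    obtain ⟨hj, h⟩ := hB.map_j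
    exact h
  inj := hB.inj

/-- **The fibre model at `∞`**: `g = T`, `e₀ = N`, `t = j⁻¹`, valuation `ffm_ordInf N`. -/
theorem ffc_model_inf [NeZero N] {ι : ffi_K →+* ℂ} {φ : ffi_F N →+* ffm_E N}
    (hB : IsBridge N ι φ) : IsFibreModel N φ (ffm_ordInf N) T N (ffd_jBar N)⁻¹ :=
  ffc_fibreModel_inf (ffc_isBridge_of_isBridge hB) (ffc_isOrdInf N)

end

end Fermat.Agent.Lib.FF
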