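import Fermat.Agent.Lib.FF.JAnalytic
import Fermat.Agent.Lib.RR.Rank

/-!
# S24, WP A4 (degree), analytic part: the stabiliser of `z ↦ j (N z)` in `SL(2, ℤ)` is `Γ₀(N)`

* `ffg_mem_Gamma0_of_j_eq` : if `j (N (γ z)) = j (N z)` for all `z` then `γ ∈ Γ₀(N)`.
-/

set_option autoImplicit false

namespace Fermat.Agent.Lib.FF

open UpperHalfPlane hiding I
open ModularForm CongruenceSubgroup Matrix.SpecialLinearGroup Filter Complex Real
open Fermat.Agent.Lib.RR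
open scoped MatrixGroups Manifold Topology

noncomputable section

/-- Hermite normal form of `diag(N, 1) * γ`: it is `σ * T` with `σ ∈ SL(2, ℤ)` and `T` upper
triangular with positive diagonal `(t₀, t₃)`, `t₀ t₃ = N` and `t₀ = gcd (N a, c)`. -/
theorem ffg_exists_factor {N : ℕ} (hN : N ≠ 0) (γ : SL(2, ℤ)) :
    ∃ (σ : SL(2, ℤ)) (T : Matrix (Fin 2) (Fin 2) ℤ) (τ : GL (Fin 2) ℝ),
      (τ : Matrix (Fin 2) (Fin 2) ℝ) = T.map (Int.cast : ℤ → ℝ) ∧ T 1 0 = 0 ∧ 0 < T 0 0 ∧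
      T 0 0 * T 1 1 = N ∧ T 0 0 ∣ γ 1 0 ∧
      heckeDiagMatrix N * (mapGL ℝ γ : GL (Fin 2) ℝ) = (mapGL ℝ σ : GL (Fin 2) ℝ) * τ := by
  set M : Matrix (Fin 2) (Fin 2) ℤ := !![(N : ℤ) * γ 0 0, (N : ℤ) * γ 0 1; γ 1 0, γ 1 1] with hM
  have hdetγ : γ 0 0 * γ 1 1 - γ 0 1 * γ 1 0 = 1 := by
    have := γ.det_coe
    rwa [Matrix.det_fin_two] at this
  have hN' : (N : ℤ) ≠ 0 := by exact_mod_cast hN
  have hcol : M 0 0 ≠ 0 ∨ M 1 0 ≠ 0 := by
    by_contra hcon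
    push Not at hcon
    obtain ⟨h1, h2⟩ := hcon
    simp only [hM, Matrix.of_apply, Matrix.cons_val', Matrix.cons_val_zero, Matrix.cons_val_one,
      Matrix.cons_val_fin_one] at h1 h2
    have h3 : γ 0 0 = 0 := by
      rcases mul_eq_zero.mp h1 with h | h
      · exact absurd h hN'
      · exact h
    rw [h3, h2] at hdetγ
    simp at hdetγ
  obtain ⟨σ, T, hMT, hT10, hT00⟩ := rankF_exists_upperTriangular M hcol
  have hdetM : M.det = N := by
    rw [hM, Matrix.det_fin_two_of]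
    linear_combination (N : ℤ) * hdetγ
  have hdetT : T 0 0 * T 1 1 = N := by
    have h1 : M.det = T.det := by
      rw [hMT, Matrix.det_mul, σ.det_coe, one_mul]
    rw [hdetM, Matrix.det_fin_two, hT10, mul_zero, sub_zero] at h1
    exact h1.symm
  have hTdet : (T.map (Int.cast : ℤ → ℝ)).det ≠ 0 := by
    rw [Matrix.det_fin_two]
    simp only [Matrix.map_apply, hT10, Int.cast_zero, mul_zero, sub_zero]
    have : ((T 0 0 * T 1 1 : ℤ) : ℝ) = (N : ℝ) := by rw [hdetT]; simp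
    rw [← Int.cast_mul, this]
    exact_mod_cast hN
  set τ : GL (Fin 2) ℝ := Matrix.GeneralLinearGroup.mkOfDetNeZero (T.map (Int.cast : ℤ → ℝ)) hTdet
    with hτ
  have hfac : heckeDiagMatrix N * (mapGL ℝ γ : GL (Fin 2) ℝ) = (mapGL ℝ σ : GL (Fin 2) ℝ) * τ := by
    apply Units.ext
    rw [Units.val_mul, Units.val_mul, val_heckeDiagMatrix hN]
    have e1 : ((mapGL ℝ σ : GL (Fin 2) ℝ) : Matrix (Fin 2) (Fin 2) ℝ) =
        (σ : Matrix (Fin 2) (Fin 2) ℤ).map (Int.cast : ℤ → ℝ) := by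
      ext i j; simp
    have e2 : ((mapGL ℝ γ : GL (Fin 2) ℝ) : Matrix (Fin 2) (Fin 2) ℝ) =
        (γ : Matrix (Fin 2) (Fin 2) ℤ).map (Int.cast : ℤ → ℝ) := by
      ext i j; simp
    have e3 : (τ : Matrix (Fin 2) (Fin 2) ℝ) = T.map (Int.cast : ℤ → ℝ) := rfl
    rw [e1, e2, e3, ← Matrix.map_mul_intCast, ← hMT, hM]
    ext i j
    fin_cases i <;> fin_cases j <;> simp [Matrix.mul_apply, Fin.sum_univ_two]
  have hT00pos : 0 < T 0 0 := by
    rw [hT00]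
    have : Int.gcd (M 0 0) (M 1 0) ≠ 0 := by
      rw [Ne, Int.gcd_eq_zero_iff]; tauto
    exact_mod_cast Nat.pos_of_ne_zero this
  have hdvd : T 0 0 ∣ γ 1 0 := by
    have h1 : ((Int.gcd (M 0 0) (M 1 0) : ℕ) : ℤ) ∣ M 1 0 := Int.gcd_dvd_right _ _
    rw [← hT00] at h1
    simpa [hM] using h1
  exact ⟨σ, T, τ, rfl, hT10, hT00pos, hdetT, hdvd, hfac⟩

/-- If `j ∘ w₁ = j ∘ w₂` where `w₁, w₂ → i∞`, then `exp (2πi (w₁ - w₂)) → 1`. -/
theorem ffg_tendsto_exp_sub {w1 w2 : ℍ → ℍ} (h1 : Tendsto w1 atImInfty atImInfty)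
    (h2 : Tendsto w2 atImInfty atImInfty) (h : ∀ z, ffj_j (w1 z) = ffj_j (w2 z)) :
    Tendsto (fun z : ℍ => cexp (2 * π * I * ((w1 z : ℂ) - (w2 z : ℂ)))) atImInfty (𝓝 1) := by
  have hf1 := ffj_tendsto_mul_exp.comp h1
  have hf2 := ffj_tendsto_mul_exp.comp h2
  have hdiv := hf1.div hf2 one_ne_zero
  rw [div_one] at hdiv
  have hev : ∀ᶠ z in atImInfty, (ffj_j (w2 z) * cexp (2 * π * I * (w2 z : ℂ))) ≠ 0 :=
    hf2.eventually_ne one_ne_zero
  refine hdiv.congr' ?_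
  filter_upwards [hev] with z hz
  have hj : ffj_j (w2 z) ≠ 0 := left_ne_zero_of_mul hz
  simp only [Function.comp_apply, Pi.div_apply]
  rw [h z, mul_div_mul_left _ _ hj, ← Complex.exp_sub]
  congr 1
  ring

/-- A function `c * Im z + d` which tends to a finite limit at `i∞` has `c = 0`. -/
theorem ffg_eq_zero_of_tendsto_mul_im {c L : ℝ}
    (h : Tendsto (fun z : ℍ => c * z.im) atImInfty (𝓝 L)) : c = 0 := by
  by_contra hc
  have him : Tendsto (fun z : ℍ => z.im) atImInfty atTop := tendsto_comap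
  rcases lt_or_gt_of_ne hc with hneg | hpos
  · exact not_tendsto_nhds_of_tendsto_atBot (him.const_mul_atTop_of_neg hneg) L h
  · exact not_tendsto_nhds_of_tendsto_atTop (him.const_mul_atTop hpos) L h

/-- If `exp (2πi (c z + d)) → 1` at `i∞` with `c` real then `c = 0`. -/
theorem ffg_eq_zero_of_tendsto_exp {c : ℝ} {d : ℂ}
    (h : Tendsto (fun z : ℍ => cexp (2 * π * I * ((c : ℂ) * (z : ℂ) + d))) atImInfty (𝓝 1)) :
    c = 0 := by
  have h1 : Tendsto (fun z : ℍ => ‖cexp (2 * π * I * ((c : ℂ) * (z : ℂ) + d))‖) atImInfty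
      (𝓝 1) := by
    have := h.norm
    simpa using this
  have h2 : ∀ z : ℍ, ‖cexp (2 * π * I * ((c : ℂ) * (z : ℂ) + d))‖
      = Real.exp (-(2 * π * c) * z.im - 2 * π * d.im) := by
    intro z
    rw [Complex.norm_exp]
    congr 1
    simp only [Complex.mul_re, Complex.add_re, Complex.add_im, Complex.mul_im, Complex.ofReal_re,
      Complex.ofReal_im, Complex.I_re, Complex.I_im, Complex.re_ofNat, Complex.im_ofNat,
      UpperHalfPlane.coe_im, UpperHalfPlane.coe_re]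
    ring
  simp_rw [h2] at h1
  have h3 : Tendsto (fun z : ℍ => Real.log (Real.exp (-(2 * π * c) * z.im - 2 * π * d.im)))
      atImInfty (𝓝 (Real.log 1)) :=
    (Real.continuousAt_log one_ne_zero).tendsto.comp h1
  simp only [Real.log_exp, Real.log_one] at h3
  have h4 : Tendsto (fun z : ℍ => -(2 * π * c) * z.im) atImInfty (𝓝 (0 + 2 * π * d.im)) := by
    have := h3.add_const (2 * π * d.im)
    refine this.congr fun z => ?_
    ring
  have h5 := ffg_eq_zero_of_tendsto_mul_im h4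
  have hpi : (2 * π : ℝ) ≠ 0 := by positivity
  have h6 : 2 * π * c = 0 := by linarith
  exact (mul_eq_zero.mp h6).resolve_left hpi

/-- **The stabiliser of `z ↦ j (N z)` is `Γ₀(N)`.** -/
theorem ffg_mem_Gamma0_of_j_eq {N : ℕ} (hN : N ≠ 0) (γ : SL(2, ℤ))
    (h : ∀ z : ℍ, ffj_j (heckeDiagMatrix N • (γ • z)) = ffj_j (heckeDiagMatrix N • z)) :
    γ ∈ Gamma0 N := by
  obtain ⟨σ, T, τ, hτ, hT10, hT00, hdet, hdvd, hfac⟩ := ffg_exists_factor hN γ
  have hsm : ∀ z : ℍ, heckeDiagMatrix N • (γ • z) = σ • (τ • z) := by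
    intro z
    have e1 : γ • z = (mapGL ℝ γ : GL (Fin 2) ℝ) • z := rfl
    have e2 : σ • (τ • z) = (mapGL ℝ σ : GL (Fin 2) ℝ) • (τ • z) := rfl
    rw [e1, e2, ← mul_smul, ← mul_smul, hfac]
  have h1 : ∀ z : ℍ, ffj_j (τ • z) = ffj_j (heckeDiagMatrix N • z) := by
    intro z
    rw [← h z, hsm z, ffj_smul]
  have hτ10 : (τ : GL (Fin 2) ℝ) 1 0 = 0 := by
    rw [hτ]
    simp [hT10]
  have hd10 : (heckeDiagMatrix N : GL (Fin 2) ℝ) 1 0 = 0 := by
    have := val_heckeDiagMatrix hN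
    simp [this]
  have hlim := ffg_tendsto_exp_sub (tendsto_smul_atImInfty hτ10) (tendsto_smul_atImInfty hd10) h1
  have hN0 : (0 : ℤ) < N := by exact_mod_cast Nat.pos_of_ne_zero hN
  have hT11pos : 0 < T 1 1 := by
    have : (0 : ℤ) < T 0 0 * T 1 1 := by rw [hdet]; exact hN0
    exact (mul_pos_iff_of_pos_left hT00).mp this
  have hτdet : 0 < (τ.det : ℝ) := by
    rw [Matrix.GeneralLinearGroup.val_det_apply, hτ, Matrix.det_fin_two]
    simp only [Matrix.map_apply, hT10, Int.cast_zero, mul_zero, sub_zero]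
    rw [← Int.cast_mul, hdet]
    exact_mod_cast hN0
  have hT11R : ((T 1 1 : ℤ) : ℂ) ≠ 0 := by exact_mod_cast hT11pos.ne'
  have hcoe : ∀ z : ℍ, ((τ • z : ℍ) : ℂ) - ((heckeDiagMatrix N • z : ℍ) : ℂ)
      = (((T 0 0 : ℝ) / (T 1 1 : ℝ) - (N : ℝ) : ℝ) : ℂ) * (z : ℂ) + ((T 0 1 : ℤ) : ℂ) / (T 1 1 : ℤ) := by
    intro z
    rw [coe_heckeDiagMatrix_smul hN, UpperHalfPlane.coe_smul_of_det_pos hτdet]
    simp only [UpperHalfPlane.num, UpperHalfPlane.denom, hτ, Matrix.map_apply, hT10]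
    push_cast
    have key : ∀ (a b d n w : ℂ), d ≠ 0 →
        (a * w + b) / (0 * w + d) - n * w = (a / d - n) * w + b / d := by
      intro a b d n w _
      have e : (a * w + b) / d = a / d * w + b / d := by
        rw [add_div, mul_div_right_comm]
      rw [zero_mul, zero_add, e]
      ring
    exact key _ _ _ _ _ hT11R
  simp_rw [hcoe] at hlim
  have hc := ffg_eq_zero_of_tendsto_exp hlim
  -- so `T 0 0 = N * T 1 1`
  have hT11R' : ((T 1 1 : ℤ) : ℝ) ≠ 0 := by exact_mod_cast hT11pos.ne'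
  have h00 : ((T 0 0 : ℤ) : ℝ) = (N : ℝ) * (T 1 1 : ℤ) := by
    field_simp at hc
    linarith
  have h00Z : T 0 0 = (N : ℤ) * T 1 1 := by exact_mod_cast h00
  have hT11 : T 1 1 = 1 := by
    rw [h00Z] at hdet
    have h2 : (N : ℤ) * (T 1 1 * T 1 1) = N * 1 := by linarith
    have h3 : T 1 1 * T 1 1 = 1 := mul_left_cancel₀ hN0.ne' h2
    nlinarith
  rw [hT11, mul_one] at h00Z
  rw [h00Z] at hdvd
  rw [Gamma0_mem]
  exact (ZMod.intCast_zmod_eq_zero_iff_dvd _ _).mpr hdvd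

/-- Version for an arbitrary scaling map `sc z = N z` and the left action `z ↦ γ⁻¹ z`. -/
theorem ffg_mem_Gamma0_of_j_scale_eq {N : ℕ} (hN : N ≠ 0) (sc : ℍ → ℍ)
    (hsc : ∀ z : ℍ, (sc z : ℂ) = (N : ℂ) * (z : ℂ)) (γ : SL(2, ℤ))
    (h : ∀ z : ℍ, ffj_j (sc (γ⁻¹ • z)) = ffj_j (sc z)) : γ ∈ Gamma0 N := by
  have hsc' : ∀ z : ℍ, sc z = heckeDiagMatrix N • z := fun z =>
    UpperHalfPlane.ext (by rw [hsc, coe_heckeDiagMatrix_smul hN])
  have h1 : γ⁻¹ ∈ Gamma0 N :=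
    ffg_mem_Gamma0_of_j_eq hN γ⁻¹ fun z => by rw [← hsc', ← hsc', h z]
  simpa using inv_mem h1

end

end Fermat.Agent.Lib.FF
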