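/-
S24, level-one analytic package, part 2: the orbit polynomial.  For a finite family of holomorphic
functions of moderate growth at `i∞` which is permuted by `SL(2, ℤ)`, the polynomial
`∏ i, (T - g i)` has coefficients which are polynomials in `j`.
-/
import Fermat.Agent.Lib.FF.JAnalytic
import Fermat.Agent.Lib.RR.Coset

set_option autoImplicit false

namespace Fermat.Agent.Lib.FF

open UpperHalfPlane hiding I
open ModularForm CongruenceSubgroup Matrix.SpecialLinearGroup Filter Asymptotics Complex Real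
open Fermat.Agent.Lib.RR
open scoped MatrixGroups Manifold Topology

noncomputable section

/-- Holomorphic on `ℍ` with at most a pole of finite order at `i∞` (in `q = e^{2πiz}`). -/
def ffj_Good (c : ℍ → ℂ) : Prop :=
  MDiff c ∧ ∃ M : ℕ, IsBoundedAtImInfty (fun z : ℍ => c z * cexp (2 * π * I * M * z))

theorem ffj_isBoundedAtImInfty_exp (M : ℕ) :
    IsBoundedAtImInfty (fun z : ℍ => cexp (2 * π * I * M * z)) := by
  rw [UpperHalfPlane.isBoundedAtImInfty_iff]
  refine ⟨1, 0, fun z _ => ?_⟩
  rw [Complex.norm_exp]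
  have : (2 * π * I * M * z : ℂ).re = -(2 * π * M * z.im) := by
    simp [mul_re, mul_im]
  rw [this, Real.exp_le_one_iff]
  have := z.im_pos
  have hpi := Real.pi_pos
  have hM : (0 : ℝ) ≤ M := Nat.cast_nonneg M
  have : 0 ≤ 2 * π * M * z.im := by positivity
  linarith

theorem ffj_growth_mono {c : ℍ → ℂ} {M M' : ℕ} (h : M ≤ M')
    (hc : IsBoundedAtImInfty (fun z : ℍ => c z * cexp (2 * π * I * M * z))) :
    IsBoundedAtImInfty (fun z : ℍ => c z * cexp (2 * π * I * M' * z)) := by
  have h2 := hc.mul (ffj_isBoundedAtImInfty_exp (M' - M))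
  refine h2.congr' (Eventually.of_forall fun z => ?_) (Eventually.of_forall fun z => by simp)
  show c z * cexp (2 * π * I * M * z) * cexp (2 * π * I * (M' - M : ℕ) * z)
    = c z * cexp (2 * π * I * M' * z)
  rw [mul_assoc, ← Complex.exp_add]
  congr 2
  rw [Nat.cast_sub h]
  ring

theorem ffj_Good.const (a : ℂ) : ffj_Good (fun _ => a) := by
  refine ⟨mdifferentiable_const, 0, ?_⟩
  have : IsBoundedAtImInfty (fun _ : ℍ => a) := Filter.const_boundedAtFilter _ a
  refine this.congr' (Eventually.of_forall fun z => ?_) (Eventually.of_forall fun z => rfl)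
  simp

theorem ffj_Good.add {c d : ℍ → ℂ} (hc : ffj_Good c) (hd : ffj_Good d) :
    ffj_Good (fun z => c z + d z) := by
  obtain ⟨hc1, M, hM⟩ := hc
  obtain ⟨hd1, M', hM'⟩ := hd
  refine ⟨hc1.add hd1, max M M', ?_⟩
  have h1 := ffj_growth_mono (le_max_left M M') hM
  have h2 := ffj_growth_mono (le_max_right M M') hM'
  refine (h1.add h2).congr' (Eventually.of_forall fun z => ?_) (Eventually.of_forall fun z => rfl)
  simp only [Pi.add_apply]
  ring

theorem ffj_Good.mul {c d : ℍ → ℂ} (hc : ffj_Good c) (hd : ffj_Good d) :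
    ffj_Good (fun z => c z * d z) := by
  obtain ⟨hc1, M, hM⟩ := hc
  obtain ⟨hd1, M', hM'⟩ := hd
  refine ⟨hc1.mul hd1, M + M', ?_⟩
  refine (hM.mul hM').congr' (Eventually.of_forall fun z => ?_) (Eventually.of_forall fun z => rfl)
  simp only [Pi.mul_apply]
  have : cexp (2 * π * I * (M + M' : ℕ) * z) = cexp (2 * π * I * M * z) * cexp (2 * π * I * M' * z) := by
    rw [← Complex.exp_add]
    congr 1
    push_cast
    ring
  rw [this]
  ring

theorem ffj_Good.neg {c : ℍ → ℂ} (hc : ffj_Good c) : ffj_Good (fun z => -c z) := by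
  have := (ffj_Good.const (-1)).mul hc
  simpa using this

theorem ffj_Good.sub {c d : ℍ → ℂ} (hc : ffj_Good c) (hd : ffj_Good d) :
    ffj_Good (fun z => c z - d z) := by
  have := hc.add hd.neg
  simpa [sub_eq_add_neg] using this

/-- An invariant good function is a polynomial in `j`. -/
theorem ffj_Good.exists_poly {c : ℍ → ℂ} (hc : ffj_Good c)
    (hinv : ∀ (γ : SL(2, ℤ)) (z : ℍ), c (γ • z) = c z) :
    ∃ P : Polynomial ℂ, ∀ z, c z = P.eval (ffj_j z) := by
  obtain ⟨h1, M, hM⟩ := hc
  obtain ⟨P, -, hP⟩ := ffj_exists_poly h1 hinv M hM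
  exact ⟨P, hP⟩

/-- The coefficient functions of `∏ i ∈ s, (X - C (g i z))` are good. -/
theorem ffj_good_coeff_prod {ι : Type*} (g : ι → ℍ → ℂ) (hg : ∀ i, ffj_Good (g i))
    (s : Finset ι) (k : ℕ) :
    ffj_Good (fun z => (∏ i ∈ s, (Polynomial.X - Polynomial.C (g i z))).coeff k) := by
  classical
  induction s using Finset.induction_on generalizing k with
  | empty =>
    simp only [Finset.prod_empty, Polynomial.coeff_one]
    exact ffj_Good.const _
  | insert a s ha ih =>
    have key : ∀ z, (∏ i ∈ insert a s, (Polynomial.X - Polynomial.C (g i z))).coeff k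
        = (if k = 0 then 0 else (∏ i ∈ s, (Polynomial.X - Polynomial.C (g i z))).coeff (k - 1))
          - g a z * (∏ i ∈ s, (Polynomial.X - Polynomial.C (g i z))).coeff k := by
      intro z
      rw [Finset.prod_insert ha, sub_mul, Polynomial.coeff_sub, Polynomial.coeff_C_mul]
      congr 1
      cases k with
      | zero => simp
      | succ k => simp [Polynomial.coeff_X_mul]
    simp only [key]
    refine ffj_Good.sub ?_ ((hg a).mul (ih k))
    by_cases hk : k = 0
    · simp only [hk, if_true]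
      exact ffj_Good.const 0
    · simp only [hk, if_false]
      exact ih (k - 1)

/-- **The orbit polynomial.** -/
theorem ffj_exists_orbit_poly {ι : Type*} [Fintype ι] (g : ι → ℍ → ℂ)
    (hol : ∀ i, MDiff (g i))
    (hperm : ∀ γ : SL(2, ℤ), ∃ σ : Equiv.Perm ι, ∀ i z, g i (γ • z) = g (σ i) z)
    (hgrowth : ∀ i, ∃ M : ℕ, IsBoundedAtImInfty (fun z : ℍ => g i z * cexp (2 * π * I * M * z))) :
    ∃ Φ : Polynomial (Polynomial ℂ), Φ.Monic ∧ Φ.natDegree = Fintype.card ι ∧
      ∀ z, Φ.map (Polynomial.evalRingHom (ffj_j z))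
        = ∏ i, (Polynomial.X - Polynomial.C (g i z)) := by
  classical
  set n := Fintype.card ι with hn
  have hgood : ∀ i, ffj_Good (g i) := fun i => ⟨hol i, hgrowth i⟩
  -- the product polynomial is invariant
  have hinvP : ∀ (γ : SL(2, ℤ)) (z : ℍ),
      ∏ i, (Polynomial.X - Polynomial.C (g i (γ • z)))
        = ∏ i, (Polynomial.X - Polynomial.C (g i z)) := by
    intro γ z
    obtain ⟨σ, hσ⟩ := hperm γ
    simp only [hσ]
    exact Equiv.prod_comp σ (fun i => (Polynomial.X - Polynomial.C (g i z) : Polynomial ℂ))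
  have hex : ∀ k : ℕ, ∃ P : Polynomial ℂ, ∀ z,
      (∏ i, (Polynomial.X - Polynomial.C (g i z))).coeff k = P.eval (ffj_j z) := by
    intro k
    refine (ffj_good_coeff_prod g hgood Finset.univ k).exists_poly fun γ z => ?_
    show (∏ i, (Polynomial.X - Polynomial.C (g i (γ • z)))).coeff k = _
    rw [hinvP]
  choose P hP using hex
  have hmonic : ∀ z, (∏ i, (Polynomial.X - Polynomial.C (g i z)) : Polynomial ℂ).Monic :=
    fun z => Polynomial.monic_prod_of_monic _ _ fun i _ => Polynomial.monic_X_sub_C _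
  have hdeg : ∀ z, (∏ i, (Polynomial.X - Polynomial.C (g i z)) : Polynomial ℂ).natDegree = n := by
    intro z
    rw [Polynomial.natDegree_prod_of_monic _ _ fun i _ => Polynomial.monic_X_sub_C _]
    simp [hn]
  set Ψ : Polynomial (Polynomial ℂ) :=
    ∑ k ∈ Finset.range n, Polynomial.C (P k) * Polynomial.X ^ k with hΨ
  have hΨdeg : Ψ.degree < n := by
    refine (Polynomial.degree_sum_le _ _).trans_lt ?_
    rw [Finset.sup_lt_iff (by exact_mod_cast WithBot.bot_lt_coe n)]
    intro k hk
    refine (Polynomial.degree_C_mul_X_pow_le _ _).trans_lt ?_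
    exact_mod_cast Finset.mem_range.mp hk
  have hΨcoeff : ∀ k, Ψ.coeff k = if k < n then P k else 0 := by
    intro k
    rw [hΨ, Polynomial.finsetSum_coeff]
    simp only [Polynomial.coeff_C_mul_X_pow]
    rw [Finset.sum_ite_eq (Finset.range n) k (fun i => P i)]
    simp [Finset.mem_range]
  have hdegΦ : (Polynomial.X ^ n + Ψ : Polynomial (Polynomial ℂ)).degree = n := by
    rw [Polynomial.degree_add_eq_left_of_degree_lt (by rwa [Polynomial.degree_X_pow]),
      Polynomial.degree_X_pow]
  refine ⟨Polynomial.X ^ n + Ψ, Polynomial.monic_X_pow_add hΨdeg,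
    Polynomial.natDegree_eq_of_degree_eq_some hdegΦ, fun z => ?_⟩
  ext k
  rw [Polynomial.coeff_map, Polynomial.coeff_add, Polynomial.coeff_X_pow, hΨcoeff,
    Polynomial.coe_evalRingHom]
  rcases lt_trichotomy k n with hk | hk | hk
  · rw [if_neg hk.ne, if_pos hk, zero_add, hP k z]
  · subst hk
    have h1 : (∏ i, (Polynomial.X - Polynomial.C (g i z)) : Polynomial ℂ).coeff n = 1 := by
      have := (hmonic z).coeff_natDegree
      rwa [hdeg z] at this
    rw [if_pos rfl, if_neg (lt_irrefl _), add_zero, h1]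
    simp
  · rw [if_neg hk.ne', if_neg (not_lt.mpr hk.le), add_zero]
    rw [Polynomial.coeff_eq_zero_of_natDegree_lt (by rw [hdeg z]; exact hk)]
    simp


/-- The orbit polynomial of a `Γ₀(N)`-invariant holomorphic function of moderate growth at all
cusps: a monic polynomial of degree `[SL(2, ℤ) : Γ₀(N)]` over `ℂ[j]` killing `f`. -/
theorem ffj_exists_orbit_poly_coset (N : ℕ) [NeZero N] {f : ℍ → ℂ} (hol : MDiff f)
    (hinv : ∀ γ ∈ Gamma0 N, ∀ z : ℍ, f (γ • z) = f z)
    (hgrowth : ∀ γ : SL(2, ℤ), ∃ M : ℕ,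
      IsBoundedAtImInfty (fun z : ℍ => f (γ • z) * cexp (2 * π * I * M * z))) :
    ∃ Φ : Polynomial (Polynomial ℂ), Φ.Monic ∧ Φ.natDegree = Fintype.card (Q N) ∧
      (∀ z : ℍ, Φ.map (Polynomial.evalRingHom (ffj_j z))
        = ∏ q : Q N, (Polynomial.X - Polynomial.C (f ((q.out)⁻¹ • z)))) ∧
      ∀ z : ℍ, (Φ.map (Polynomial.evalRingHom (ffj_j z))).eval (f z) = 0 := by
  classical
  have hI : IsInv N 0 f := by
    intro γ hγ
    funext z
    rw [SL_slash_apply, hinv γ hγ]
    simp
  have hcf : ∀ (q : Q N) (z : ℍ), cosetFun N 0 f q z = f ((q.out)⁻¹ • z) := by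
    intro q z
    unfold cosetFun
    rw [SL_slash_apply]
    simp
  obtain ⟨Φ, hm, hd, hΦ⟩ := ffj_exists_orbit_poly (fun q : Q N => cosetFun N 0 f q)
    (fun q => mdifferentiable_cosetFun hol q)
    (fun γ => ⟨MulAction.toPerm γ⁻¹, fun q z => by
      have h := congrFun (cosetFun_slash hI q γ) z
      rw [SL_slash_apply] at h
      simpa using h⟩)
    (fun q => by
      obtain ⟨M, hM⟩ := hgrowth (q.out)⁻¹
      exact ⟨M, by simpa only [hcf] using hM⟩)
  simp only [hcf] at hΦ
  refine ⟨Φ, hm, hd, hΦ, fun z => ?_⟩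
  rw [hΦ z, Polynomial.eval_prod]
  refine Finset.prod_eq_zero (Finset.mem_univ ((1 : SL(2, ℤ)) : Q N)) ?_
  have h1 : f (((((1 : SL(2, ℤ)) : Q N)).out)⁻¹ • z) = f z := by
    have := congrFun (cosetFun_one hI) z
    rwa [hcf] at this
  rw [h1]
  simp

end

end Fermat.Agent.Lib.FF
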