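import Fermat.Agent.Lib.FF.Model
import Fermat.Agent.Lib.FF.JAnalyticOrbit

/-!
# S24, WP A4 (degree): the `SL(2, ℤ)`-invariants of the analytic model field are `ℂ(j)`

* `ffg_exists_invariant_fraction` : generic — an invariant element of `Frac R` is a quotient of
  two invariant elements of `R`, if a normal subgroup of finite index acts trivially on `R`.
* `ffg_model_invariants` : for the model field `ffm_E N`: every invariant element `x` satisfies
  `x * Q(j) = P(j)` with `P, Q ∈ ℂ[X]`, `Q ≠ 0`.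
-/

set_option autoImplicit false

namespace Fermat.Agent.Lib.FF

open Polynomial

section Generic

variable {R E G : Type*} [CommRing R] [IsDomain R] [Field E] [Algebra R E] [IsFractionRing R E]
  [Group G] [MulSemiringAction G R] [MulSemiringAction G E]

/-- An invariant element of the fraction field is a quotient of two invariant elements, provided a
normal subgroup of finite index acts trivially on `R`. -/
theorem ffg_exists_invariant_fraction
    (hRE : ∀ (g : G) (r : R), g • algebraMap R E r = algebraMap R E (g • r))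
    (Γ : Subgroup G) [Γ.Normal] [Fintype (G ⧸ Γ)] (hΓ : ∀ n ∈ Γ, ∀ r : R, n • r = r)
    (x : E) (hx : ∀ g : G, g • x = x) :
    ∃ a b : R, b ≠ 0 ∧ (∀ g : G, g • a = a) ∧ (∀ g : G, g • b = b) ∧
      x * algebraMap R E b = algebraMap R E a := by
  classical
  obtain ⟨a0, b0, hb0, rfl⟩ := IsFractionRing.div_surjective (A := R) x
  have hb0' : b0 ≠ 0 := nonZeroDivisors.ne_zero hb0
  -- the symmetrised denominator
  set b' : R := ∏ q : G ⧸ Γ, (q.out • b0) with hb'
  -- translates only depend on the coset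
  have hcoset : ∀ (g : G) (q : G ⧸ Γ), (g * q.out) • b0 = (g • q).out • b0 := by
    intro g q
    have hq : g • q = ((g * q.out : G) : G ⧸ Γ) := by
      conv_lhs => rw [← QuotientGroup.out_eq' q]
      rfl
    obtain ⟨n, hn⟩ := QuotientGroup.mk_out_eq_mul Γ (g * q.out)
    rw [hq, hn, mul_smul ((g * q.out)) (n : G) b0, hΓ _ n.2]
  have hinvb : ∀ g : G, g • b' = b' := by
    intro g
    rw [hb', Finset.smul_prod']
    simp_rw [← mul_smul, hcoset g]
    exact Fintype.prod_equiv (MulAction.toPerm g) _ _ fun _ => rfl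
  have hne : ∀ q : G ⧸ Γ, q.out • b0 ≠ 0 := fun q => by
    rw [Ne, smul_eq_zero_iff_eq]
    exact hb0'
  have hb'0 : b' ≠ 0 := Finset.prod_ne_zero_iff.mpr fun q _ => hne q
  -- split off the factor of the trivial coset
  set q1 : G ⧸ Γ := ((1 : G) : G ⧸ Γ) with hq1
  have hq1out : q1.out • b0 = b0 := by
    have : q1.out ∈ Γ := by
      have h : ((q1.out : G) : G ⧸ Γ) = ((1 : G) : G ⧸ Γ) := QuotientGroup.out_eq' q1
      have h2 := (QuotientGroup.eq (s := Γ)).mp h
      rw [mul_one] at h2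
      simpa using inv_mem h2
    exact hΓ _ this b0
  set c : R := ∏ q ∈ Finset.univ.erase q1, (q.out • b0) with hc
  have hb'c : b' = b0 * c := by
    rw [hb', hc, ← Finset.mul_prod_erase _ _ (Finset.mem_univ q1), hq1out]
  have hxb : algebraMap R E a0 / algebraMap R E b0 * algebraMap R E b' = algebraMap R E (a0 * c) := by
    have hb0E : algebraMap R E b0 ≠ 0 := by
      rw [Ne, map_eq_zero_iff _ (IsFractionRing.injective R E)]
      exact hb0'
    rw [hb'c, map_mul, map_mul]
    field_simp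
  refine ⟨a0 * c, b', hb'0, fun g => ?_, hinvb, hxb⟩
  apply IsFractionRing.injective R E
  rw [← hRE, ← hxb, smul_mul', hx g, hRE, hinvb g]

end Generic

section Model

open UpperHalfPlane hiding I
open CongruenceSubgroup Matrix.SpecialLinearGroup Filter Complex Real
open scoped MatrixGroups Manifold Topology

/-- `j` has moderate growth at `i∞`. -/
theorem ffg_moderateGrowth_j : ffm_ModerateGrowth ffj_j := by
  refine ⟨1, ?_⟩
  have h := ffj_tendsto_mul_exp.isBigO_one ℝ
  refine h.congr' (Eventually.of_forall fun z => ?_) (Eventually.of_forall fun z => rfl)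
  simp

/-- `j` belongs to the model ring of every level. -/
theorem ffg_isWH_j (N : ℕ) : ffm_IsWH N ffj_j :=
  ⟨ffj_mdifferentiable, fun γ _ z => ffj_smul γ z, fun γ => by
    simp_rw [ffj_smul]
    exact ffg_moderateGrowth_j⟩

/-- `j` as an element of the model ring. -/
noncomputable def ffg_jR (N : ℕ) : ffm_R N := ffm_mk ffj_j (ffg_isWH_j N)

@[simp] theorem ffg_jR_coe (N : ℕ) : ((ffg_jR N : ffm_R N) : ℍ → ℂ) = ffj_j := rfl

/-- Evaluation of a polynomial in `j` inside the model ring. -/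
theorem ffg_aeval_jR_apply (N : ℕ) (P : ℂ[X]) (z : ℍ) :
    ((aeval (ffg_jR N) P : ffm_R N) : ℍ → ℂ) z = P.eval (ffj_j z) := by
  have h1 : ((aeval (ffg_jR N) P : ffm_R N) : ℍ → ℂ) = aeval (ffj_j : ℍ → ℂ) P := by
    have := Polynomial.aeval_algHom_apply (ffm_R N).val (ffg_jR N) P
    exact this.symm
  rw [h1]
  have h2 := Polynomial.aeval_algHom_apply (Pi.evalAlgHom ℂ (fun _ : ℍ => ℂ) z) (ffj_j : ℍ → ℂ) P
  simp only [Pi.evalAlgHom_apply] at h2
  rw [← h2, Polynomial.coe_aeval_eq_eval]

/-- An `SL(2, ℤ)`-invariant element of the model ring is a polynomial in `j`. -/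
theorem ffg_invariant_eq_aeval (N : ℕ) (f : ffm_R N) (hf : ∀ γ : SL(2, ℤ), γ • f = f) :
    ∃ P : ℂ[X], f = aeval (ffg_jR N) P := by
  obtain ⟨M, hM⟩ : ffm_ModerateGrowth (f : ℍ → ℂ) := by
    have := f.2.growth 1
    simpa using this
  have hinv : ∀ (γ : SL(2, ℤ)) (z : ℍ), (f : ℍ → ℂ) (γ • z) = (f : ℍ → ℂ) z := by
    intro γ z
    have := congrArg (fun g : ffm_R N => (g : ℍ → ℂ) z) (hf γ⁻¹)
    simpa using this
  obtain ⟨P, -, hP⟩ := ffj_exists_poly f.2.mdiff hinv M hM
  refine ⟨P, ?_⟩
  ext z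
  rw [ffg_aeval_jR_apply, hP z]

/-- **The `SL(2, ℤ)`-invariants of the model field are rational functions of `j`.** -/
theorem ffg_model_invariants (N : ℕ) [NeZero N] (x : ffm_E N)
    (hx : ∀ γ : SL(2, ℤ), γ • x = x) :
    ∃ P Q : ℂ[X], Q ≠ 0 ∧
      x * aeval (algebraMap (ffm_R N) (ffm_E N) (ffg_jR N)) Q
        = aeval (algebraMap (ffm_R N) (ffm_E N) (ffg_jR N)) P := by
  have hΓ : ∀ n ∈ CongruenceSubgroup.Gamma N, ∀ r : ffm_R N, n • r = r := by
    intro n hn r
    ext z
    rw [ffm_smul_apply]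
    exact r.2.inv _ (inv_mem hn) z
  have : (CongruenceSubgroup.Gamma N).Normal := CongruenceSubgroup.Gamma_normal N
  have : Fintype (SL(2, ℤ) ⧸ CongruenceSubgroup.Gamma N) := Subgroup.fintypeQuotientOfFiniteIndex
  obtain ⟨a, b, hb0, ha, hb, hxab⟩ := ffg_exists_invariant_fraction (R := ffm_R N)
    (E := ffm_E N) (fun γ r => ffm_smul_algebraMap γ r) (CongruenceSubgroup.Gamma N) hΓ x hx
  obtain ⟨P, rfl⟩ := ffg_invariant_eq_aeval N a ha
  obtain ⟨Q, rfl⟩ := ffg_invariant_eq_aeval N b hb
  refine ⟨P, Q, ?_, ?_⟩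
  · rintro rfl
    exact hb0 (by simp)
  · rw [Polynomial.aeval_algebraMap_apply, Polynomial.aeval_algebraMap_apply]
    exact hxab

end Model

end Fermat.Agent.Lib.FF
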