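import Fermat.Agent.Lib.FF.DegreeAlg
import Fermat.Agent.Lib.FF.DegreeDistinct
import Fermat.Agent.Lib.FF.DegreeInv
import Fermat.Agent.Lib.FF.InterfaceModel

/-!
# S24, WP A4: the degree `[F : K(j)] = #(SL₂(ℤ)/Γ₀(N))` and the injectivity of `q ↦ σ_q`

Instantiation of the abstract degree theorem (`DegreeAlg.lean`) with the analytic model
(`Model.lean`), for any bridge `φ : F →+* ffm_E N` with the properties `ffg_IsBridge`.
-/

set_option autoImplicit false

namespace Fermat.Agent.Lib.FF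

open UpperHalfPlane hiding I
open AlgebraicCurve ModularCurve IntermediateField Matrix.SpecialLinearGroup CongruenceSubgroup
open Polynomial
open Fermat.Agent.Lib.RR (Q)
open scoped MatrixGroups

noncomputable section

/-! ### `j` is transcendental over `Q̄` -/

theorem ffg_jSeries_pow_coeff (n : ℕ) (m : ℤ) :
    (ffd_jSeries ^ n).coeff m = algebraMap ℚ ffi_K ((jq ^ n).coeff m) := by
  rw [ffd_jSeries, ← map_pow, coeffEmb_coeff]

theorem ffg_aeval_jSeries_eq_zero {p : Polynomial ffi_K} (hp : aeval ffd_jSeries p = 0) :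
    p = 0 := by
  by_contra hp0
  set n := p.natDegree with hn
  have hcoeff : (aeval ffd_jSeries p).coeff (-(n : ℤ)) = p.coeff n := by
    rw [aeval_def, eval₂_eq_sum_range, HahnSeries.coeff_sum, Finset.sum_eq_single n]
    · rw [ModularCurve.algebraMap_laurentSeries_eq_single, HahnSeries.coeff_single_zero_mul,
        ffg_jSeries_pow_coeff, coeff_jq_pow_self, map_one, mul_one]
    · intro i hi hin
      have hilt : i < n := lt_of_le_of_ne (Nat.lt_succ_iff.mp (Finset.mem_range.mp hi)) hin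
      rw [ModularCurve.algebraMap_laurentSeries_eq_single, HahnSeries.coeff_single_zero_mul,
        ffg_jSeries_pow_coeff, coeff_jq_pow_of_lt (by omega), map_zero, mul_zero]
    · intro hn'
      exact absurd (Finset.self_mem_range_succ n) hn'
  rw [hp] at hcoeff
  simp only [HahnSeries.coeff_zero] at hcoeff
  exact hp0 (leadingCoeff_eq_zero.mp hcoeff.symm)

theorem ffg_transcendental_jSeries : Transcendental ffi_K ffd_jSeries :=
  transcendental_iff.mpr fun _ hp => ffg_aeval_jSeries_eq_zero hp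

theorem ffg_transcendental_jBar (N : ℕ) : Transcendental ffi_K (ffd_jBar N) := by
  have h : Transcendental ffi_K
      (algebraMap (ffi_F N) (LaurentSeries ffi_K) (ffd_jBar N)) := ffg_transcendental_jSeries
  exact (transcendental_algebraMap_iff
    (algebraMap (ffi_F N) (LaurentSeries ffi_K)).injective).mp h

/-! ### The bridge hypotheses and the degree -/

/-- The properties of the bridge `φ : F →+* ffm_E N` (helper7) used by the degree theorem. -/
structure ffg_IsBridge (N : ℕ) [NeZero N] (φ : ffi_F N →+* ffm_E N) : Prop where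
  /-- constants go to constants -/
  const : ∀ c : ffi_K, ∃ c' : ℂ, φ (algebraMap ffi_K (ffi_F N) c) = algebraMap ℂ (ffm_E N) c'
  /-- `j ↦ j` -/
  map_j : φ (ffd_jBar N) = algebraMap (ffm_R N) (ffm_E N) (ffg_jR N)
  /-- some element of `F` goes to `z ↦ j (N z)` -/
  map_jN : ∃ (x : ffi_F N) (f : ffm_R N) (sc : ℍ → ℍ),
    φ x = algebraMap (ffm_R N) (ffm_E N) f ∧ (∀ z : ℍ, (sc z : ℂ) = (N : ℂ) * (z : ℂ)) ∧
      ∀ z : ℍ, (f : ℍ → ℂ) z = ffj_j (sc z)
  /-- the image is `Γ₀(N)`-invariant -/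
  inv : ∀ γ ∈ Gamma0 N, ∀ x : ffi_F N, γ • φ x = φ x
  /-- linear disjointness -/
  ld : ∀ (ι : Type) (x : ι → ffi_F N), LinearIndependent ffi_K x →
    LinearIndependent ℂ (fun i => φ (x i))

section Bridge

variable {N : ℕ} [NeZero N] {φ : ffi_F N →+* ffm_E N}

theorem ffg_bridge_const_inv (h : ffg_IsBridge N φ) (γ : SL(2, ℤ)) (c : ffi_K) :
    γ • φ (algebraMap ffi_K (ffi_F N) c) = φ (algebraMap ffi_K (ffi_F N) c) := by
  obtain ⟨c', hc'⟩ := h.const c
  rw [hc', smul_algebraMap]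

theorem ffg_jR_smul (N : ℕ) (γ : SL(2, ℤ)) : γ • ffg_jR N = ffg_jR N := by
  ext z
  rw [ffm_smul_apply, ffg_jR_coe, ffj_smul]

theorem ffg_bridge_j_inv (h : ffg_IsBridge N φ) (γ : SL(2, ℤ)) :
    γ • φ (ffd_jBar N) = φ (ffd_jBar N) := by
  rw [h.map_j, ffm_smul_algebraMap, ffg_jR_smul]

/-- DIST: an element of `SL(2, ℤ)` fixing `φ(F)` pointwise lies in `Γ₀(N)`. -/
theorem ffg_bridge_dist (h : ffg_IsBridge N φ) (γ : SL(2, ℤ))
    (hγ : ∀ x : ffi_F N, γ • φ x = φ x) : γ ∈ Gamma0 N := by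
  obtain ⟨x, f, sc, hx, hsc, hf⟩ := h.map_jN
  have h1 : γ • f = f := by
    apply ffm_algebraMap_injective N
    rw [← ffm_smul_algebraMap, ← hx, hγ x]
  refine ffg_mem_Gamma0_of_j_scale_eq (NeZero.ne N) sc hsc γ fun z => ?_
  rw [← hf, ← hf]
  have := congrArg (fun g : ffm_R N => (g : ℍ → ℂ) z) h1
  simpa using this

/-- INV in the form needed by the abstract theorem. -/
theorem ffg_bridge_invariants (h : ffg_IsBridge N φ) (x : ffm_E N)
    (hx : ∀ γ : SL(2, ℤ), γ • x = x) :
    ∃ P Q : ℂ[X], Q ≠ 0 ∧ x * aeval (φ (ffd_jBar N)) Q = aeval (φ (ffd_jBar N)) P := by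
  rw [h.map_j]
  exact ffg_model_invariants N x hx

/-- **A4, the degree**: `[F : K(j)] = #(SL₂(ℤ)/Γ₀(N))`. -/
theorem ffg_ifaceDegree_of_bridge (h : ffg_IsBridge N φ) : IfaceDegree N := by
  have htr := ffg_transcendental_jBar N
  obtain ⟨hfd, hrank⟩ := ffg_finrank_eq (K := ffi_K) (C := ℂ) φ (Gamma0 N) (ffd_jBar N) h.inv
    (ffg_bridge_const_inv h) (ffg_bridge_j_inv h) (ffg_bridge_dist h) htr
    (ffg_bridge_invariants h) h.ld
  exact ⟨htr, hfd, hrank⟩

/-- **A4, distinctness**: the twisted embeddings `σ_q` are pairwise distinct. -/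
theorem ffg_sigma_injective_of_bridge (h : ffg_IsBridge N φ) :
    Function.Injective (ffi_sigma N φ) := by
  intro q q' hqq'
  have h1 : ∀ x : ffi_F N, (q'.out⁻¹ * q.out) • φ x = φ x := by
    intro x
    have := congrArg (fun f : ffi_F N →+* ffm_E N => f x) hqq'
    simp only [ffi_sigma_apply] at this
    rw [mul_smul, this, ← mul_smul, inv_mul_cancel, one_smul]
  have h2 := ffg_bridge_dist h _ h1
  rw [← QuotientGroup.out_eq' q, ← QuotientGroup.out_eq' q']
  exact (QuotientGroup.eq.mpr h2).symm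

end Bridge

end

end Fermat.Agent.Lib.FF
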