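/-
S24: the last glue step.  From the degree-bridge package `ffg_IsBridge N φ` together with the
compatibility of `φ` on constants with an embedding `ι`, deduce `genus = genusFormula N`.
(Uses the fibre model at the cusp `i∞`, `ffc_model_inf`.)
-/
import Fermat.Agent.Lib.FF.Assembly
import Fermat.Agent.Lib.FF.Degree
import Fermat.Agent.Lib.FF.CuspsModelInf

set_option autoImplicit false

namespace Fermat.Agent.Lib.FF

open AlgebraicCurve ModularCurve IntermediateField Matrix.SpecialLinearGroup CongruenceSubgroup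
open Fermat.Agent.Lib.RR (Q)
open scoped MatrixGroups
open WithZero

noncomputable section

/-- The degree-bridge package plus compatibility on constants gives the fibre-model bridge. -/
theorem ffh_isBridge_of_ffg (N : ℕ) [NeZero N] (ι : ffi_K →+* ℂ) (φ : ffi_F N →+* ffm_E N)
    (hG : ffg_IsBridge N φ)
    (hconst : ∀ c : ffi_K, φ (algebraMap ffi_K (ffi_F N) c) = algebraMap ℂ (ffm_E N) (ι c)) :
    IsBridge N ι φ where
  inv := hG.inv
  map_const := hconst
  map_j := ⟨ffg_isWH_j N, hG.map_j⟩
  inj := ffg_sigma_injective_of_bridge hG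

/-- S24 from the degree-bridge package and compatibility on constants. -/
theorem ffh_genus_of_ffg_bridge (N : ℕ) [NeZero N] (ι : ffi_K →+* ℂ) (φ : ffi_F N →+* ffm_E N)
    (hG : ffg_IsBridge N φ)
    (hconst : ∀ c : ffi_K, φ (algebraMap ffi_K (ffi_F N) c) = algebraMap ℂ (ffm_E N) (ι c))
    [AlgebraicCurve.HasCanonicalDivisor (K := ffi_K) (F := ffi_F N)] :
    (AlgebraicCurve.genus ffi_K (ffi_F N) : ℚ) = genusFormula N := by
  have hB : IsBridge N ι φ := ffh_isBridge_of_ffg N ι φ hG hconst
  exact ffh_genus_of_bridge N ι φ hB (ffg_ifaceDegree_of_bridge hG) ⟨_, ffc_model_inf hB⟩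

end

end Fermat.Agent.Lib.FF
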