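/-
S24 WP-A2 (helper7): the formal <-> analytic bridge, part 1.

* Taylor coefficients pass to locally uniform limits; the Taylor series at `0` of the analytic
  eta product `∏ (1 - qⁿ)` is the formal `etaProd` of the Prelude.
* `qExpansion 1 Δ = X * etaProd ^ 24`, `qExpansion 1 E₄ = eisenstein4` (coefficientwise casts).
* `ffb_Nice`: holomorphic, `1`-periodic, bounded at `i∞`; `q`-expansions are multiplicative,
  additive and determine the function.
* `ffb_IsLaurent f x`: the function `f` (holomorphic, `1`-periodic, meromorphic at `i∞`) has the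
  convergent Laurent `q`-expansion `x : ℂ((q))`.  Closed under `+`, `*`, constants; functional in
  both directions.
-/
import Mathlib
import Fermat.Prelude.Def_ModularCurve_X0

set_option autoImplicit false

namespace Fermat.Agent.Lib.FF

open Complex Filter Topology ModularForm UpperHalfPlane Function
open scoped PowerSeries.WithPiTopology Manifold

local notation "𝕢" => Periodic.qParam

/-- Taylor coefficients pass to locally uniform limits of holomorphic functions. -/
theorem ffb_tendstoLocallyUniformlyOn_iteratedDeriv {ι : Type*} {φ : Filter ι} [φ.NeBot]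
    {F : ι → ℂ → ℂ} {f : ℂ → ℂ} {U : Set ℂ} (hU : IsOpen U)
    (hF : TendstoLocallyUniformlyOn F f φ U) (hd : ∀ᶠ n in φ, DifferentiableOn ℂ (F n) U)
    (k : ℕ) :
    TendstoLocallyUniformlyOn (fun n => iteratedDeriv k (F n)) (iteratedDeriv k f) φ U ∧
      ∀ᶠ n in φ, DifferentiableOn ℂ (iteratedDeriv k (F n)) U := by
  induction k with
  | zero =>
    simp only [iteratedDeriv_zero]
    exact ⟨hF, hd⟩
  | succ k ih =>
    obtain ⟨h1, h2⟩ := ih
    refine ⟨?_, ?_⟩
    · have := h1.deriv h2 hU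
      simpa only [iteratedDeriv_succ, Function.comp_def] using this
    · filter_upwards [h2] with n hn
      rw [iteratedDeriv_succ]
      exact hn.deriv hU

theorem ffb_tendsto_iteratedDeriv {ι : Type*} {φ : Filter ι} [φ.NeBot]
    {F : ι → ℂ → ℂ} {f : ℂ → ℂ} {U : Set ℂ} (hU : IsOpen U)
    (hF : TendstoLocallyUniformlyOn F f φ U) (hd : ∀ᶠ n in φ, DifferentiableOn ℂ (F n) U)
    (k : ℕ) {x : ℂ} (hx : x ∈ U) :
    Tendsto (fun n => iteratedDeriv k (F n) x) φ (𝓝 (iteratedDeriv k f x)) :=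
  (ffb_tendstoLocallyUniformlyOn_iteratedDeriv hU hF hd k).1.tendsto_at hx

/-- Iterated derivatives of a polynomial function. -/
theorem ffb_iteratedDeriv_polynomial (p : Polynomial ℂ) (k : ℕ) :
    iteratedDeriv k (fun x => p.eval x) = fun x => (Polynomial.derivative^[k] p).eval x := by
  induction k with
  | zero => simp
  | succ k ih =>
    rw [iteratedDeriv_succ, ih]
    funext x
    rw [Polynomial.deriv, Function.iterate_succ_apply']

theorem ffb_iteratedDeriv_polynomial_zero (p : Polynomial ℂ) (k : ℕ) :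
    iteratedDeriv k (fun x => p.eval x) 0 = (k.factorial : ℂ) * p.coeff k := by
  rw [ffb_iteratedDeriv_polynomial]
  show Polynomial.eval 0 (Polynomial.derivative^[k] p) = _
  rw [← Polynomial.coeff_zero_eq_eval_zero,
    Polynomial.coeff_iterate_derivative, zero_add, Nat.descFactorial_self, nsmul_eq_mul]

/-- The partial products of the eta product as integer polynomials. -/
noncomputable def ffb_etaPoly (s : Finset ℕ) : Polynomial ℤ :=
  ∏ i ∈ s, (1 - Polynomial.X ^ (i + 1))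

theorem ffb_etaPoly_coe (s : Finset ℕ) :
    ((ffb_etaPoly s : Polynomial ℤ) : PowerSeries ℤ) = ∏ i ∈ s, (1 - PowerSeries.X ^ (i + 1)) := by
  unfold ffb_etaPoly
  rw [← Polynomial.coeToPowerSeries.ringHom_apply, map_prod]
  refine Finset.prod_congr rfl fun i _ => ?_
  simp

theorem ffb_etaPoly_eval (s : Finset ℕ) (q : ℂ) :
    ((ffb_etaPoly s).map (Int.castRingHom ℂ)).eval q = ∏ i ∈ s, (1 - q ^ (i + 1)) := by
  unfold ffb_etaPoly
  rw [Polynomial.map_prod, Polynomial.eval_prod]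
  refine Finset.prod_congr rfl fun i _ => ?_
  simp

/-- Coefficients of the partial products converge to the coefficients of the formal eta
product. -/
theorem ffb_tendsto_coeff_etaPoly (k : ℕ) :
    Tendsto (fun s : Finset ℕ => (((ffb_etaPoly s).coeff k : ℤ) : ℂ)) atTop
      (𝓝 ((PowerSeries.coeff k ModularCurve.etaProd : ℤ) : ℂ)) := by
  have h1 : HasProd (fun n : ℕ => (1 : PowerSeries ℤ) - PowerSeries.X ^ (n + 1))
      ModularCurve.etaProd :=
    (PowerSeries.WithPiTopology.multipliable_one_sub_X_pow ℤ).hasProd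
  have h2 : Tendsto (fun s : Finset ℕ => ∏ i ∈ s, ((1 : PowerSeries ℤ) - PowerSeries.X ^ (i + 1)))
      atTop (𝓝 ModularCurve.etaProd) := h1
  have h3 := ((PowerSeries.WithPiTopology.continuous_coeff (R := ℤ) k).tendsto _).comp h2
  have h4 : Continuous (fun n : ℤ => (n : ℂ)) := continuous_of_discreteTopology
  have h5 := (h4.tendsto _).comp h3
  refine h5.congr fun s => ?_
  simp only [Function.comp_apply]
  rw [← ffb_etaPoly_coe, Polynomial.coeff_coe]

/-- The Taylor coefficients at `0` of the analytic eta product are the coefficients of the formal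
eta product. -/
theorem ffb_iteratedDeriv_tprod (k : ℕ) :
    iteratedDeriv k (fun q : ℂ => ∏' n : ℕ, (1 - q ^ (n + 1))) 0 =
      (k.factorial : ℂ) * ((PowerSeries.coeff k ModularCurve.etaProd : ℤ) : ℂ) := by
  have hprod := multipliableLocallyUniformlyOn_one_sub_pow.hasProdLocallyUniformlyOn
  have hF : TendstoLocallyUniformlyOn
      (fun (s : Finset ℕ) (q : ℂ) => ((ffb_etaPoly s).map (Int.castRingHom ℂ)).eval q)
      (fun q : ℂ => ∏' n : ℕ, (1 - q ^ (n + 1))) atTop (Metric.ball (0 : ℂ) 1) := by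
    have := hprod
    unfold HasProdLocallyUniformlyOn at this
    refine this.congr fun s q _ => ?_
    rw [ffb_etaPoly_eval]
  have hd : ∀ᶠ s : Finset ℕ in atTop, DifferentiableOn ℂ
      (fun q : ℂ => ((ffb_etaPoly s).map (Int.castRingHom ℂ)).eval q) (Metric.ball (0 : ℂ) 1) :=
    Eventually.of_forall fun s => (Polynomial.differentiable _).differentiableOn
  have h1 := ffb_tendsto_iteratedDeriv Metric.isOpen_ball hF hd k
    (Metric.mem_ball_self one_pos)
  have h2 : Tendsto (fun s : Finset ℕ => (k.factorial : ℂ) * (((ffb_etaPoly s).coeff k : ℤ) : ℂ))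
      atTop (𝓝 ((k.factorial : ℂ) * ((PowerSeries.coeff k ModularCurve.etaProd : ℤ) : ℂ))) :=
    (ffb_tendsto_coeff_etaPoly k).const_mul _
  refine tendsto_nhds_unique h1 (h2.congr fun s => ?_)
  rw [ffb_iteratedDeriv_polynomial_zero, Polynomial.coeff_map]
  simp

/-- The Taylor series at `0`, as a formal power series. -/
noncomputable def ffb_taylor (f : ℂ → ℂ) : PowerSeries ℂ :=
  .mk fun m => ((m.factorial : ℂ))⁻¹ * iteratedDeriv m f 0

theorem ffb_taylor_coeff (f : ℂ → ℂ) (m : ℕ) :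
    (ffb_taylor f).coeff m = ((m.factorial : ℂ))⁻¹ * iteratedDeriv m f 0 := by
  simp [ffb_taylor]

theorem ffb_qExpansion_eq_taylor (h : ℝ) (f : ℍ → ℂ) :
    qExpansion h f = ffb_taylor (cuspFunction h f) := rfl

theorem ffb_taylor_congr {f g : ℂ → ℂ} (h : f =ᶠ[𝓝 0] g) : ffb_taylor f = ffb_taylor g := by
  ext m
  rw [ffb_taylor_coeff, ffb_taylor_coeff, h.iteratedDeriv_eq m]

theorem ffb_taylor_mul {f g : ℂ → ℂ} (hf : AnalyticAt ℂ f 0) (hg : AnalyticAt ℂ g 0) :
    ffb_taylor (f * g) = ffb_taylor f * ffb_taylor g := by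
  ext
  simp only [ffb_taylor_coeff,
    iteratedDeriv_mul hf.contDiffAt hg.contDiffAt, Finset.mul_sum, PowerSeries.coeff_mul,
    Finset.Nat.sum_antidiagonal_eq_sum_range_succ_mk, Nat.succ_eq_add_one]
  refine Finset.sum_congr rfl fun i hi ↦ ?_
  rw [Nat.cast_choose _ (by grind)]
  field_simp [Nat.factorial_ne_zero]

theorem ffb_taylor_one : ffb_taylor (1 : ℂ → ℂ) = 1 := by
  ext m
  have h2 : iteratedDeriv m (1 : ℂ → ℂ) 0 = if m = 0 then 1 else 0 := by
    simpa [ite_apply] using! iteratedDeriv_const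
  simp +contextual [ffb_taylor_coeff, h2]

theorem ffb_taylor_pow {f : ℂ → ℂ} (hf : AnalyticAt ℂ f 0) (n : ℕ) :
    ffb_taylor (f ^ n) = ffb_taylor f ^ n := by
  induction n with
  | zero => rw [pow_zero, pow_zero, ffb_taylor_one]
  | succ n ih => rw [pow_succ, pow_succ, ffb_taylor_mul (hf.pow n) hf, ih]

theorem ffb_taylor_id : ffb_taylor (fun q : ℂ => q) = PowerSeries.X := by
  ext m
  rw [ffb_taylor_coeff, PowerSeries.coeff_X]
  have hd : deriv (fun q : ℂ => q) = fun _ => (1 : ℂ) := by funext x; simp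
  rcases m with _ | _ | m
  · simp
  · simp
  · rw [iteratedDeriv_succ', hd]
    have h2 : iteratedDeriv (m + 1) (fun _ : ℂ => (1 : ℂ)) 0 = 0 := by
      rw [iteratedDeriv_const]
      simp
    rw [h2]
    simp

theorem ffb_taylor_tprod :
    ffb_taylor (fun q : ℂ => ∏' n : ℕ, (1 - q ^ (n + 1))) =
      ModularCurve.etaProd.map (Int.castRingHom ℂ) := by
  ext m
  rw [ffb_taylor_coeff, ffb_iteratedDeriv_tprod, PowerSeries.coeff_map, ← mul_assoc,
    inv_mul_cancel₀ (Nat.cast_ne_zero.mpr (Nat.factorial_ne_zero m)), one_mul]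
  simp

theorem ffb_analyticAt_tprod : AnalyticAt ℂ (fun q : ℂ => ∏' n : ℕ, (1 - q ^ (n + 1))) 0 :=
  differentiableOn_tprod_one_sub_pow.analyticAt (Metric.ball_mem_nhds 0 one_pos)

/-- **The `q`-expansion of `Δ` is the formal `q ∏ (1 - qⁿ)²⁴`.** -/
theorem ffb_qExpansion_discriminant :
    qExpansion 1 ModularForm.discriminant =
      PowerSeries.X * (ModularCurve.etaProd.map (Int.castRingHom ℂ)) ^ 24 := by
  rw [ffb_qExpansion_eq_taylor]
  have h1 : cuspFunction 1 ModularForm.discriminant =ᶠ[𝓝 0]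
      ((fun q : ℂ => q) * (fun q : ℂ => ∏' n : ℕ, (1 - q ^ (n + 1))) ^ 24) := by
    filter_upwards [Metric.ball_mem_nhds (0 : ℂ) one_pos] with q hq
    rw [discriminant_cuspFunction_eqOn hq]
    simp only [Pi.mul_apply, Pi.pow_apply]
    congr 1
    exact (multipliable_one_sub_pow (by simpa using hq)).tprod_pow 24
  rw [ffb_taylor_congr h1, ffb_taylor_mul (f := fun q : ℂ => q) analyticAt_id (ffb_analyticAt_tprod.pow 24),
    ffb_taylor_pow ffb_analyticAt_tprod, ffb_taylor_id, ffb_taylor_tprod]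

/-- **The `q`-expansion of `E₄` is the formal `1 + 240 ∑ σ₃(n) qⁿ`.** -/
theorem ffb_qExpansion_E4 :
    qExpansion 1 E₄ = ModularCurve.eisenstein4.map (Int.castRingHom ℂ) := by
  ext m
  rw [PowerSeries.coeff_map]
  have h := EisensteinSeries.E_qExpansion_coeff (k := 4) (by norm_num) ⟨2, rfl⟩ m
  have h' : (PowerSeries.coeff m) (qExpansion 1 ⇑E₄) =
      if m = 0 then 1 else -(2 * ((4 : ℕ) : ℂ) / ↑(bernoulli 4)) *
        ↑((ArithmeticFunction.sigma (4 - 1)) m) := h
  rw [h']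
  unfold ModularCurve.eisenstein4
  rw [PowerSeries.coeff_mk]
  split_ifs with hm
  · simp
  · rw [show bernoulli 4 = -1 / 30 by decide +kernel, ArithmeticFunction.sigma_apply]
    simp only [eq_intCast]
    push_cast
    ring

/-- Holomorphic, `1`-periodic and bounded at `i∞`. -/
structure ffb_Nice (f : ℍ → ℂ) : Prop where
  hol : MDiff f
  per : Periodic (f ∘ ofComplex) 1
  bdd : IsBoundedAtImInfty f

namespace ffb_Nice

variable {f g : ℍ → ℂ}

theorem analyticAt (hf : ffb_Nice f) : AnalyticAt ℂ (cuspFunction 1 f) 0 :=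
  analyticAt_cuspFunction_zero one_pos hf.per hf.hol hf.bdd

theorem mul (hf : ffb_Nice f) (hg : ffb_Nice g) : ffb_Nice (f * g) where
  hol := hf.hol.mul hg.hol
  per := fun w => by
    have h1 := hf.per w
    have h2 := hg.per w
    simp only [Function.comp_apply, Pi.mul_apply] at h1 h2 ⊢
    rw [h1, h2]
  bdd := hf.bdd.mul hg.bdd

theorem add (hf : ffb_Nice f) (hg : ffb_Nice g) : ffb_Nice (f + g) where
  hol := hf.hol.add hg.hol
  per := fun w => by
    have h1 := hf.per w
    have h2 := hg.per w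
    simp only [Function.comp_apply, Pi.add_apply] at h1 h2 ⊢
    rw [h1, h2]
  bdd := hf.bdd.add hg.bdd

theorem const (c : ℂ) : ffb_Nice (fun _ => c) where
  hol := mdifferentiable_const
  per := fun _ => rfl
  bdd := Filter.const_boundedAtFilter _ c

theorem pow (hf : ffb_Nice f) (n : ℕ) : ffb_Nice (f ^ n) := by
  induction n with
  | zero => rw [pow_zero]; exact const 1
  | succ n ih => rw [pow_succ]; exact ih.mul hf

theorem qExpansion_mul (hf : ffb_Nice f) (hg : ffb_Nice g) :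
    qExpansion 1 (f * g) = qExpansion 1 f * qExpansion 1 g :=
  UpperHalfPlane.qExpansion_mul hf.analyticAt hg.analyticAt

theorem qExpansion_add (hf : ffb_Nice f) (hg : ffb_Nice g) :
    qExpansion 1 (f + g) = qExpansion 1 f + qExpansion 1 g :=
  UpperHalfPlane.qExpansion_add hf.analyticAt hg.analyticAt

theorem qExpansion_pow (hf : ffb_Nice f) (n : ℕ) :
    qExpansion 1 (f ^ n) = qExpansion 1 f ^ n := by
  induction n with
  | zero => rw [pow_zero, pow_zero]; exact qExpansion_one 1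
  | succ n ih => rw [pow_succ, pow_succ, (hf.pow n).qExpansion_mul hf, ih]

theorem eq_zero_of_qExpansion (hf : ffb_Nice f) (h : qExpansion 1 f = 0) : f = 0 :=
  (UpperHalfPlane.qExpansion_eq_zero_iff (h := 1) one_pos hf.per hf.hol hf.bdd).mp h

/-- Uniqueness: a nice function given by a convergent `q`-series has that series as
`q`-expansion. -/
theorem qExpansion_eq_mk (hf : ffb_Nice f) {c : ℕ → ℂ}
    (h : ∀ τ : ℍ, HasSum (fun m => c m • 𝕢 1 τ ^ m) (f τ)) : qExpansion 1 f = PowerSeries.mk c := by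
  ext m
  rw [PowerSeries.coeff_mk]
  have hA : AnalyticAt ℂ (cuspFunction 1 f) 0 := hf.analyticAt
  have h1 := (hasFPowerSeriesOnBall_cuspFunction (h := 1) one_pos hA h).hasFPowerSeriesAt
  have h2 := hA.hasFPowerSeriesAt
  have h3 := congr_arg (FormalMultilinearSeries.coeff · m) (h1.eq_formalMultilinearSeries h2)
  simp only [FormalMultilinearSeries.coeff_ofScalars] at h3
  rw [qExpansion_coeff, h3, div_eq_mul_inv, mul_comm]

theorem hasSum (hf : ffb_Nice f) (τ : ℍ) :
    HasSum (fun m : ℕ => (qExpansion 1 f).coeff m • 𝕢 1 τ ^ m) (f τ) :=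
  hasSum_qExpansion one_pos hf.per hf.hol hf.bdd τ

end ffb_Nice

/-- The function `q = exp (2 π i z)` on the upper half plane. -/
noncomputable def ffb_Q : ℍ → ℂ := fun z => 𝕢 1 z

theorem ffb_Q_ne_zero (z : ℍ) : ffb_Q z ≠ 0 := Periodic.qParam_ne_zero _

theorem ffb_nice_Q : ffb_Nice ffb_Q where
  hol := by
    rw [UpperHalfPlane.mdifferentiable_iff]
    have : DifferentiableOn ℂ (fun z : ℂ => 𝕢 1 z) {z | 0 < z.im} :=
      (Periodic.differentiable_qParam).differentiableOn
    refine this.congr fun z hz => ?_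
    simp only [ffb_Q, Function.comp_apply]
    rw [ofComplex_apply_of_im_pos hz]
  per := by
    intro w
    simp only [Function.comp_apply, ffb_Q]
    by_cases hw : 0 < w.im
    · have hw1 : 0 < (w + 1).im := by simpa using hw
      rw [ofComplex_apply_of_im_pos hw, ofComplex_apply_of_im_pos hw1]
      show 𝕢 1 (w + 1) = 𝕢 1 w
      unfold Periodic.qParam
      rw [show 2 * (Real.pi : ℂ) * Complex.I * (w + 1) / (1 : ℝ) =
        2 * Real.pi * Complex.I * w / (1 : ℝ) + 2 * Real.pi * Complex.I by push_cast; ring,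
        Complex.exp_add, Complex.exp_two_pi_mul_I, mul_one]
    · have hw1 : ¬ 0 < (w + 1).im := by simpa using hw
      rw [ofComplex_apply_of_im_nonpos (not_lt.mp hw),
        ofComplex_apply_of_im_nonpos (not_lt.mp hw1)]
  bdd := by
    rw [isBoundedAtImInfty_iff]
    refine ⟨1, 0, fun z _ => ?_⟩
    exact (Periodic.norm_qParam_lt_one one_pos z.im_pos).le

theorem ffb_qExpansion_Q : qExpansion 1 ffb_Q = PowerSeries.X := by
  have h := ffb_nice_Q.qExpansion_eq_mk (c := fun m => if m = 1 then 1 else 0) (fun τ => by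
    have := hasSum_single (f := fun m : ℕ => ((if m = 1 then 1 else 0 : ℂ)) • 𝕢 1 τ ^ m) 1
      (fun m hm => by simp [hm])
    simpa [ffb_Q] using this)
  rw [h]
  ext m
  rw [PowerSeries.coeff_mk, PowerSeries.coeff_X]

theorem ffb_qExpansion_const (c : ℂ) : qExpansion 1 (fun _ : ℍ => c) = PowerSeries.C c := by
  have h1 : (fun _ : ℍ => c) = c • (1 : ℍ → ℂ) := by funext z; simp
  have hA : AnalyticAt ℂ (cuspFunction 1 (1 : ℍ → ℂ)) 0 := by
    have := (ffb_Nice.const 1).analyticAt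
    exact this
  rw [h1, qExpansion_smul hA, qExpansion_one]
  ext m
  simp [PowerSeries.coeff_C, PowerSeries.coeff_one]

/-- `x` is the convergent Laurent `q`-expansion of `f`. -/
def ffb_IsLaurent (f : ℍ → ℂ) (x : LaurentSeries ℂ) : Prop :=
  ∃ M : ℕ, ffb_Nice (ffb_Q ^ M * f) ∧
    x = HahnSeries.single (-(M : ℤ)) 1 *
      HahnSeries.ofPowerSeries ℤ ℂ (qExpansion 1 (ffb_Q ^ M * f))

namespace ffb_IsLaurent

variable {f g : ℍ → ℂ} {x y : LaurentSeries ℂ}

theorem shift_one {M : ℕ} (h1 : ffb_Nice (ffb_Q ^ M * f)) :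
    ffb_Nice (ffb_Q ^ (M + 1) * f) ∧
      HahnSeries.single (-((M + 1 : ℕ) : ℤ)) (1 : ℂ) *
        HahnSeries.ofPowerSeries ℤ ℂ (qExpansion 1 (ffb_Q ^ (M + 1) * f)) =
      HahnSeries.single (-(M : ℤ)) 1 *
        HahnSeries.ofPowerSeries ℤ ℂ (qExpansion 1 (ffb_Q ^ M * f)) := by
  have e : ffb_Q ^ (M + 1) * f = ffb_Q * (ffb_Q ^ M * f) := by rw [pow_succ]; ring
  refine ⟨e ▸ ffb_nice_Q.mul h1, ?_⟩
  rw [e, ffb_nice_Q.qExpansion_mul h1, ffb_qExpansion_Q, map_mul, HahnSeries.ofPowerSeries_X,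
    ← mul_assoc, HahnSeries.single_mul_single]
  have e2 : -((M + 1 : ℕ) : ℤ) + 1 = -(M : ℤ) := by push_cast; ring
  rw [e2, mul_one]

theorem shift {M : ℕ} (h1 : ffb_Nice (ffb_Q ^ M * f)) (k : ℕ) :
    ffb_Nice (ffb_Q ^ (M + k) * f) ∧
      HahnSeries.single (-((M + k : ℕ) : ℤ)) (1 : ℂ) *
        HahnSeries.ofPowerSeries ℤ ℂ (qExpansion 1 (ffb_Q ^ (M + k) * f)) =
      HahnSeries.single (-(M : ℤ)) 1 *
        HahnSeries.ofPowerSeries ℤ ℂ (qExpansion 1 (ffb_Q ^ M * f)) := by
  induction k with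
  | zero => exact ⟨h1, rfl⟩
  | succ k ih =>
    obtain ⟨h2, h3⟩ := ih
    obtain ⟨h4, h5⟩ := shift_one h2
    exact ⟨h4, h5.trans h3⟩

/-- Normal form: a Laurent expansion can be written with any larger pole-order bound. -/
theorem exists_of_le (h : ffb_IsLaurent f x) : ∃ M₀ : ℕ, ∀ M, M₀ ≤ M →
    ffb_Nice (ffb_Q ^ M * f) ∧ x = HahnSeries.single (-(M : ℤ)) 1 *
      HahnSeries.ofPowerSeries ℤ ℂ (qExpansion 1 (ffb_Q ^ M * f)) := by
  obtain ⟨M₀, h1, rfl⟩ := h
  refine ⟨M₀, fun M hM => ?_⟩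
  obtain ⟨k, rfl⟩ := Nat.exists_eq_add_of_le hM
  obtain ⟨h2, h3⟩ := shift h1 k
  exact ⟨h2, h3.symm⟩

theorem mul (hf : ffb_IsLaurent f x) (hg : ffb_IsLaurent g y) : ffb_IsLaurent (f * g) (x * y) := by
  obtain ⟨M, h1, rfl⟩ := hf
  obtain ⟨M', h2, rfl⟩ := hg
  have e : ffb_Q ^ (M + M') * (f * g) = (ffb_Q ^ M * f) * (ffb_Q ^ M' * g) := by
    rw [pow_add]; ring
  refine ⟨M + M', e ▸ h1.mul h2, ?_⟩
  rw [e, h1.qExpansion_mul h2, map_mul]
  have : HahnSeries.single (-((M + M' : ℕ) : ℤ)) (1 : ℂ) =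
      HahnSeries.single (-(M : ℤ)) 1 * HahnSeries.single (-(M' : ℤ)) 1 := by
    have e2 : -((M + M' : ℕ) : ℤ) = -(M : ℤ) + -(M' : ℤ) := by push_cast; ring
    rw [HahnSeries.single_mul_single, e2, mul_one]
  rw [this]
  ring

theorem add (hf : ffb_IsLaurent f x) (hg : ffb_IsLaurent g y) : ffb_IsLaurent (f + g) (x + y) := by
  obtain ⟨M₁, h1⟩ := hf.exists_of_le
  obtain ⟨M₂, h2⟩ := hg.exists_of_le
  obtain ⟨n1, e1⟩ := h1 (max M₁ M₂) (le_max_left _ _)
  obtain ⟨n2, e2⟩ := h2 (max M₁ M₂) (le_max_right _ _)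
  refine ⟨max M₁ M₂, ?_, ?_⟩
  · rw [mul_add]; exact n1.add n2
  · rw [mul_add, n1.qExpansion_add n2, map_add, mul_add, ← e1, ← e2]

theorem const (c : ℂ) : ffb_IsLaurent (fun _ => c) (HahnSeries.C c) := by
  refine ⟨0, ?_, ?_⟩
  · rw [pow_zero, one_mul]; exact ffb_Nice.const c
  · rw [pow_zero, one_mul, ffb_qExpansion_const]
    simp

theorem eq_zero (h : ffb_IsLaurent f 0) : f = 0 := by
  obtain ⟨M, h1, h2⟩ := h
  have h3 : HahnSeries.ofPowerSeries ℤ ℂ (qExpansion 1 (ffb_Q ^ M * f)) = 0 := by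
    have hne : HahnSeries.single (-(M : ℤ)) (1 : ℂ) ≠ 0 := by
      simp
    exact (mul_eq_zero.mp h2.symm).resolve_left hne
  have h4 : qExpansion 1 (ffb_Q ^ M * f) = 0 :=
    (map_eq_zero_iff _ HahnSeries.ofPowerSeries_injective).mp h3
  have h5 := h1.eq_zero_of_qExpansion h4
  funext z
  have h6 := congrFun h5 z
  simp only [Pi.mul_apply, Pi.pow_apply, Pi.zero_apply] at h6
  rcases mul_eq_zero.mp h6 with h7 | h7
  · exact absurd h7 (pow_ne_zero _ (ffb_Q_ne_zero z))
  · exact h7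

theorem neg (hf : ffb_IsLaurent f x) : ffb_IsLaurent (-f) (-x) := by
  have := (const (-1)).mul hf
  have e1 : (fun _ : ℍ => (-1 : ℂ)) * f = -f := by funext z; simp
  have e2 : (HahnSeries.C (-1 : ℂ) : LaurentSeries ℂ) * x = -x := by
    rw [map_neg, map_one]; ring
  rwa [e1, e2] at this

theorem unique (h1 : ffb_IsLaurent f x) (h2 : ffb_IsLaurent f y) : x = y := by
  obtain ⟨M₁, h1⟩ := h1.exists_of_le
  obtain ⟨M₂, h2⟩ := h2.exists_of_le
  obtain ⟨_, e1⟩ := h1 (max M₁ M₂) (le_max_left _ _)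
  obtain ⟨_, e2⟩ := h2 (max M₁ M₂) (le_max_right _ _)
  rw [e1, e2]

/-- A function is determined by its Laurent expansion. -/
theorem ext (h1 : ffb_IsLaurent f x) (h2 : ffb_IsLaurent g x) : f = g := by
  have h3 := h1.add h2.neg
  rw [add_neg_cancel] at h3
  have := h3.eq_zero
  funext z
  have h4 := congrFun this z
  simp only [Pi.add_apply, Pi.neg_apply, Pi.zero_apply] at h4
  exact add_neg_eq_zero.mp h4

end ffb_IsLaurent

end Fermat.Agent.Lib.FF
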