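/-
S24 WP-A2 (helper7): the formal <-> analytic bridge, part 2: the analytic `j = E₄³/Δ` (helper8's
`ffj_j`) has Laurent `q`-expansion the Prelude's formal `jq` (coefficients cast to `ℂ`), and
`z ↦ j (d z)` has Laurent `q`-expansion `qExpand d jq`.
-/
import Fermat.Agent.Lib.FF.Bridge
import Fermat.Agent.Lib.FF.JAnalytic
import Fermat.Prelude.Def_ModularCurve_LaurentCoeff

set_option autoImplicit false

namespace Fermat.Agent.Lib.FF

open UpperHalfPlane hiding I
open Complex Filter Topology ModularForm Function ModularCurve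
open Fermat.Agent.Lib.RR (E4 Dl Dl_ne_zero MF1 E4_mem_MF1 Dl_mem_MF1)
open scoped Manifold MatrixGroups

local notation "𝕢" => Periodic.qParam

/-- Level-one modular forms are nice. -/
theorem ffb_nice_modularForm {k : ℤ} (F : ModularForm 𝒮ℒ k) : ffb_Nice (⇑F : ℍ → ℂ) where
  hol := ModularFormClass.holo F
  per := SlashInvariantFormClass.periodic_comp_ofComplex F one_mem_strictPeriods_SL
  bdd := ModularFormClass.bdd_at_infty F

theorem ffb_nice_of_mem_MF1 {k : ℤ} {f : ℍ → ℂ} (hf : f ∈ MF1 k) : ffb_Nice f := by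
  obtain ⟨F, rfl⟩ := hf
  exact ffb_nice_modularForm F

theorem ffb_nice_E4 : ffb_Nice E4 := ffb_nice_of_mem_MF1 E4_mem_MF1

theorem ffb_nice_Dl : ffb_Nice Dl := ffb_nice_of_mem_MF1 Dl_mem_MF1

theorem ffb_Q_apply (z : ℍ) : ffb_Q z = cexp (2 * Real.pi * I * z) := by
  simp [ffb_Q, Periodic.qParam]

/-- `q j` is nice. -/
theorem ffb_nice_Q_mul_j : ffb_Nice (ffb_Q ^ 1 * ffj_j) where
  hol := by
    rw [pow_one]
    exact ffb_nice_Q.hol.mul ffj_mdifferentiable
  per := by
    intro w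
    have h1 := ffb_nice_Q.per w
    simp only [Function.comp_apply, Pi.mul_apply, pow_one] at h1 ⊢
    rw [h1]
    congr 1
    have h4 := ffb_nice_E4.per w
    have h12 := ffb_nice_Dl.per w
    simp only [Function.comp_apply] at h4 h12
    rw [ffj_j_apply, ffj_j_apply, h4, h12]
  bdd := by
    have h := ffj_tendsto_mul_exp.norm.isBoundedUnder_le
    have h2 : IsBoundedAtImInfty (fun z : ℍ => ffj_j z * cexp (2 * Real.pi * I * z)) := by
      unfold IsBoundedAtImInfty BoundedAtFilter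
      exact (Asymptotics.isBigO_one_iff (F := ℝ)).mpr h
    refine h2.congr' (Eventually.of_forall fun z => ?_) (EventuallyEq.refl _ _)
    simp only [Pi.mul_apply, pow_one, ffb_Q_apply]
    ring


theorem ffb_qExpansion_Dl : qExpansion 1 Dl =
    PowerSeries.X * (etaProd.map (Int.castRingHom ℂ)) ^ 24 := ffb_qExpansion_discriminant

theorem ffb_qExpansion_E4' : qExpansion 1 E4 = eisenstein4.map (Int.castRingHom ℂ) :=
  ffb_qExpansion_E4

/-- The `q`-expansion of `q j` is the formal `jNum` of the Prelude. -/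
theorem ffb_qExpansion_Q_mul_j :
    qExpansion 1 (ffb_Q ^ 1 * ffj_j) = jNum.map (Int.castRingHom ℂ) := by
  have hfun : (ffb_Q ^ 1 * ffj_j) * Dl = ffb_Q * E4 ^ 3 := by
    funext z
    have := Dl_ne_zero z
    simp only [Pi.mul_apply, Pi.pow_apply, pow_one, ffj_j_apply]
    field_simp
  have h1 := ffb_nice_Q_mul_j.qExpansion_mul ffb_nice_Dl
  have h2 := ffb_nice_Q.qExpansion_mul (ffb_nice_E4.pow 3)
  rw [hfun, h2, ffb_qExpansion_Q, ffb_nice_E4.qExpansion_pow, ffb_qExpansion_E4',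
    ffb_qExpansion_Dl] at h1
  set A := qExpansion 1 (ffb_Q ^ 1 * ffj_j) with hA
  have h3 : (eisenstein4.map (Int.castRingHom ℂ)) ^ 3 =
      A * (etaProd.map (Int.castRingHom ℂ)) ^ 24 := by
    refine mul_left_cancel₀ (PowerSeries.X_ne_zero (R := ℂ)) ?_
    rw [h1]; ring
  have h4 : (etaProd.map (Int.castRingHom ℂ)) ^ 24 *
      dedekindEtaUnitInv.map (Int.castRingHom ℂ) = 1 := by
    have := congrArg (PowerSeries.map (Int.castRingHom ℂ)) dedekindEtaUnit_mul_inv
    rw [map_mul, map_one, dedekindEtaUnit, map_pow] at this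
    exact this
  rw [jNum, map_mul, map_pow, h3, mul_assoc, h4, mul_one]

theorem ffb_coeffMap_ofPowerSeries {R S : Type*} [CommRing R] [CommRing S] (f : R →+* S)
    (p : PowerSeries R) :
    coeffMap f (HahnSeries.ofPowerSeries ℤ R p) = HahnSeries.ofPowerSeries ℤ S (p.map f) := by
  ext k
  rw [coeffMap_coeff]
  rcases lt_or_ge k 0 with hk | hk
  · rw [ofPowerSeries_coeff_of_neg _ hk, ofPowerSeries_coeff_of_neg _ hk, map_zero]
  · obtain ⟨n, rfl⟩ := Int.eq_ofNat_of_zero_le hk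
    rw [HahnSeries.ofPowerSeries_apply_coeff, HahnSeries.ofPowerSeries_apply_coeff,
      PowerSeries.coeff_map]

theorem ffb_coeffMap_jq :
    coeffMap (algebraMap ℚ ℂ) jq =
      HahnSeries.single (-((1 : ℕ) : ℤ)) 1 *
        HahnSeries.ofPowerSeries ℤ ℂ (jNum.map (Int.castRingHom ℂ)) := by
  rw [jq, map_mul, coeffMap_single, map_one, ffb_coeffMap_ofPowerSeries, jNumQ]
  congr 2

/-- `z ↦ d z` on the upper half plane. -/
noncomputable def ffb_dmul (d : ℕ) [NeZero d] (z : ℍ) : ℍ :=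
  ⟨(d : ℂ) * z, by
    have : (0 : ℝ) < d := Nat.cast_pos.mpr (NeZero.pos d)
    simpa using mul_pos this z.im_pos⟩

variable (d : ℕ) [NeZero d]

@[simp] theorem ffb_dmul_coe (z : ℍ) : ((ffb_dmul d z : ℍ) : ℂ) = d * z := rfl

theorem ffb_dmul_im (z : ℍ) : (ffb_dmul d z).im = d * z.im := by
  show ((d : ℂ) * z).im = _
  simp

theorem ffb_Q_dmul (z : ℍ) : ffb_Q (ffb_dmul d z) = ffb_Q z ^ d := by
  rw [ffb_Q_apply, ffb_Q_apply, ← Complex.exp_nat_mul, ffb_dmul_coe]
  congr 1
  ring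

theorem ffb_dmul_ofComplex {w : ℂ} (hw : 0 < w.im) :
    ffb_dmul d (ofComplex w) = ofComplex ((d : ℂ) * w) := by
  have hd : (0 : ℝ) < d := Nat.cast_pos.mpr (NeZero.pos d)
  have hw' : 0 < ((d : ℂ) * w).im := by simpa using mul_pos hd hw
  apply UpperHalfPlane.ext
  rw [ffb_dmul_coe, ofComplex_apply_of_im_pos hw, ofComplex_apply_of_im_pos hw']

theorem ffb_Nice.comp_dmul {f : ℍ → ℂ} (hf : ffb_Nice f) :
    ffb_Nice (fun z => f (ffb_dmul d z)) where
  hol := by
    have hd : (0 : ℝ) < d := Nat.cast_pos.mpr (NeZero.pos d)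
    rw [UpperHalfPlane.mdifferentiable_iff]
    have h1 : DifferentiableOn ℂ (f ∘ ofComplex) {z | 0 < z.im} :=
      UpperHalfPlane.mdifferentiable_iff.mp hf.hol
    have h2 : DifferentiableOn ℂ ((f ∘ ofComplex) ∘ fun w : ℂ => (d : ℂ) * w) {z | 0 < z.im} := by
      refine h1.comp (by fun_prop) fun w hw => ?_
      simpa using mul_pos hd hw
    refine h2.congr fun w hw => ?_
    simp only [Function.comp_apply]
    rw [ffb_dmul_ofComplex d hw]
  per := by
    intro w
    simp only [Function.comp_apply]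
    by_cases hw : 0 < w.im
    · have hw1 : 0 < (w + 1).im := by simpa using hw
      rw [ffb_dmul_ofComplex d hw, ffb_dmul_ofComplex d hw1]
      have := (hf.per.nat_mul d) ((d : ℂ) * w)
      simp only [Function.comp_apply] at this
      rw [← this]
      congr 2
      ring
    · have hw1 : ¬ 0 < (w + 1).im := by simpa using hw
      rw [ofComplex_apply_of_im_nonpos (not_lt.mp hw),
        ofComplex_apply_of_im_nonpos (not_lt.mp hw1)]
  bdd := by
    have hd : (1 : ℝ) ≤ d := Nat.one_le_cast.mpr (NeZero.pos d)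
    obtain ⟨C, A, h⟩ := isBoundedAtImInfty_iff.mp hf.bdd
    rw [isBoundedAtImInfty_iff]
    refine ⟨C, A, fun z hz => h _ ?_⟩
    rw [ffb_dmul_im]
    have := z.im_pos
    nlinarith


/-- The formal substitution `q ↦ q ^ d` on power series. -/
noncomputable def ffb_expand (p : PowerSeries ℂ) : PowerSeries ℂ :=
  PowerSeries.mk fun n => if d ∣ n then p.coeff (n / d) else 0

theorem ffb_Nice.qExpansion_comp_dmul {f : ℍ → ℂ} (hf : ffb_Nice f) :
    qExpansion 1 (fun z => f (ffb_dmul d z)) = ffb_expand d (qExpansion 1 f) := by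
  refine (hf.comp_dmul d).qExpansion_eq_mk fun τ => ?_
  have h1 := hf.hasSum (ffb_dmul d τ)
  have hq : 𝕢 1 (ffb_dmul d τ) = 𝕢 1 τ ^ d := ffb_Q_dmul d τ
  rw [hq] at h1
  have hinj : Function.Injective (fun m : ℕ => d * m) :=
    fun a b h => Nat.eq_of_mul_eq_mul_left (NeZero.pos d) h
  rw [← hinj.hasSum_iff]
  · refine h1.congr_fun fun m => ?_
    simp only [Function.comp_apply]
    rw [if_pos (dvd_mul_right d m), Nat.mul_div_cancel_left m (NeZero.pos d), pow_mul]
  · intro n hn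
    have : ¬ d ∣ n := fun ⟨m, hm⟩ => hn ⟨m, hm.symm⟩
    rw [if_neg this, zero_smul]

theorem ffb_qExpand_ofPowerSeries (p : PowerSeries ℂ) :
    qExpand ℂ d (HahnSeries.ofPowerSeries ℤ ℂ p) =
      HahnSeries.ofPowerSeries ℤ ℂ (ffb_expand d p) := by
  ext k
  rcases lt_or_ge k 0 with hk | hk
  · rw [ofPowerSeries_coeff_of_neg _ hk]
    by_cases hdk : (d : ℤ) ∣ k
    · obtain ⟨m, rfl⟩ := hdk
      rw [qExpand_coeff_mul]
      have hd : (0 : ℤ) < d := by exact_mod_cast NeZero.pos d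
      have hm : m < 0 := by
        by_contra hm
        exact absurd hk (not_lt.mpr (mul_nonneg hd.le (not_lt.mp hm)))
      exact ofPowerSeries_coeff_of_neg _ hm
    · exact qExpand_coeff_of_not_dvd d _ hdk
  · obtain ⟨n, rfl⟩ := Int.eq_ofNat_of_zero_le hk
    rw [HahnSeries.ofPowerSeries_apply_coeff, ffb_expand, PowerSeries.coeff_mk]
    by_cases hdn : d ∣ n
    · obtain ⟨m, rfl⟩ := hdn
      rw [if_pos (dvd_mul_right d m), Nat.mul_div_cancel_left m (NeZero.pos d)]
      rw [show ((d * m : ℕ) : ℤ) = (d : ℤ) * (m : ℤ) by push_cast; ring, qExpand_coeff_mul,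
        HahnSeries.ofPowerSeries_apply_coeff]
    · rw [if_neg hdn]
      refine qExpand_coeff_of_not_dvd d _ ?_
      exact_mod_cast hdn

theorem ffb_IsLaurent.comp_dmul {f : ℍ → ℂ} {x : LaurentSeries ℂ} (h : ffb_IsLaurent f x) :
    ffb_IsLaurent (fun z => f (ffb_dmul d z)) (qExpand ℂ d x) := by
  obtain ⟨M, h1, rfl⟩ := h
  have e : ffb_Q ^ (d * M) * (fun z => f (ffb_dmul d z)) =
      fun z => (ffb_Q ^ M * f) (ffb_dmul d z) := by
    funext z
    simp only [Pi.mul_apply, Pi.pow_apply]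
    rw [ffb_Q_dmul, pow_mul]
  refine ⟨d * M, e ▸ h1.comp_dmul d, ?_⟩
  have e2 : (d : ℤ) * -(M : ℤ) = -((d * M : ℕ) : ℤ) := by push_cast; ring
  rw [e, h1.qExpansion_comp_dmul d, map_mul, qExpand_single, ffb_qExpand_ofPowerSeries, e2]

theorem ffb_coeffMap_qExpand {R S : Type*} [CommRing R] [CommRing S] (f : R →+* S)
    (x : LaurentSeries R) :
    coeffMap f (qExpand R d x) = qExpand S d (coeffMap f x) := by
  ext k
  rw [coeffMap_coeff]
  by_cases hdk : (d : ℤ) ∣ k
  · obtain ⟨m, rfl⟩ := hdk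
    rw [qExpand_coeff_mul, qExpand_coeff_mul, coeffMap_coeff]
  · rw [qExpand_coeff_of_not_dvd d _ hdk, qExpand_coeff_of_not_dvd d _ hdk, map_zero]


/-- **The analytic `j` has the formal `q`-expansion `jq`.** -/
theorem ffb_isLaurent_j : ffb_IsLaurent ffj_j (coeffMap (algebraMap ℚ ℂ) jq) :=
  ⟨1, ffb_nice_Q_mul_j, by rw [ffb_coeffMap_jq, ffb_qExpansion_Q_mul_j]⟩

/-- The function `z ↦ j (d z)`. -/
noncomputable def ffb_jd : ℍ → ℂ := fun z => ffj_j (ffb_dmul d z)

theorem ffb_jd_apply (z : ℍ) : ffb_jd d z = ffj_j (ffb_dmul d z) := rfl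

/-- **`z ↦ j (d z)` has the formal `q`-expansion `qExpand d jq`.** -/
theorem ffb_isLaurent_jd :
    ffb_IsLaurent (ffb_jd d) (coeffMap (algebraMap ℚ ℂ) (qExpand ℚ d jq)) := by
  rw [ffb_coeffMap_qExpand]
  exact ffb_isLaurent_j.comp_dmul d

end Fermat.Agent.Lib.FF
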