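/-
S24, level-raised `j`: the functions `z ↦ j(d z)` (and more generally `z ↦ j((a z + b) / e)`),
their behaviour under `SL(2, ℤ)` (Hermite normal form), growth at all cusps, invariance under
`Γ₀(N)` and membership in the ring `ffm_R N` of the analytic model.
-/
import Fermat.Agent.Lib.FF.JAnalytic
import Fermat.Agent.Lib.FF.Model
import Fermat.Agent.Lib.RR.Rank

set_option autoImplicit false

namespace Fermat.Agent.Lib.FF

open UpperHalfPlane hiding I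
open ModularForm CongruenceSubgroup Matrix.SpecialLinearGroup Filter Asymptotics Complex Real
open Fermat.Agent.Lib.RR
open scoped MatrixGroups Manifold Topology

noncomputable section

/-- The point `(a z + b) / e` of the upper half plane. -/
def ffj_aff (a e : ℕ+) (b : ℤ) (z : ℍ) : ℍ :=
  ⟨(((a : ℕ) : ℂ) * z + b) / ((e : ℕ) : ℂ), by
    have ha : (0 : ℝ) < ((a : ℕ) : ℝ) := by exact_mod_cast a.pos
    have he : (0 : ℝ) < ((e : ℕ) : ℝ) := by exact_mod_cast e.pos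
    have : ((((a : ℕ) : ℂ) * z + b) / ((e : ℕ) : ℂ)).im = ((a : ℕ) : ℝ) * z.im / ((e : ℕ) : ℝ) := by
      rw [Complex.div_natCast_im]
      simp
    rw [this]
    have := z.im_pos
    positivity⟩

@[simp] theorem ffj_coe_aff (a e : ℕ+) (b : ℤ) (z : ℍ) :
    ((ffj_aff a e b z : ℍ) : ℂ) = (((a : ℕ) : ℂ) * z + b) / ((e : ℕ) : ℂ) := rfl

theorem ffj_im_aff (a e : ℕ+) (b : ℤ) (z : ℍ) :
    (ffj_aff a e b z).im = ((a : ℕ) : ℝ) / ((e : ℕ) : ℝ) * z.im := by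
  show ((((a : ℕ) : ℂ) * z + b) / ((e : ℕ) : ℂ)).im = _
  rw [Complex.div_natCast_im]
  simp
  ring

theorem ffj_tendsto_aff_atImInfty (a e : ℕ+) (b : ℤ) :
    Tendsto (ffj_aff a e b) atImInfty atImInfty := by
  rw [atImInfty, tendsto_comap_iff]
  have h : (UpperHalfPlane.im ∘ ffj_aff a e b) = fun z : ℍ => ((a : ℕ) : ℝ) / ((e : ℕ) : ℝ) * z.im := by
    funext z
    exact ffj_im_aff a e b z
  rw [h]
  have ha : (0 : ℝ) < ((a : ℕ) : ℝ) := by exact_mod_cast a.pos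
  have he : (0 : ℝ) < ((e : ℕ) : ℝ) := by exact_mod_cast e.pos
  exact Tendsto.const_mul_atTop (by positivity) tendsto_comap

/-- The exact leading term of `j((a z + b) / e)` at `i∞`. -/
theorem ffj_tendsto_aff (a e : ℕ+) (b : ℤ) :
    Tendsto (fun z : ℍ => ffj_j (ffj_aff a e b z) * cexp (2 * π * I * (ffj_aff a e b z : ℂ)))
      atImInfty (𝓝 1) :=
  ffj_tendsto_mul_exp.comp (ffj_tendsto_aff_atImInfty a e b)

/-- Moderate growth of `j((a z + b) / e)` at `i∞`. -/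
theorem ffj_growth_aff (a e : ℕ+) (b : ℤ) :
    IsBoundedAtImInfty
      (fun z : ℍ => ffj_j (ffj_aff a e b z) * cexp (2 * π * I * ((a : ℕ) : ℂ) * z)) := by
  have h1 : IsBoundedAtImInfty
      (fun z : ℍ => ffj_j (ffj_aff a e b z) * cexp (2 * π * I * (ffj_aff a e b z : ℂ))) :=
    (ffj_tendsto_aff a e b).isBigO_one ℝ
  rw [UpperHalfPlane.isBoundedAtImInfty_iff] at h1 ⊢
  obtain ⟨C, A, hC⟩ := h1
  refine ⟨C, A, fun z hz => ?_⟩
  have hsplit : ffj_j (ffj_aff a e b z) * cexp (2 * π * I * ((a : ℕ) : ℂ) * z)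
      = (ffj_j (ffj_aff a e b z) * cexp (2 * π * I * (ffj_aff a e b z : ℂ)))
        * cexp (2 * π * I * (((a : ℕ) : ℂ) * z - (ffj_aff a e b z : ℂ))) := by
    rw [mul_assoc (ffj_j _) (cexp _) (cexp _), ← Complex.exp_add]
    congr 2
    ring
  rw [hsplit, norm_mul]
  have hle : ‖cexp (2 * π * I * (((a : ℕ) : ℂ) * z - (ffj_aff a e b z : ℂ)))‖ ≤ 1 := by
    rw [Complex.norm_exp]
    have him0 : ∀ x w : ℂ, (2 * π * I * (x - w)).re = -(2 * π * (x.im - w.im)) := by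
      intro x w
      simp [mul_re, mul_im]
    have him : (2 * π * I * (((a : ℕ) : ℂ) * z - (ffj_aff a e b z : ℂ))).re
        = -(2 * π * (((a : ℕ) : ℝ) * z.im - (ffj_aff a e b z).im)) := by
      rw [him0]
      have h1 : (((a : ℕ) : ℂ) * (z : ℂ)).im = ((a : ℕ) : ℝ) * z.im := by simp
      have h2 : ((ffj_aff a e b z : ℍ) : ℂ).im = (ffj_aff a e b z).im := rfl
      rw [h1, h2]
    rw [him, Real.exp_le_one_iff, ffj_im_aff]
    have ha : (0 : ℝ) < ((a : ℕ) : ℝ) := by exact_mod_cast a.pos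
    have he : (1 : ℝ) ≤ ((e : ℕ) : ℝ) := by exact_mod_cast e.pos
    have hz := z.im_pos
    have hdiv : ((a : ℕ) : ℝ) / ((e : ℕ) : ℝ) ≤ ((a : ℕ) : ℝ) := div_le_self ha.le he
    have : 0 ≤ ((a : ℕ) : ℝ) * z.im - ((a : ℕ) : ℝ) / ((e : ℕ) : ℝ) * z.im := by
      have := mul_le_mul_of_nonneg_right hdiv hz.le
      linarith
    have hpi := Real.pi_pos
    nlinarith
  calc _ ≤ C * 1 := mul_le_mul (hC z hz) hle (norm_nonneg _) ((norm_nonneg _).trans (hC z hz))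
    _ = C := mul_one C

/-- `z ↦ j(d z)`. -/
def ffj_jd (d : ℕ+) : ℍ → ℂ := fun z => ffj_j (ffj_aff d 1 0 z)

theorem ffj_jd_apply (d : ℕ+) (z : ℍ) : ffj_jd d z = ffj_j (ffj_aff d 1 0 z) := rfl

/-- Glue to any other definition of `z ↦ d z`. -/
theorem ffj_jd_eq (d : ℕ+) (z w : ℍ) (hw : (w : ℂ) = ((d : ℕ) : ℂ) * z) :
    ffj_jd d z = ffj_j w := by
  rw [ffj_jd_apply]
  congr 1
  apply UpperHalfPlane.ext
  rw [ffj_coe_aff, hw]
  simp

theorem ffj_jd_one : ffj_jd 1 = ffj_j := by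
  funext z
  exact ffj_jd_eq 1 z z (by simp)

/-- **Hermite normal form**: `d • (γ z) = σ ((a z + b) / e)` with `a e = d`. -/
theorem ffj_exists_aff (d : ℕ+) (γ : SL(2, ℤ)) :
    ∃ (σ : SL(2, ℤ)) (a e : ℕ+) (b : ℤ), (a : ℕ) * (e : ℕ) = (d : ℕ) ∧
      ∀ z : ℍ, ffj_aff d 1 0 (γ • z) = σ • ffj_aff a e b z := by
  set M : Matrix (Fin 2) (Fin 2) ℤ :=
    !![((d : ℕ) : ℤ) * γ 0 0, ((d : ℕ) : ℤ) * γ 0 1; γ 1 0, γ 1 1] with hM
  have hdetγ : γ 0 0 * γ 1 1 - γ 0 1 * γ 1 0 = 1 := by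
    have := γ.det_coe
    rwa [Matrix.det_fin_two] at this
  have hd0 : ((d : ℕ) : ℤ) ≠ 0 := by exact_mod_cast d.pos.ne'
  have hdpos : (0 : ℤ) < ((d : ℕ) : ℤ) := by exact_mod_cast d.pos
  have hcol : M 0 0 ≠ 0 ∨ M 1 0 ≠ 0 := by
    by_contra hcon
    push Not at hcon
    obtain ⟨h1, h2⟩ := hcon
    simp only [hM, Matrix.of_apply, Matrix.cons_val', Matrix.cons_val_zero, Matrix.cons_val_one,
      Matrix.cons_val_fin_one] at h1 h2
    have h3 : γ 0 0 = 0 := by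
      rcases mul_eq_zero.mp h1 with h | h
      · exact absurd h hd0
      · exact h
    rw [h3, h2] at hdetγ
    simp at hdetγ
  obtain ⟨σ, T, hMT, hT10, hT00⟩ := rankF_exists_upperTriangular M hcol
  have hdetM : M.det = (d : ℕ) := by
    rw [hM, Matrix.det_fin_two_of]
    linear_combination ((d : ℕ) : ℤ) * hdetγ
  have hdetT : T 0 0 * T 1 1 = (d : ℕ) := by
    have h1 : M.det = T.det := by
      rw [hMT, Matrix.det_mul, σ.det_coe, one_mul]
    rw [hdetM, Matrix.det_fin_two, hT10, mul_zero, sub_zero] at h1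
    exact h1.symm
  have hT00pos : 0 < T 0 0 := by
    rw [hT00]
    have : Int.gcd (M 0 0) (M 1 0) ≠ 0 := by
      rw [Ne, Int.gcd_eq_zero_iff]
      tauto
    exact_mod_cast Nat.pos_of_ne_zero this
  have hT11pos : 0 < T 1 1 := by
    by_contra hneg
    push Not at hneg
    have : T 0 0 * T 1 1 ≤ 0 := mul_nonpos_of_nonneg_of_nonpos hT00pos.le hneg
    omega
  -- entries of `M = σ * T`
  have e00 : ((d : ℕ) : ℤ) * γ 0 0 = σ 0 0 * T 0 0 := by
    have := congrFun (congrFun hMT 0) 0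
    simp only [hM, Matrix.mul_apply, Fin.sum_univ_two, Matrix.of_apply, Matrix.cons_val',
      Matrix.cons_val_zero, Matrix.cons_val_fin_one, hT10, mul_zero, add_zero] at this
    exact this
  have e01 : ((d : ℕ) : ℤ) * γ 0 1 = σ 0 0 * T 0 1 + σ 0 1 * T 1 1 := by
    have := congrFun (congrFun hMT 0) 1
    simp only [hM, Matrix.mul_apply, Fin.sum_univ_two, Matrix.of_apply, Matrix.cons_val',
      Matrix.cons_val_zero, Matrix.cons_val_one, Matrix.cons_val_fin_one] at this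
    exact this
  have e10 : γ 1 0 = σ 1 0 * T 0 0 := by
    have := congrFun (congrFun hMT 1) 0
    simp only [hM, Matrix.mul_apply, Fin.sum_univ_two, Matrix.of_apply, Matrix.cons_val',
      Matrix.cons_val_zero, Matrix.cons_val_one, Matrix.cons_val_fin_one, hT10, mul_zero,
      add_zero] at this
    exact this
  have e11 : γ 1 1 = σ 1 0 * T 0 1 + σ 1 1 * T 1 1 := by
    have := congrFun (congrFun hMT 1) 1
    simp only [hM, Matrix.mul_apply, Fin.sum_univ_two, Matrix.of_apply, Matrix.cons_val',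
      Matrix.cons_val_zero, Matrix.cons_val_one, Matrix.cons_val_fin_one] at this
    exact this
  obtain ⟨a, ha⟩ : ∃ a : ℕ+, ((a : ℕ) : ℤ) = T 0 0 :=
    ⟨⟨(T 0 0).toNat, by omega⟩, by simp [hT00pos.le]⟩
  obtain ⟨e, he⟩ : ∃ e : ℕ+, ((e : ℕ) : ℤ) = T 1 1 :=
    ⟨⟨(T 1 1).toNat, by omega⟩, by simp [hT11pos.le]⟩
  refine ⟨σ, a, e, T 0 1, ?_, fun z => ?_⟩
  · have : (((a : ℕ) * (e : ℕ) : ℕ) : ℤ) = ((d : ℕ) : ℤ) := by
      push_cast
      rw [ha, he, hdetT]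
    exact_mod_cast this
  · apply UpperHalfPlane.ext
    rw [ffj_coe_aff, coe_specialLinearGroup_apply, coe_specialLinearGroup_apply, ffj_coe_aff]
    simp only [algebraMap_int_eq, Int.coe_castRingHom, PNat.one_coe, Nat.cast_one, div_one,
      Int.cast_zero, add_zero, ofReal_intCast]
    have hA : ((γ 1 0 : ℤ) : ℂ) * z + ((γ 1 1 : ℤ) : ℂ) ≠ 0 := by
      have := UpperHalfPlane.denom_ne_zero γ z
      simpa [UpperHalfPlane.denom] using this
    have heC : (((e : ℕ) : ℂ)) ≠ 0 := by exact_mod_cast e.pos.ne'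
    have c00 : (((d : ℕ) : ℂ)) * ((γ 0 0 : ℤ) : ℂ) = ((σ 0 0 : ℤ) : ℂ) * ((a : ℕ) : ℂ) := by
      have := congrArg (Int.cast : ℤ → ℂ) e00
      rw [← ha] at this
      push_cast at this
      exact this
    have c01 : (((d : ℕ) : ℂ)) * ((γ 0 1 : ℤ) : ℂ)
        = ((σ 0 0 : ℤ) : ℂ) * ((T 0 1 : ℤ) : ℂ) + ((σ 0 1 : ℤ) : ℂ) * ((e : ℕ) : ℂ) := by
      have := congrArg (Int.cast : ℤ → ℂ) e01
      rw [← he] at this
      push_cast at this
      exact this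
    have c10 : ((γ 1 0 : ℤ) : ℂ) = ((σ 1 0 : ℤ) : ℂ) * ((a : ℕ) : ℂ) := by
      have := congrArg (Int.cast : ℤ → ℂ) e10
      rw [← ha] at this
      push_cast at this
      exact this
    have c11 : ((γ 1 1 : ℤ) : ℂ)
        = ((σ 1 0 : ℤ) : ℂ) * ((T 0 1 : ℤ) : ℂ) + ((σ 1 1 : ℤ) : ℂ) * ((e : ℕ) : ℂ) := by
      have := congrArg (Int.cast : ℤ → ℂ) e11
      rw [← he] at this
      push_cast at this
      exact this
    have hB : ((σ 1 0 : ℤ) : ℂ) * ((((a : ℕ) : ℂ) * z + ((T 0 1 : ℤ) : ℂ)) / ((e : ℕ) : ℂ))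
        + ((σ 1 1 : ℤ) : ℂ) = (((γ 1 0 : ℤ) : ℂ) * z + ((γ 1 1 : ℤ) : ℂ)) / ((e : ℕ) : ℂ) := by
      rw [c10, c11]
      field_simp
      ring
    have hnum : ((σ 0 0 : ℤ) : ℂ) * ((((a : ℕ) : ℂ) * z + ((T 0 1 : ℤ) : ℂ)) / ((e : ℕ) : ℂ))
        + ((σ 0 1 : ℤ) : ℂ)
        = (((d : ℕ) : ℂ)) * (((γ 0 0 : ℤ) : ℂ) * z + ((γ 0 1 : ℤ) : ℂ)) / ((e : ℕ) : ℂ) := by
      rw [mul_add, ← mul_assoc, c00, c01]
      field_simp
      ring
    rw [hB, hnum]
    field_simp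

/-- Consequence for `j(d z)`: every `SL(2, ℤ)`-translate is some `j((a z + b) / e)`. -/
theorem ffj_jd_smul_eq (d : ℕ+) (γ : SL(2, ℤ)) :
    ∃ (a e : ℕ+) (b : ℤ), (a : ℕ) * (e : ℕ) = (d : ℕ) ∧
      ∀ z : ℍ, ffj_jd d (γ • z) = ffj_j (ffj_aff a e b z) := by
  obtain ⟨σ, a, e, b, hae, h⟩ := ffj_exists_aff d γ
  exact ⟨a, e, b, hae, fun z => by rw [ffj_jd_apply, h z, ffj_smul]⟩

theorem ffj_mdifferentiable_aff (a e : ℕ+) (b : ℤ) :
    MDiff (fun z : ℍ => ffj_j (ffj_aff a e b z)) := by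
  rw [UpperHalfPlane.mdifferentiable_iff]
  have hj : DifferentiableOn ℂ (ffj_j ∘ ofComplex) upperHalfPlaneSet :=
    UpperHalfPlane.mdifferentiable_iff.mp ffj_mdifferentiable
  have hmaps : ∀ w ∈ upperHalfPlaneSet,
      (((a : ℕ) : ℂ) * w + b) / ((e : ℕ) : ℂ) ∈ upperHalfPlaneSet := by
    intro w hw
    exact (ffj_aff a e b ⟨w, hw⟩).im_pos
  have hcomp : DifferentiableOn ℂ
      ((ffj_j ∘ ofComplex) ∘ fun w : ℂ => (((a : ℕ) : ℂ) * w + b) / ((e : ℕ) : ℂ))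
      upperHalfPlaneSet := by
    refine hj.comp ?_ hmaps
    exact ((differentiableOn_const _).mul differentiableOn_id |>.add
      (differentiableOn_const _)).div_const _
  refine hcomp.congr fun w hw => ?_
  simp only [Function.comp_apply]
  rw [ofComplex_apply_of_im_pos hw, ofComplex_apply_of_im_pos (hmaps w hw)]
  rfl

theorem ffj_mdifferentiable_jd (d : ℕ+) : MDiff (ffj_jd d) := ffj_mdifferentiable_aff d 1 0

/-- `j(d z)` is invariant under `Γ₀(N)` for `d ∣ N`. -/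
theorem ffj_jd_smul_of_mem_Gamma0 {d : ℕ+} {N : ℕ} (hd : (d : ℕ) ∣ N) {γ : SL(2, ℤ)}
    (hγ : γ ∈ Gamma0 N) (z : ℍ) : ffj_jd d (γ • z) = ffj_jd d z := by
  have hdvd : ((d : ℕ) : ℤ) ∣ γ 1 0 := by
    rw [Gamma0_mem] at hγ
    have h1 : ((N : ℕ) : ℤ) ∣ γ 1 0 := (ZMod.intCast_zmod_eq_zero_iff_dvd _ _).mp hγ
    exact (Int.natCast_dvd_natCast.mpr hd).trans h1
  obtain ⟨c', hc'⟩ := hdvd
  have hdetγ : γ 0 0 * γ 1 1 - γ 0 1 * γ 1 0 = 1 := by
    have := γ.det_coe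
    rwa [Matrix.det_fin_two] at this
  set γ' : SL(2, ℤ) := ⟨!![γ 0 0, ((d : ℕ) : ℤ) * γ 0 1; c', γ 1 1], by
    rw [Matrix.det_fin_two_of]
    rw [hc'] at hdetγ
    linear_combination hdetγ⟩ with hγ'
  have key : ffj_aff d 1 0 (γ • z) = γ' • ffj_aff d 1 0 z := by
    apply UpperHalfPlane.ext
    rw [ffj_coe_aff, coe_specialLinearGroup_apply, coe_specialLinearGroup_apply, ffj_coe_aff]
    have g00 : γ' 0 0 = γ 0 0 := rfl
    have g01 : γ' 0 1 = ((d : ℕ) : ℤ) * γ 0 1 := rfl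
    have g10 : γ' 1 0 = c' := rfl
    have g11 : γ' 1 1 = γ 1 1 := rfl
    rw [g00, g01, g10, g11]
    simp only [algebraMap_int_eq, Int.coe_castRingHom, PNat.one_coe, Nat.cast_one, div_one,
      Int.cast_zero, add_zero, ofReal_intCast]
    have hA : ((γ 1 0 : ℤ) : ℂ) * z + ((γ 1 1 : ℤ) : ℂ) ≠ 0 := by
      have := UpperHalfPlane.denom_ne_zero γ z
      simpa [UpperHalfPlane.denom] using this
    have hc : ((γ 1 0 : ℤ) : ℂ) = ((d : ℕ) : ℂ) * ((c' : ℤ) : ℂ) := by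
      rw [hc']; push_cast; ring
    have hden : ((c' : ℤ) : ℂ) * (((d : ℕ) : ℂ) * z) + ((γ 1 1 : ℤ) : ℂ)
        = ((γ 1 0 : ℤ) : ℂ) * z + ((γ 1 1 : ℤ) : ℂ) := by
      rw [hc]; ring
    rw [hden]
    push_cast
    field_simp
  rw [ffj_jd_apply, key, ffj_smul, ← ffj_jd_apply]

/-- `j(d z)` belongs to the ring of the analytic model of level `N`, for `d ∣ N`. -/
theorem ffj_jd_isWH {d : ℕ+} {N : ℕ} (hd : (d : ℕ) ∣ N) : ffm_IsWH N (ffj_jd d) where
  mdiff := ffj_mdifferentiable_jd d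
  inv := fun γ hγ z => ffj_jd_smul_of_mem_Gamma0 hd (Gamma0_mem.mpr (Gamma_mem.mp hγ).2.2.1) z
  growth := fun γ => by
    obtain ⟨a, e, b, -, h⟩ := ffj_jd_smul_eq d γ
    refine ⟨(a : ℕ), ?_⟩
    simp only [h]
    exact ffj_growth_aff a e b

theorem ffj_j_isWH (N : ℕ) : ffm_IsWH N ffj_j := by
  have := ffj_jd_isWH (d := 1) (N := N) (one_dvd N)
  rwa [ffj_jd_one] at this

end

end Fermat.Agent.Lib.FF
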