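/-
S24 WP-A2 (helper7): the formal <-> analytic bridge, part 3: the evaluation homomorphism
`ψ : Q̄[J_d : d ∣ N] → ffm_R N` from the `Q̄`-subalgebra of `Q̄((q))` generated by the
`J_d = j(q^d)` to the ring of modular functions, characterised by
`ffb_IsLaurent (ψ a) (coeffMap ffb_iota a)`; injective, `Γ₀(N)`-invariant image,
`ψ J_d = (z ↦ j (d z))`.
-/
import Fermat.Agent.Lib.FF.BridgeJ
import Fermat.Agent.Lib.FF.JAnalyticLevel
import Fermat.Agent.Lib.FF.Model
import Fermat.Prelude.Def_ModularCurve_ArithmeticGalois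

set_option autoImplicit false

namespace Fermat.Agent.Lib.FF

open UpperHalfPlane hiding I
open Complex ModularCurve CongruenceSubgroup Matrix.SpecialLinearGroup
open scoped MatrixGroups

noncomputable section

local notation "K" => AlgebraicClosure ℚ

/-- A fixed embedding `Q̄ → ℂ`. -/
def ffb_iota : K →+* ℂ :=
  haveI : Algebra.IsAlgebraic ℚ K := AlgebraicClosure.isAlgebraic ℚ
  ((IsAlgClosed.lift : K →ₐ[ℚ] ℂ) : K →+* ℂ)

theorem ffb_iota_injective : Function.Injective ffb_iota := ffb_iota.injective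

theorem ffb_iota_comp : ffb_iota.comp (algebraMap ℚ K) = algebraMap ℚ ℂ :=
  Subsingleton.elim _ _

theorem ffb_coeffMap_iota_coeffEmb (x : LaurentSeries ℚ) :
    coeffMap ffb_iota (coeffEmb K x) = coeffMap (algebraMap ℚ ℂ) x := by
  rw [coeffEmb, coeffMap_coeffMap, ffb_iota_comp]

theorem ffb_coeffMap_injective {R S : Type*} [CommRing R] [CommRing S] (f : R →+* S)
    (hf : Function.Injective f) : Function.Injective (coeffMap f) := by
  intro x y h
  ext k
  apply hf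
  have := congrArg (fun z => z.coeff k) h
  simpa using this

theorem ffb_coeffMap_iota_algebraMap (c : K) :
    coeffMap ffb_iota (algebraMap K (LaurentSeries K) c) = HahnSeries.C (ffb_iota c) := by
  rw [algebraMap_laurentSeries_eq_single, coeffMap_single]
  rfl

/-- The `K`-subalgebra of Laurent series that are `q`-expansions of elements of `ffm_R N`. -/
def ffb_B (N : ℕ) : Subalgebra K (LaurentSeries K) where
  carrier := {x | ∃ r : ffm_R N, ffb_IsLaurent (r : ℍ → ℂ) (coeffMap ffb_iota x)}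
  mul_mem' := by
    rintro x y ⟨r, hr⟩ ⟨s, hs⟩
    exact ⟨r * s, by rw [map_mul]; exact hr.mul hs⟩
  add_mem' := by
    rintro x y ⟨r, hr⟩ ⟨s, hs⟩
    exact ⟨r + s, by rw [map_add]; exact hr.add hs⟩
  algebraMap_mem' := fun c => ⟨algebraMap ℂ (ffm_R N) (ffb_iota c), by
    rw [ffb_coeffMap_iota_algebraMap]
    exact ffb_IsLaurent.const _⟩

variable (N : ℕ)

theorem ffb_mem_B {x : LaurentSeries K} :
    x ∈ ffb_B N ↔ ∃ r : ffm_R N, ffb_IsLaurent (r : ℍ → ℂ) (coeffMap ffb_iota x) := Iff.rfl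

def ffb_psiB (x : ffb_B N) : ffm_R N := Classical.choose x.2

theorem ffb_psiB_spec (x : ffb_B N) :
    ffb_IsLaurent (ffb_psiB N x : ℍ → ℂ) (coeffMap ffb_iota (x : LaurentSeries K)) :=
  Classical.choose_spec x.2

variable {N} in
theorem ffb_psiB_eq {x : ffb_B N} {r : ffm_R N}
    (h : ffb_IsLaurent (r : ℍ → ℂ) (coeffMap ffb_iota (x : LaurentSeries K))) :
    ffb_psiB N x = r :=
  Subtype.ext ((ffb_psiB_spec N x).ext h)

def ffb_psiBHom : ffb_B N →+* ffm_R N where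
  toFun := ffb_psiB N
  map_one' := ffb_psiB_eq (by
    have h := ffb_IsLaurent.const 1
    rw [map_one] at h
    simp only [OneMemClass.coe_one, map_one]
    exact h)
  map_mul' x y := ffb_psiB_eq (by
    have := (ffb_psiB_spec N x).mul (ffb_psiB_spec N y)
    simpa using this)
  map_zero' := ffb_psiB_eq (by
    have h := ffb_IsLaurent.const 0
    rw [map_zero] at h
    simp only [ZeroMemClass.coe_zero, map_zero]
    exact h)
  map_add' x y := ffb_psiB_eq (by
    have := (ffb_psiB_spec N x).add (ffb_psiB_spec N y)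
    simpa using this)


theorem ffb_psiBHom_isLaurent (x : ffb_B N) :
    ffb_IsLaurent (ffb_psiBHom N x : ℍ → ℂ) (coeffMap ffb_iota (x : LaurentSeries K)) :=
  ffb_psiB_spec N x

variable {N} in
theorem ffb_psiBHom_eq {x : ffb_B N} {r : ffm_R N}
    (h : ffb_IsLaurent (r : ℍ → ℂ) (coeffMap ffb_iota (x : LaurentSeries K))) :
    ffb_psiBHom N x = r := ffb_psiB_eq h

theorem ffb_psiBHom_injective : Function.Injective (ffb_psiBHom N) := by
  intro x y h
  have h1 := ffb_psiBHom_isLaurent N x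
  have h2 := ffb_psiBHom_isLaurent N y
  rw [h] at h1
  exact Subtype.ext (ffb_coeffMap_injective _ ffb_iota_injective (h1.unique h2))

/-- The generators `J_d = j(q^d)`, `d ∣ N`, of the function field, as Laurent series over `Q̄`. -/
def ffb_gens : Set (LaurentSeries K) := ⇑(coeffEmb K) '' divisorExpansions N

/-- The `Q̄`-algebra generated by the `J_d`. -/
def ffb_A : Subalgebra K (LaurentSeries K) := Algebra.adjoin K (ffb_gens N)

theorem ffb_jd_eq_ffj_jd (d : ℕ) [NeZero d] : ffb_jd d = ffj_jd ⟨d, NeZero.pos d⟩ := by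
  funext z
  exact (ffj_jd_eq ⟨d, NeZero.pos d⟩ z (ffb_dmul d z) rfl).symm

theorem ffb_jd_isWH {d : ℕ} [NeZero d] (hd : d ∣ N) : ffm_IsWH N (ffb_jd d) := by
  rw [ffb_jd_eq_ffj_jd]
  exact ffj_jd_isWH (d := ⟨d, NeZero.pos d⟩) hd

theorem ffb_jd_smul_of_mem_Gamma0 {d : ℕ} [NeZero d] (hd : d ∣ N) {γ : SL(2, ℤ)}
    (hγ : γ ∈ Gamma0 N) (z : ℍ) : ffb_jd d (γ • z) = ffb_jd d z := by
  rw [ffb_jd_eq_ffj_jd]
  exact ffj_jd_smul_of_mem_Gamma0 (d := ⟨d, NeZero.pos d⟩) hd hγ z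

theorem ffb_gens_subset_B : ffb_gens N ⊆ (ffb_B N : Set (LaurentSeries K)) := by
  rintro _ ⟨_, ⟨d, hne, hd, rfl⟩, rfl⟩
  have := hne
  refine ⟨⟨ffb_jd d, ffb_jd_isWH N hd⟩, ?_⟩
  rw [ffb_coeffMap_iota_coeffEmb]
  exact ffb_isLaurent_jd d

theorem ffb_A_le_B : ffb_A N ≤ ffb_B N := Algebra.adjoin_le (ffb_gens_subset_B N)

/-- **The evaluation homomorphism** from `Q̄[J_d : d ∣ N]` to the ring of modular functions. -/
def ffb_psi : ffb_A N →+* ffm_R N :=
  (ffb_psiBHom N).comp (Subalgebra.inclusion (ffb_A_le_B N)).toRingHom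

theorem ffb_psi_isLaurent (a : ffb_A N) :
    ffb_IsLaurent (ffb_psi N a : ℍ → ℂ) (coeffMap ffb_iota (a : LaurentSeries K)) :=
  ffb_psiBHom_isLaurent N (Subalgebra.inclusion (ffb_A_le_B N) a)

variable {N} in
theorem ffb_psi_eq {a : ffb_A N} {r : ffm_R N}
    (h : ffb_IsLaurent (r : ℍ → ℂ) (coeffMap ffb_iota (a : LaurentSeries K))) :
    ffb_psi N a = r :=
  ffb_psiBHom_eq (x := Subalgebra.inclusion (ffb_A_le_B N) a) h

theorem ffb_psi_injective : Function.Injective (ffb_psi N) :=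
  (ffb_psiBHom_injective N).comp (Subalgebra.inclusion_injective (ffb_A_le_B N))

theorem ffb_psi_algebraMap (c : K) :
    ffb_psi N (algebraMap K (ffb_A N) c) = algebraMap ℂ (ffm_R N) (ffb_iota c) := by
  refine ffb_psi_eq ?_
  have : ((algebraMap K (ffb_A N) c : ffb_A N) : LaurentSeries K) =
      algebraMap K (LaurentSeries K) c := rfl
  rw [this, ffb_coeffMap_iota_algebraMap]
  exact ffb_IsLaurent.const _

theorem ffb_gen_mem {d : ℕ} [NeZero d] (hd : d ∣ N) :
    coeffEmb K (qExpand ℚ d jq) ∈ ffb_A N :=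
  Algebra.subset_adjoin ⟨_, mem_divisorExpansions N hd, rfl⟩

theorem ffb_psi_gen {d : ℕ} [NeZero d] (hd : d ∣ N) :
    ffb_psi N ⟨coeffEmb K (qExpand ℚ d jq), ffb_gen_mem N hd⟩ = ⟨ffb_jd d, ffb_jd_isWH N hd⟩ := by
  refine ffb_psi_eq ?_
  show ffb_IsLaurent (ffb_jd d) (coeffMap ffb_iota (coeffEmb K (qExpand ℚ d jq)))
  rw [ffb_coeffMap_iota_coeffEmb]
  exact ffb_isLaurent_jd d

theorem ffb_psi_gen_coe {d : ℕ} [NeZero d] (hd : d ∣ N) :
    ((ffb_psi N ⟨coeffEmb K (qExpand ℚ d jq), ffb_gen_mem N hd⟩ : ffm_R N) : ℍ → ℂ) = ffb_jd d := by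
  rw [ffb_psi_gen N hd]

/-- The image of `ψ` is `Γ₀(N)`-invariant. -/
theorem ffb_psi_smul {γ : SL(2, ℤ)} (hγ : γ ∈ Gamma0 N) (a : ffb_A N) :
    γ • ffb_psi N a = ffb_psi N a := by
  obtain ⟨a, ha⟩ := a
  induction ha using Algebra.adjoin_induction with
  | mem x hx =>
    obtain ⟨_, ⟨d, hne, hd, rfl⟩, rfl⟩ := hx
    have := hne
    rw [ffb_psi_gen N hd]
    ext z
    show ffb_jd d (γ⁻¹ • z) = ffb_jd d z
    exact ffb_jd_smul_of_mem_Gamma0 N hd (inv_mem hγ) z
  | algebraMap c =>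
    have : (⟨algebraMap K (LaurentSeries K) c, (ffb_A N).algebraMap_mem c⟩ : ffb_A N) =
        algebraMap K (ffb_A N) c := rfl
    rw [this, ffb_psi_algebraMap]
    exact ffm_smul_algebraMap_C γ _
  | add x y hx hy ihx ihy =>
    have : (⟨x + y, add_mem hx hy⟩ : ffb_A N) = ⟨x, hx⟩ + ⟨y, hy⟩ := rfl
    rw [this, map_add, smul_add, ihx, ihy]
  | mul x y hx hy ihx ihy =>
    have : (⟨x * y, mul_mem hx hy⟩ : ffb_A N) = ⟨x, hx⟩ * ⟨y, hy⟩ := rfl
    rw [this, map_mul, smul_mul', ihx, ihy]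

end

end Fermat.Agent.Lib.FF
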