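import Mathlib

/-!
# S24, WP A4 (degree), abstract algebra part

* `ffg_isIntegral_of_not_linearIndependent` : if `1, θ, …, θ ^ n` are linearly dependent over `L`
  then `θ` is algebraic over `L` of degree `≤ n`.
* `ffg_finrank_le_of_forall_natDegree_le` : a field extension in characteristic zero all of whose
  elements are algebraic of degree `≤ n` is finite of degree `≤ n`.
-/

set_option autoImplicit false

namespace Fermat.Agent.Lib.FF

open Polynomial IntermediateField

section Bounded

variable {L F : Type*} [Field L] [Field F] [Algebra L F]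

/-- If `1, θ, …, θ ^ n` are linearly dependent over `L` then `θ` is algebraic of degree `≤ n`. -/
theorem ffg_isIntegral_of_not_linearIndependent (θ : F) (n : ℕ)
    (h : ¬ LinearIndependent L (fun k : Fin (n + 1) => θ ^ (k : ℕ))) :
    IsIntegral L θ ∧ (minpoly L θ).natDegree ≤ n := by
  by_contra hcon
  apply h
  by_cases hint : IsIntegral L θ
  · have hdeg : n + 1 ≤ (minpoly L θ).natDegree := by
      by_contra hlt
      exact hcon ⟨hint, by omega⟩
    have := (linearIndependent_pow (K := L) θ).comp (Fin.castLE hdeg) (Fin.castLE_injective hdeg)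
    exact this
  · have htr : Transcendental L θ := by
      rwa [Transcendental, isAlgebraic_iff_isIntegral]
    have hinj : Function.Injective (aeval (R := L) θ) := transcendental_iff_injective.mp htr
    have h1 : LinearIndependent L (fun k : ℕ => (aeval (R := L) θ).toLinearMap (X ^ k)) := by
      have h0 : LinearIndependent L (fun k : ℕ => (X ^ k : L[X])) := by
        have := (Polynomial.basisMonomials L).linearIndependent
        simpa [Polynomial.coe_basisMonomials, monomial_one_right_eq_X_pow] using this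
      exact h0.map' _ (LinearMap.ker_eq_bot.mpr hinj)
    have h2 : LinearIndependent L (fun k : ℕ => θ ^ k) := by
      simpa using h1
    exact h2.comp (fun k : Fin (n + 1) => (k : ℕ)) Fin.val_injective

/-- A field extension in characteristic zero all of whose elements are algebraic of degree `≤ n`
is finite of degree `≤ n`. -/
theorem ffg_finrank_le_of_forall_natDegree_le [CharZero L] (n : ℕ)
    (h : ∀ θ : F, IsIntegral L θ ∧ (minpoly L θ).natDegree ≤ n) :
    FiniteDimensional L F ∧ Module.finrank L F ≤ n := by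
  have hrank : Module.rank L F ≤ (n : Cardinal) := by
    refine rank_le fun s hs => ?_
    classical
    have hfin : FiniteDimensional L (adjoin L (s : Set F)) :=
      finiteDimensional_adjoin fun x _ => (h x).1
    obtain ⟨α, hα⟩ := Field.exists_primitive_element L (adjoin L (s : Set F))
    have hαint : IsIntegral L α := IsIntegral.of_finite L α
    have h1 : Module.finrank L (adjoin L (s : Set F)) = (minpoly L α).natDegree := by
      rw [← adjoin.finrank hαint, hα, finrank_top']
    have h2 : minpoly L ((algebraMap (adjoin L (s : Set F)) F) α) = minpoly L α :=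
      minpoly.algebraMap_eq (algebraMap (adjoin L (s : Set F)) F).injective α
    have h3 : Module.finrank L (adjoin L (s : Set F)) ≤ n := by
      rw [h1, ← h2]
      exact (h _).2
    have hli : LinearIndependent L
        (fun i : s => (⟨(i : F), subset_adjoin L _ i.2⟩ : adjoin L (s : Set F))) := by
      refine LinearIndependent.of_comp (adjoin L (s : Set F)).val.toLinearMap ?_
      exact hs
    have h4 := hli.fintype_card_le_finrank
    rw [Fintype.card_coe] at h4
    exact h4.trans h3
  have hfd : FiniteDimensional L F :=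
    Module.rank_lt_aleph0_iff.mp (hrank.trans_lt (Cardinal.natCast_lt_aleph0))
  exact ⟨hfd, Module.finrank_le_of_rank_le hrank⟩

end Bounded

section Lower

variable {L F E : Type*} [Field L] [Field F] [Field E] [Algebra L F] [Algebra L E]

/-- If the number of pairwise distinct `L`-embeddings `σ x : F → E` equals the degree, the norm is
the product of the conjugates. -/
theorem ffg_norm_eq_prod [FiniteDimensional L F] [Algebra.IsSeparable L F] {X : Type*} [Fintype X]
    (σ : X → F →ₐ[L] E) (hσ : Function.Injective σ)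
    (hcard : Fintype.card X = Module.finrank L F) (b : F) :
    algebraMap L E (Algebra.norm L b) = ∏ x, σ x b := by
  classical
  have h1 := Algebra.norm_eq_prod_embeddings L (AlgebraicClosure E) b
  set τ : X → (F →ₐ[L] AlgebraicClosure E) :=
    fun x => (IsScalarTower.toAlgHom L E (AlgebraicClosure E)).comp (σ x) with hτ
  have hτinj : Function.Injective τ := by
    intro x y hxy
    apply hσ
    ext a
    have := congrArg (fun f : F →ₐ[L] AlgebraicClosure E => f a) hxy
    exact (algebraMap E (AlgebraicClosure E)).injective this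
  have hτbij : Function.Bijective τ := by
    rw [Fintype.bijective_iff_injective_and_card]
    exact ⟨hτinj, by rw [hcard, AlgHom.card L F (AlgebraicClosure E)]⟩
  have h2 : ∏ ρ : F →ₐ[L] AlgebraicClosure E, ρ b = ∏ x, τ x b :=
    (Fintype.prod_bijective τ hτbij _ _ fun x => rfl).symm
  have h3 : ∏ x, τ x b = algebraMap E (AlgebraicClosure E) (∏ x, σ x b) := by
    rw [map_prod]
    rfl
  apply (algebraMap E (AlgebraicClosure E)).injective
  rw [← h3, ← h2, ← h1, ← IsScalarTower.algebraMap_apply]


/-- Pairwise distinct `L`-embeddings bound the degree from below. -/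
theorem ffg_card_le_finrank [FiniteDimensional L F] {X : Type*} [Fintype X]
    (σ : X → F →ₐ[L] E) (hσ : Function.Injective σ) :
    Fintype.card X ≤ Module.finrank L F := by
  have h1 : LinearIndependent E (fun x : X => (σ x).toLinearMap) :=
    (linearIndependent_toLinearMap L F E).comp σ hσ
  have h2 := h1.fintype_card_le_finrank
  rwa [Module.finrank_linearMap, Module.finrank_self, mul_one] at h2

end Lower

section Twist

variable {F E G : Type*} [Field F] [Field E] [Group G] [MulSemiringAction G E]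

/-- The twisted embedding `x ↦ g • φ x`. -/
def ffg_tw (φ : F →+* E) (g : G) : F →+* E := (MulSemiringAction.toRingHom G E g).comp φ

@[simp]
theorem ffg_tw_apply (φ : F →+* E) (g : G) (x : F) : ffg_tw φ g x = g • φ x := rfl

variable (φ : F →+* E) (H : Subgroup G) (hH : ∀ h ∈ H, ∀ x : F, h • φ x = φ x)

/-- The twisted embedding attached to a left coset `g H`. -/
def ffg_sigmaRing : G ⧸ H → (F →+* E) :=
  Quotient.lift (ffg_tw φ) (by
    intro a b hab
    have hab' : a⁻¹ * b ∈ H := QuotientGroup.leftRel_apply.mp hab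
    ext x
    have hb : b = a * (a⁻¹ * b) := by group
    rw [ffg_tw_apply, ffg_tw_apply, hb, mul_smul, hH _ hab'])

theorem ffg_sigmaRing_mk (g : G) (x : F) : ffg_sigmaRing φ H hH (g : G ⧸ H) x = g • φ x := rfl

theorem ffg_sigmaRing_one (x : F) : ffg_sigmaRing φ H hH ((1 : G) : G ⧸ H) x = φ x := by
  rw [ffg_sigmaRing_mk, one_smul]

theorem ffg_smul_sigmaRing (g : G) (q : G ⧸ H) (x : F) :
    g • ffg_sigmaRing φ H hH q x = ffg_sigmaRing φ H hH (g • q) x := by
  induction q using QuotientGroup.induction_on with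
  | H g' =>
    have h1 : g • (g' : G ⧸ H) = ((g * g' : G) : G ⧸ H) := rfl
    rw [h1, ffg_sigmaRing_mk, ffg_sigmaRing_mk, mul_smul]

theorem ffg_sigmaRing_injective (hDIST : ∀ g : G, (∀ x : F, g • φ x = φ x) → g ∈ H) :
    Function.Injective (ffg_sigmaRing φ H hH) := by
  intro q q' hqq'
  induction q using QuotientGroup.induction_on with
  | H g =>
    induction q' using QuotientGroup.induction_on with
    | H g' =>
      rw [QuotientGroup.eq]
      apply hDIST
      intro x
      have h1 : g • φ x = g' • φ x := by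
        have := congrArg (fun f : F →+* E => f x) hqq'
        simpa [ffg_sigmaRing_mk] using this
      rw [mul_smul, ← h1, ← mul_smul, inv_mul_cancel, one_smul]

end Twist

section Orbit

variable {F E G : Type*} [Field F] [Field E] [Group G] [MulSemiringAction G E]
variable (φ : F →+* E) (H : Subgroup G) (hH : ∀ h ∈ H, ∀ x : F, h • φ x = φ x)
variable [Fintype (G ⧸ H)]

/-- The orbit polynomial `∏_q (X − σ_q θ)`. -/
noncomputable def ffg_orbitPoly (θ : F) : E[X] :=
  ∏ q : G ⧸ H, (X - C (ffg_sigmaRing φ H hH q θ))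

theorem ffg_orbitPoly_monic (θ : F) : (ffg_orbitPoly φ H hH θ).Monic :=
  monic_prod_of_monic _ _ fun _ _ => monic_X_sub_C _

theorem ffg_orbitPoly_natDegree (θ : F) :
    (ffg_orbitPoly φ H hH θ).natDegree = Fintype.card (G ⧸ H) := by
  rw [ffg_orbitPoly, natDegree_prod_of_monic _ _ fun q _ => monic_X_sub_C _]
  simp

theorem ffg_orbitPoly_eval (θ : F) : (ffg_orbitPoly φ H hH θ).eval (φ θ) = 0 := by
  rw [ffg_orbitPoly, eval_prod]
  refine Finset.prod_eq_zero (Finset.mem_univ ((1 : G) : G ⧸ H)) ?_
  rw [eval_sub, eval_X, eval_C, ffg_sigmaRing_one, sub_self]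

theorem ffg_orbitPoly_map (θ : F) (g : G) :
    (ffg_orbitPoly φ H hH θ).map (MulSemiringAction.toRingHom G E g) = ffg_orbitPoly φ H hH θ := by
  rw [ffg_orbitPoly, Polynomial.map_prod]
  have h1 : ∀ q : G ⧸ H, (X - C (ffg_sigmaRing φ H hH q θ)).map (MulSemiringAction.toRingHom G E g)
      = X - C (ffg_sigmaRing φ H hH (g • q) θ) := by
    intro q
    rw [Polynomial.map_sub, map_X, map_C, MulSemiringAction.toRingHom_apply, ffg_smul_sigmaRing]
  simp_rw [h1]
  exact Fintype.prod_equiv (MulAction.toPerm g) _ _ fun _ => rfl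

theorem ffg_orbitPoly_coeff_smul (θ : F) (g : G) (k : ℕ) :
    g • (ffg_orbitPoly φ H hH θ).coeff k = (ffg_orbitPoly φ H hH θ).coeff k := by
  conv_rhs => rw [← ffg_orbitPoly_map φ H hH θ g]
  rw [coeff_map, MulSemiringAction.toRingHom_apply]

end Orbit

section Dependence

variable {C F E G : Type*} [Field C] [Field F] [Field E] [Group G] [MulSemiringAction G E]
  [Algebra C E]
variable (φ : F →+* E) (H : Subgroup G) (hH : ∀ h ∈ H, ∀ x : F, h • φ x = φ x)
variable [Fintype (G ⧸ H)]

include hH in
/-- If the `G`-invariants of `E` are rational functions of `jE` over `C`, then for every `θ` the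
family `jE ^ a * (φ θ) ^ k`, `k ≤ [G : H]`, is `C`-linearly dependent. -/
theorem ffg_not_linearIndependent_image (jE : E)
    (hINV : ∀ x : E, (∀ g : G, g • x = x) →
      ∃ P Q : C[X], Q ≠ 0 ∧ x * aeval jE Q = aeval jE P)
    (θ : F) :
    ¬ LinearIndependent C
      (fun p : ℕ × Fin (Fintype.card (G ⧸ H) + 1) => jE ^ p.1 * φ θ ^ (p.2 : ℕ)) := by
  classical
  set n := Fintype.card (G ⧸ H) with hn
  set P := ffg_orbitPoly φ H hH θ with hP
  have hinv : ∀ k : ℕ, ∃ Pk Qk : C[X], Qk ≠ 0 ∧ P.coeff k * aeval jE Qk = aeval jE Pk :=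
    fun k => hINV _ fun g => ffg_orbitPoly_coeff_smul φ H hH θ g k
  choose Pk Qk hQk hPQ using hinv
  -- common denominator
  set D : C[X] := ∏ l ∈ Finset.range n, Qk l with hD
  have hD0 : D ≠ 0 := Finset.prod_ne_zero_iff.mpr fun l _ => hQk l
  -- numerators
  set R : ℕ → C[X] :=
    fun k => if k < n then Pk k * ∏ l ∈ (Finset.range n).erase k, Qk l else D with hR
  have hRk : ∀ k ∈ Finset.range (n + 1), aeval jE D * P.coeff k = aeval jE (R k) := by
    intro k hk
    by_cases hkn : k < n
    · have hDk : D = Qk k * ∏ l ∈ (Finset.range n).erase k, Qk l :=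
        (Finset.mul_prod_erase _ _ (Finset.mem_range.mpr hkn)).symm
      simp only [hR, if_pos hkn]
      rw [hDk, map_mul, map_mul, ← hPQ k]
      ring
    · have hkn' : k = n := by
        have := Finset.mem_range.mp hk
        omega
      simp only [hR, if_neg hkn]
      rw [hkn', hn, ← ffg_orbitPoly_natDegree φ H hH θ, coeff_natDegree,
        (ffg_orbitPoly_monic φ H hH θ).leadingCoeff, mul_one]
  have hsum : ∑ k ∈ Finset.range (n + 1), aeval jE (R k) * φ θ ^ k = 0 := by
    have h0 := ffg_orbitPoly_eval φ H hH θ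
    rw [eval_eq_sum_range, ffg_orbitPoly_natDegree] at h0
    calc ∑ k ∈ Finset.range (n + 1), aeval jE (R k) * φ θ ^ k
        = ∑ k ∈ Finset.range (n + 1), aeval jE D * (P.coeff k * φ θ ^ k) := by
          refine Finset.sum_congr rfl fun k hk => ?_
          rw [← hRk k hk]
          ring
      _ = aeval jE D * ∑ k ∈ Finset.range (n + 1), (P.coeff k * φ θ ^ k) := by
          rw [Finset.mul_sum]
      _ = 0 := by rw [h0, mul_zero]
  -- bound on the degrees
  set B : ℕ := (Finset.range (n + 1)).sup fun k => (R k).natDegree with hB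
  have hBk : ∀ k ∈ Finset.range (n + 1), (R k).natDegree < B + 1 := fun k hk =>
    Nat.lt_succ_of_le (Finset.le_sup (f := fun k => (R k).natDegree) hk)
  rw [not_linearIndependent_iff]
  refine ⟨Finset.range (B + 1) ×ˢ Finset.univ, fun p => (R p.2).coeff p.1, ?_,
    ⟨(D.natDegree, Fin.last n), ?_, ?_⟩⟩
  · rw [Finset.sum_product_right]
    rw [Fin.sum_univ_eq_sum_range
      (fun k => ∑ a ∈ Finset.range (B + 1), (R k).coeff a • (jE ^ a * φ θ ^ k)) (n + 1)]
    rw [← hsum]
    refine Finset.sum_congr rfl fun k hk => ?_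
    rw [aeval_eq_sum_range' (hBk k hk), Finset.sum_mul]
    refine Finset.sum_congr rfl fun a _ => ?_
    rw [smul_mul_assoc]
  · have hlast : R ((Fin.last n : Fin (n + 1)) : ℕ) = D := by
      simp [hR]
    rw [Finset.mem_product]
    refine ⟨Finset.mem_range.mpr ?_, Finset.mem_univ _⟩
    have := hBk n (Finset.mem_range.mpr (Nat.lt_succ_self n))
    have hRn : R n = D := by simp [hR]
    rwa [hRn] at this
  · have hlast : R ((Fin.last n : Fin (n + 1)) : ℕ) = D := by
      simp [hR]
    show (R ((Fin.last n : Fin (n + 1)) : ℕ)).coeff D.natDegree ≠ 0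
    rw [hlast, coeff_natDegree]
    exact leadingCoeff_ne_zero.mpr hD0

end Dependence

section Main

variable {K C F E G : Type*} [Field K] [Field C] [Field F] [Field E] [Group G]
  [Algebra K F] [Algebra C E] [MulSemiringAction G E]
variable (φ : F →+* E) (H : Subgroup G) (j : F)

/-- Two ring homomorphisms which agree on `K` and at `j` agree on `K⟮j⟯`. -/
theorem ffg_eq_on_adjoin (f g : F →+* E) (hK : ∀ c : K, f (algebraMap K F c) = g (algebraMap K F c))
    (hj : f j = g j) (x : F) (hx : x ∈ K⟮j⟯) : f x = g x := by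
  induction hx using adjoin_induction with
  | mem x hx =>
    rw [Set.mem_singleton_iff] at hx
    rw [hx, hj]
  | algebraMap c => exact hK c
  | add x y _ _ hx hy => rw [map_add, map_add, hx, hy]
  | inv x _ hx => rw [map_inv₀, map_inv₀, hx]
  | mul x y _ _ hx hy => rw [map_mul, map_mul, hx, hy]

/-- Powers of the generator of `K⟮j⟯` are `K`-linearly independent when `j` is transcendental. -/
theorem ffg_linearIndependent_gen_pow (hjtr : Transcendental K j) :
    LinearIndependent K (fun a : ℕ => (AdjoinSimple.gen K j) ^ a) := by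
  have hinj : Function.Injective (aeval (R := K) j) := transcendental_iff_injective.mp hjtr
  have h0 : LinearIndependent K (fun k : ℕ => (X ^ k : K[X])) := by
    have := (Polynomial.basisMonomials K).linearIndependent
    simpa [Polynomial.coe_basisMonomials, monomial_one_right_eq_X_pow] using this
  have h1 : LinearIndependent K (fun k : ℕ => (aeval (R := K) j).toLinearMap (X ^ k)) :=
    h0.map' _ (LinearMap.ker_eq_bot.mpr hinj)
  have h2 : LinearIndependent K (fun k : ℕ => j ^ k) := by
    simpa using h1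
  refine LinearIndependent.of_comp (K⟮j⟯).val.toLinearMap ?_
  exact h2

/-- Every element of `F` is algebraic over `K⟮j⟯` of degree at most `[G : H]`. -/
theorem ffg_isIntegral_natDegree_le [Fintype (G ⧸ H)]
    (hH : ∀ h ∈ H, ∀ x : F, h • φ x = φ x)
    (hjtr : Transcendental K j)
    (hINV : ∀ x : E, (∀ g : G, g • x = x) →
      ∃ P Q : C[X], Q ≠ 0 ∧ x * aeval (φ j) Q = aeval (φ j) P)
    (hLD : ∀ (ι : Type) (x : ι → F), LinearIndependent K x →
      LinearIndependent C (fun i => φ (x i)))
    (θ : F) :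
    IsIntegral K⟮j⟯ θ ∧ (minpoly K⟮j⟯ θ).natDegree ≤ Fintype.card (G ⧸ H) := by
  apply ffg_isIntegral_of_not_linearIndependent
  intro hLI
  have h1 := linearIndependent_smul (ffg_linearIndependent_gen_pow j hjtr) hLI
  have h2 := hLD _ _ h1
  refine ffg_not_linearIndependent_image (C := C) φ H hH (φ j) hINV θ ?_
  convert h2 using 2 with p
  rw [Algebra.smul_def, map_mul, map_pow]
  simp

/-- The twisted embeddings agree with `φ` on `K⟮j⟯`. -/
theorem ffg_sigmaRing_eq_on
    (hH : ∀ h ∈ H, ∀ x : F, h • φ x = φ x)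
    (hGK : ∀ (g : G) (c : K), g • φ (algebraMap K F c) = φ (algebraMap K F c))
    (hjinv : ∀ g : G, g • φ j = φ j) (q : G ⧸ H) (x : K⟮j⟯) :
    ffg_sigmaRing φ H hH q (x : F) = φ (x : F) := by
  induction q using QuotientGroup.induction_on with
  | H g =>
    refine ffg_eq_on_adjoin (K := K) j _ _ (fun c => ?_) ?_ _ x.2
    · rw [ffg_sigmaRing_mk, hGK]
    · rw [ffg_sigmaRing_mk, hjinv]

/-- The twisted embeddings as `K⟮j⟯`-algebra homomorphisms, for any `K⟮j⟯`-algebra structure on
`E` compatible with `φ`. -/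
def ffg_sigma [Algebra K⟮j⟯ E]
    (hLE : ∀ x : K⟮j⟯, algebraMap K⟮j⟯ E x = φ (x : F))
    (hH : ∀ h ∈ H, ∀ x : F, h • φ x = φ x)
    (hGK : ∀ (g : G) (c : K), g • φ (algebraMap K F c) = φ (algebraMap K F c))
    (hjinv : ∀ g : G, g • φ j = φ j) (q : G ⧸ H) : F →ₐ[K⟮j⟯] E :=
  { ffg_sigmaRing φ H hH q with
    commutes' := fun x => by
      rw [hLE]
      exact ffg_sigmaRing_eq_on φ H j hH hGK hjinv q x }

theorem ffg_sigma_apply [Algebra K⟮j⟯ E]
    (hLE : ∀ x : K⟮j⟯, algebraMap K⟮j⟯ E x = φ (x : F))
    (hH : ∀ h ∈ H, ∀ x : F, h • φ x = φ x)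
    (hGK : ∀ (g : G) (c : K), g • φ (algebraMap K F c) = φ (algebraMap K F c))
    (hjinv : ∀ g : G, g • φ j = φ j) (q : G ⧸ H) (x : F) :
    ffg_sigma φ H j hLE hH hGK hjinv q x = ffg_sigmaRing φ H hH q x := rfl

theorem ffg_sigma_mk [Algebra K⟮j⟯ E]
    (hLE : ∀ x : K⟮j⟯, algebraMap K⟮j⟯ E x = φ (x : F))
    (hH : ∀ h ∈ H, ∀ x : F, h • φ x = φ x)
    (hGK : ∀ (g : G) (c : K), g • φ (algebraMap K F c) = φ (algebraMap K F c))
    (hjinv : ∀ g : G, g • φ j = φ j) (g : G) (x : F) :
    ffg_sigma φ H j hLE hH hGK hjinv (g : G ⧸ H) x = g • φ x := rfl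

theorem ffg_sigma_injective [Algebra K⟮j⟯ E]
    (hLE : ∀ x : K⟮j⟯, algebraMap K⟮j⟯ E x = φ (x : F))
    (hH : ∀ h ∈ H, ∀ x : F, h • φ x = φ x)
    (hGK : ∀ (g : G) (c : K), g • φ (algebraMap K F c) = φ (algebraMap K F c))
    (hjinv : ∀ g : G, g • φ j = φ j)
    (hDIST : ∀ g : G, (∀ x : F, g • φ x = φ x) → g ∈ H) :
    Function.Injective (ffg_sigma φ H j hLE hH hGK hjinv) := by
  intro q q' hqq'
  apply ffg_sigmaRing_injective φ H hH hDIST
  ext x
  have := congrArg (fun f : F →ₐ[K⟮j⟯] E => f x) hqq'
  simpa [ffg_sigma_apply] using this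

/-- **The degree theorem (abstract form).** -/
theorem ffg_finrank_eq [Fintype (G ⧸ H)] [CharZero K]
    (hH : ∀ h ∈ H, ∀ x : F, h • φ x = φ x)
    (hGK : ∀ (g : G) (c : K), g • φ (algebraMap K F c) = φ (algebraMap K F c))
    (hjinv : ∀ g : G, g • φ j = φ j)
    (hDIST : ∀ g : G, (∀ x : F, g • φ x = φ x) → g ∈ H)
    (hjtr : Transcendental K j)
    (hINV : ∀ x : E, (∀ g : G, g • x = x) →
      ∃ P Q : C[X], Q ≠ 0 ∧ x * aeval (φ j) Q = aeval (φ j) P)
    (hLD : ∀ (ι : Type) (x : ι → F), LinearIndependent K x →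
      LinearIndependent C (fun i => φ (x i))) :
    FiniteDimensional K⟮j⟯ F ∧ Module.finrank K⟮j⟯ F = Fintype.card (G ⧸ H) := by
  have hchar : CharZero K⟮j⟯ := charZero_of_injective_algebraMap (algebraMap K K⟮j⟯).injective
  obtain ⟨hfd, hle⟩ := ffg_finrank_le_of_forall_natDegree_le (L := K⟮j⟯) (F := F)
    (Fintype.card (G ⧸ H)) (ffg_isIntegral_natDegree_le (C := C) φ H j hH hjtr hINV hLD)
  refine ⟨hfd, le_antisymm hle ?_⟩
  let _ : Algebra K⟮j⟯ E := (φ.comp (algebraMap K⟮j⟯ F)).toAlgebra
  have hLE : ∀ x : K⟮j⟯, algebraMap K⟮j⟯ E x = φ (x : F) := fun x => rfl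
  exact ffg_card_le_finrank _ (ffg_sigma_injective φ H j hLE hH hGK hjinv hDIST)

end Main

end Fermat.Agent.Lib.FF

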