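import Fermat.Agent.Lib.FF.Descent
import Fermat.Prelude.Def_ModularCurve_ArithmeticGalois

/-!
# S24, WP A4/A2 glue, abstract part: extending `ψ₀ : A → R` to fraction fields

* `ffg_lift` : the extension `φ : F = Frac A →+* E = Frac R` of an injective ring hom `ψ₀ : A →+* R`.
* `ffg_lift_smul_eq` : a group element fixing `ψ₀ A` pointwise fixes `φ F` pointwise.
* `ffg_linearIndependent_lift` : linear disjointness — if the elements of `ψ₀ A` have "Laurent
  expansions" given by the coefficientwise extension of an embedding `F → K((q))`, then `φ` maps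
  `K`-linearly independent families to `C`-linearly independent families.
-/

set_option autoImplicit false

namespace Fermat.Agent.Lib.FF

open ModularCurve

section Lift

variable {A F R E : Type*} [CommRing A] [Field F] [Algebra A F] [IsFractionRing A F]
  [CommRing R] [Field E] [Algebra R E] [IsFractionRing R E]

/-- The extension to fraction fields of an injective ring homomorphism. -/
noncomputable def ffg_lift (ψ₀ : A →+* R) (hinj : Function.Injective ψ₀) : F →+* E :=
  IsFractionRing.lift (g := (algebraMap R E).comp ψ₀)
    ((IsFractionRing.injective R E).comp hinj)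

@[simp]
theorem ffg_lift_algebraMap (ψ₀ : A →+* R) (hinj : Function.Injective ψ₀) (a : A) :
    ffg_lift (F := F) (E := E) ψ₀ hinj (algebraMap A F a) = algebraMap R E (ψ₀ a) :=
  IsFractionRing.lift_algebraMap _ _

/-- A group element fixing `ψ₀ A` pointwise fixes `φ F` pointwise. -/
theorem ffg_lift_smul_eq {G : Type*} [Group G] [MulSemiringAction G R] [MulSemiringAction G E]
    (hRE : ∀ (g : G) (r : R), g • algebraMap R E r = algebraMap R E (g • r))
    (ψ₀ : A →+* R) (hinj : Function.Injective ψ₀) (g : G) (hg : ∀ a : A, g • ψ₀ a = ψ₀ a)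
    (x : F) :
    g • ffg_lift (F := F) (E := E) ψ₀ hinj x = ffg_lift (F := F) (E := E) ψ₀ hinj x := by
  obtain ⟨a, b, -, rfl⟩ := IsFractionRing.div_surjective (A := A) x
  rw [map_div₀, ffg_lift_algebraMap, ffg_lift_algebraMap, div_eq_mul_inv, smul_mul', smul_inv'',
    hRE, hRE, hg, hg]

end Lift

section LD

variable {K C : Type*} [Field K] [Field C] (ι : K →+* C)
variable {A F R E : Type*} [CommRing A] [Field F] [Algebra A F] [IsFractionRing A F]
  [Algebra K F] [CommRing R] [Algebra C R] [Field E] [Algebra R E] [IsFractionRing R E]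
  [Algebra C E] [IsScalarTower C R E]

/-- **Linear disjointness.**  `ex : F → K((q))` is a `K`-linear embedding, `Λ r x` says that
`r : R` has the Laurent expansion `x : C((q))`; if `ψ₀ a` has expansion `coeffMap ι (ex a)` for all
`a : A` then `φ` (any ring hom extending `ψ₀`) maps `K`-linearly independent families of `F` to
`C`-linearly independent families. -/
theorem ffg_linearIndependent_lift
    (ψ₀ : A →+* R) (φ : F →+* E) (hφ : ∀ a : A, φ (algebraMap A F a) = algebraMap R E (ψ₀ a))
    (ex : F →ₗ[K] LaurentSeries K) (hex : Function.Injective ex)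
    (Λ : R → LaurentSeries C → Prop)
    (hΛadd : ∀ r s x y, Λ r x → Λ s y → Λ (r + s) (x + y))
    (hΛsmul : ∀ (c : C) r x, Λ r x → Λ (c • r) (c • x))
    (hΛzero : Λ 0 0)
    (hΛuniq : ∀ x, Λ 0 x → x = 0)
    (hΛψ : ∀ a : A, Λ (ψ₀ a) (coeffMap ι (ex (algebraMap A F a))))
    {I : Type*} (x : I → F) (hx : LinearIndependent K x) :
    LinearIndependent C (fun i => φ (x i)) := by
  classical
  rw [linearIndependent_iff']
  intro s g hsum i hi
  -- common denominator
  obtain ⟨b, hb⟩ := IsLocalization.exist_integer_multiples (nonZeroDivisors A) s x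
  have hbF : algebraMap A F (b : A) ≠ 0 := (IsLocalization.map_units F b).ne_zero
  have hb' : ∀ i : I, ∃ a : A, i ∈ s → algebraMap A F a = algebraMap A F (b : A) * x i := by
    intro i
    by_cases his : i ∈ s
    · obtain ⟨a, ha⟩ := hb i his
      refine ⟨a, fun _ => ?_⟩
      rw [ha, Algebra.smul_def]
    · exact ⟨0, fun h => absurd h his⟩
  choose a ha using hb'
  -- the relation in `R`
  have hR : ∑ i ∈ s, g i • ψ₀ (a i) = 0 := by
    apply IsFractionRing.injective R E
    rw [map_zero, map_sum]
    have h1 : ∀ i ∈ s, algebraMap R E (g i • ψ₀ (a i))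
        = φ (algebraMap A F (b : A)) * (g i • φ (x i)) := by
      intro i his
      rw [Algebra.smul_def, map_mul, ← IsScalarTower.algebraMap_apply, ← hφ, ha i his, map_mul,
        Algebra.smul_def]
      ring
    rw [Finset.sum_congr rfl h1, ← Finset.mul_sum, hsum, mul_zero]
  -- its expansion
  have hΛsum : ∀ t : Finset I, Λ (∑ i ∈ t, g i • ψ₀ (a i))
      (∑ i ∈ t, g i • coeffMap ι (ex (algebraMap A F (a i)))) := by
    intro t
    induction t using Finset.induction_on with
    | empty => simpa using hΛzero
    | insert j t hj ih =>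
      rw [Finset.sum_insert hj, Finset.sum_insert hj]
      exact hΛadd _ _ _ _ (hΛsmul _ _ _ (hΛψ _)) ih
  have hexp : ∑ i ∈ s, g i • coeffMap ι (ex (algebraMap A F (a i))) = 0 := by
    have := hΛsum s
    rw [hR] at this
    exact hΛuniq _ this
  -- independence of the numerators
  have hnum : LinearIndependent K (fun i : s => ex (algebraMap A F (a i))) := by
    have h1 : LinearIndependent K (fun i : s => x i) := hx.comp _ Subtype.val_injective
    have h2 : LinearIndependent K
        (fun i : s => (LinearMap.mulLeft K (algebraMap A F (b : A))) (x i)) :=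
      h1.map' _ (LinearMap.ker_eq_bot.mpr (mul_right_injective₀ hbF))
    have h3 := h2.map' ex (LinearMap.ker_eq_bot.mpr hex)
    have hfun : (fun i : s => ex (algebraMap A F (a i)))
        = (⇑ex ∘ fun i : s => (LinearMap.mulLeft K (algebraMap A F (b : A))) (x i)) := by
      funext i
      simp [ha i i.2]
    rw [hfun]
    exact h3
  have hdesc := ffk_linearIndependent_coeffMap ι _ hnum
  have hzero := Fintype.linearIndependent_iff.mp hdesc (fun i : s => g i) (by
    rw [← hexp]
    exact Finset.sum_coe_sort s (fun i => g i • coeffMap ι (ex (algebraMap A F (a i)))))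
  exact hzero ⟨i, hi⟩

end LD

section FieldEq

open IntermediateField

/-- The base change of a field generated by `S` is generated by the image of `S`. -/
theorem ffg_laurentBaseChange_adjoin (L : Type*) [Field L] [Algebra ℚ L]
    (S : Set (LaurentSeries ℚ)) :
    laurentBaseChange L (IntermediateField.adjoin ℚ S)
      = IntermediateField.adjoin L (⇑(coeffEmb L) '' S) := by
  apply le_antisymm
  · rw [laurentBaseChange, IntermediateField.adjoin_le_iff]
    rintro _ ⟨x, hx, rfl⟩
    have hx' : x ∈ IntermediateField.adjoin ℚ S := hx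
    induction hx' using IntermediateField.adjoin_induction with
    | mem y hy => exact IntermediateField.subset_adjoin L _ ⟨y, hy, rfl⟩
    | algebraMap c =>
      have h1 : coeffEmb L (algebraMap ℚ (LaurentSeries ℚ) c)
          = algebraMap L (LaurentSeries L) (algebraMap ℚ L c) := by
        rw [algebraMap_apply_eq_single, algebraMap_laurentSeries_eq_single, coeffEmb,
          coeffMap_single]
      rw [SetLike.mem_coe, h1]
      exact IntermediateField.algebraMap_mem _ _
    | add y z _ _ hy hz =>
      rw [SetLike.mem_coe, map_add]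
      exact add_mem (hy ‹_›) (hz ‹_›)
    | inv y _ hy =>
      rw [SetLike.mem_coe, map_inv₀]
      exact inv_mem (hy ‹_›)
    | mul y z _ _ hy hz =>
      rw [SetLike.mem_coe, map_mul]
      exact mul_mem (hy ‹_›) (hz ‹_›)
  · rw [laurentBaseChange]
    exact IntermediateField.adjoin.mono L _ _
      (Set.image_mono (IntermediateField.subset_adjoin ℚ S))

end FieldEq

end Fermat.Agent.Lib.FF
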