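import Fermat.Agent.Lib.FF.DegreeBridge
import Fermat.Agent.Lib.FF.BridgeJ
import Fermat.Agent.Lib.FF.JAnalyticLevel
import Fermat.Agent.Lib.FF.Degree

/-!
# S24, WP A4/A2 glue, concrete part

From a ring homomorphism `ψ : Q̄[J_d : d ∣ N] →+* ffm_R N` such that `ψ a` has the Laurent
`q`-expansion `coeffMap ι a` (helper7's `ffb_psi`), construct the bridge
`φ : modularFunctionFieldBar N →+* ffm_E N` and prove `ffg_IsBridge N φ`.
-/

set_option autoImplicit false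

namespace Fermat.Agent.Lib.FF

open UpperHalfPlane hiding I
open ModularCurve IntermediateField Matrix.SpecialLinearGroup CongruenceSubgroup
open scoped MatrixGroups

noncomputable section

/-- The generators `J_d = j(q^d)`, `d ∣ N`, with coefficients in `Q̄`. -/
abbrev ffg_gens (N : ℕ) : Set (LaurentSeries ffi_K) := ⇑(coeffEmb ffi_K) '' divisorExpansions N

/-- The `Q̄`-algebra generated by the `J_d`. -/
abbrev ffg_A (N : ℕ) : Subalgebra ffi_K (LaurentSeries ffi_K) := Algebra.adjoin ffi_K (ffg_gens N)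

theorem ffg_field_eq (N : ℕ) :
    modularFunctionFieldBar N = IntermediateField.adjoin ffi_K (ffg_gens N) :=
  ffg_laurentBaseChange_adjoin ffi_K (divisorExpansions N)

theorem ffg_A_le (N : ℕ) : ffg_A N ≤ (modularFunctionFieldBar N).toSubalgebra := by
  rw [ffg_field_eq]
  exact IntermediateField.algebra_adjoin_le_adjoin ffi_K (ffg_gens N)

instance ffg_algebraAF (N : ℕ) : Algebra (ffg_A N) (ffi_F N) :=
  (Subalgebra.inclusion (ffg_A_le N)).toAlgebra

@[simp] theorem ffg_algebraMap_AF_coe (N : ℕ) (a : ffg_A N) :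
    ((algebraMap (ffg_A N) (ffi_F N) a : ffi_F N) : LaurentSeries ffi_K) = (a : LaurentSeries ffi_K) :=
  rfl

instance ffg_isScalarTowerAF (N : ℕ) : IsScalarTower ffi_K (ffg_A N) (ffi_F N) :=
  IsScalarTower.of_algebraMap_eq fun _ => rfl

instance ffg_faithfulSMulAF (N : ℕ) : FaithfulSMul (ffg_A N) (ffi_F N) :=
  Subalgebra.inclusion.faithfulSMul (ffg_A_le N)

instance ffg_isFractionRingAF (N : ℕ) : IsFractionRing (ffg_A N) (ffi_F N) :=
  .of_field _ _ fun ⟨z, hz⟩ => by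
    have hz' : z ∈ IntermediateField.adjoin ffi_K (ffg_gens N) := by
      rw [← ffg_field_eq]; exact hz
    obtain ⟨x, hx, y, hy, heq⟩ := IntermediateField.mem_adjoin_iff_div.mp hz'
    exact ⟨⟨x, hx⟩, ⟨y, hy⟩, Subtype.ext heq⟩

/-! ### Consequences of `ψ a` having the expansion `coeffMap ι a` -/

theorem ffg_coeffMap_injective {K C : Type*} [Field K] [Field C] (ι : K →+* C) :
    Function.Injective (coeffMap ι) := by
  intro x y hxy
  ext k
  have := congrArg (fun z : LaurentSeries C => z.coeff k) hxy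
  simp only [coeffMap_coeff] at this
  exact ι.injective this

theorem ffg_coeffMap_coeffEmb (ι : ffi_K →+* ℂ) (y : LaurentSeries ℚ) :
    coeffMap ι (coeffEmb ffi_K y) = coeffMap (algebraMap ℚ ℂ) y := by
  rw [coeffEmb, coeffMap_coeffMap]
  exact coeffMap_congr (Subsingleton.elim _ _) y

theorem ffg_isLaurent_zero : ffb_IsLaurent (0 : ℍ → ℂ) 0 := by
  have := ffb_IsLaurent.const 0
  rwa [map_zero] at this

theorem ffg_gen_mem {N d : ℕ} [NeZero d] (hd : d ∣ N) :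
    coeffEmb ffi_K (qExpand ℚ d jq) ∈ ffg_A N :=
  Algebra.subset_adjoin ⟨_, mem_divisorExpansions N hd, rfl⟩

theorem ffg_jSeries_mem (N : ℕ) : coeffEmb ffi_K jq ∈ ffg_A N := by
  have h := ffg_gen_mem (N := N) (one_dvd N)
  rwa [qExpand_one_apply] at h

theorem ffg_jd_smul {N d : ℕ} [NeZero d] (hd : d ∣ N) {γ : SL(2, ℤ)} (hγ : γ ∈ Gamma0 N)
    (z : ℍ) : ffb_jd d (γ • z) = ffb_jd d z := by
  have e : ∀ w : ℍ, ffb_jd d w = ffj_jd ⟨d, NeZero.pos d⟩ w := fun w =>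
    (ffj_jd_eq ⟨d, NeZero.pos d⟩ w (ffb_dmul d w) (ffb_dmul_coe d w)).symm
  rw [e, e]
  exact ffj_jd_smul_of_mem_Gamma0 (d := ⟨d, NeZero.pos d⟩) hd hγ z

section Psi

variable {N : ℕ} (ι : ffi_K →+* ℂ) (ψ : ffg_A N →+* ffm_R N)
  (hψ : ∀ a : ffg_A N, ffb_IsLaurent (ψ a : ℍ → ℂ) (coeffMap ι (a : LaurentSeries ffi_K)))

include hψ

theorem ffg_psi_injective : Function.Injective ψ := by
  rw [injective_iff_map_eq_zero]
  intro a ha
  have h1 := hψ a
  rw [ha] at h1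
  have h2 : coeffMap ι (a : LaurentSeries ffi_K) = 0 :=
    ffb_IsLaurent.unique h1 ffg_isLaurent_zero
  have h3 : (a : LaurentSeries ffi_K) = 0 := by
    apply ffg_coeffMap_injective ι
    rw [h2, map_zero]
  exact Subtype.ext h3

theorem ffg_psi_const (c : ffi_K) :
    ψ (algebraMap ffi_K (ffg_A N) c) = algebraMap ℂ (ffm_R N) (ι c) := by
  apply Subtype.ext
  have h1 := hψ (algebraMap ffi_K (ffg_A N) c)
  have h2 : coeffMap ι ((algebraMap ffi_K (ffg_A N) c : ffg_A N) : LaurentSeries ffi_K)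
      = HahnSeries.C (ι c) := by
    have : ((algebraMap ffi_K (ffg_A N) c : ffg_A N) : LaurentSeries ffi_K)
        = algebraMap ffi_K (LaurentSeries ffi_K) c := rfl
    rw [this, algebraMap_laurentSeries_eq_single, coeffMap_single]
    rfl
  rw [h2] at h1
  exact ffb_IsLaurent.ext h1 (ffb_IsLaurent.const (ι c))

theorem ffg_psi_gen {d : ℕ} [NeZero d] (hd : d ∣ N) :
    ((ψ ⟨_, ffg_gen_mem hd⟩ : ffm_R N) : ℍ → ℂ) = ffb_jd d := by
  have h1 := hψ ⟨_, ffg_gen_mem hd⟩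
  rw [ffg_coeffMap_coeffEmb] at h1
  exact ffb_IsLaurent.ext h1 (ffb_isLaurent_jd d)

theorem ffg_psi_j : ψ ⟨_, ffg_jSeries_mem N⟩ = ffg_jR N := by
  apply Subtype.ext
  have h1 := hψ ⟨_, ffg_jSeries_mem N⟩
  rw [ffg_coeffMap_coeffEmb] at h1
  exact ffb_IsLaurent.ext h1 ffb_isLaurent_j

theorem ffg_psi_smul {γ : SL(2, ℤ)} (hγ : γ ∈ Gamma0 N) (a : ffg_A N) : γ • ψ a = ψ a := by
  obtain ⟨x, hx⟩ := a
  induction hx using Algebra.adjoin_induction with
  | mem x hx =>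
    obtain ⟨y, ⟨d, hne, hd, rfl⟩, rfl⟩ := hx
    have := hne
    ext z
    rw [ffm_smul_apply]
    have h := ffg_psi_gen ι ψ hψ hd
    have h1 := congrFun h (γ⁻¹ • z)
    have h2 := congrFun h z
    rw [h1, h2]
    exact ffg_jd_smul hd (inv_mem hγ) z
  | algebraMap c =>
    have h : (⟨algebraMap ffi_K (LaurentSeries ffi_K) c, Subalgebra.algebraMap_mem _ c⟩ : ffg_A N)
        = algebraMap ffi_K (ffg_A N) c := rfl
    rw [h, ffg_psi_const ι ψ hψ, ffm_smul_algebraMap_C]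
  | add x y hx hy ihx ihy =>
    have h : (⟨x + y, add_mem hx hy⟩ : ffg_A N) = ⟨x, hx⟩ + ⟨y, hy⟩ := rfl
    rw [h, map_add, smul_add, ihx, ihy]
  | mul x y hx hy ihx ihy =>
    have h : (⟨x * y, mul_mem hx hy⟩ : ffg_A N) = ⟨x, hx⟩ * ⟨y, hy⟩ := rfl
    rw [h, map_mul, smul_mul', ihx, ihy]

end Psi

/-! ### The bridge `φ` and its properties -/

section Phi

variable {N : ℕ} (ι : ffi_K →+* ℂ) (ψ : ffg_A N →+* ffm_R N)
  (hψ : ∀ a : ffg_A N, ffb_IsLaurent (ψ a : ℍ → ℂ) (coeffMap ι (a : LaurentSeries ffi_K)))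

/-- The bridge: the extension of `ψ` to the fraction fields. -/
def ffg_phi : ffi_F N →+* ffm_E N :=
  ffg_lift (A := ffg_A N) (F := ffi_F N) (R := ffm_R N) (E := ffm_E N) ψ
    (ffg_psi_injective ι ψ hψ)

theorem ffg_phi_algebraMap (a : ffg_A N) :
    ffg_phi ι ψ hψ (algebraMap (ffg_A N) (ffi_F N) a) = algebraMap (ffm_R N) (ffm_E N) (ψ a) :=
  ffg_lift_algebraMap _ _ a

theorem ffg_phi_const (c : ffi_K) :
    ffg_phi ι ψ hψ (algebraMap ffi_K (ffi_F N) c) = algebraMap ℂ (ffm_E N) (ι c) := by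
  rw [IsScalarTower.algebraMap_apply ffi_K (ffg_A N) (ffi_F N), ffg_phi_algebraMap,
    ffg_psi_const ι ψ hψ, ← IsScalarTower.algebraMap_apply]

theorem ffg_phi_j :
    ffg_phi ι ψ hψ (ffd_jBar N) = algebraMap (ffm_R N) (ffm_E N) (ffg_jR N) := by
  have h : ffd_jBar N = algebraMap (ffg_A N) (ffi_F N) ⟨_, ffg_jSeries_mem N⟩ := rfl
  rw [h, ffg_phi_algebraMap, ffg_psi_j ι ψ hψ]

theorem ffg_phi_smul {γ : SL(2, ℤ)} (hγ : γ ∈ Gamma0 N) (x : ffi_F N) :
    γ • ffg_phi ι ψ hψ x = ffg_phi ι ψ hψ x :=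
  ffg_lift_smul_eq (A := ffg_A N) (F := ffi_F N) (R := ffm_R N) (E := ffm_E N)
    (G := SL(2, ℤ)) (fun g r => ffm_smul_algebraMap g r) ψ (ffg_psi_injective ι ψ hψ) γ
    (fun a => ffg_psi_smul ι ψ hψ hγ a) x

/-- The inclusion `F → Q̄((q))` as a linear map for the coefficientwise module structure. -/
def ffg_ex (N : ℕ) : ffi_F N →ₗ[ffi_K] LaurentSeries ffi_K where
  toFun x := (x : LaurentSeries ffi_K)
  map_add' _ _ := rfl
  map_smul' c x := by
    simp only [RingHom.id_apply]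
    rw [IntermediateField.coe_smul, Algebra.smul_def, algebraMap_laurentSeries_eq_single]
    exact HahnSeries.C_mul_eq_smul

theorem ffg_ex_injective (N : ℕ) : Function.Injective (ffg_ex N) :=
  fun _ _ h => Subtype.ext h

theorem ffg_phi_linearIndependent {I : Type*} (x : I → ffi_F N)
    (hx : LinearIndependent ffi_K x) : LinearIndependent ℂ (fun i => ffg_phi ι ψ hψ (x i)) := by
  refine ffg_linearIndependent_lift ι ψ (ffg_phi ι ψ hψ) (ffg_phi_algebraMap ι ψ hψ)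
    (ffg_ex N) (ffg_ex_injective N)
    (fun r y => ffb_IsLaurent (r : ℍ → ℂ) y) ?_ ?_ ffg_isLaurent_zero ?_ (fun a => hψ a) x hx
  · intro r s y z hr hs
    exact hr.add hs
  · intro c r y hr
    have h1 := (ffb_IsLaurent.const c).mul hr
    rw [HahnSeries.C_mul_eq_smul] at h1
    exact h1
  · intro y hy
    exact ffb_IsLaurent.unique hy ffg_isLaurent_zero

/-- **The bridge package** for `φ`. -/
theorem ffg_isBridge_phi [NeZero N] : ffg_IsBridge N (ffg_phi ι ψ hψ) where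
  const := fun c => ⟨ι c, ffg_phi_const ι ψ hψ c⟩
  map_j := ffg_phi_j ι ψ hψ
  map_jN := by
    refine ⟨algebraMap (ffg_A N) (ffi_F N) ⟨_, ffg_gen_mem (dvd_refl N)⟩,
      ψ ⟨_, ffg_gen_mem (dvd_refl N)⟩, ffb_dmul N, ffg_phi_algebraMap ι ψ hψ _,
      fun z => ffb_dmul_coe N z, fun z => ?_⟩
    rw [congrFun (ffg_psi_gen ι ψ hψ (dvd_refl N)) z, ffb_jd_apply]
  inv := fun γ hγ x => ffg_phi_smul ι ψ hψ hγ x
  ld := fun I x hx => ffg_phi_linearIndependent ι ψ hψ x hx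

end Phi

end

end Fermat.Agent.Lib.FF
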