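/-
S24: formal descent of linear independence.  A family of Laurent series over `K` which is linearly
independent over `K` stays linearly independent over any field extension `L` after extending the
coefficients (`L ⊗_K K((q)) → L((q))` is injective).
-/
import Mathlib
import Fermat.Prelude.Def_ModularCurve_LaurentCoeff

set_option autoImplicit false

namespace Fermat.Agent.Lib.FF

open ModularCurve

/-- Generic form: functions `A → K`, coefficientwise extension of scalars. -/
theorem ffk_linearIndependent_comp {K L A : Type*} [Field K] [Field L] (ι : K →+* L)
    {I : Type*} (x : I → A → K) (h : LinearIndependent K x) :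
    LinearIndependent L (fun i => fun a => ι (x i a)) := by
  classical
  let _ : Algebra K L := ι.toAlgebra
  have hι : ∀ k : K, ι k = algebraMap K L k := fun _ => rfl
  let b := Module.Basis.ofVectorSpace K L
  rw [linearIndependent_iff]
  intro c hc
  -- the `β`-components of the coefficients
  have key : ∀ β, c.mapRange (b.coord β) (map_zero _) = 0 := by
    intro β
    apply (linearIndependent_iff.mp h)
    funext a
    have h1 := congrFun hc a
    rw [Finsupp.linearCombination_apply, Finsupp.sum, Finset.sum_apply] at h1
    rw [Finsupp.linearCombination_apply, Finsupp.sum_mapRange_index (by simp), Finsupp.sum,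
      Finset.sum_apply]
    have h2 := congrArg (b.coord β) h1
    rw [map_sum, Pi.zero_apply, map_zero] at h2
    rw [Pi.zero_apply, ← h2]
    refine Finset.sum_congr rfl fun i _ => ?_
    simp only [Pi.smul_apply, smul_eq_mul]
    rw [hι, mul_comm (c i), ← Algebra.smul_def, map_smul, smul_eq_mul, mul_comm]
  ext i
  apply b.ext_elem
  intro β
  have := congrArg (fun f => f i) (key β)
  simpa using this

/-- A `K`-linearly independent family of Laurent series stays linearly independent over `L`
after applying `ι : K →+* L` to the coefficients. -/
theorem ffk_linearIndependent_coeffMap {K L : Type*} [Field K] [Field L] (ι : K →+* L)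
    {I : Type*} (x : I → LaurentSeries K) (h : LinearIndependent K x) :
    LinearIndependent L (fun i => coeffMap ι (x i)) := by
  classical
  -- pass to coefficient functions
  let coeffK : LaurentSeries K →ₗ[K] (ℤ → K) :=
    { toFun := fun y => y.coeff
      map_add' := fun y z => by funext n; simp
      map_smul' := fun k y => by funext n; simp }
  let coeffL : LaurentSeries L →ₗ[L] (ℤ → L) :=
    { toFun := fun y => y.coeff
      map_add' := fun y z => by funext n; simp
      map_smul' := fun k y => by funext n; simp }
  have hK : LinearIndependent K (fun i => coeffK (x i)) :=
    h.map' coeffK (LinearMap.ker_eq_bot.mpr fun y z hyz => HahnSeries.ext (by exact hyz))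
  have hL := ffk_linearIndependent_comp ι (fun i => coeffK (x i)) hK
  have : (fun i => fun a => ι (coeffK (x i) a)) = fun i => coeffL (coeffMap ι (x i)) := by
    funext i a
    rfl
  rw [this] at hL
  exact LinearIndependent.of_comp coeffL hL

end Fermat.Agent.Lib.FF
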