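/-
S24 WP-C (helper9): algebraic theory of differentials at a place of a function field.

For a place `v` of `F/K` (Prelude `AlgebraicCurve.Place`) such that
* `O_v` is essentially of finite type over `K`, and
* `K → O_v/m_v` is surjective,
the module `Ω[O_v/K]` is generated by `dπ` for any uniformizer `π` (Nakayama).  Consequently
`Ω[F/K] = F • dπ`, so `v.DCoordGenerates`, and in characteristic zero
`v.ordDifferential (D t) = v.ord t - 1` whenever `v.ord t ≠ 0`.
-/
import Mathlib
import Fermat.Prelude.Def_AlgebraicCurve_CanonicalDivisor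

set_option autoImplicit false

open KaehlerDifferential AlgebraicCurve

namespace Fermat.Agent.Lib.FF

section Generic

variable {K O : Type*} [Field K] [CommRing O] [IsLocalRing O] [Algebra K O]

/-- Nakayama: for a local `K`-algebra `O`, essentially of finite type, with residue field `K` and
principal maximal ideal `(π)`, the module `Ω[O/K]` is spanned by `dπ`. -/
theorem ffd_span_D_generic [Algebra.EssFiniteType K O]
    (hres : Function.Surjective (algebraMap K (IsLocalRing.ResidueField O)))
    {π : O} (hπ : IsLocalRing.maximalIdeal O = Ideal.span {π}) :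
    Submodule.span O {D K O π} = ⊤ := by
  have hfg : (⊤ : Submodule O Ω[O⁄K]).FG := Module.finite_def.mp inferInstance
  have hJ : IsLocalRing.maximalIdeal O ≤ Ideal.jacobson ⊥ :=
    IsLocalRing.maximalIdeal_le_jacobson ⊥
  have key : (⊤ : Submodule O Ω[O⁄K]) ≤
      Submodule.span O {D K O π} ⊔ IsLocalRing.maximalIdeal O • ⊤ := by
    rw [← KaehlerDifferential.span_range_derivation, Submodule.span_le]
    rintro _ ⟨f, rfl⟩
    obtain ⟨a, ha⟩ := hres (IsLocalRing.residue O f)
    have hmem : f - algebraMap K O a ∈ IsLocalRing.maximalIdeal O := by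
      rw [← Ideal.Quotient.eq_zero_iff_mem, map_sub]
      have : (Ideal.Quotient.mk (IsLocalRing.maximalIdeal O)) (algebraMap K O a)
          = algebraMap K (IsLocalRing.ResidueField O) a := rfl
      rw [this, ha]
      exact sub_self _
    rw [hπ, Ideal.mem_span_singleton'] at hmem
    obtain ⟨g, hg⟩ := hmem
    have hf : f = algebraMap K O a + g * π := by rw [hg]; ring
    have hD : D K O f = g • D K O π + π • D K O g := by
      rw [hf, map_add, Derivation.map_algebraMap, zero_add, Derivation.leibniz]
    rw [hD]
    refine Submodule.add_mem_sup ?_ ?_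
    · exact Submodule.smul_mem _ _ (Submodule.mem_span_singleton_self _)
    · refine Submodule.smul_mem_smul ?_ ?_
      · rw [hπ]
        exact Ideal.mem_span_singleton_self π
      · rw [KaehlerDifferential.span_range_derivation]
        exact Submodule.mem_top
  exact top_le_iff.mp (Submodule.le_of_le_smul_of_le_jacobson_bot hfg hJ key)

end Generic

variable {K F : Type*} [Field K] [Field F] [Algebra K F]

/-- The Prelude's private uniformizer, made visible: `dCoord` is `D` of a chosen irreducible. -/
theorem ffd_dCoord_eq (v : Place K F) :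
    v.dCoord = D K F
      (((IsDiscreteValuationRing.exists_irreducible v.toValuationSubring).choose :
        v.toValuationSubring) : F) := rfl

theorem ffd_choose_irreducible (v : Place K F) :
    Irreducible (IsDiscreteValuationRing.exists_irreducible v.toValuationSubring).choose :=
  (IsDiscreteValuationRing.exists_irreducible v.toValuationSubring).choose_spec

/-- For `u ∈ O_v`, `du = h dπ` in `Ω[F/K]` with `h ∈ O_v`. -/
theorem ffd_exists_D_eq_smul (v : Place K F)
    [Algebra.EssFiniteType K v.toValuationSubring]
    (hres : Function.Surjective (algebraMap K v.ResidueField))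
    {π : v.toValuationSubring} (hπ : Irreducible π) (u : v.toValuationSubring) :
    ∃ h : v.toValuationSubring, D K F (u : F) = (h : F) • D K F (π : F) := by
  have hu : D K v.toValuationSubring u ∈
      Submodule.span v.toValuationSubring {D K v.toValuationSubring π} := by
    rw [ffd_span_D_generic hres hπ.maximalIdeal_eq]; exact Submodule.mem_top
  obtain ⟨h, hh⟩ := Submodule.mem_span_singleton.mp hu
  refine ⟨h, ?_⟩
  have := congrArg (KaehlerDifferential.map K K v.toValuationSubring F) hh
  rw [map_smul, KaehlerDifferential.map_D, KaehlerDifferential.map_D] at this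
  exact this.symm

/-- `Ω[F/K]` is spanned over `F` by `dπ`, for every uniformizer `π` of `v`. -/
theorem ffd_span_D_eq_top (v : Place K F)
    [Algebra.EssFiniteType K v.toValuationSubring]
    (hres : Function.Surjective (algebraMap K v.ResidueField))
    {π : v.toValuationSubring} (hπ : Irreducible π) :
    Submodule.span F {D K F (π : F)} = ⊤ := by
  rw [eq_top_iff, ← KaehlerDifferential.span_range_derivation, Submodule.span_le]
  rintro _ ⟨f, rfl⟩
  have hO : ∀ u : v.toValuationSubring,
      D K F (u : F) ∈ Submodule.span F {D K F (π : F)} := by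
    intro u
    obtain ⟨h, hh⟩ := ffd_exists_D_eq_smul v hres hπ u
    rw [hh]
    exact Submodule.smul_mem _ _ (Submodule.mem_span_singleton_self _)
  rcases v.toValuationSubring.mem_or_inv_mem f with hf | hf
  · exact hO ⟨f, hf⟩
  · have h1 : D K F f = -f ^ 2 • D K F f⁻¹ := by
      have := Derivation.leibniz_inv (D K F) f⁻¹
      rwa [inv_inv] at this
    rw [SetLike.mem_coe, h1]
    exact Submodule.smul_mem _ _ (hO ⟨f⁻¹, hf⟩)

/-- Every place (with residue field `K` and essentially finite type local ring) satisfies the
Prelude's `DCoordGenerates`. -/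
theorem ffd_dCoordGenerates (v : Place K F)
    [Algebra.EssFiniteType K v.toValuationSubring]
    (hres : Function.Surjective (algebraMap K v.ResidueField)) :
    v.DCoordGenerates :=
  ⟨by rw [ffd_dCoord_eq]; exact ffd_span_D_eq_top v hres (ffd_choose_irreducible v)⟩

/-- `Ω[F/K]` is spanned by any nonzero exact differential `dt`. -/
theorem ffd_exists_eq_smul_D (v : Place K F)
    [Algebra.EssFiniteType K v.toValuationSubring]
    (hres : Function.Surjective (algebraMap K v.ResidueField))
    {t : F} (ht : D K F t ≠ 0) (ω : Ω[F⁄K]) : ∃ f : F, ω = f • D K F t := by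
  have hπ := ffd_choose_irreducible v
  have htop := ffd_span_D_eq_top v hres hπ
  have h1 : ∀ η : Ω[F⁄K], ∃ a : F, η = a • D K F
      (((IsDiscreteValuationRing.exists_irreducible v.toValuationSubring).choose :
        v.toValuationSubring) : F) := by
    intro η
    have hη : η ∈ (⊤ : Submodule F Ω[F⁄K]) := Submodule.mem_top
    rw [← htop, Submodule.mem_span_singleton] at hη
    exact hη.imp fun _ h => h.symm
  obtain ⟨a, ha⟩ := h1 (D K F t)
  obtain ⟨b, hb⟩ := h1 ω
  have ha0 : a ≠ 0 := by
    rintro rfl
    rw [zero_smul] at ha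
    exact ht ha
  refine ⟨b * a⁻¹, ?_⟩
  rw [ha, smul_smul, mul_assoc, inv_mul_cancel₀ ha0, mul_one]
  exact hb

/-- Key computation: for `t = u π^n` one has `dt = (w π^(n-1)) dπ` with `w` a unit of `O_v`,
provided `n ≠ 0` in `K`. -/
theorem ffd_exists_unit_D_eq (v : Place K F) [CharZero K]
    [Algebra.EssFiniteType K v.toValuationSubring]
    (hres : Function.Surjective (algebraMap K v.ResidueField))
    {π : v.toValuationSubring} (hπ : Irreducible π) {t : F} (ht : v.ord t ≠ 0) :
    ∃ w : v.toValuationSubringˣ,
      D K F t = (((w : v.toValuationSubring) : F) * (π : F) ^ (v.ord t - 1)) • D K F (π : F) := by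
  have ht0 : t ≠ 0 := by
    rintro rfl
    exact ht v.ord_zero
  obtain ⟨u, hu⟩ := v.exists_unit_mul_zpow ht0 hπ
  obtain ⟨h, hh⟩ := ffd_exists_D_eq_smul v hres hπ (u : v.toValuationSubring)
  set n : ℤ := v.ord t with hn
  have hπ0 : (π : F) ≠ 0 := by
    simpa [ne_eq, ZeroMemClass.coe_eq_zero] using hπ.ne_zero
  -- the unit `w = n u + π h`
  have hnK : ((n : ℤ) : K) ≠ 0 := by exact_mod_cast ht
  have hunit1 : IsUnit (algebraMap K v.toValuationSubring ((n : ℤ) : K)
      * (u : v.toValuationSubring)) :=
    ((isUnit_iff_ne_zero.mpr hnK).map _).mul u.isUnit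
  have hnon : π * h ∈ nonunits v.toValuationSubring := by
    intro hu'
    exact hπ.not_isUnit (isUnit_of_mul_isUnit_left hu')
  have hunit : IsUnit (algebraMap K v.toValuationSubring ((n : ℤ) : K)
      * (u : v.toValuationSubring) + π * h) := by
    by_contra hcon
    have hcon' : algebraMap K v.toValuationSubring ((n : ℤ) : K)
      * (u : v.toValuationSubring) + π * h ∈ nonunits v.toValuationSubring := hcon
    have hneg : -(π * h) ∈ nonunits v.toValuationSubring := by
      intro hu'
      exact hnon (by simpa using hu'.neg)
    have := IsLocalRing.nonunits_add hcon' hneg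
    rw [add_neg_cancel_right] at this
    exact this hunit1
  refine ⟨hunit.unit, ?_⟩
  rw [IsUnit.unit_spec]
  have hcoe : ((algebraMap K v.toValuationSubring ((n : ℤ) : K)
      * (u : v.toValuationSubring) + π * h : v.toValuationSubring) : F)
      = ((n : ℤ) : F) * ((u : v.toValuationSubring) : F) + (π : F) * (h : F) := by
    push_cast
    rw [v.coe_algebraMap]
    simp
  rw [hcoe]
  conv_lhs => rw [hu]
  rw [Derivation.leibniz, Derivation.leibniz_zpow, hh]
  have hzp : (π : F) ^ n = (π : F) ^ (n - 1) * (π : F) := by
    rw [← zpow_add_one₀ hπ0, sub_add_cancel]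
  rw [hzp, ← Int.cast_smul_eq_zsmul F n, smul_smul, smul_smul, smul_smul, ← add_smul]
  congr 1
  ring

/-- The differential coefficient of `dt` at `v`, and its order. -/
theorem ffd_differentialCoeff_D (v : Place K F) [CharZero K]
    [Algebra.EssFiniteType K v.toValuationSubring]
    (hres : Function.Surjective (algebraMap K v.ResidueField))
    [Nontrivial Ω[F⁄K]] {t : F} (ht : v.ord t ≠ 0) :
    v.differentialCoeff (D K F t) ≠ 0 ∧ v.ord (v.differentialCoeff (D K F t)) = v.ord t - 1 := by
  have := ffd_dCoordGenerates v hres
  have hπ := ffd_choose_irreducible v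
  obtain ⟨w, hw⟩ := ffd_exists_unit_D_eq v hres hπ ht
  have hco : v.differentialCoeff (D K F t) = ((w : v.toValuationSubring) : F) *
      (((IsDiscreteValuationRing.exists_irreducible v.toValuationSubring).choose :
        v.toValuationSubring) : F) ^ (v.ord t - 1) :=
    v.differentialCoeff_unique (by rw [ffd_dCoord_eq]; exact hw)
  have hπ0 : (((IsDiscreteValuationRing.exists_irreducible v.toValuationSubring).choose :
        v.toValuationSubring) : F) ≠ 0 := by
    simpa [ne_eq, ZeroMemClass.coe_eq_zero] using hπ.ne_zero
  have hw0 : ((w : v.toValuationSubring) : F) ≠ 0 := by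
    simp [ne_eq, ZeroMemClass.coe_eq_zero]
  refine ⟨?_, ?_⟩
  · rw [hco]
    exact mul_ne_zero hw0 (zpow_ne_zero _ hπ0)
  · rw [hco]
    exact v.ord_unit_smul_zpow w hπ _

/-- **Order of an exact differential** (characteristic zero): if `v.ord t ≠ 0` then
`ord_v(dt) = ord_v(t) - 1`. -/
theorem ffd_ordDifferential_D (v : Place K F) [CharZero K]
    [Algebra.EssFiniteType K v.toValuationSubring]
    (hres : Function.Surjective (algebraMap K v.ResidueField))
    [Nontrivial Ω[F⁄K]] {t : F} (ht : v.ord t ≠ 0) :
    v.ordDifferential (D K F t) = v.ord t - 1 :=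
  (ffd_differentialCoeff_D v hres ht).2

/-- `ord_v(f dt) = ord_v f + ord_v t - 1` for `f ≠ 0`, `ord_v t ≠ 0`. -/
theorem ffd_ordDifferential_smul_D (v : Place K F) [CharZero K]
    [Algebra.EssFiniteType K v.toValuationSubring]
    (hres : Function.Surjective (algebraMap K v.ResidueField))
    [Nontrivial Ω[F⁄K]] {f t : F} (hf : f ≠ 0) (ht : v.ord t ≠ 0) :
    v.ordDifferential (f • D K F t) = v.ord f + v.ord t - 1 := by
  have := ffd_dCoordGenerates v hres
  rw [v.ordDifferential_smul hf (ffd_differentialCoeff_D v hres ht).1,
    ffd_ordDifferential_D v hres ht]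
  ring

/-- Translation by a constant does not change the differential. -/
theorem ffd_D_sub_algebraMap (t : F) (c : K) : D K F (t - algebraMap K F c) = D K F t := by
  rw [map_sub, Derivation.map_algebraMap, sub_zero]

/-- At a zero of `t - c`: `ord_v(f dt) = ord_v f + ord_v (t - c) - 1`. -/
theorem ffd_ordDifferential_smul_D_of_zero (v : Place K F) [CharZero K]
    [Algebra.EssFiniteType K v.toValuationSubring]
    (hres : Function.Surjective (algebraMap K v.ResidueField))
    [Nontrivial Ω[F⁄K]] {f t : F} (c : K) (hf : f ≠ 0)
    (ht : v.ord (t - algebraMap K F c) ≠ 0) :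
    v.ordDifferential (f • D K F t) = v.ord f + v.ord (t - algebraMap K F c) - 1 := by
  rw [← ffd_D_sub_algebraMap t c]
  exact ffd_ordDifferential_smul_D v hres hf ht

end Fermat.Agent.Lib.FF
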