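/-
S24 bridge, pure algebra half (helper6): the field `modularFunctionFieldBar N` is generated over
`K = Q̄` by the `coeffEmb (j(q^d))`, `d ∣ N`, and it is the fraction field of the `K`-subalgebra
`ffb_A N` generated by them.
-/
import Fermat.Agent.Lib.FF.BridgePsi

set_option autoImplicit false

noncomputable section

open ModularCurve IntermediateField

namespace Fermat.Agent.Lib.FF

local notation "K" => AlgebraicClosure ℚ

/-- `coeffEmb` sends rational constants to constants. -/
theorem ff_coeffEmb_algebraMap (c : ℚ) :
    coeffEmb K (algebraMap ℚ (LaurentSeries ℚ) c)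
      = algebraMap K (LaurentSeries K) (algebraMap ℚ K c) := by
  rw [algebraMap_laurentSeries_eq_single, algebraMap_laurentSeries_eq_single, coeffEmb,
    coeffMap_single]

/-- the field equality -/
theorem ff_modularFunctionFieldBar_eq (N : ℕ) :
    modularFunctionFieldBar N = IntermediateField.adjoin K (ffb_gens N) := by
  apply le_antisymm
  · -- `coeffEmb '' F₀ ⊆ adjoin K gens`
    rw [modularFunctionFieldBar, laurentBaseChange, IntermediateField.adjoin_le_iff]
    rintro _ ⟨x, hx, rfl⟩
    -- the preimage of `adjoin K gens` under `coeffEmb` is an intermediate field of `ℚ((q))`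
    let L : IntermediateField ℚ (LaurentSeries ℚ) :=
      { ((IntermediateField.adjoin K (ffb_gens N)).toSubfield.comap (coeffEmb K)) with
        algebraMap_mem' := fun c => by
          show coeffEmb K (algebraMap ℚ (LaurentSeries ℚ) c) ∈
            IntermediateField.adjoin K (ffb_gens N)
          rw [ff_coeffEmb_algebraMap]
          exact IntermediateField.algebraMap_mem _ _ }
    have hle : modularFunctionFieldFull N ≤ L := by
      rw [modularFunctionFieldFull, IntermediateField.adjoin_le_iff]
      intro y hy
      show coeffEmb K y ∈ IntermediateField.adjoin K (ffb_gens N)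
      exact IntermediateField.subset_adjoin K _ ⟨y, hy, rfl⟩
    exact hle hx
  · rw [IntermediateField.adjoin_le_iff]
    rintro _ ⟨x, hx, rfl⟩
    exact coeffEmb_mem_laurentBaseChange K
      (IntermediateField.subset_adjoin ℚ _ hx)

theorem ff_A_le (N : ℕ) : ffb_A N ≤ (modularFunctionFieldBar N).toSubalgebra := by
  rw [ff_modularFunctionFieldBar_eq]
  exact IntermediateField.algebra_adjoin_le_adjoin K (ffb_gens N)

/-- `F` as an algebra over the subalgebra generated by the `J_d` -/
instance ff_algebra_A_F (N : ℕ) : Algebra (ffb_A N) ↥(modularFunctionFieldBar N) :=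
  (Subalgebra.inclusion (ff_A_le N)).toRingHom.toAlgebra

@[simp] theorem ff_algebraMap_A_F_coe (N : ℕ) (a : ffb_A N) :
    ((algebraMap (ffb_A N) ↥(modularFunctionFieldBar N) a : ↥(modularFunctionFieldBar N)) :
      LaurentSeries K) = (a : LaurentSeries K) := rfl

instance ff_isScalarTower_K_A_F (N : ℕ) :
    IsScalarTower K (ffb_A N) ↥(modularFunctionFieldBar N) :=
  IsScalarTower.of_algebraMap_eq (fun _ => rfl)

theorem ff_algebraMap_A_F_injective (N : ℕ) :
    Function.Injective (algebraMap (ffb_A N) ↥(modularFunctionFieldBar N)) := by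
  intro a b h
  apply Subtype.ext
  have := congrArg (fun x : ↥(modularFunctionFieldBar N) => (x : LaurentSeries K)) h
  simpa using this

/-- every element of `F` is a quotient of two elements of `ffb_A N` -/
theorem ff_exists_div (N : ℕ) (x : ↥(modularFunctionFieldBar N)) :
    ∃ a b : ffb_A N, b ≠ 0 ∧ (x : LaurentSeries K) = (a : LaurentSeries K) / (b : LaurentSeries K) := by
  have hx : (x : LaurentSeries K) ∈ IntermediateField.adjoin K (ffb_gens N) := by
    rw [← ff_modularFunctionFieldBar_eq]; exact x.2
  obtain ⟨a, ha, b, hb, hab⟩ := IntermediateField.mem_adjoin_iff_div.mp hx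
  by_cases hb0 : b = 0
  · refine ⟨0, 1, one_ne_zero, ?_⟩
    rw [hab, hb0, div_zero]; simp
  · exact ⟨⟨a, ha⟩, ⟨b, hb⟩, fun h => hb0 (congrArg Subtype.val h), hab⟩

instance ff_faithfulSMul_A_F (N : ℕ) :
    FaithfulSMul (ffb_A N) ↥(modularFunctionFieldBar N) :=
  (faithfulSMul_iff_algebraMap_injective _ _).mpr (ff_algebraMap_A_F_injective N)

instance ff_isFractionRing_A_F (N : ℕ) :
    IsFractionRing (ffb_A N) ↥(modularFunctionFieldBar N) :=
  .of_field _ _ fun x => by
    obtain ⟨a, b, _, hab⟩ := ff_exists_div N x
    exact ⟨a, b, Subtype.ext hab⟩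

end Fermat.Agent.Lib.FF
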