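/-
S24: converters between the three bridge packages (`ffg_IsBridge` of `Degree.lean`, `IsBridge` of
`FibreModels.lean`, `ffc_IsBridge` of `CuspsFibre.lean`) and the final assembly
(`ffh_genus_of_bridge`, `Assembly.lean`) stated directly from `ffg_IsBridge` (architect: helper9).

`Fermat/Agent/S24.lean` is then `ffi_genus_of_bridge hG hconst hinf` where
* `hG : ffg_IsBridge N φ` and `hconst : ∀ c, φ (algebraMap c) = algebraMap (ι c)` (the bridge),
* `hinf` is the fibre model at `∞`, from `ffi_isBridge_of_degreeBridge hG hconst` (or its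
  `ffc_IsBridge` form `ffi_cuspsBridge_of_isBridge`).
-/
import Fermat.Agent.Lib.FF.Assembly
import Fermat.Agent.Lib.FF.Degree
import Fermat.Agent.Lib.FF.CuspsFibre

set_option autoImplicit false

namespace Fermat.Agent.Lib.FF

open AlgebraicCurve ModularCurve IntermediateField Matrix.SpecialLinearGroup CongruenceSubgroup
open Fermat.Agent.Lib.RR (Q)
open scoped MatrixGroups
open WithZero

noncomputable section

variable {N : ℕ} {φ : ffi_F N →+* ffm_E N} {ι : ffi_K →+* ℂ}

/-- helper1's bridge package + `ι` gives the package `IsBridge` of `FibreModels.lean`. -/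
theorem ffi_isBridge_of_degreeBridge [NeZero N] (hG : ffg_IsBridge N φ)
    (hconst : ∀ c : ffi_K, φ (algebraMap ffi_K (ffi_F N) c) = algebraMap ℂ (ffm_E N) (ι c)) :
    IsBridge N ι φ :=
  ⟨hG.inv, hconst, ⟨ffg_isWH_j N, hG.map_j⟩, ffg_sigma_injective_of_bridge hG⟩

/-- `IsBridge` gives helper3's package `ffc_IsBridge`. -/
theorem ffi_cuspsBridge_of_isBridge (hB : IsBridge N ι φ) : ffc_IsBridge N φ ι := by
  obtain ⟨hj, h⟩ := hB.map_j
  exact ⟨hB.inv, hB.map_const, h, hB.inj⟩

/-- helper3's package gives `IsBridge`. -/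
theorem ffi_isBridge_of_cuspsBridge (hB : ffc_IsBridge N φ ι) : IsBridge N ι φ :=
  ⟨hB.inv, hB.const, ⟨ffc_isWH_j N, hB.j⟩, hB.inj⟩

/-- **S24 from helper1's bridge package, `ι`, and the fibre model at `∞`.** -/
theorem ffi_genus_of_bridge [NeZero N] (hG : ffg_IsBridge N φ)
    (hconst : ∀ c : ffi_K, φ (algebraMap ffi_K (ffi_F N) c) = algebraMap ℂ (ffm_E N) (ι c))
    (hinf : ∃ w : Valuation (ffm_E N) ℤᵐ⁰,
      IsFibreModel N φ w ModularGroup.T N (ffd_jBar N)⁻¹)
    [AlgebraicCurve.HasCanonicalDivisor (K := ffi_K) (F := ffi_F N)] :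
    (AlgebraicCurve.genus ffi_K (ffi_F N) : ℚ) = genusFormula N :=
  ffh_genus_of_bridge N ι φ (ffi_isBridge_of_degreeBridge hG hconst)
    (ffg_ifaceDegree_of_bridge hG) hinf

end

end Fermat.Agent.Lib.FF
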