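/-
S24: the formal `j`-function `j = q⁻¹ + ⋯ ∈ K((q))` is transcendental over `K`.
-/
import Fermat.Agent.Lib.FF.Interface

set_option autoImplicit false

namespace Fermat.Agent.Lib.FF

open ModularCurve Polynomial

/-- The `q^{-n}`-coefficient of `P(j)` is the leading coefficient of `P` (`n = natDegree P`). -/
theorem ffj_coeff_aeval_jSeries {L : Type*} [Field L] [Algebra ℚ L] (P : L[X]) :
    (aeval (coeffEmb L jq) P).coeff (-(P.natDegree : ℤ)) = P.leadingCoeff := by
  rw [aeval_def, eval₂_eq_sum_range, HahnSeries.coeff_sum]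
  rw [Finset.sum_eq_single_of_mem P.natDegree (Finset.self_mem_range_succ _)]
  · rw [algebraMap_laurentSeries_eq_single, HahnSeries.coeff_single_zero_mul, ← map_pow,
      coeffEmb_coeff, coeff_jq_pow_self, map_one, mul_one]
    rfl
  · intro k hk hne
    have hlt : k < P.natDegree := lt_of_le_of_ne (Nat.lt_succ_iff.mp (Finset.mem_range.mp hk)) hne
    rw [algebraMap_laurentSeries_eq_single, HahnSeries.coeff_single_zero_mul, ← map_pow,
      coeffEmb_coeff,
      coeff_jq_pow_of_lt (by exact_mod_cast (neg_lt_neg (by exact_mod_cast hlt))), map_zero,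
      mul_zero]

theorem ffj_transcendental_jSeries (L : Type*) [Field L] [Algebra ℚ L] :
    Transcendental L (coeffEmb L jq) := by
  intro halg
  obtain ⟨P, hP0, hP⟩ := halg
  have h := ffj_coeff_aeval_jSeries P
  rw [hP] at h
  simp only [HahnSeries.coeff_zero] at h
  exact hP0 (leadingCoeff_eq_zero.mp h.symm)

/-- **`j` is transcendental over `Q̄`** in the function field of `X₀(N)`. -/
theorem ffj_transcendental_jBar (N : ℕ) [NeZero N] : Transcendental ffi_K (ffd_jBar N) := by
  intro halg
  apply ffj_transcendental_jSeries (AlgebraicClosure ℚ)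
  have := halg.algebraMap (A := LaurentSeries (AlgebraicClosure ℚ))
  exact this

end Fermat.Agent.Lib.FF
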