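import Mathlib

/-!
# S24, local lemma T3

If `g` is meromorphic at `z₀` and invariant (near `z₀`) under an analytic map `δ` fixing `z₀`
whose derivative at `z₀` is a primitive `m`-th root of unity, then `m` divides the order of `g`
at `z₀`.
-/

set_option autoImplicit false

namespace Fermat.Agent.Lib.FF

open Filter Topology

/-- An analytic map fixing `z₀` with nonzero derivative there maps the punctured neighbourhood
filter of `z₀` to itself. -/
theorem ffl_tendsto_punctured {δ : ℂ → ℂ} {z₀ : ℂ} (hδ : AnalyticAt ℂ δ z₀) (hδ0 : δ z₀ = z₀)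
    (hδ' : deriv δ z₀ ≠ 0) : Tendsto δ (𝓝[≠] z₀) (𝓝[≠] z₀) := by
  rw [tendsto_nhdsWithin_iff]
  refine ⟨?_, ?_⟩
  · have h := hδ.continuousAt.tendsto
    rw [hδ0] at h
    exact h.mono_left nhdsWithin_le_nhds
  · -- `δ z - z₀ = (z - z₀) * dslope δ z₀ z` and `dslope δ z₀ z₀ = deriv δ z₀ ≠ 0`
    have hk : ContinuousAt (dslope δ z₀) z₀ :=
      (continuousAt_dslope_same.mpr hδ.differentiableAt)
    have hk0 : dslope δ z₀ z₀ ≠ 0 := by rwa [dslope_same]
    have hev : ∀ᶠ z in 𝓝 z₀, dslope δ z₀ z ≠ 0 := hk.eventually_ne hk0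
    have hev' : ∀ᶠ z in 𝓝[≠] z₀, dslope δ z₀ z ≠ 0 := hev.filter_mono nhdsWithin_le_nhds
    filter_upwards [hev', self_mem_nhdsWithin] with z hz hzne
    have h1 : δ z - δ z₀ = (z - z₀) • dslope δ z₀ z := (sub_smul_dslope δ z₀ z).symm
    intro hmem
    have h2 : δ z = z₀ := hmem
    rw [h2, hδ0, sub_self, smul_eq_mul] at h1
    rcases mul_eq_zero.mp h1.symm with h | h
    · exact hzne (sub_eq_zero.mp h)
    · exact hz h

/-- **Local lemma T3.** -/
theorem ffl_dvd_meromorphicOrderAt {g δ : ℂ → ℂ} {z₀ ζ : ℂ} {m : ℕ}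
    (hg : MeromorphicAt g z₀) (hord : meromorphicOrderAt g z₀ ≠ ⊤)
    (hδ : AnalyticAt ℂ δ z₀) (hδ0 : δ z₀ = z₀) (hδ' : deriv δ z₀ = ζ)
    (hζ : IsPrimitiveRoot ζ m) (hm : m ≠ 0)
    (hinv : (g ∘ δ) =ᶠ[𝓝[≠] z₀] g) :
    (m : ℤ) ∣ (meromorphicOrderAt g z₀).untop₀ := by
  have hζ0 : ζ ≠ 0 := hζ.ne_zero hm
  obtain ⟨h, hh, hh0, hgh⟩ := (meromorphicOrderAt_ne_top_iff hg).mp hord
  set n : ℤ := (meromorphicOrderAt g z₀).untop₀ with hn
  have htend : Tendsto δ (𝓝[≠] z₀) (𝓝[≠] z₀) :=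
    ffl_tendsto_punctured hδ hδ0 (by rw [hδ']; exact hζ0)
  -- the key identity on a punctured neighbourhood
  have hkey : ∀ᶠ z in 𝓝[≠] z₀, dslope δ z₀ z ^ n * h (δ z) = h z := by
    have h1 : ∀ᶠ z in 𝓝[≠] z₀, g (δ z) = (δ z - z₀) ^ n • h (δ z) := htend.eventually hgh
    filter_upwards [h1, hgh, hinv, self_mem_nhdsWithin] with z hz1 hz2 hz3 hzne
    have hzne' : z - z₀ ≠ 0 := sub_ne_zero.mpr hzne
    have h2 : δ z - z₀ = (z - z₀) * dslope δ z₀ z := by
      have := (sub_smul_dslope δ z₀ z).symm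
      rw [hδ0, smul_eq_mul] at this
      exact this
    have h3 : g (δ z) = g z := hz3
    rw [hz1, hz2, h2, mul_zpow, smul_eq_mul, smul_eq_mul, mul_assoc] at h3
    exact mul_left_cancel₀ (zpow_ne_zero n hzne') h3
  -- pass to the limit
  have hk : ContinuousAt (dslope δ z₀) z₀ := continuousAt_dslope_same.mpr hδ.differentiableAt
  have hk0 : dslope δ z₀ z₀ = ζ := by rw [dslope_same, hδ']
  have hlim1 : Tendsto (fun z => dslope δ z₀ z ^ n * h (δ z)) (𝓝[≠] z₀) (𝓝 (ζ ^ n * h z₀)) := by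
    refine Tendsto.mul ?_ ?_
    · have : ContinuousAt (fun z => dslope δ z₀ z ^ n) z₀ :=
        hk.zpow₀ n (Or.inl (by rw [hk0]; exact hζ0))
      have h' := this.tendsto
      rw [hk0] at h'
      exact h'.mono_left nhdsWithin_le_nhds
    · have h1 : Tendsto δ (𝓝[≠] z₀) (𝓝 z₀) := htend.mono_right nhdsWithin_le_nhds
      exact hh.continuousAt.tendsto.comp h1
  have hlim2 : Tendsto (fun z => dslope δ z₀ z ^ n * h (δ z)) (𝓝[≠] z₀) (𝓝 (h z₀)) := by
    have h1 : Tendsto h (𝓝[≠] z₀) (𝓝 (h z₀)) :=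
      hh.continuousAt.tendsto.mono_left nhdsWithin_le_nhds
    exact h1.congr' (hkey.mono fun z hz => hz.symm)
  have heq : ζ ^ n * h z₀ = h z₀ := tendsto_nhds_unique hlim1 hlim2
  have hζn : ζ ^ n = 1 := by
    have : (ζ ^ n - 1) * h z₀ = 0 := by rw [sub_mul, heq, one_mul, sub_self]
    rcases mul_eq_zero.mp this with h | h
    · exact sub_eq_zero.mp h
    · exact absurd h hh0
  exact (hζ.zpow_eq_one_iff_dvd n).mp hζn

end Fermat.Agent.Lib.FF
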