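/-
S24 (helper2): the hypothesis (INV) of the degree theorem `ffg_finrank_eq` (helper1) in the
analytic model: the `SL(2, ℤ)`-invariants of `ffm_E N = Frac (ffm_R N)` are rational functions of
`j`.  Proof: an invariant `x = a / b`; the symmetrised denominator `b' = ∏_{q ∈ SL₂(ℤ)/Γ(N)} q • b`
is invariant (as `Γ(N)` acts trivially on `ffm_R N`), so is `a' = x b' ∈ ffm_R N`, and invariant
elements of `ffm_R N` are polynomials in `j` (`ffj_exists_poly`, helper8).
-/
import Fermat.Agent.Lib.FF.Model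
import Fermat.Agent.Lib.FF.JAnalytic

set_option autoImplicit false

namespace Fermat.Agent.Lib.FF

section Sym

variable {G R : Type*} [Group G] [CommRing R] [MulSemiringAction G R]
  (H : Subgroup G)

/-- The symmetrisation `∏_{q ∈ G/H} q.out • b`. -/
noncomputable def ffs_sym [Fintype (G ⧸ H)] (b : R) : R := ∏ q : G ⧸ H, (q.out : G) • b

variable {H}

theorem ffs_out_smul (hH : ∀ h ∈ H, ∀ r : R, h • r = r) (g : G) (b : R) :
    ((g : G ⧸ H).out : G) • b = g • b := by
  obtain ⟨h, hh⟩ := QuotientGroup.mk_out_eq_mul H g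
  rw [hh, mul_smul, hH _ h.2]

variable [Fintype (G ⧸ H)]

theorem ffs_sym_smul (hH : ∀ h ∈ H, ∀ r : R, h • r = r) (g : G) (b : R) :
    g • ffs_sym H b = ffs_sym H b := by
  unfold ffs_sym
  rw [Finset.smul_prod']
  have : ∀ q : G ⧸ H, g • ((q.out : G) • b) = ((g • q).out : G) • b := by
    intro q
    have hq : g • q = ((g * q.out : G) : G ⧸ H) := by
      conv_lhs => rw [← QuotientGroup.out_eq' q]
      rfl
    rw [hq, ffs_out_smul hH, mul_smul]
  simp_rw [this]
  exact Equiv.prod_comp (MulAction.toPerm g : Equiv.Perm (G ⧸ H)) (fun q => (q.out : G) • b)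

theorem ffs_sym_ne_zero [IsDomain R] {b : R} (hb : b ≠ 0) : ffs_sym H b ≠ 0 := by
  unfold ffs_sym
  rw [Finset.prod_ne_zero_iff]
  intro q _
  exact (smul_ne_zero_iff_ne _).mpr hb

theorem ffs_dvd_sym (hH : ∀ h ∈ H, ∀ r : R, h • r = r) (b : R) : b ∣ ffs_sym H b := by
  classical
  unfold ffs_sym
  have h1 : (((1 : G) : G ⧸ H).out : G) • b = b := by
    rw [ffs_out_smul hH, one_smul]
  conv_lhs => rw [← h1]
  exact Finset.dvd_prod_of_mem _ (Finset.mem_univ _)

end Sym

section Frac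

variable {G R E : Type*} [Group G] [CommRing R] [IsDomain R] [Field E] [Algebra R E]
  [IsFractionRing R E] [MulSemiringAction G R] [MulSemiringAction G E]

/-- If a finite-index subgroup `H` acts trivially on `R`, every `G`-invariant element of
`E = Frac R` is a quotient of `G`-invariant elements of `R`. -/
theorem ffs_exists_invariant_frac (H : Subgroup G) [Fintype (G ⧸ H)]
    (hcompat : ∀ (g : G) (r : R), g • algebraMap R E r = algebraMap R E (g • r))
    (hH : ∀ h ∈ H, ∀ r : R, h • r = r) (x : E) (hx : ∀ g : G, g • x = x) :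
    ∃ a b : R, b ≠ 0 ∧ (∀ g : G, g • a = a) ∧ (∀ g : G, g • b = b) ∧
      x * algebraMap R E b = algebraMap R E a := by
  obtain ⟨a, b, hb, rfl⟩ := IsFractionRing.div_surjective (A := R) x
  have hb0 : b ≠ 0 := nonZeroDivisors.ne_zero hb
  have hbE : algebraMap R E b ≠ 0 := by
    rwa [ne_eq, map_eq_zero_iff _ (IsFractionRing.injective R E)]
  obtain ⟨c, hc⟩ := ffs_dvd_sym hH b
  refine ⟨a * c, ffs_sym H b, ffs_sym_ne_zero hb0, ?_, fun g => ffs_sym_smul hH g b, ?_⟩
  · intro g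
    apply IsFractionRing.injective R E
    have e : algebraMap R E (a * c) = (algebraMap R E a / algebraMap R E b)
        * algebraMap R E (ffs_sym H b) := by
      rw [hc, map_mul, map_mul]
      field_simp
    rw [← hcompat, e, smul_mul', hx g, hcompat, ffs_sym_smul hH]
  · rw [hc, map_mul, map_mul]
    field_simp

end Frac

open UpperHalfPlane hiding I
open Filter Complex Real CongruenceSubgroup Matrix.SpecialLinearGroup Polynomial
open scoped MatrixGroups Manifold Topology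

noncomputable section

/-- Evaluation at a point as an algebra hom on the model ring. -/
def ffs_evalAt (N : ℕ) (z : ℍ) : ffm_R N →ₐ[ℂ] ℂ :=
  (Pi.evalAlgHom ℂ (fun _ : ℍ => ℂ) z).comp (ffm_R N).val

@[simp] theorem ffs_evalAt_apply (N : ℕ) (z : ℍ) (f : ffm_R N) :
    ffs_evalAt N z f = (f : ℍ → ℂ) z := rfl

/-- Polynomials in an element of the model ring are evaluated pointwise. -/
theorem ffs_aeval_apply (N : ℕ) (jR : ffm_R N) (P : ℂ[X]) (z : ℍ) :
    ((aeval jR P : ffm_R N) : ℍ → ℂ) z = P.eval ((jR : ℍ → ℂ) z) := by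
  have := Polynomial.aeval_algHom_apply (ffs_evalAt N z) jR P
  rw [ffs_evalAt_apply, ffs_evalAt_apply] at this
  rw [← this, Polynomial.coe_aeval_eq_eval]

/-- `Γ(N)` acts trivially on the model ring. -/
theorem ffs_Gamma_smul (N : ℕ) (h : SL(2, ℤ)) (hh : h ∈ CongruenceSubgroup.Gamma N)
    (r : ffm_R N) : h • r = r := by
  ext z
  rw [ffm_smul_apply]
  exact r.2.inv h⁻¹ (inv_mem hh) z

/-- An `SL(2, ℤ)`-invariant element of the model ring is a polynomial in `j`. -/
theorem ffs_exists_poly_of_invariant (N : ℕ) (jR : ffm_R N)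
    (hj : ∀ z, (jR : ℍ → ℂ) z = ffj_j z) (f : ffm_R N) (hf : ∀ g : SL(2, ℤ), g • f = f) :
    ∃ P : ℂ[X], f = aeval jR P := by
  obtain ⟨M, hM⟩ := f.2.growth 1
  have hinv : ∀ (γ : SL(2, ℤ)) (z : ℍ), (f : ℍ → ℂ) (γ • z) = (f : ℍ → ℂ) z := by
    intro γ z
    have := congrArg (fun r : ffm_R N => (r : ℍ → ℂ) z) (hf γ⁻¹)
    simpa using this
  have hM' : IsBoundedAtImInfty (fun z : ℍ => (f : ℍ → ℂ) z * cexp (2 * π * I * M * z)) := by
    simpa using hM
  obtain ⟨P, -, hP⟩ := ffj_exists_poly f.2.mdiff hinv M hM'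
  refine ⟨P, ?_⟩
  ext z
  rw [ffs_aeval_apply, hj, hP z]

/-- **(INV)**: the `SL(2, ℤ)`-invariants of `ffm_E N` are rational functions of `j`. -/
theorem ffs_invariants (N : ℕ) [NeZero N] (jR : ffm_R N)
    (hj : ∀ z, (jR : ℍ → ℂ) z = ffj_j z) (x : ffm_E N) (hx : ∀ g : SL(2, ℤ), g • x = x) :
    ∃ P Q : ℂ[X], Q ≠ 0 ∧
      x * aeval (algebraMap (ffm_R N) (ffm_E N) jR) Q
        = aeval (algebraMap (ffm_R N) (ffm_E N) jR) P := by
  haveI : Fintype (SL(2, ℤ) ⧸ CongruenceSubgroup.Gamma N) :=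
    Subgroup.fintypeQuotientOfFiniteIndex
  obtain ⟨a, b, hb0, ha, hb, hxab⟩ :=
    ffs_exists_invariant_frac (R := ffm_R N) (E := ffm_E N) (CongruenceSubgroup.Gamma N)
      (fun g r => ffm_smul_algebraMap g r) (fun h hh r => ffs_Gamma_smul N h hh r) x hx
  obtain ⟨P, hP⟩ := ffs_exists_poly_of_invariant N jR hj a ha
  obtain ⟨Q, hQ⟩ := ffs_exists_poly_of_invariant N jR hj b hb
  refine ⟨P, Q, ?_, ?_⟩
  · rintro rfl
    apply hb0
    rw [hQ, map_zero]
  · rw [Polynomial.aeval_algebraMap_apply, Polynomial.aeval_algebraMap_apply, ← hP, ← hQ]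
    exact hxab

end

end Fermat.Agent.Lib.FF
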